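import Fermat.Agent.DeuringCM.DescentLSeries
import Fermat.Agent.Tau.JInjective

/-!
# The L-series of the curves with complex multiplication over every number field

The two cases are combined, and the curves `y² = x³ + a x` are given as an example without any
hypothesis on the lattice.
-/

set_option autoImplicit false
set_option linter.style.haveILetI false
set_option linter.unusedSectionVars false

noncomputable section

open WeierstrassCurve NumberField IsDedekindDomain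
open FA.TraceNF (frobTrace)
open scoped Classical ComplexConjugate

namespace FA.DeuringCM

variable {F : Type} [Field F] [NumberField F]

/-- **Hasse's conjecture for every curve with complex multiplication.** -/
theorem exists_completed_lSeries_any (W₀ : WeierstrassCurve (𝓞 F))
    [(W₀.map (algebraMap (𝓞 F) F)).IsElliptic] (ψ : F →+* ℂ) {d : ℤ} (hd : Squarefree d)
    (hd0 : d < 0)
    (hcm : ∃ L : PeriodPair, L.g₂ = ψ (W₀.map (algebraMap (𝓞 F) F)).c₄ / 12 ∧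
      L.g₃ = ψ (W₀.map (algebraMap (𝓞 F) F)).c₆ / 216 ∧
      ∃ ω : ℂ, (∀ m : ℤ, ω ≠ m) ∧ (∀ l ∈ L.lattice, ω * l ∈ L.lattice) ∧
        ∃ x y : ℚ, (ω - (x : ℂ)) ^ 2 = (d : ℂ) * (y : ℂ) ^ 2) :
    ∃ (M : ℕ) (ε : ℂ) (c : HeightOneSpectrum (𝓞 F) → ℝ × ℝ) (Λ : ℂ → ℂ), 0 < M ∧
      (ε = 1 ∨ ε = -1) ∧ Differentiable ℂ Λ ∧
      (∀ z : ℂ, 3 / 2 < z.re → ∃ L : ℂ,
        HasProd (fun v : HeightOneSpectrum (𝓞 F) =>
          if W₀.Δ ∉ v.asIdeal then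
            (1 - (frobTrace W₀ v : ℂ) * ((Ideal.absNorm v.asIdeal : ℕ) : ℂ) ^ (-z) +
              ((Ideal.absNorm v.asIdeal : ℕ) : ℂ) ^ (1 - 2 * z))⁻¹
          else (1 - ((c v).1 : ℂ) * ((Ideal.absNorm v.asIdeal : ℕ) : ℂ) ^ (-z) +
            ((c v).2 : ℂ) * (((Ideal.absNorm v.asIdeal : ℕ) : ℂ) ^ (-z)) ^ 2)⁻¹) L ∧
        Λ z = (M : ℂ) ^ (z / 2) * Complex.Gammaℂ z ^ Module.finrank ℚ F * L) ∧
      (∀ z : ℂ, Λ (2 - z) = ε * Λ z) ∧ ∀ z : ℂ, 3 / 2 ≤ z.re → Λ z ≠ 0 := by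
  by_cases h : ∃ s : F, s ^ 2 = (d : F)
  swap
  · exact exists_completed_lSeries_descended W₀ ψ hd hd0 h hcm
  obtain ⟨s, hs⟩ := h
  obtain ⟨M, c, Λ, hM, -, hΛ, hL, hfe, hne⟩ := exists_completed_lSeries W₀ ψ hd hd0 hs hcm
  refine ⟨M, 1, fun v => (2 * (c v).re, Complex.normSq (c v)), Λ, hM, Or.inl rfl, hΛ,
    fun z hz => ?_, fun z => by rw [hfe, one_mul], hne⟩
  obtain ⟨L, hp, e⟩ := hL z hz
  refine ⟨L, hp.congr_fun fun v => ?_, e⟩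
  by_cases hv : W₀.Δ ∉ v.asIdeal
  · rw [if_pos hv, if_pos hv]
  · rw [if_neg hv, if_neg hv, ← mul_inv, ← Complex.mul_conj, ← Complex.add_conj]
    congr 1
    ring

theorem I_mul_mem_lattice (L : PeriodPair) (h₃ : L.g₃ = 0) {z : ℂ} (hz : z ∈ L.lattice) :
    Complex.I * z ∈ L.lattice := by
  have h : (FA.JInj.scalePair L Complex.I Complex.I_ne_zero).lattice = L.lattice :=
    (FA.JInj.lattice_eq_iff _ _).mpr
      ⟨by rw [FA.JInj.g₂_scalePair, Complex.I_pow_four, inv_one, one_mul],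
        by rw [FA.JInj.g₃_scalePair, h₃, mul_zero]⟩
  rw [← h, FA.JInj.mem_scalePair]
  exact ⟨z, hz, rfl⟩

/-- The curves `y² = x³ + a x` have the multiplier `i`. -/
theorem gaussian_cm {a : 𝓞 F} (ha : a ≠ 0) :
    ((⟨0, 0, 0, a, 0⟩ : WeierstrassCurve (𝓞 F)).map (algebraMap (𝓞 F) F)).IsElliptic ∧
    ∃ ψ : F →+* ℂ, ∃ L : PeriodPair,
      L.g₂ = ψ ((⟨0, 0, 0, a, 0⟩ : WeierstrassCurve (𝓞 F)).map (algebraMap (𝓞 F) F)).c₄ / 12 ∧
      L.g₃ = ψ ((⟨0, 0, 0, a, 0⟩ : WeierstrassCurve (𝓞 F)).map (algebraMap (𝓞 F) F)).c₆ / 216 ∧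
      ∃ ω : ℂ, (∀ m : ℤ, ω ≠ m) ∧ (∀ l ∈ L.lattice, ω * l ∈ L.lattice) ∧
        ∃ x y : ℚ, (ω - (x : ℂ)) ^ 2 = ((-1 : ℤ) : ℂ) * (y : ℂ) ^ 2 := by
  set W₀ : WeierstrassCurve (𝓞 F) := ⟨0, 0, 0, a, 0⟩ with hW
  have haF : (algebraMap (𝓞 F) F a) ≠ 0 := by simpa using ha
  have hΔ : (W₀.map (algebraMap (𝓞 F) F)).Δ = -64 * algebraMap (𝓞 F) F a ^ 3 := by
    simp [hW, WeierstrassCurve.Δ, WeierstrassCurve.b₂, WeierstrassCurve.b₄, WeierstrassCurve.b₆,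
      WeierstrassCurve.b₈]
    ring
  haveI : (W₀.map (algebraMap (𝓞 F) F)).IsElliptic := ⟨by
    rw [hΔ]
    exact (mul_ne_zero (by norm_num) (pow_ne_zero _ haF)).isUnit⟩
  obtain ⟨ψ⟩ : Nonempty (F →+* ℂ) := inferInstance
  have h4 : (W₀.map (algebraMap (𝓞 F) F)).c₄ = -48 * algebraMap (𝓞 F) F a := by
    simp [hW, WeierstrassCurve.c₄, WeierstrassCurve.b₂, WeierstrassCurve.b₄]
    ring
  have h6 : (W₀.map (algebraMap (𝓞 F) F)).c₆ = 0 := by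
    simp [hW, WeierstrassCurve.c₆, WeierstrassCurve.b₂, WeierstrassCurve.b₄, WeierstrassCurve.b₆]
  have hψ : ψ (-48 * algebraMap (𝓞 F) F a) / 12 ≠ 0 :=
    div_ne_zero (ψ.injective.ne_iff' (map_zero ψ) |>.mpr (mul_ne_zero (by norm_num) haF))
      (by norm_num)
  obtain ⟨L, h2, h3⟩ := FA.JInj.exists_g₂_g₃
    (a := ψ (-48 * algebraMap (𝓞 F) F a) / 12) (b := 0)
    (by simpa using hψ)
  refine ⟨inferInstance, ψ, L, by rw [h4, h2], by rw [h6, h3, map_zero, zero_div], Complex.I,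
    fun m h => ?_, fun l hl => I_mul_mem_lattice L h3 hl, 0, 1, by simp⟩
  simpa using congrArg Complex.im h

/-- **The curves `y² = x³ + a x` over any number field.** -/
theorem exists_completed_lSeries_gaussian {a : 𝓞 F} (ha : a ≠ 0) :
    ∃ (M : ℕ) (ε : ℂ) (c : HeightOneSpectrum (𝓞 F) → ℝ × ℝ) (Λ : ℂ → ℂ), 0 < M ∧
      (ε = 1 ∨ ε = -1) ∧ Differentiable ℂ Λ ∧
      (∀ z : ℂ, 3 / 2 < z.re → ∃ L : ℂ,
        HasProd (fun v : HeightOneSpectrum (𝓞 F) =>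
          if (⟨0, 0, 0, a, 0⟩ : WeierstrassCurve (𝓞 F)).Δ ∉ v.asIdeal then
            (1 - (frobTrace (⟨0, 0, 0, a, 0⟩ : WeierstrassCurve (𝓞 F)) v : ℂ) *
                ((Ideal.absNorm v.asIdeal : ℕ) : ℂ) ^ (-z) +
              ((Ideal.absNorm v.asIdeal : ℕ) : ℂ) ^ (1 - 2 * z))⁻¹
          else (1 - ((c v).1 : ℂ) * ((Ideal.absNorm v.asIdeal : ℕ) : ℂ) ^ (-z) +
            ((c v).2 : ℂ) * (((Ideal.absNorm v.asIdeal : ℕ) : ℂ) ^ (-z)) ^ 2)⁻¹) L ∧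
        Λ z = (M : ℂ) ^ (z / 2) * Complex.Gammaℂ z ^ Module.finrank ℚ F * L) ∧
      (∀ z : ℂ, Λ (2 - z) = ε * Λ z) ∧ ∀ z : ℂ, 3 / 2 ≤ z.re → Λ z ≠ 0 := by
  obtain ⟨hell, ψ, hcm⟩ := gaussian_cm ha
  haveI := hell
  exact exists_completed_lSeries_any _ ψ (d := -1) (by simp) (by norm_num) hcm

end FA.DeuringCM

end
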