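import Fermat.Agent.DeuringCM.Quadratic
import Fermat.Agent.AlgebraicHecke.Basic

/-!
# The relative norm as an infinity type

For an extension `F / K` and an embedding `ψ₀` of `K` the type `1` at the embeddings over `ψ₀`
and `0` elsewhere takes the value `ψ₀ (N x)` at `x`; norms keep congruences to `1` modulo integers.
-/

set_option autoImplicit false
set_option linter.style.haveILetI false
set_option linter.unusedSectionVars false

noncomputable section

open NumberField IsDedekindDomain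
open FA.AlgHecke (typeVal)
open scoped Classical

namespace FA.DeuringCM

variable {K : Type*} [Field K] [NumberField K] {F : Type} [Field F] [NumberField F] [Algebra K F]

variable (K) in
/-- The relative norm of integers. -/
def nm : 𝓞 F →* 𝓞 K := Algebra.intNorm (𝓞 K) (𝓞 F)

theorem coe_nm (x : 𝓞 F) : ((nm K x : 𝓞 K) : K) = Algebra.norm K (x : F) := by
  rw [show ((nm K x : 𝓞 K) : K) = algebraMap (𝓞 K) K (Algebra.intNorm (𝓞 K) (𝓞 F) x) from rfl,
    Algebra.algebraMap_intNorm (L := F)]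

theorem relNorm_span (x : 𝓞 F) :
    Ideal.relNorm (𝓞 K) (Ideal.span {x}) = Ideal.span {nm K x} :=
  Ideal.relNorm_singleton (𝓞 K) x

theorem absNorm_relNorm' (I : Ideal (𝓞 F)) :
    Ideal.absNorm (Ideal.relNorm (𝓞 K) I) = Ideal.absNorm I :=
  Ideal.absNorm_relNorm (𝓞 K) (𝓞 F) I

theorem nm_ne_zero {x : 𝓞 F} (hx : x ≠ 0) : nm K x ≠ 0 :=
  Algebra.intNorm_ne_zero.mpr hx

/-- **Norms keep congruences to `1` modulo an integer.** -/
theorem nm_sub_one_mem {m : ℕ} {x : 𝓞 F} (hx : x - 1 ∈ Ideal.span {(m : 𝓞 F)}) :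
    nm K x - 1 ∈ Ideal.span {(m : 𝓞 K)} := by
  rcases eq_or_ne m 0 with rfl | hm
  · rw [Nat.cast_zero, Ideal.span_singleton_eq_bot.mpr rfl, Ideal.mem_bot, sub_eq_zero] at hx ⊢
    rw [hx, map_one]
  obtain ⟨y, hy⟩ := Ideal.mem_span_singleton.mp hx
  let E := AlgebraicClosure K
  have hprod : ∃ z : E, IsIntegral ℤ z ∧ (∏ σ : F →ₐ[K] E, σ (x : F)) = 1 + (m : E) * z := by
    refine Finset.prod_induction _ (fun a : E => ∃ z : E, IsIntegral ℤ z ∧ a = 1 + (m : E) * z)
      ?_ ⟨0, isIntegral_zero, by simp⟩ fun σ _ => ?_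
    · rintro _ _ ⟨z, hz, rfl⟩ ⟨z', hz', rfl⟩
      exact ⟨z + z' + (m : E) * (z * z'),
        (hz.add hz').add ((by simpa using isIntegral_algebraMap (R := ℤ) (A := E) (x := (m : ℤ)) :
          IsIntegral ℤ (m : E)).mul (hz.mul hz')), by ring⟩
    · refine ⟨σ (y : F), map_isIntegral_int (σ : F →+* E) y.2, ?_⟩
      have e : (x : F) = 1 + (m : F) * (y : F) := by
        have := congrArg (algebraMap (𝓞 F) F) hy
        rw [map_sub, map_one, map_mul, map_natCast] at this
        linear_combination this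
      rw [e, map_add, map_one, map_mul, map_natCast]
  obtain ⟨z, hz, he⟩ := hprod
  rw [← Algebra.norm_eq_prod_embeddings K E (x : F), ← coe_nm] at he
  set a : K := (((nm K x : 𝓞 K) : K) - 1) / (m : K)
  have ha : algebraMap K E a = z := by
    rw [map_div₀, map_sub, map_one, map_natCast, he, add_sub_cancel_left,
      mul_div_cancel_left₀ _ (Nat.cast_ne_zero.mpr hm)]
  have hint : IsIntegral ℤ a :=
    (isIntegral_algebraMap_iff (algebraMap K E).injective).mp (ha ▸ hz)
  refine Ideal.mem_span_singleton.mpr ⟨⟨a, hint⟩, RingOfIntegers.coe_injective ?_⟩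
  rw [map_sub, map_one, map_mul, map_natCast]
  show ((nm K x : 𝓞 K) : K) - 1 = (m : K) * a
  rw [mul_div_cancel₀ _ (Nat.cast_ne_zero.mpr hm)]

/-- The type `1` at the embeddings over `ψ₀`. -/
def nType (ψ₀ : K →+* ℂ) (σ : F →+* ℂ) : ℤ :=
  if σ.comp (algebraMap K F) = ψ₀ then 1 else 0

/-- **The norm to `K` takes the values of the type.** -/
theorem typeVal_nType (ψ₀ : K →+* ℂ) (x : 𝓞 F) :
    typeVal (nType ψ₀) (x : F) = ψ₀ ((nm K x : 𝓞 K) : K) := by
  letI := ψ₀.toAlgebra
  let e : (F →ₐ[K] ℂ) ≃ {σ : F →+* ℂ // σ.comp (algebraMap K F) = ψ₀} :=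
    { toFun := fun f => ⟨f.toRingHom, RingHom.ext fun k => f.commutes k⟩
      invFun := fun σ => ⟨σ.1, fun k => RingHom.congr_fun σ.2 k⟩
      left_inv := fun _ => rfl
      right_inv := fun _ => rfl }
  rw [coe_nm, show ψ₀ (Algebra.norm K (x : F)) = algebraMap K ℂ (Algebra.norm K (x : F)) from rfl,
    Algebra.norm_eq_prod_embeddings K ℂ (x : F), typeVal,
    Fintype.prod_equiv e (fun f => f (x : F)) (fun σ => σ.1 (x : F)) fun _ => rfl,
    Finset.prod_subtype (Finset.univ.filter fun σ : F →+* ℂ => σ.comp (algebraMap K F) = ψ₀)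
      (fun σ => by simp) (fun σ => σ (x : F)) |>.symm, Finset.prod_filter]
  exact Finset.prod_congr rfl fun σ _ => by
    rw [nType]
    split_ifs <;> simp

end FA.DeuringCM

end
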