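import Fermat.Agent.DeuringCM.Primes
import Fermat.Agent.DeuringCM.Norm

/-!
# Generators of the relative norms and their residues

For a function `a` on the primes of `F` which are good, that is prime to `D`, with `a v` the trace
of an element of norm `N v` of an imaginary quadratic `K ⊆ F`, the norms to `K` of the ideals prime
to `D` are principal; their generators modulo an inert prime give homomorphisms of the ray classes.
-/

set_option autoImplicit false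
set_option linter.style.haveILetI false
set_option linter.unusedSectionVars false

noncomputable section

open NumberField IsDedekindDomain
open FA.Hecke (coprimeIdeals IsRayElt RayClassGroup rayClass rayClass_eq_iff)
open FA.Ext (primeIdeal)
open scoped nonZeroDivisors Classical

namespace FA.DeuringCM

variable {K : Type*} [Field K] [NumberField K] (Q : IQF K)

theorem IQF.conj_mem_span_iff {ℓ : ℕ} {x : 𝓞 K} :
    Q.conj x ∈ Ideal.span {(ℓ : 𝓞 K)} ↔ x ∈ Ideal.span {(ℓ : 𝓞 K)} := by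
  have key : ∀ y, y ∈ Ideal.span {(ℓ : 𝓞 K)} → Q.conj y ∈ Ideal.span {(ℓ : 𝓞 K)} := fun y hy => by
    obtain ⟨z, rfl⟩ := Ideal.mem_span_singleton.mp hy
    rw [map_mul, map_natCast]
    exact Ideal.mul_mem_right _ _ (Ideal.mem_span_singleton_self _)
  exact ⟨fun h => by simpa only [Q.conj_conj] using key _ h, key x⟩

include Q in
theorem IQF.absNorm_span_natCast (m : ℕ) :
    Ideal.absNorm (Ideal.span {(m : 𝓞 K)}) = m * m := by
  have h := Q.mul_conj (m : 𝓞 K)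
  rw [map_natCast] at h
  exact_mod_cast h.symm

include Q in
theorem IQF.absNorm_span_intCast (m : ℤ) :
    Ideal.absNorm (Ideal.span {(m : 𝓞 K)}) = m.natAbs * m.natAbs := by
  have h := Q.mul_conj (m : 𝓞 K)
  rw [map_intCast] at h
  have h' : (m * m : ℤ) = (Ideal.absNorm (Ideal.span {(m : 𝓞 K)}) : ℤ) := by exact_mod_cast h
  exact_mod_cast (h'.symm.trans Int.natAbs_mul_self.symm)

/-- An element of prime norm is divisible by no rational prime. -/
theorem IQF.not_mem_of_norm_prime {ℓ q : ℕ} (hℓ : ℓ.Prime) (hq : q.Prime) {x : 𝓞 K}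
    (hx : x * Q.conj x = q) : x ∉ Ideal.span {(ℓ : 𝓞 K)} := by
  intro h
  have h1 := Ideal.absNorm_dvd_absNorm_of_le ((Ideal.span_singleton_le_iff_mem _).mpr h)
  rw [Q.absNorm_span_natCast, show Ideal.absNorm (Ideal.span {x}) = q by
    have := Q.mul_conj x; rw [hx] at this; exact_mod_cast this.symm] at h1
  have h2 : ℓ = q := (Nat.prime_dvd_prime_iff_eq hℓ hq).mp ((dvd_mul_right ℓ ℓ).trans h1)
  subst h2
  have := Nat.le_of_dvd hℓ.pos h1
  nlinarith [hℓ.two_le]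

/-- An ordinary element of prime norm: its square is no unit times that of the conjugate. -/
theorem IQF.sq_ne_unit_mul {q : ℕ} (hq : q.Prime) (hq6 : ¬ (q : ℤ) ∣ 6 * Q.d) {x : 𝓞 K}
    (hx : x * Q.conj x = q) (u : (𝓞 K)ˣ) : x ^ 2 ≠ (u : 𝓞 K) * Q.conj x ^ 2 := by
  intro h
  have hn : Ideal.absNorm (Ideal.span {x}) = q := by
    have := Q.mul_conj x; rw [hx] at this; exact_mod_cast this.symm
  have hPp : (Ideal.span {x}).IsPrime := Ideal.isPrime_of_irreducible_absNorm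
    ((Nat.irreducible_iff_nat_prime _).mpr (hn ▸ hq))
  have h2 : Q.conj x ^ 2 ∈ Ideal.span {x} := by
    rw [show Q.conj x ^ 2 = ((u⁻¹ : (𝓞 K)ˣ) : 𝓞 K) * x * x by
      rw [mul_assoc, ← pow_two, h, ← mul_assoc, Units.inv_mul, one_mul]]
    exact Ideal.mul_mem_left _ _ (Ideal.mem_span_singleton_self x)
  obtain ⟨A, B, N, -, hN, htr, hmul, -⟩ := Q.exists_coord x
  have hNq : N = q := by rw [hx] at hmul; exact_mod_cast hmul.symm
  subst hNq
  have hA : (A : 𝓞 K) ∈ Ideal.span {x} := by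
    rw [← htr, IQF.tr]
    exact add_mem (Ideal.mem_span_singleton_self x) (hPp.mem_of_pow_mem 2 h2)
  have h1 := Ideal.absNorm_dvd_absNorm_of_le ((Ideal.span_singleton_le_iff_mem _).mpr hA)
  rw [hn, Q.absNorm_span_intCast] at h1
  have hqp : Prime (N : ℤ) := Nat.prime_iff_prime_int.mp hq
  have hqA : (N : ℤ) ∣ A := Int.natCast_dvd.mpr ((hq.dvd_mul.mp h1).elim id id)
  have hqB : (N : ℤ) ∣ B := by
    have : (N : ℤ) ∣ Q.d * B ^ 2 := by
      rw [show Q.d * B ^ 2 = A ^ 2 - 4 * N by linarith]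
      exact dvd_sub (dvd_pow hqA two_ne_zero) (dvd_mul_left _ _)
    exact hqp.dvd_of_dvd_pow ((hqp.dvd_or_dvd this).resolve_left
      fun hd => hq6 (dvd_mul_of_dvd_right hd 6))
  obtain ⟨A', rfl⟩ := hqA
  obtain ⟨B', rfl⟩ := hqB
  have h4 : (N : ℤ) ∣ 4 := ⟨A' ^ 2 - Q.d * B' ^ 2,
    mul_left_cancel₀ (Nat.cast_ne_zero.mpr hq.ne_zero : (N : ℤ) ≠ 0) (by linear_combination -hN)⟩
  have h2' : (N : ℤ) ∣ 2 := (hqp.dvd_or_dvd (show (N : ℤ) ∣ 2 * 2 from h4)).elim id id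
  exact hq6 (dvd_mul_of_dvd_left (h2'.trans ⟨3, by norm_num⟩) _)

variable {F : Type} [Field F] [NumberField F]

/-- A prime to the modulus contains none of its elements dividing it. -/
theorem not_mem_of_le {𝔫 : Ideal (𝓞 F)} {v : HeightOneSpectrum (𝓞 F)}
    (hv : v.asIdeal ⊔ 𝔫 = ⊤) {x : 𝓞 F} (hx : 𝔫 ≤ Ideal.span {x}) : x ∉ v.asIdeal := fun h =>
  v.isPrime.ne_top (top_le_iff.mp (hv ▸ sup_le le_rfl
    (hx.trans ((Ideal.span_singleton_le_iff_mem _).mpr h))))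

/-- A principal ideal generated by a ray element. -/
def rayIdeal {𝔫 : Ideal (𝓞 F)} {x : 𝓞 F} (hx : IsRayElt 𝔫 x) : coprimeIdeals 𝔫 :=
  ⟨⟨Ideal.span {x}, mem_nonZeroDivisors_iff_ne_zero.mpr (by simpa using hx.1)⟩, by
    show Ideal.span {x} ⊔ 𝔫 = ⊤
    rw [Ideal.eq_top_iff_one, show (1 : 𝓞 F) = x - (x - 1) by ring]
    exact sub_mem (Ideal.mem_sup_left (Ideal.mem_span_singleton_self x))
      (Ideal.mem_sup_right hx.2.1)⟩

variable [Algebra K F]

/-- The unit classes modulo a homomorphism to a field. -/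
abbrev unitImage {k : Type*} [Field k] (π : 𝓞 K →+* k) : Subgroup kˣ :=
  (Units.map (π : 𝓞 K →* k)).range

/-- The class of a residue. -/
def cls {k : Type*} [Field k] (π : 𝓞 K →+* k) {x : 𝓞 K} (hx : π x ≠ 0) :
    kˣ ⧸ unitImage π :=
  QuotientGroup.mk (Units.mk0 (π x) hx)

theorem cls_eq_iff {k : Type*} [Field k] (π : 𝓞 K →+* k) {x y : 𝓞 K} (hx : π x ≠ 0)
    (hy : π y ≠ 0) : cls π hx = cls π hy ↔ ∃ u : (𝓞 K)ˣ, π y = π x * π (u : 𝓞 K) := by
  rw [cls, cls, QuotientGroup.eq]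
  constructor
  · rintro ⟨u, hu⟩
    refine ⟨u, ?_⟩
    have := congrArg (Units.val (α := k)) hu
    simp only [Units.coe_map, MonoidHom.coe_coe, Units.val_mul, Units.val_inv_eq_inv_val,
      Units.val_mk0] at this
    rw [this, mul_inv_cancel_left₀ hx]
  · rintro ⟨u, hu⟩
    refine ⟨u, Units.ext ?_⟩
    simp only [Units.coe_map, MonoidHom.coe_coe, Units.val_mul, Units.val_inv_eq_inv_val,
      Units.val_mk0]
    rw [hu, inv_mul_cancel_left₀ hx]

theorem cls_eq_of_span {k : Type*} [Field k] (π : 𝓞 K →+* k) {x y : 𝓞 K} (hx : π x ≠ 0)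
    (hy : π y ≠ 0) (h : Ideal.span {x} = Ideal.span {y}) : cls π hx = cls π hy := by
  obtain ⟨u, hu⟩ := Ideal.span_singleton_eq_span_singleton.mp h
  exact (cls_eq_iff π hx hy).mpr ⟨u, by rw [← map_mul, hu]⟩

/-- **Generators are transported along the classes.** -/
theorem exists_transport {𝔫 : Ideal (𝓞 F)} (h𝔫 : 𝔫 ≠ ⊥) {I J : coprimeIdeals 𝔫}
    (h : rayClass h𝔫 I = rayClass h𝔫 J) {ρ : 𝓞 K}
    (hρ : Ideal.relNorm (𝓞 K) J.1.1 = Ideal.span {ρ}) :
    ∃ g : 𝓞 K, Ideal.relNorm (𝓞 K) I.1.1 = Ideal.span {g} ∧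
      ∀ ℓ : ℕ, 𝔫 ≤ Ideal.span {(ℓ : 𝓞 F)} → g - ρ ∈ Ideal.span {(ℓ : 𝓞 K)} := by
  obtain ⟨x, y, hx, hy, e⟩ := (rayClass_eq_iff h𝔫).mp h
  have e' := congrArg (Ideal.relNorm (𝓞 K)) e
  rw [map_mul, map_mul, relNorm_span, relNorm_span, hρ, Ideal.span_singleton_mul_span_singleton]
    at e'
  have hmem : nm K y * ρ ∈ Ideal.span {nm K x} * Ideal.relNorm (𝓞 K) I.1.1 := by
    rw [e']
    exact Ideal.mem_span_singleton_self _
  obtain ⟨g, hg⟩ := Ideal.mem_span_singleton.mp (Ideal.mul_le_left hmem)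
  refine ⟨g, mul_left_cancel₀ (show Ideal.span {nm K x} ≠ ⊥ by simpa using nm_ne_zero hx.1) ?_,
    fun ℓ hℓ => ?_⟩
  · rw [e', hg, Ideal.span_singleton_mul_span_singleton]
  · have h1 := nm_sub_one_mem (K := K) (hℓ hx.2.1)
    have h2 := nm_sub_one_mem (K := K) (hℓ hy.2.1)
    rw [show g - ρ = (nm K y - 1) * ρ - (nm K x - 1) * g by linear_combination -hg]
    exact sub_mem (Ideal.mul_mem_right _ _ h2) (Ideal.mul_mem_right _ _ h1)

variable {a : HeightOneSpectrum (𝓞 F) → ℤ} {D : 𝓞 F}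

/-- **The norm of a prime of degree one.** -/
theorem IQF.exists_relNorm_prime {v : HeightOneSpectrum (𝓞 F)}
    (hq : (Ideal.absNorm v.asIdeal).Prime)
    (hroot : ∃ π : 𝓞 K, Q.tr π = a v ∧ π * Q.conj π = (Ideal.absNorm v.asIdeal : 𝓞 K)) :
    ∃ ρ : 𝓞 K, Ideal.relNorm (𝓞 K) v.asIdeal = Ideal.span {ρ} ∧ Q.tr ρ = a v ∧
      ρ * Q.conj ρ = (Ideal.absNorm v.asIdeal : 𝓞 K) := by
  obtain ⟨π, htr, hn⟩ := hroot
  rcases Q.eq_span_or hq (absNorm_relNorm' v.asIdeal) hn with h | h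
  · exact ⟨π, h, htr, hn⟩
  · refine ⟨Q.conj π, h, ?_, by rw [Q.conj_conj, mul_comm, hn]⟩
    rw [← htr, IQF.tr, IQF.tr, Q.conj_conj, add_comm]

/-- **The norms of the ideals prime to `D` are principal, with generators prime to the inert
primes of the modulus.** -/
theorem IQF.exists_gen
    (hroot : ∀ v, D ∉ v.asIdeal → ∃ π : 𝓞 K, Q.tr π = a v ∧
      π * Q.conj π = (Ideal.absNorm v.asIdeal : 𝓞 K))
    {𝔫 : Ideal (𝓞 F)} (h𝔫 : 𝔫 ≠ ⊥) (hD : 𝔫 ≤ Ideal.span {D}) (I : coprimeIdeals 𝔫) :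
    ∃ g : 𝓞 K, Ideal.relNorm (𝓞 K) I.1.1 = Ideal.span {g} ∧
      ∀ ℓ : ℕ, ℓ.Prime → 𝔫 ≤ Ideal.span {(ℓ : 𝓞 F)} → g ∉ Ideal.span {(ℓ : 𝓞 K)} := by
  obtain ⟨v, hv, -, hq, hγ⟩ := exists_degree_one_class h𝔫 (rayClass h𝔫 I) Set.finite_empty
  obtain ⟨ρ, hρ, -, hn⟩ := Q.exists_relNorm_prime hq (hroot v (not_mem_of_le hv hD))
  obtain ⟨g, hg, hcong⟩ := exists_transport h𝔫 (I := I) (J := ⟨primeIdeal v, hv⟩) hγ.symm
    (ρ := ρ) hρ
  exact ⟨g, hg, fun ℓ hℓ hle hmem => Q.not_mem_of_norm_prime hℓ hq hn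
    (by simpa using sub_mem hmem (hcong ℓ hle))⟩

/-- **The classes of the generators, on the ray classes.** -/
theorem exists_cls_hom {k : Type*} [Field k] (π : 𝓞 K →+* k) {𝔫 : Ideal (𝓞 F)} (h𝔫 : 𝔫 ≠ ⊥)
    (hG : ∀ I : coprimeIdeals 𝔫, ∃ g, Ideal.relNorm (𝓞 K) I.1.1 = Ideal.span {g} ∧ π g ≠ 0)
    (hcong : ∀ x, IsRayElt 𝔫 x → π (nm K x) = 1) :
    ∃ φ : RayClassGroup 𝔫 →* kˣ ⧸ unitImage π, ∀ (I : coprimeIdeals 𝔫) (g : 𝓞 K) (hg : π g ≠ 0),
      Ideal.relNorm (𝓞 K) I.1.1 = Ideal.span {g} → φ (rayClass h𝔫 I) = cls π hg := by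
  choose G hG hG0 using hG
  let φ : coprimeIdeals 𝔫 →* kˣ ⧸ unitImage π :=
    { toFun := fun I => cls π (hG0 I)
      map_one' := by
        have h1 : π 1 ≠ 0 := by simp
        rw [cls_eq_of_span π (hG0 1) h1 (by
          rw [← hG, OneMemClass.coe_one, OneMemClass.coe_one, map_one, Ideal.one_eq_top,
            Ideal.span_singleton_one]), cls, show Units.mk0 (π 1) h1 = 1 from Units.ext (map_one π)]
        rfl
      map_mul' := fun I J => by
        have h1 : π (G I * G J) ≠ 0 := by rw [map_mul]; exact mul_ne_zero (hG0 I) (hG0 J)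
        rw [cls_eq_of_span π (hG0 (I * J)) h1 (by
          rw [← hG, Submonoid.coe_mul, Submonoid.coe_mul, map_mul, hG, hG,
            Ideal.span_singleton_mul_span_singleton]), cls, cls, cls, ← QuotientGroup.mk_mul]
        exact congrArg _ (Units.ext (map_mul π _ _)) }
  obtain ⟨f, hf⟩ := exists_lift h𝔫 φ fun I J hIJ => by
    obtain ⟨x, y, hx, hy, e⟩ := (rayClass_eq_iff h𝔫).mp hIJ
    have e' := congrArg (Ideal.relNorm (𝓞 K)) e
    rw [map_mul, map_mul, relNorm_span, relNorm_span, hG, hG,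
      Ideal.span_singleton_mul_span_singleton, Ideal.span_singleton_mul_span_singleton] at e'
    obtain ⟨u, hu⟩ := Ideal.span_singleton_eq_span_singleton.mp e'
    have := congrArg π hu
    rw [map_mul, map_mul, map_mul, hcong x hx, hcong y hy, one_mul, one_mul] at this
    exact (cls_eq_iff π (hG0 I) (hG0 J)).mpr ⟨u, this.symm⟩
  exact ⟨f, fun I g hg h => (hf I).trans (cls_eq_of_span π (hG0 I) hg ((hG I).symm.trans h))⟩

end FA.DeuringCM

end
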