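import Fermat.Agent.AlgebraicHeckeFE.Main

/-!
# The completed series has no zeros on the closed half plane of convergence

The L-series of a character which is no power of the norm continues without zeros to the closed half
plane `1 + w / 2 ≤ re s`.
-/

set_option autoImplicit false

noncomputable section

open NumberField IsDedekindDomain Ideal Filter Topology
open FA.AlgHecke (IsAlgChar IsPure IsNormPower)
open scoped nonZeroDivisors

namespace FA.DeuringCM

variable {K : Type*} [Field K] [NumberField K] {𝔣 : Ideal (𝓞 K)} {n : (K →+* ℂ) → ℤ}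
  {g : Ideal (𝓞 K) →* ℂ}

theorem Gammaℂ_ne_zero_of_re_pos {z : ℂ} (hz : 0 < z.re) : Complex.Gammaℂ z ≠ 0 := by
  rw [Complex.Gammaℂ_def]
  refine mul_ne_zero (mul_ne_zero two_ne_zero (Complex.cpow_ne_zero_iff.mpr (Or.inl ?_)))
    (Complex.Gamma_ne_zero_of_re_pos hz)
  exact mul_ne_zero two_ne_zero (Complex.ofReal_ne_zero.mpr Real.pi_ne_zero)

theorem continuousAt_Gammaℂ {z : ℂ} (hz : 0 < z.re) : ContinuousAt Complex.Gammaℂ z := by
  have h := (Complex.differentiable_Gammaℂ_inv z).continuousAt.inv₀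
    (inv_ne_zero (Gammaℂ_ne_zero_of_re_pos hz))
  exact h.congr (Eventually.of_forall fun s => inv_inv _)

/-- **No zeros on `3 / 2 ≤ re z`.** -/
theorem completed_ne_zero (hg : IsAlgChar 𝔣 n g) (hw : IsPure n 1) (hne : ¬IsNormPower g) {A : ℕ}
    (hA : 0 < A) {m : ℕ} {Λ : ℂ → ℂ} (hΛ : Differentiable ℂ Λ)
    (h : ∀ z : ℂ, 1 + ((1 : ℤ) : ℝ) / 2 < z.re → ∃ L : ℂ,
      HasSum (fun I : (Ideal (𝓞 K))⁰ => g I.1 * ((absNorm I.1 : ℕ) : ℂ) ^ (-z)) L ∧
      Λ z = (A : ℂ) ^ (z / 2) * Complex.Gammaℂ z ^ m * L) {z : ℂ} (hz : 3 / 2 ≤ z.re) :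
    Λ z ≠ 0 := by
  obtain ⟨E, hE, hE', hE0⟩ := hg.exists_entire hw hne
  have hz0 : 0 < z.re := by linarith
  have hA0 : (A : ℂ) ≠ 0 := Nat.cast_ne_zero.mpr hA.ne'
  set G : ℂ → ℂ := fun s => (A : ℂ) ^ (s / 2) * Complex.Gammaℂ s ^ m * E s with hG
  have hcont : ContinuousAt G z :=
    (((differentiable_id.div_const (2 : ℂ)).const_cpow (Or.inl hA0)).continuous.continuousAt.mul
      ((continuousAt_Gammaℂ hz0).pow m)).mul hE.continuous.continuousAt
  have hseq : Tendsto (fun k : ℕ => z + ((1 / ((k : ℝ) + 1) : ℝ) : ℂ)) atTop (𝓝 z) := by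
    have h0 := (Complex.continuous_ofReal.tendsto 0).comp
      (tendsto_one_div_add_atTop_nhds_zero_nat (𝕜 := ℝ))
    rw [Complex.ofReal_zero] at h0
    simpa using h0.const_add z
  have heq : ∀ k : ℕ, Λ (z + ((1 / ((k : ℝ) + 1) : ℝ) : ℂ)) =
      G (z + ((1 / ((k : ℝ) + 1) : ℝ) : ℂ)) := fun k => by
    have hk : 1 + ((1 : ℤ) : ℝ) / 2 < (z + ((1 / ((k : ℝ) + 1) : ℝ) : ℂ)).re := by
      rw [Complex.add_re, Complex.ofReal_re]
      have : (0 : ℝ) < 1 / ((k : ℝ) + 1) := by positivity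
      push_cast
      linarith
    obtain ⟨L, hs, e⟩ := h _ hk
    rw [e, hs.unique (hE' _ hk)]
  have hval : Λ z = G z := tendsto_nhds_unique ((hΛ.continuous.tendsto z).comp hseq)
    ((hcont.tendsto.comp hseq).congr fun k => (heq k).symm)
  rw [hval, hG]
  refine mul_ne_zero (mul_ne_zero (Complex.cpow_ne_zero_iff.mpr (Or.inl hA0))
    (pow_ne_zero _ (Gammaℂ_ne_zero_of_re_pos hz0))) (hE0 z ?_)
  push_cast
  linarith

end FA.DeuringCM

end
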