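import Fermat.Agent.DeuringCM.Main
import Fermat.Agent.AlgebraicHeckeFE.Main
import Fermat.Agent.AlgebraicHeckeFE.Euler
import Fermat.Agent.DeuringCM.Nonvanishing

/-!
# Deuring's character at every place of good reduction, and the functional equation

The characters of all bounds have the same primitive character, which gives the traces at every
place of good reduction; the L-series is the product of those of the character and its conjugate.
-/

set_option autoImplicit false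
set_option linter.style.haveILetI false
set_option linter.unusedSectionVars false

noncomputable section

open WeierstrassCurve NumberField NumberField.InfinitePlace IsDedekindDomain
open FA.TraceNF (frobTrace)
open FA.AlgHecke (IsAlgChar IsPure IsNormPower typeVal typeVal_ne_zero)
open FA.Hecke (IsRayElt rayClass rayClass_eq_iff)
open FA.Ext (primeIdeal)
open scoped nonZeroDivisors Classical ComplexConjugate

namespace FA.DeuringCM

variable {F : Type} [Field F] [NumberField F]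

/-- **Characters of one type agreeing at almost all primes agree where both are nonzero.** -/
theorem eq_of_agree {𝔪 𝔪' : Ideal (𝓞 F)} {n : (F →+* ℂ) → ℤ} {f f' : Ideal (𝓞 F) →* ℂ}
    (h : IsAlgChar 𝔪 n f) (h' : IsAlgChar 𝔪' n f')
    (hfin : {v : HeightOneSpectrum (𝓞 F) | f v.asIdeal ≠ f' v.asIdeal}.Finite)
    {v : HeightOneSpectrum (𝓞 F)} (hv : v.asIdeal ⊔ 𝔪 = ⊤) (hv' : v.asIdeal ⊔ 𝔪' = ⊤) :
    f v.asIdeal = f' v.asIdeal := by
  have hm : 𝔪 * 𝔪' ≠ ⊥ := mul_ne_zero h.ne_bot h'.ne_bot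
  have hvm : v.asIdeal ⊔ 𝔪 * 𝔪' = ⊤ := by
    rw [sup_comm] at hv hv' ⊢
    exact FA.Hecke.mul_sup_eq_top.mpr ⟨hv, hv'⟩
  obtain ⟨w, hw, hwS, -, hγ⟩ :=
    exists_degree_one_class hm (rayClass hm ⟨primeIdeal v, hvm⟩) hfin
  obtain ⟨x, y, hx, hy, e⟩ := (rayClass_eq_iff hm).mp hγ.symm
  have e1 := congrArg f e
  have e2 := congrArg f' e
  rw [map_mul, map_mul, h.ray x ⟨hx.1, Ideal.mul_le_left hx.2.1, hx.2.2⟩,
    h.ray y ⟨hy.1, Ideal.mul_le_left hy.2.1, hy.2.2⟩] at e1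
  rw [map_mul, map_mul, h'.ray x ⟨hx.1, Ideal.mul_le_right hx.2.1, hx.2.2⟩,
    h'.ray y ⟨hy.1, Ideal.mul_le_right hy.2.1, hy.2.2⟩] at e2
  change _ * f v.asIdeal = _ * f w.asIdeal at e1
  change _ * f' v.asIdeal = _ * f' w.asIdeal at e2
  rw [show f w.asIdeal = f' w.asIdeal from not_not.mp hwS, ← e2] at e1
  exact mul_left_cancel₀ (typeVal_ne_zero n (RingOfIntegers.coe_ne_zero_iff.mpr hx.1)) e1

variable (W₀ : WeierstrassCurve (𝓞 F)) [(W₀.map (algebraMap (𝓞 F) F)).IsElliptic]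

local notation "W" => W₀.map (algebraMap (𝓞 F) F)

/-- With `√d` for a negative `d` every embedding sends it to a purely imaginary number. -/
theorem apply_sqrt {d : ℤ} (hd0 : d < 0) {s : F} (hs : s ^ 2 = (d : F)) (σ : F →+* ℂ) :
    conj (σ s) = -σ s ∧ σ s ≠ 0 := by
  have h := congrArg σ hs
  rw [map_pow, map_intCast] at h
  have hne : σ s ≠ 0 := fun h0 => by
    rw [h0, zero_pow two_ne_zero] at h
    exact hd0.ne (by exact_mod_cast h.symm)
  refine ⟨?_, hne⟩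
  have hc := congrArg conj h
  rw [map_pow, map_intCast, ← h] at hc
  rcases sq_eq_sq_iff_eq_or_eq_neg.mp hc with e | e
  · exfalso
    obtain ⟨r, hr⟩ := Complex.conj_eq_iff_real.mp e
    rw [hr, ← Complex.ofReal_pow, ← Complex.ofReal_intCast, Complex.ofReal_inj] at h
    have : (d : ℝ) < 0 := by exact_mod_cast hd0
    nlinarith [sq_nonneg r]
  · exact e

theorem sum_type_eq_one {d : ℤ} (hd0 : d < 0) {s : F} (hs : s ^ 2 = (d : F)) (ψ σ : F →+* ℂ) :
    (if σ s = ψ s then (1 : ℤ) else 0) +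
      (if ComplexEmbedding.conjugate σ s = ψ s then (1 : ℤ) else 0) = 1 := by
  rw [ComplexEmbedding.conjugate_coe_eq, (apply_sqrt hd0 hs σ).1]
  have hne := (apply_sqrt hd0 hs σ).2
  have h2 : σ s ^ 2 = ψ s ^ 2 := by rw [← map_pow, ← map_pow, hs, map_intCast, map_intCast]
  rcases sq_eq_sq_iff_eq_or_eq_neg.mp h2 with e | e
  · rw [if_pos e, if_neg fun h => hne (by linear_combination -(h.trans e.symm) / 2), add_zero]
  · rw [if_neg fun h => hne (by linear_combination (h + e) / 2),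
      if_pos (by rw [e, neg_neg]), zero_add]

theorem totallyComplex_of_sqrt {d : ℤ} (hd0 : d < 0) {s : F} (hs : s ^ 2 = (d : F))
    (v : InfinitePlace F) : IsComplex v := by
  refine not_isReal_iff_isComplex.mp fun hv => ?_
  obtain ⟨h, hne⟩ := apply_sqrt hd0 hs v.embedding
  rw [← ComplexEmbedding.conjugate_coe_eq, conjugate_embedding_eq_of_isReal hv] at h
  exact hne (by linear_combination h / 2)

/-- **Deuring: one character with the traces at every place of good reduction.** -/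
theorem exists_hecke_char (ψ : F →+* ℂ) {d : ℤ} (hd : Squarefree d) (hd0 : d < 0) {s : F}
    (hs : s ^ 2 = (d : F))
    (hcm : ∃ L : PeriodPair, L.g₂ = ψ (W).c₄ / 12 ∧ L.g₃ = ψ (W).c₆ / 216 ∧
      ∃ ω : ℂ, (∀ m : ℤ, ω ≠ m) ∧ (∀ l ∈ L.lattice, ω * l ∈ L.lattice) ∧
        ∃ x y : ℚ, (ω - (x : ℂ)) ^ 2 = (d : ℂ) * (y : ℂ) ^ 2) :
    ∃ (𝔣 : Ideal (𝓞 F)) (f : Ideal (𝓞 F) →* ℂ),
      IsAlgChar 𝔣 (fun σ => if σ s = ψ s then 1 else 0) f ∧ ¬ IsNormPower f ∧
      (∀ (𝔪 : Ideal (𝓞 F)) (g : Ideal (𝓞 F) →* ℂ),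
        IsAlgChar 𝔪 (fun σ => if σ s = ψ s then 1 else 0) g →
        {v : HeightOneSpectrum (𝓞 F) | g v.asIdeal ≠ f v.asIdeal}.Finite → 𝔣 ∣ 𝔪) ∧
      ∀ v : HeightOneSpectrum (𝓞 F), W₀.Δ ∉ v.asIdeal → v.asIdeal ⊔ 𝔣 = ⊤ ∧
        f v.asIdeal + conj (f v.asIdeal) = frobTrace W₀ v ∧
        f v.asIdeal * conj (f v.asIdeal) = (Ideal.absNorm v.asIdeal : ℂ) := by
  obtain ⟨𝔪, f, hf⟩ := exists_hecke_chars W₀ ψ hd hd0 hs hcm
  have hfin : ∀ N, {v : HeightOneSpectrum (𝓞 F) | ¬ v.asIdeal ⊔ 𝔪 N = ⊤}.Finite := fun N =>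
    (Ideal.finite_factors (hf N).1.ne_bot).subset fun v hv => Ideal.dvd_iff_le.mpr
      (le_sup_right.trans (v.isMaximal.eq_of_le hv le_sup_left).ge)
  -- not a power of the norm
  have hne : ¬ IsNormPower (f 0) := by
    rintro ⟨a, ha⟩
    have hne0 : 𝔪 0 ≠ ⊥ := (hf 0).1.ne_bot
    obtain ⟨v, hv, -, hq, -⟩ := exists_degree_one_class hne0 1 Set.finite_empty
    obtain ⟨-, -, hn⟩ := (hf 0).2.1 v hv
    rw [ha v.asIdeal v.ne_bot (((hf 0).1.ne_zero_iff _ v.ne_bot).mpr hv), map_zpow₀,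
      map_natCast, ← zpow_add₀ (Nat.cast_ne_zero.mpr hq.ne_zero)] at hn
    have h1 : ((Ideal.absNorm v.asIdeal : ℕ) : ℝ) ^ (a + a) =
        ((Ideal.absNorm v.asIdeal : ℕ) : ℝ) ^ (1 : ℤ) := by
      rw [zpow_one]
      apply Complex.ofReal_injective
      push_cast
      exact hn
    have := (zpow_right_injective₀ (by exact_mod_cast hq.pos) (by exact_mod_cast hq.ne_one)) h1
    omega
  obtain ⟨w, 𝔣, g, e, C, Λ, hw, -, hg, hag, hmin, -⟩ :=
    FA.AlgHeckeFE.exists_functional_equation (hf 0).1 hne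
  have hagree : ∀ N, {v : HeightOneSpectrum (𝓞 F) | f N v.asIdeal ≠ g v.asIdeal}.Finite :=
    fun N => ((hfin N).union (hfin 0)).subset fun v hv => by
      by_contra h
      simp only [Set.mem_union, Set.mem_ofPred_eq, not_or, not_not] at h
      exact hv (((hf N).2.2.2 0 v h.1 h.2).trans
        (hag _ v.ne_bot (((hf 0).1.ne_zero_iff _ v.ne_bot).mpr h.2)).symm)
  refine ⟨𝔣, g, hg, fun ⟨a, ha⟩ => hne ⟨a, fun I hI h0 => ?_⟩, hmin, fun v hΔ => ?_⟩
  · rw [← hag I hI h0]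
    exact ha I hI (by rw [hag I hI h0]; exact h0)
  obtain ⟨hN, hvals, hcov, -⟩ := hf (Ideal.absNorm v.asIdeal)
  have hvm := hcov v hΔ le_rfl
  have hvf : v.asIdeal ⊔ 𝔣 = ⊤ :=
    coprime_mono (Ideal.le_of_dvd (hmin _ _ hN (hagree _))) hvm
  rw [← eq_of_agree hN hg (hagree _) hvm hvf]
  exact ⟨hvf, (hvals v hvm).2⟩

/-- **Hasse's conjecture for the curves with complex multiplication defined with the field of
multiplication.** -/
theorem exists_completed_lSeries (ψ : F →+* ℂ) {d : ℤ} (hd : Squarefree d) (hd0 : d < 0) {s : F}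
    (hs : s ^ 2 = (d : F))
    (hcm : ∃ L : PeriodPair, L.g₂ = ψ (W).c₄ / 12 ∧ L.g₃ = ψ (W).c₆ / 216 ∧
      ∃ ω : ℂ, (∀ m : ℤ, ω ≠ m) ∧ (∀ l ∈ L.lattice, ω * l ∈ L.lattice) ∧
        ∃ x y : ℚ, (ω - (x : ℂ)) ^ 2 = (d : ℂ) * (y : ℂ) ^ 2) :
    ∃ (M : ℕ) (c : HeightOneSpectrum (𝓞 F) → ℂ) (Λ : ℂ → ℂ), 0 < M ∧
      (∀ v : HeightOneSpectrum (𝓞 F), W₀.Δ ∉ v.asIdeal → c v + conj (c v) = frobTrace W₀ v ∧
        c v * conj (c v) = (Ideal.absNorm v.asIdeal : ℂ)) ∧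
      Differentiable ℂ Λ ∧
      (∀ z : ℂ, 3 / 2 < z.re → ∃ L : ℂ,
        HasProd (fun v : HeightOneSpectrum (𝓞 F) =>
          if W₀.Δ ∉ v.asIdeal then
            (1 - (frobTrace W₀ v : ℂ) * ((Ideal.absNorm v.asIdeal : ℕ) : ℂ) ^ (-z) +
              ((Ideal.absNorm v.asIdeal : ℕ) : ℂ) ^ (1 - 2 * z))⁻¹
          else (1 - c v * ((Ideal.absNorm v.asIdeal : ℕ) : ℂ) ^ (-z))⁻¹ *
            (1 - conj (c v) * ((Ideal.absNorm v.asIdeal : ℕ) : ℂ) ^ (-z))⁻¹) L ∧
        Λ z = (M : ℂ) ^ (z / 2) * Complex.Gammaℂ z ^ Module.finrank ℚ F * L) ∧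
      (∀ z : ℂ, Λ (2 - z) = Λ z) ∧ ∀ z : ℂ, 3 / 2 ≤ z.re → Λ z ≠ 0 := by
  obtain ⟨𝔣, f, hf, hne, hmin, hv⟩ := exists_hecke_char W₀ ψ hd hd0 hs hcm
  obtain ⟨w, 𝔣', g, e, C, Λ, hw, -, hg, hag, hmin', -, hC, hΛ, hL, hfe⟩ :=
    FA.AlgHeckeFE.exists_functional_equation hf hne
  obtain rfl : w = 1 := by
    obtain ⟨σ⟩ : Nonempty (F →+* ℂ) := inferInstance
    exact (hw σ).symm.trans (sum_type_eq_one hd0 hs ψ σ)
  have hgv : ∀ v : HeightOneSpectrum (𝓞 F), W₀.Δ ∉ v.asIdeal →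
      g v.asIdeal = f v.asIdeal := fun v h =>
    hag _ v.ne_bot ((hf.ne_zero_iff _ v.ne_bot).mpr (hv v h).1)
  haveI : IsEmpty {v : InfinitePlace F // IsReal v} :=
    ⟨fun v => (not_isReal_iff_isComplex.mpr (totallyComplex_of_sqrt hd0 hs v.1)) v.2⟩
  have hcard : Fintype.card {v : InfinitePlace F // IsComplex v} * 2 = Module.finrank ℚ F := by
    rw [← card_add_two_mul_card_eq_rank, NumberField.InfinitePlace.nrRealPlaces,
      NumberField.InfinitePlace.nrComplexPlaces,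
      Fintype.card_eq_zero (α := {v : InfinitePlace F // IsReal v}), zero_add, mul_comm]
  have hgamma : ∀ z, FA.AlgHeckeFE.gammaFactor
      (fun σ => if σ s = ψ s then 1 else 0) e 1 z =
      Complex.Gammaℂ z ^ Fintype.card {v : InfinitePlace F // IsComplex v} := fun z => by
    rw [FA.AlgHeckeFE.gammaFactor, Fintype.prod_empty, one_mul,
      ← Finset.card_univ, ← Finset.prod_const]
    refine Finset.prod_congr rfl fun v _ => ?_
    have h := sum_type_eq_one hd0 hs ψ v.1.embedding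
    have hmin0 : min (if v.1.embedding s = ψ s then (1 : ℤ) else 0)
        (if ComplexEmbedding.conjugate v.1.embedding s = ψ s then (1 : ℤ) else 0) = 0 := by
      split_ifs at h ⊢ <;> omega
    rw [hmin0, Int.cast_zero, sub_zero]
  set A : ℕ := (discr F).natAbs * Ideal.absNorm 𝔣' with hA
  have hA0 : 0 < A := Nat.mul_pos (Int.natAbs_pos.mpr (discr_ne_zero F))
    (Nat.pos_of_ne_zero fun h0 => hg.ne_bot (Ideal.absNorm_eq_zero_iff.mp h0))
  have hAR : |((discr F : ℤ) : ℝ)| * ((Ideal.absNorm 𝔣' : ℕ) : ℝ) = (A : ℝ) := by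
    rw [hA, Nat.cast_mul, Nat.cast_natAbs, Int.cast_abs]
  refine ⟨A ^ 2, fun v => g v.asIdeal, fun z => Λ z * conj (Λ (conj z)), pow_pos hA0 2,
    fun v h => ?_, hΛ.mul fun z => ?_, fun z hz => ?_, fun z => ?_, fun z hz => ?_⟩
  · simp only [hgv v h]; exact (hv v h).2
  · have h1 := (hΛ (conj z)).conj_conj
    rwa [Complex.conj_conj] at h1
  · have hz1 : 1 + ((1 : ℤ) : ℝ) / 2 < z.re := by push_cast; linarith
    have hz2 : 1 + ((1 : ℤ) : ℝ) / 2 < (conj z).re := by rwa [Complex.conj_re]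
    obtain ⟨L₁, hs₁, e₁⟩ := hL z hz1
    obtain ⟨L₂, hs₂, e₂⟩ := hL (conj z) hz2
    obtain ⟨L₁', hs₁', hp₁, hn₁⟩ := FA.AlgHeckeFE.hasProd_algChar hg hw hz1
    obtain ⟨L₂', hs₂', hp₂, hn₂⟩ := FA.AlgHeckeFE.hasProd_algChar hg hw hz2
    obtain rfl := hs₁'.unique hs₁
    obtain rfl := hs₂'.unique hs₂
    refine ⟨L₁' * conj L₂', ?_, ?_⟩
    · refine (hp₁.mul (hp₂.map (starRingEnd ℂ) Complex.continuous_conj)).congr_fun fun v => ?_
      rw [Function.comp_apply, map_inv₀, map_sub, map_one, map_mul,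
        FA.AlgHeckeFE.conj_natCast_cpow, map_neg, Complex.conj_conj]
      by_cases h : W₀.Δ ∉ v.asIdeal
      swap; · rw [if_neg h]
      · rw [if_pos h, ← mul_inv]
        congr 1
        obtain ⟨h1, h2⟩ := (hv v h).2
        rw [← hgv v h] at h1 h2
        rw [← h1, show (1 : ℂ) - 2 * z = 1 + (-z + -z) by ring,
          Complex.cpow_add _ _ (Nat.cast_ne_zero.mpr
            fun h0 => v.ne_bot (Ideal.absNorm_eq_zero_iff.mp h0)),
          Complex.cpow_one, Complex.cpow_add _ _ (Nat.cast_ne_zero.mpr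
            fun h0 => v.ne_bot (Ideal.absNorm_eq_zero_iff.mp h0))]
        linear_combination -(((Ideal.absNorm v.asIdeal : ℕ) : ℂ) ^ (-z) *
          ((Ideal.absNorm v.asIdeal : ℕ) : ℂ) ^ (-z)) * h2
    · show Λ z * conj (Λ (conj z)) = _
      rw [e₁, e₂, hAR, hgamma, hgamma, map_mul, map_mul, map_pow, Complex.ofReal_natCast,
        FA.AlgHeckeFE.conj_natCast_cpow, FA.AlgHeckeFE.conj_Gammaℂ, Complex.conj_conj, ← hcard,
        map_div₀, Complex.conj_conj, map_ofNat, pow_mul, Nat.cast_pow, ← Complex.natCast_cpow_natCast_mul]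
      rw [show ((2 : ℕ) : ℂ) * (z / 2) = z / 2 + z / 2 by push_cast; ring,
        Complex.cpow_add _ _ (Nat.cast_ne_zero.mpr hA0.ne')]
      ring
  · have h1 := hfe (2 - z)
    have h2 := hfe z
    have hC' : C * conj C = 1 := by
      rw [Complex.mul_conj, Complex.normSq_eq_norm_sq, hC]; simp
    have e1 : (1 : ℂ) + ((1 : ℤ) : ℂ) - conj (2 - z) = conj z := by
      rw [map_sub, map_ofNat]; push_cast; ring
    have e2 : (1 : ℂ) + ((1 : ℤ) : ℂ) - conj z = conj (2 - z) := by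
      rw [map_sub, map_ofNat]; push_cast; ring
    rw [e1] at h1
    rw [e2] at h2
    have h3 : conj (Λ (conj (2 - z))) = conj C * Λ z := by
      rw [h2, ← mul_assoc, mul_comm (conj C), hC', one_mul]
    show Λ (2 - z) * conj (Λ (conj (2 - z))) = Λ z * conj (Λ (conj z))
    rw [h1, h3]
    linear_combination (Λ z * conj (Λ (conj z))) * hC'
  · have hne' : ¬ IsNormPower g := fun ⟨a, ha⟩ => hne ⟨a, fun I hI h0 => by
      rw [← hag I hI h0]
      exact ha I hI (by rw [hag I hI h0]; exact h0)⟩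
    have h0 : ∀ y : ℂ, 3 / 2 ≤ y.re → Λ y ≠ 0 := fun y hy =>
      completed_ne_zero hg hw hne' hA0 hΛ (fun u hu => by
        obtain ⟨L, hs', e'⟩ := hL u hu
        rw [hAR, hgamma, Complex.ofReal_natCast] at e'
        exact ⟨L, hs', e'⟩) hy
    exact mul_ne_zero (h0 z hz) ((map_ne_zero_iff _ (starRingEnd ℂ).injective).mpr
      (h0 _ (by rwa [Complex.conj_re])))

end FA.DeuringCM

end
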