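import Fermat.Agent.DeuringCM.Gen

/-!
# The pinned generators of the norms

At a large inert prime `ℓ₀` the character of the points killed by `ℓ₀` chooses one generator of the
norm of each ideal prime to a modulus.  The choices are multiplicative, and comparison with the
characters at all large inert primes shows that their traces are the given traces.
-/

set_option autoImplicit false
set_option linter.style.haveILetI false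
set_option linter.unusedSectionVars false

noncomputable section

open NumberField IsDedekindDomain
open FA.Hecke (coprimeIdeals IsRayElt RayClassGroup rayClass rayClass_eq_iff)
open FA.Ext (primeIdeal)
open scoped nonZeroDivisors Classical

namespace FA.DeuringCM

variable {K : Type*} [Field K] [NumberField K] (Q : IQF K)
  {F : Type} [Field F] [NumberField F] [Algebra K F]

variable (K) in
/-- For `ℓ`: a homomorphism of the classes of some modulus to the residues modulo `ℓ`, giving roots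
of `X² - a v X + N v`. -/
def HasArtinChar (a : HeightOneSpectrum (𝓞 F) → ℤ) (D : 𝓞 F) (ℓ : ℕ) : Prop :=
  ∃ (𝔪 : Ideal (𝓞 F)) (h𝔪 : 𝔪 ≠ ⊥)
    (f : RayClassGroup 𝔪 →* (𝓞 K ⧸ Ideal.span {(ℓ : 𝓞 K)})),
    (∀ v : HeightOneSpectrum (𝓞 F), D ∉ v.asIdeal → (ℓ : 𝓞 F) ∉ v.asIdeal →
      v.asIdeal ⊔ 𝔪 = ⊤) ∧
    ∀ (v : HeightOneSpectrum (𝓞 F)) (hv : v.asIdeal ⊔ 𝔪 = ⊤), D ∉ v.asIdeal →
      (ℓ : 𝓞 F) ∉ v.asIdeal →
        f (rayClass h𝔪 ⟨primeIdeal v, hv⟩) * f (rayClass h𝔪 ⟨primeIdeal v, hv⟩) -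
            ((a v : ℤ) : 𝓞 K ⧸ Ideal.span {(ℓ : 𝓞 K)}) *
              f (rayClass h𝔪 ⟨primeIdeal v, hv⟩) +
          ((Ideal.absNorm v.asIdeal : ℕ) : 𝓞 K ⧸ Ideal.span {(ℓ : 𝓞 K)}) = 0

variable {a : HeightOneSpectrum (𝓞 F) → ℤ} {D : 𝓞 F}

/-- The roots of the quadratic in a domain. -/
theorem IQF.eq_or_of_root {k : Type*} [Field k] (π : 𝓞 K →+* k) {ρ : 𝓞 K} {b : ℤ} {N : ℕ}
    (htr : Q.tr ρ = b) (hn : ρ * Q.conj ρ = N) {z : k}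
    (h : z * z - (b : k) * z + (N : k) = 0) : z = π ρ ∨ z = π (Q.conj ρ) := by
  rw [← map_intCast π, ← map_natCast π, ← htr, ← hn, IQF.tr, map_add, map_mul] at h
  have h2 : (z - π ρ) * (z - π (Q.conj ρ)) = 0 := by linear_combination h
  rcases mul_eq_zero.mp h2 with h3 | h3
  · exact Or.inl (sub_eq_zero.mp h3)
  · exact Or.inr (sub_eq_zero.mp h3)

/-- A unit congruent to one modulo a prime `ℓ > 2` is one. -/
theorem IQF.unit_eq_one {ℓ : ℕ} (hℓ : ℓ.Prime) (hns : ¬ IsSquare (Q.d : ZMod ℓ)) (h2 : 2 < ℓ)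
    {u : (𝓞 K)ˣ} (h : Ideal.Quotient.mk (Ideal.span {(ℓ : 𝓞 K)}) (u : 𝓞 K) = 1) : u = 1 := by
  refine Units.ext (Q.eq_of_sub_mem hℓ hns (x := (u : 𝓞 K)) (y := 1) (M := 1) ?_ ?_ ?_ (by
    nlinarith))
  · rw [← Ideal.Quotient.eq, h, map_one]
  · rw [Ideal.span_singleton_eq_top.mpr u.isUnit, Ideal.absNorm_top]
  · rw [Ideal.span_singleton_one, Ideal.absNorm_top]

/-- A prime larger than the norm of `v` lies outside `v`. -/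
theorem not_mem_of_absNorm_lt {v : HeightOneSpectrum (𝓞 F)} {ℓ : ℕ} (hℓ : ℓ.Prime)
    (hlt : Ideal.absNorm v.asIdeal < ℓ) : (ℓ : 𝓞 F) ∉ v.asIdeal := fun hmem => by
  have hcop : IsCoprime (ℓ : ℤ) (Ideal.absNorm v.asIdeal : ℤ) :=
    ((hℓ.coprime_iff_not_dvd).2 fun hd => absurd (Nat.le_of_dvd
      (Nat.pos_of_ne_zero fun h0 => v.ne_bot (Ideal.absNorm_eq_zero_iff.mp h0)) hd)
        (not_le.mpr hlt)).cast
  obtain ⟨x, y, hxy⟩ := hcop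
  refine v.isPrime.ne_top ((Ideal.eq_top_iff_one _).2 ?_)
  rw [show (1 : 𝓞 F) = (x : 𝓞 F) * (ℓ : 𝓞 F) + (y : 𝓞 F) * (Ideal.absNorm v.asIdeal : 𝓞 F) by
    exact_mod_cast congrArg (Int.cast : ℤ → 𝓞 F) hxy.symm]
  exact add_mem (Ideal.mul_mem_left _ _ hmem) (Ideal.mul_mem_left _ _ (Ideal.absNorm_mem _))

/-- **The choice of generators by a homomorphism to the residues.** -/
theorem IQF.exists_choice {k : Type*} [Field k] (π : 𝓞 K →+* k) {𝔫 : Ideal (𝓞 F)} (h𝔫 : 𝔫 ≠ ⊥)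
    (hgen : ∀ (I : coprimeIdeals 𝔫) (g : 𝓞 K), Ideal.relNorm (𝓞 K) I.1.1 = Ideal.span {g} →
      π g ≠ 0 ∧ π (Q.conj g) ≠ 0)
    (hex : ∀ I : coprimeIdeals 𝔫, ∃ g, Ideal.relNorm (𝓞 K) I.1.1 = Ideal.span {g})
    (hray : ∀ x, IsRayElt 𝔫 x → π (nm K x) = 1 ∧ π (Q.conj (nm K x)) = 1)
    (hinj : ∀ u : (𝓞 K)ˣ, π (u : 𝓞 K) = 1 → u = 1)
    (hπ : Function.Surjective π) (f : RayClassGroup 𝔫 →* kˣ)
    (hf : ∀ γ, ∃ (I : coprimeIdeals 𝔫) (ρ : 𝓞 K), rayClass h𝔫 I = γ ∧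
      Ideal.relNorm (𝓞 K) I.1.1 = Ideal.span {ρ} ∧
        ((f γ : k) = π ρ ∨ (f γ : k) = π (Q.conj ρ))) :
    ∃ (z : coprimeIdeals 𝔫 →* 𝓞 K) (C : Subgroup (RayClassGroup 𝔫)),
      (∀ I, Ideal.relNorm (𝓞 K) I.1.1 = Ideal.span {z I}) ∧
      (∀ x (hx : IsRayElt 𝔫 x), z (rayIdeal hx) = nm K x) ∧
      (∀ I g, Ideal.relNorm (𝓞 K) I.1.1 = Ideal.span {g} → rayClass h𝔫 I ∈ C →
        ∃ e : (𝓞 K)ˣ, π (Q.conj g) = π g * π (e : 𝓞 K)) ∧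
      ∀ I ρ, Ideal.relNorm (𝓞 K) I.1.1 = Ideal.span {ρ} → rayClass h𝔫 I ∉ C →
        ((f (rayClass h𝔫 I) : k) = π ρ ∨ (f (rayClass h𝔫 I) : k) = π (Q.conj ρ)) → z I = ρ := by
  set πc : 𝓞 K →+* k := π.comp (Q.conj : 𝓞 K →+* 𝓞 K)
  choose G hG using hex
  obtain ⟨φ, hφ⟩ := exists_cls_hom π h𝔫 (fun I => ⟨G I, hG I, (hgen I _ (hG I)).1⟩)
    fun x hx => (hray x hx).1
  obtain ⟨φc, hφc⟩ := exists_cls_hom πc h𝔫 (fun I => ⟨G I, hG I, (hgen I _ (hG I)).2⟩)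
    fun x hx => (hray x hx).2
  have himg : unitImage πc = unitImage π := by
    ext e
    constructor
    · rintro ⟨u, rfl⟩; exact ⟨Units.map (Q.conj : 𝓞 K →* 𝓞 K) u, Units.ext rfl⟩
    · rintro ⟨u, rfl⟩
      exact ⟨Units.map (Q.conj : 𝓞 K →* 𝓞 K) u, Units.ext (congrArg π (Q.conj_conj _))⟩
  let ψc : RayClassGroup 𝔫 →* kˣ ⧸ unitImage π :=
    (QuotientGroup.quotientMulEquivOfEq himg).toMonoidHom.comp φc
  have hψc : ∀ (I : coprimeIdeals 𝔫) (g : 𝓞 K) (hg : πc g ≠ 0),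
      Ideal.relNorm (𝓞 K) I.1.1 = Ideal.span {g} →
        ψc (rayClass h𝔫 I) = cls π (x := Q.conj g) hg := fun I g hg h => by
    show QuotientGroup.quotientMulEquivOfEq himg (φc _) = _
    rw [hφc I g hg h]
    rfl
  have hchoice : (QuotientGroup.mk' (unitImage π)).comp f = φ ∨
      (QuotientGroup.mk' (unitImage π)).comp f = ψc := by
    refine eq_or_eq_of_forall (G := RayClassGroup 𝔫) (M := kˣ ⧸ unitImage π) fun γ => ?_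
    obtain ⟨I, ρ, rfl, hρ, h⟩ := hf γ
    rw [hφ I ρ (hgen I ρ hρ).1 hρ, hψc I ρ (hgen I ρ hρ).2 hρ]
    exact h.imp (fun h => congrArg QuotientGroup.mk (Units.ext h))
      fun h => congrArg QuotientGroup.mk (Units.ext h)
  obtain ⟨τ, hτ, hτc, hτ'⟩ : ∃ τ : 𝓞 K ≃+* 𝓞 K, (∀ x, τ (τ x) = x) ∧
      (∀ x, (τ x = x ∧ τ (Q.conj x) = Q.conj x) ∨ (τ x = Q.conj x ∧ τ (Q.conj x) = x)) ∧
      ∀ (I : coprimeIdeals 𝔫) (g : 𝓞 K), Ideal.relNorm (𝓞 K) I.1.1 = Ideal.span {g} →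
        ∃ u : (𝓞 K)ˣ, (f (rayClass h𝔫 I) : k) = π (τ g) * π (u : 𝓞 K) := by
    rcases hchoice with h | h
    · refine ⟨RingEquiv.refl _, fun x => rfl, fun x => Or.inl ⟨rfl, rfl⟩, fun I g hg => ?_⟩
      have e := DFunLike.congr_fun h (rayClass h𝔫 I)
      rw [hφ I g (hgen I g hg).1 hg] at e
      obtain ⟨b, hb⟩ := hπ (f (rayClass h𝔫 I) : k)
      obtain ⟨u, hu⟩ := (cls_eq_iff π (hgen I g hg).1
        (y := b) (hb ▸ Units.ne_zero (f (rayClass h𝔫 I)))).mp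
        (e.symm.trans (congrArg QuotientGroup.mk (Units.ext hb.symm)))
      exact ⟨u, hb.symm.trans hu⟩
    · refine ⟨Q.conj, Q.conj_conj, fun x => Or.inr ⟨rfl, Q.conj_conj x⟩, fun I g hg => ?_⟩
      have e := DFunLike.congr_fun h (rayClass h𝔫 I)
      rw [hψc I g (hgen I g hg).2 hg] at e
      obtain ⟨b, hb⟩ := hπ (f (rayClass h𝔫 I) : k)
      obtain ⟨u, hu⟩ := (cls_eq_iff π (x := Q.conj g) (hgen I g hg).2
        (y := b) (hb ▸ Units.ne_zero (f (rayClass h𝔫 I)))).mp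
        (e.symm.trans (congrArg QuotientGroup.mk (Units.ext hb.symm)))
      exact ⟨u, hb.symm.trans hu⟩
  have hpin : ∀ I : coprimeIdeals 𝔫, ∃ x : 𝓞 K, Ideal.relNorm (𝓞 K) I.1.1 = Ideal.span {x} ∧
      π (τ x) = f (rayClass h𝔫 I) := fun I => by
    obtain ⟨u, hu⟩ := hτ' I (G I) (hG I)
    refine ⟨G I * τ (u : 𝓞 K), ?_, by rw [map_mul, hτ, map_mul, hu]⟩
    rw [hG I]
    exact Ideal.span_singleton_eq_span_singleton.mpr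
      ⟨Units.map (τ : 𝓞 K →* 𝓞 K) u, rfl⟩
  have huniq : ∀ (I : coprimeIdeals 𝔫) (x x' : 𝓞 K),
      Ideal.relNorm (𝓞 K) I.1.1 = Ideal.span {x} → π (τ x) = f (rayClass h𝔫 I) →
      Ideal.relNorm (𝓞 K) I.1.1 = Ideal.span {x'} → π (τ x') = f (rayClass h𝔫 I) →
      x = x' := fun I x x' h1 h2 h3 h4 => by
    obtain ⟨u, hu⟩ := Ideal.span_singleton_eq_span_singleton.mp (h1.symm.trans h3)
    have hx0 : π (τ x) ≠ 0 := h2 ▸ Units.ne_zero (f (rayClass h𝔫 I))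
    have e : π (τ (u : 𝓞 K)) = 1 := mul_left_cancel₀ hx0 (by
      rw [← map_mul, ← map_mul, hu, h4, mul_one, h2])
    have := hinj (Units.map (τ : 𝓞 K →* 𝓞 K) u) e
    have hu1 : (u : 𝓞 K) = 1 := τ.injective (by rw [map_one]; exact congrArg Units.val this)
    rw [← hu, hu1, mul_one]
  choose zf hz hzf using hpin
  have hf1 : ∀ I : coprimeIdeals 𝔫, rayClass h𝔫 I = 1 → (f (rayClass h𝔫 I) : k) = 1 :=
    fun I h => by rw [h, map_one, Units.val_one]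
  let z : coprimeIdeals 𝔫 →* 𝓞 K :=
    { toFun := zf
      map_one' := huniq 1 _ 1 (hz 1) (hzf 1) (by
          rw [OneMemClass.coe_one, OneMemClass.coe_one, map_one, Ideal.one_eq_top,
            Ideal.span_singleton_one]) (by rw [map_one, map_one, hf1 1 (map_one _)])
      map_mul' := fun I J => huniq (I * J) _ (zf I * zf J) (hz _) (hzf _) (by
          rw [Submonoid.coe_mul, Submonoid.coe_mul, map_mul, hz, hz,
            Ideal.span_singleton_mul_span_singleton]) (by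
          rw [map_mul, map_mul, hzf, hzf, map_mul, map_mul, Units.val_mul]) }
  refine ⟨z, φ.eqLocus ψc, hz, fun x hx => huniq _ _ _ (hz _) (hzf _) (relNorm_span x) ?_,
    fun I g hg hC => ?_, fun I ρ hρ hC h => ?_⟩
  · rw [hf1 _ (((rayClass_eq_iff h𝔫 (I := rayIdeal hx) (J := 1)).mpr
      ⟨1, x, FA.Hecke.isRayElt_one, hx, by simp [rayIdeal]⟩).trans (map_one _))]
    rcases hτc (nm K x) with ⟨e, -⟩ | ⟨e, -⟩
    · rw [e]; exact (hray x hx).1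
    · rw [e]; exact (hray x hx).2
  · have e : φ (rayClass h𝔫 I) = ψc (rayClass h𝔫 I) := hC
    rw [hφ I g (hgen I g hg).1 hg, hψc I g (hgen I g hg).2 hg] at e
    exact (cls_eq_iff π (y := Q.conj g) _ _).mp e
  · by_contra hne'
    have hτρ : π (τ ρ) ≠ (f (rayClass h𝔫 I) : k) := fun h =>
      hne' (huniq _ _ _ (hz _) (hzf _) hρ h)
    obtain ⟨u, hu⟩ := hτ' I ρ hρ
    refine hC ?_
    show φ (rayClass h𝔫 I) = ψc (rayClass h𝔫 I)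
    rw [hφ I ρ (hgen I ρ hρ).1 hρ, hψc I ρ (hgen I ρ hρ).2 hρ]
    rcases hτc ρ with ⟨e1, -⟩ | ⟨e1, -⟩ <;> rw [e1] at hu hτρ <;> rcases h with h | h
    · exact absurd h.symm hτρ
    · exact (cls_eq_iff π (y := Q.conj ρ) _ _).mpr ⟨u, h.symm.trans hu⟩
    · exact ((cls_eq_iff π (x := Q.conj ρ) (y := ρ) _ _).mpr ⟨u, h.symm.trans hu⟩).symm
    · exact absurd h.symm hτρ

/-- **The traces, from a character modulo a further prime.** -/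
theorem IQF.tr_eq_of_choice {𝔫 : Ideal (𝓞 F)} {h𝔫 : 𝔫 ≠ ⊥} {z : coprimeIdeals 𝔫 →* 𝓞 K}
    {C : Subgroup (RayClassGroup 𝔫)}
    (hz : ∀ I, Ideal.relNorm (𝓞 K) I.1.1 = Ideal.span {z I})
    (hzray : ∀ x (hx : IsRayElt 𝔫 x), z (rayIdeal hx) = nm K x)
    {k : Type*} [Field k] (π : 𝓞 K →+* k) {𝔪 : Ideal (𝓞 F)} (h𝔪 : 𝔪 ≠ ⊥) (hmn : 𝔪 ≤ 𝔫)
    (hne : ∀ (I : coprimeIdeals 𝔪) (g : 𝓞 K), Ideal.relNorm (𝓞 K) I.1.1 = Ideal.span {g} →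
      π g ≠ 0 ∧ π (Q.conj g) ≠ 0)
    (hray : ∀ x, IsRayElt 𝔪 x → π (nm K x) = 1 ∧ π (Q.conj (nm K x)) = 1)
    (f : RayClassGroup 𝔪 →* kˣ)
    (hf : ∀ (u : HeightOneSpectrum (𝓞 F)) (hu : u.asIdeal ⊔ 𝔪 = ⊤),
      (f (rayClass h𝔪 ⟨primeIdeal u, hu⟩) : k) * f (rayClass h𝔪 ⟨primeIdeal u, hu⟩) -
          ((a u : ℤ) : k) * f (rayClass h𝔪 ⟨primeIdeal u, hu⟩) +
        ((Ideal.absNorm u.asIdeal : ℕ) : k) = 0)
    (hsel : ∀ (u : HeightOneSpectrum (𝓞 F)) (hu : u.asIdeal ⊔ 𝔪 = ⊤),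
      (Ideal.absNorm u.asIdeal).Prime →
      rayClass h𝔫 ⟨primeIdeal u, coprime_mono hmn hu⟩ ∉ C →
        ∃ ρ, z ⟨primeIdeal u, coprime_mono hmn hu⟩ = ρ ∧ Q.tr ρ = a u ∧
          ρ * Q.conj ρ = (Ideal.absNorm u.asIdeal : 𝓞 K))
    (hy : ∃ (I : coprimeIdeals 𝔪),
      rayClass h𝔫 (⟨I.1, coprime_mono hmn I.2⟩ * ⟨I.1, coprime_mono hmn I.2⟩) ∉ C)
    {v : HeightOneSpectrum (𝓞 F)} (hv : v.asIdeal ⊔ 𝔫 = ⊤) (hvm : v.asIdeal ⊔ 𝔪 = ⊤) :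
    π (Q.tr (z ⟨primeIdeal v, hv⟩)) = π (a v : 𝓞 K) := by
  let ι : coprimeIdeals 𝔪 →* coprimeIdeals 𝔫 :=
    { toFun := fun I => ⟨I.1, coprime_mono hmn I.2⟩
      map_one' := rfl
      map_mul' := fun _ _ => rfl }
  have hhom : ∀ θ : 𝓞 K →+* k, (∀ I, θ (z (ι I)) ≠ 0) → (∀ x, IsRayElt 𝔪 x → θ (nm K x) = 1) →
      ∃ h : RayClassGroup 𝔪 →* kˣ, ∀ I : coprimeIdeals 𝔪,
        (h (rayClass h𝔪 I) : k) = θ (z (ι I)) := fun θ hθ0 hθ1 => by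
    let ω : coprimeIdeals 𝔪 →* kˣ :=
      { toFun := fun I => Units.mk0 _ (hθ0 I)
        map_one' := Units.ext (by rw [Units.val_mk0, map_one, map_one, map_one, Units.val_one])
        map_mul' := fun I J => Units.ext (by
          rw [Units.val_mul, Units.val_mk0, Units.val_mk0, Units.val_mk0, map_mul, map_mul,
            map_mul]) }
    obtain ⟨h, hh⟩ := exists_lift h𝔪 ω fun I J hIJ => Units.ext (by
      obtain ⟨x, y, hx, hy, e⟩ := (rayClass_eq_iff h𝔪).mp hIJ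
      have hx' : IsRayElt 𝔫 x := ⟨hx.1, hmn hx.2.1, hx.2.2⟩
      have hy' : IsRayElt 𝔫 y := ⟨hy.1, hmn hy.2.1, hy.2.2⟩
      have e2 : rayIdeal hx' * ι I = rayIdeal hy' * ι J := Subtype.ext (Subtype.ext e)
      have e3 := congrArg (fun J => θ (z J)) e2
      simp only [map_mul, hzray] at e3
      rw [hθ1 _ hx, hθ1 _ hy, one_mul, one_mul] at e3
      exact e3)
    exact ⟨h, fun I => by rw [hh]; rfl⟩
  obtain ⟨h₁, hh₁⟩ := hhom π (fun I => (hne I _ (hz (ι I))).1) fun x hx => (hray x hx).1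
  obtain ⟨h₂, hh₂⟩ := hhom (π.comp (Q.conj : 𝓞 K →+* 𝓞 K)) (fun I => (hne I _ (hz (ι I))).2)
    fun x hx => (hray x hx).2
  obtain ⟨pn, hpn⟩ := exists_proj h𝔪 h𝔫 hmn
  obtain ⟨I₁, hI₁⟩ := hy
  set y := rayClass h𝔪 I₁
  have hy2 : y * y ∉ C.comap pn := fun h => hI₁ (by
    rw [Subgroup.mem_comap, map_mul, hpn] at h
    rwa [map_mul])
  have hy1 : y ∉ C.comap pn := fun h => hy2 (mul_mem h h)
  have hout : ∀ γ, γ ∉ C.comap pn → f γ = h₁ γ ∨ f γ = h₂ γ := fun γ hγ => by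
    obtain ⟨u, hu, -, hqu, rfl⟩ := exists_degree_one_class h𝔪 γ Set.finite_empty
    obtain ⟨ρ, hzρ, htr, hn⟩ := hsel u hu hqu fun h => hγ (by rw [Subgroup.mem_comap, hpn]; exact h)
    rcases Q.eq_or_of_root π htr hn (hf u hu) with h | h
    · exact Or.inl (Units.ext (h.trans (by rw [hh₁]; exact congrArg π hzρ.symm)))
    · exact Or.inr (Units.ext (h.trans (by
        rw [hh₂]; exact congrArg (fun t => π (Q.conj t)) hzρ.symm)))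
  set x := z ⟨primeIdeal v, hv⟩
  have hxx : x * Q.conj x = (Ideal.absNorm v.asIdeal : 𝓞 K) := by
    rw [Q.mul_conj, show Ideal.span {x} = Ideal.relNorm (𝓞 K) v.asIdeal from
      (hz ⟨primeIdeal v, hv⟩).symm, absNorm_relNorm']
  have hr := hf v hvm
  rw [← map_natCast π, ← hxx, ← map_intCast π, map_mul] at hr
  rw [IQF.tr, map_add]
  rcases eq_or_eq_of_cover hy1 hy2 hout with h | h
  · rw [h, hh₁] at hr
    change π x * π x - _ * π x + _ = 0 at hr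
    exact mul_left_cancel₀ (hne ⟨primeIdeal v, hvm⟩ x (hz ⟨primeIdeal v, hv⟩)).1
      (by linear_combination hr)
  · rw [h, hh₂] at hr
    change π (Q.conj x) * π (Q.conj x) - _ * π (Q.conj x) + _ = 0 at hr
    exact mul_left_cancel₀ (hne ⟨primeIdeal v, hvm⟩ x (hz ⟨primeIdeal v, hv⟩)).2
      (by linear_combination hr)

/-- The generators are no multiples of an inert prime of the modulus. -/
theorem IQF.residue_ne_zero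
    (hroot : ∀ v, D ∉ v.asIdeal → ∃ π : 𝓞 K, Q.tr π = a v ∧
      π * Q.conj π = (Ideal.absNorm v.asIdeal : 𝓞 K))
    {𝔫 : Ideal (𝓞 F)} (h𝔫 : 𝔫 ≠ ⊥) (hD : 𝔫 ≤ Ideal.span {D}) {ℓ : ℕ} (hℓ : ℓ.Prime)
    (hnℓ : 𝔫 ≤ Ideal.span {(ℓ : 𝓞 F)}) (I : coprimeIdeals 𝔫) (g : 𝓞 K)
    (hg : Ideal.relNorm (𝓞 K) I.1.1 = Ideal.span {g}) :
    Ideal.Quotient.mk (Ideal.span {(ℓ : 𝓞 K)}) g ≠ 0 ∧
      Ideal.Quotient.mk (Ideal.span {(ℓ : 𝓞 K)}) (Q.conj g) ≠ 0 := by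
  obtain ⟨G, hG, hG0⟩ := Q.exists_gen hroot h𝔫 hD I
  have hnot : g ∉ Ideal.span {(ℓ : 𝓞 K)} := fun hmem =>
    hG0 ℓ hℓ hnℓ ((Ideal.span_singleton_le_iff_mem _).mp
      (hG.symm.trans hg ▸ (Ideal.span_singleton_le_iff_mem _).mpr hmem))
  exact ⟨fun h => hnot (Ideal.Quotient.eq_zero_iff_mem.mp h),
    fun h => hnot (Q.conj_mem_span_iff.mp (Ideal.Quotient.eq_zero_iff_mem.mp h))⟩

/-- The norms of the ray elements are one modulo an integer of the modulus. -/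
theorem IQF.residue_nm_eq_one {𝔫 : Ideal (𝓞 F)} {ℓ : ℕ} (hnℓ : 𝔫 ≤ Ideal.span {(ℓ : 𝓞 F)})
    {x : 𝓞 F} (hx : IsRayElt 𝔫 x) :
    Ideal.Quotient.mk (Ideal.span {(ℓ : 𝓞 K)}) (nm K x) = 1 ∧
      Ideal.Quotient.mk (Ideal.span {(ℓ : 𝓞 K)}) (Q.conj (nm K x)) = 1 := by
  have h := nm_sub_one_mem (K := K) (hnℓ hx.2.1)
  exact ⟨Ideal.Quotient.eq.mpr h, Ideal.Quotient.eq.mpr (by
    have := Q.conj_mem_span_iff.mpr h; rwa [map_sub, map_one] at this)⟩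

/-- **An ideal whose square is in no class where the two choices agree.** -/
theorem IQF.exists_sq_notMem {w : HeightOneSpectrum (𝓞 F)} {ρ₀ : 𝓞 K}
    (hρ₀ : Ideal.relNorm (𝓞 K) w.asIdeal = Ideal.span {ρ₀}) {ℓ₀ : ℕ}
    (hℓw : (ℓ₀ : 𝓞 F) ∉ w.asIdeal) {q : ℕ} (hq : q.Prime) (hq6 : ¬ (q : ℤ) ∣ 6 * Q.d)
    (hn₀ : ρ₀ * Q.conj ρ₀ = q) (hℓ₀ : ℓ₀.Prime) (hns₀ : ¬ IsSquare (Q.d : ZMod ℓ₀))
    (hlt : 2 * q < ℓ₀) {𝔫 𝔪 : Ideal (𝓞 F)} {h𝔫 : 𝔫 ≠ ⊥} {C : Subgroup (RayClassGroup 𝔫)}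
    (h𝔪 : 𝔪 ≠ ⊥) (hmn : 𝔪 ≤ 𝔫)
    (hC : ∀ I g, Ideal.relNorm (𝓞 K) I.1.1 = Ideal.span {g} → rayClass h𝔫 I ∈ C →
      ∃ e : (𝓞 K)ˣ, Ideal.Quotient.mk (Ideal.span {(ℓ₀ : 𝓞 K)}) (Q.conj g) =
        Ideal.Quotient.mk (Ideal.span {(ℓ₀ : 𝓞 K)}) g *
          Ideal.Quotient.mk (Ideal.span {(ℓ₀ : 𝓞 K)}) (e : 𝓞 K)) :
    ∃ I : coprimeIdeals 𝔪,
      rayClass h𝔫 (⟨I.1, coprime_mono hmn I.2⟩ * ⟨I.1, coprime_mono hmn I.2⟩) ∉ C := by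
  have hℓ₀' : Ideal.span {(ℓ₀ : 𝓞 F)} ≠ ⊥ := by simp [hℓ₀.ne_zero]
  have hwℓ₀ : w.asIdeal ⊔ Ideal.span {(ℓ₀ : 𝓞 F)} = ⊤ := by
    by_contra hne
    exact hℓw ((Ideal.span_singleton_le_iff_mem _).mp
      (le_sup_right.trans (w.isMaximal.eq_of_le hne le_sup_left).ge))
  obtain ⟨v₁, hv₁, hv₁S, -, hγ₁⟩ := exists_degree_one_class hℓ₀'
    (rayClass hℓ₀' ⟨primeIdeal w, hwℓ₀⟩) (S := {u | u.asIdeal ∣ 𝔪}) (Ideal.finite_factors h𝔪)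
  have hv₁m : v₁.asIdeal ⊔ 𝔪 = ⊤ := by
    by_contra hne
    exact hv₁S (Ideal.dvd_iff_le.mpr
      (le_sup_right.trans (v₁.isMaximal.eq_of_le hne le_sup_left).ge))
  obtain ⟨g₁, hg₁, hg₁c⟩ := exists_transport hℓ₀' (I := ⟨primeIdeal v₁, hv₁⟩)
    (J := ⟨primeIdeal w, hwℓ₀⟩) hγ₁ (ρ := ρ₀) hρ₀
  refine ⟨⟨primeIdeal v₁, hv₁m⟩, fun hmem => ?_⟩
  have hg₁' : Ideal.relNorm (𝓞 K) v₁.asIdeal = Ideal.span {g₁} := hg₁
  obtain ⟨e, he⟩ := hC _ (g₁ * g₁) (by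
    show Ideal.relNorm (𝓞 K) (v₁.asIdeal * v₁.asIdeal) = _
    rw [map_mul, hg₁', Ideal.span_singleton_mul_span_singleton]) hmem
  have e1 : Ideal.Quotient.mk (Ideal.span {(ℓ₀ : 𝓞 K)}) g₁ =
      Ideal.Quotient.mk (Ideal.span {(ℓ₀ : 𝓞 K)}) ρ₀ := Ideal.Quotient.eq.mpr (hg₁c ℓ₀ le_rfl)
  have e2 : Ideal.Quotient.mk (Ideal.span {(ℓ₀ : 𝓞 K)}) (Q.conj g₁) =
      Ideal.Quotient.mk (Ideal.span {(ℓ₀ : 𝓞 K)}) (Q.conj ρ₀) := Ideal.Quotient.eq.mpr (by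
      have := Q.conj_mem_span_iff.mpr (hg₁c ℓ₀ le_rfl); rwa [map_sub] at this)
  simp only [map_mul, e1, e2] at he
  simp only [← map_mul] at he
  rw [map_mul Q.conj] at he
  have hnq : Ideal.absNorm (Ideal.span {ρ₀}) = q := by
    have := Q.mul_conj ρ₀; rw [hn₀] at this; exact_mod_cast this.symm
  have hsmall : Q.conj ρ₀ * Q.conj ρ₀ = ρ₀ * ρ₀ * (e : 𝓞 K) := by
    refine Q.eq_of_sub_mem hℓ₀ hns₀ (M := q ^ 2) (Ideal.Quotient.eq.mp he) ?_ ?_ ?_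
    · rw [← Ideal.span_singleton_mul_span_singleton, map_mul, Q.absNorm_conj, hnq, pow_two]
    · rw [← Ideal.span_singleton_mul_span_singleton, ← Ideal.span_singleton_mul_span_singleton,
        Ideal.span_singleton_eq_top.mpr e.isUnit, Ideal.mul_top, map_mul, hnq, pow_two]
    · nlinarith
  refine Q.sq_ne_unit_mul hq hq6 hn₀ e⁻¹ ?_
  rw [pow_two, pow_two, hsmall, mul_comm _ (ρ₀ * ρ₀ * _), mul_assoc (ρ₀ * ρ₀), Units.mul_inv,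
    mul_one]

/-- **The pinned generators.** -/
theorem IQF.exists_pinned (N₀ : ℕ) (hD : D ≠ 0)
    (hroot : ∀ v, D ∉ v.asIdeal → ∃ π : 𝓞 K, Q.tr π = a v ∧
      π * Q.conj π = (Ideal.absNorm v.asIdeal : 𝓞 K))
    (hart : ∀ N : ℕ, ∃ ℓ : ℕ, ℓ.Prime ∧ N < ℓ ∧ ¬ IsSquare (Q.d : ZMod ℓ) ∧
      HasArtinChar K a D ℓ) :
    ∃ (𝔫 : Ideal (𝓞 F)) (_ : 𝔫 ≠ ⊥) (z : coprimeIdeals 𝔫 →* 𝓞 K),
      𝔫 ≤ Ideal.span {D} ∧
      (∀ v : HeightOneSpectrum (𝓞 F), D ∉ v.asIdeal → Ideal.absNorm v.asIdeal ≤ N₀ →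
        v.asIdeal ⊔ 𝔫 = ⊤) ∧
      (∀ I, Ideal.relNorm (𝓞 K) I.1.1 = Ideal.span {z I}) ∧
      (∀ x (hx : IsRayElt 𝔫 x), z (rayIdeal hx) = nm K x) ∧
      ∀ (v : HeightOneSpectrum (𝓞 F)) (hv : v.asIdeal ⊔ 𝔫 = ⊤),
        Q.tr (z ⟨primeIdeal v, hv⟩) = a v := by
  -- an ordinary prime of degree one
  have hD6 : Ideal.span {D * ((6 * Q.d : ℤ) : 𝓞 F)} ≠ ⊥ := by
    simp only [ne_eq, Ideal.span_singleton_eq_bot, mul_eq_zero, hD, false_or, Int.cast_eq_zero]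
    exact not_or.mpr ⟨by norm_num, Q.hd0.ne⟩
  obtain ⟨w, hw, -, hq, -⟩ := exists_degree_one_class hD6 1 Set.finite_empty
  have hwD : D ∉ w.asIdeal :=
    not_mem_of_le hw (Ideal.span_singleton_le_span_singleton.mpr (dvd_mul_right _ _))
  obtain ⟨ρ₀, hρ₀, -, hn₀⟩ := Q.exists_relNorm_prime hq (hroot w hwD)
  set q := Ideal.absNorm w.asIdeal with hqdef
  have hqw : (q : 𝓞 F) ∈ w.asIdeal := Ideal.absNorm_mem _
  have hq6 : ¬ (q : ℤ) ∣ 6 * Q.d := fun ⟨c, hc⟩ =>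
    not_mem_of_le hw (Ideal.span_singleton_le_span_singleton.mpr (dvd_mul_left _ _)) (by
      rw [hc, Int.cast_mul, Int.cast_natCast]
      exact Ideal.mul_mem_right _ _ hqw)
  -- the large inert prime
  obtain ⟨ℓ₀, hℓ₀, hℓN, hns₀, 𝔪₁, h𝔪₁, f₁, hcov₁, hf₁⟩ := hart (2 * q + 2 + N₀)
  have hℓw : (ℓ₀ : 𝓞 F) ∉ w.asIdeal := not_mem_of_absNorm_lt hℓ₀ (by omega)
  haveI := Q.isMaximal_span hℓ₀ hns₀
  letI := Ideal.Quotient.field (Ideal.span {(ℓ₀ : 𝓞 K)})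
  set 𝔫 : Ideal (𝓞 F) := 𝔪₁ * Ideal.span {(ℓ₀ : 𝓞 F)} * Ideal.span {D}
  have h𝔫 : 𝔫 ≠ ⊥ := mul_ne_zero (mul_ne_zero h𝔪₁ (by simp [hℓ₀.ne_zero])) (by simpa using hD)
  have hn1 : 𝔫 ≤ 𝔪₁ := Ideal.mul_le_left.trans Ideal.mul_le_left
  have hnℓ : 𝔫 ≤ Ideal.span {(ℓ₀ : 𝓞 F)} := Ideal.mul_le_left.trans Ideal.mul_le_right
  have hnD : 𝔫 ≤ Ideal.span {D} := Ideal.mul_le_right
  obtain ⟨p, hp⟩ := exists_proj h𝔫 h𝔪₁ hn1
  obtain ⟨z, C, hz, hzray, hC, hsel⟩ := Q.exists_choice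
    (Ideal.Quotient.mk (Ideal.span {(ℓ₀ : 𝓞 K)})) h𝔫
    (Q.residue_ne_zero hroot h𝔫 hnD hℓ₀ hnℓ)
    (fun I => (Q.exists_gen hroot h𝔫 hnD I).imp fun g hg => hg.1)
    (fun x hx => Q.residue_nm_eq_one hnℓ hx)
    (fun u hu => Q.unit_eq_one hℓ₀ hns₀ (by omega) hu) Ideal.Quotient.mk_surjective
    (f₁.comp p).toHomUnits fun γ => by
      obtain ⟨u, hu, -, hqu, rfl⟩ := exists_degree_one_class h𝔫 γ Set.finite_empty
      obtain ⟨ρ, hρ, htr, hn⟩ := Q.exists_relNorm_prime hqu (hroot u (not_mem_of_le hu hnD))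
      refine ⟨_, ρ, rfl, hρ, Q.eq_or_of_root _ htr hn ?_⟩
      rw [MonoidHom.coe_toHomUnits, MonoidHom.comp_apply, hp]
      exact hf₁ u _ (not_mem_of_le hu hnD) (not_mem_of_le hu hnℓ)
  refine ⟨𝔫, h𝔫, z, hnD, fun v hvD hvN => ?_, hz, hzray, fun v hv => ?_⟩
  · have hℓv : (ℓ₀ : 𝓞 F) ∉ v.asIdeal := not_mem_of_absNorm_lt hℓ₀ (by omega)
    by_contra hne'
    have hle : 𝔫 ≤ v.asIdeal := le_sup_right.trans (v.isMaximal.eq_of_le hne' le_sup_left).ge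
    rcases v.isPrime.mul_le.mp hle with h | h
    · rcases v.isPrime.mul_le.mp h with h | h
      · exact v.isPrime.ne_top (top_le_iff.mp (hcov₁ v hvD hℓv ▸ sup_le le_rfl h))
      · exact hℓv ((Ideal.span_singleton_le_iff_mem _).mp h)
    · exact hvD ((Ideal.span_singleton_le_iff_mem _).mp h)
  -- the traces, by the characters at all large inert primes
  obtain ⟨A, -, -, -, -, htrA, -, -⟩ := Q.exists_coord (z ⟨primeIdeal v, hv⟩)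
  obtain ⟨ℓ, hℓ, hℓlt, hns, 𝔪₂, h𝔪₂, f₂, hcov₂, hf₂⟩ :=
    hart (Ideal.absNorm v.asIdeal + 2 * A.natAbs + 2 * (a v).natAbs + 2)
  have hℓv : (ℓ : 𝓞 F) ∉ v.asIdeal := not_mem_of_absNorm_lt hℓ (by omega)
  haveI := Q.isMaximal_span hℓ hns
  letI := Ideal.Quotient.field (Ideal.span {(ℓ : 𝓞 K)})
  set 𝔪 : Ideal (𝓞 F) := 𝔫 * 𝔪₂ * Ideal.span {(ℓ : 𝓞 F)}
  have h𝔪 : 𝔪 ≠ ⊥ := mul_ne_zero (mul_ne_zero h𝔫 h𝔪₂) (by simp [hℓ.ne_zero])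
  have hmn : 𝔪 ≤ 𝔫 := Ideal.mul_le_left.trans Ideal.mul_le_left
  have hm2 : 𝔪 ≤ 𝔪₂ := Ideal.mul_le_left.trans Ideal.mul_le_right
  have hmℓ : 𝔪 ≤ Ideal.span {(ℓ : 𝓞 F)} := Ideal.mul_le_right
  obtain ⟨p₂, hp₂⟩ := exists_proj h𝔪 h𝔪₂ hm2
  have hvm : v.asIdeal ⊔ 𝔪 = ⊤ := by
    by_contra hne'
    have hle : 𝔪 ≤ v.asIdeal := le_sup_right.trans (v.isMaximal.eq_of_le hne' le_sup_left).ge
    rcases v.isPrime.mul_le.mp hle with h | h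
    · rcases v.isPrime.mul_le.mp h with h | h
      · exact v.isPrime.ne_top (top_le_iff.mp (hv ▸ sup_le le_rfl h))
      · exact v.isPrime.ne_top (top_le_iff.mp
          (hcov₂ v (not_mem_of_le hv hnD) hℓv ▸ sup_le le_rfl h))
    · exact hℓv ((Ideal.span_singleton_le_iff_mem _).mp h)
  have hta := Q.tr_eq_of_choice (C := C) hz hzray
    (Ideal.Quotient.mk (Ideal.span {(ℓ : 𝓞 K)})) h𝔪 hmn
    (Q.residue_ne_zero hroot h𝔪 (hmn.trans hnD) hℓ hmℓ) (fun x hx => Q.residue_nm_eq_one hmℓ hx)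
    (f₂.comp p₂).toHomUnits (fun u hu => by
      rw [MonoidHom.coe_toHomUnits, MonoidHom.comp_apply, hp₂]
      exact hf₂ u _ (not_mem_of_le hu (hmn.trans hnD)) (not_mem_of_le hu hmℓ))
    (fun u hu hqu hnotC => by
      have hun := coprime_mono hmn hu
      obtain ⟨ρ, hρ, htr, hn⟩ := Q.exists_relNorm_prime hqu (hroot u (not_mem_of_le hun hnD))
      refine ⟨ρ, hsel _ ρ hρ hnotC (Q.eq_or_of_root _ htr hn ?_), htr, hn⟩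
      rw [MonoidHom.coe_toHomUnits, MonoidHom.comp_apply, hp]
      exact hf₁ u _ (not_mem_of_le hun hnD) (not_mem_of_le hun hnℓ))
    (Q.exists_sq_notMem hρ₀ hℓw hq hq6 hn₀ hℓ₀ hns₀ (by omega) h𝔪 hmn hC) hv hvm
  rw [htrA] at hta ⊢
  exact Q.eq_of_sub_mem hℓ hns (M := A.natAbs ^ 2 + (a v).natAbs ^ 2) (Ideal.Quotient.eq.mp hta)
    (by rw [Q.absNorm_span_intCast]; nlinarith) (by rw [Q.absNorm_span_intCast]; nlinarith)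
    (by nlinarith [Nat.zero_le A.natAbs, Nat.zero_le (a v).natAbs])

/-- **Two pinned choices agree.** -/
theorem IQF.pinned_agree
    {𝔫 𝔫' : Ideal (𝓞 F)} (h𝔫 : 𝔫 ≠ ⊥) (h𝔫' : 𝔫' ≠ ⊥)
    {z : coprimeIdeals 𝔫 →* 𝓞 K} {z' : coprimeIdeals 𝔫' →* 𝓞 K}
    (hz : ∀ I, Ideal.relNorm (𝓞 K) I.1.1 = Ideal.span {z I})
    (hz' : ∀ I, Ideal.relNorm (𝓞 K) I.1.1 = Ideal.span {z' I})
    (hray : ∀ x (hx : IsRayElt 𝔫 x), z (rayIdeal hx) = nm K x)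
    (hray' : ∀ x (hx : IsRayElt 𝔫' x), z' (rayIdeal hx) = nm K x)
    (htr : ∀ (v : HeightOneSpectrum (𝓞 F)) (hv : v.asIdeal ⊔ 𝔫 = ⊤),
      Q.tr (z ⟨primeIdeal v, hv⟩) = a v)
    (htr' : ∀ (v : HeightOneSpectrum (𝓞 F)) (hv : v.asIdeal ⊔ 𝔫' = ⊤),
      Q.tr (z' ⟨primeIdeal v, hv⟩) = a v)
    (I : coprimeIdeals (𝔫 * 𝔫')) :
    z ⟨I.1, coprime_mono Ideal.mul_le_left I.2⟩ =
      z' ⟨I.1, coprime_mono Ideal.mul_le_right I.2⟩ := by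
  have hm : 𝔫 * 𝔫' ≠ ⊥ := mul_ne_zero h𝔫 h𝔫'
  have h6 : Ideal.span {((6 * Q.d : ℤ) : 𝓞 F)} ≠ ⊥ := by
    simp only [ne_eq, Ideal.span_singleton_eq_bot, Int.cast_eq_zero]
    exact mul_ne_zero (by norm_num) Q.hd0.ne
  obtain ⟨v, hv, hvS, hq, hγ⟩ := exists_degree_one_class hm (rayClass hm I)
    (S := {u | u.asIdeal ∣ Ideal.span {((6 * Q.d : ℤ) : 𝓞 F)}}) (Ideal.finite_factors h6)
  have hv1 := coprime_mono (Ideal.mul_le_left : 𝔫 * 𝔫' ≤ 𝔫) hv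
  have hv2 := coprime_mono (Ideal.mul_le_right : 𝔫 * 𝔫' ≤ 𝔫') hv
  set q := Ideal.absNorm v.asIdeal
  have hq6 : ¬ (q : ℤ) ∣ 6 * Q.d := fun ⟨c, hc⟩ => hvS (by
    show v.asIdeal ∣ _
    rw [Ideal.dvd_span_singleton, hc, Int.cast_mul, Int.cast_natCast]
    exact Ideal.mul_mem_right _ _ (Ideal.absNorm_mem _))
  set ρ := z ⟨primeIdeal v, hv1⟩ with hρdef
  set ρ' := z' ⟨primeIdeal v, hv2⟩ with hρ'def
  have hs : Ideal.relNorm (𝓞 K) v.asIdeal = Ideal.span {ρ} := hz ⟨primeIdeal v, hv1⟩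
  have hs' : Ideal.relNorm (𝓞 K) v.asIdeal = Ideal.span {ρ'} := hz' ⟨primeIdeal v, hv2⟩
  have hn : ρ * Q.conj ρ = (q : 𝓞 K) := by rw [Q.mul_conj, ← hs, absNorm_relNorm']
  have hn' : ρ' * Q.conj ρ' = (q : 𝓞 K) := by rw [Q.mul_conj, ← hs', absNorm_relNorm']
  have hsum : ρ' + Q.conj ρ' = ρ + Q.conj ρ := (htr' v hv2).trans (htr v hv1).symm
  have hρ : ρ' = ρ := by
    have h2 : (ρ' - ρ) * (ρ' - Q.conj ρ) = 0 := by
      linear_combination ρ' * hsum + hn - hn'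
    rcases mul_eq_zero.mp h2 with h | h
    · exact sub_eq_zero.mp h
    · exfalso
      obtain ⟨u, hu⟩ := Ideal.span_singleton_eq_span_singleton.mp (hs.symm.trans hs')
      rw [sub_eq_zero.mp h] at hu
      refine Q.sq_ne_unit_mul hq hq6 hn (u⁻¹ * u⁻¹) ?_
      rw [← hu, mul_pow, Units.val_mul, mul_comm (ρ ^ 2), ← mul_assoc, pow_two (u : 𝓞 K),
        mul_assoc ((u⁻¹ : (𝓞 K)ˣ) : 𝓞 K), ← mul_assoc ((u⁻¹ : (𝓞 K)ˣ) : 𝓞 K) (u : 𝓞 K),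
        Units.inv_mul, one_mul, Units.inv_mul, one_mul]
  obtain ⟨x, y, hx, hy, e⟩ := (rayClass_eq_iff hm).mp hγ.symm
  have hx1 : IsRayElt 𝔫 x := ⟨hx.1, Ideal.mul_le_left hx.2.1, hx.2.2⟩
  have hy1 : IsRayElt 𝔫 y := ⟨hy.1, Ideal.mul_le_left hy.2.1, hy.2.2⟩
  have hx2 : IsRayElt 𝔫' x := ⟨hx.1, Ideal.mul_le_right hx.2.1, hx.2.2⟩
  have hy2 : IsRayElt 𝔫' y := ⟨hy.1, Ideal.mul_le_right hy.2.1, hy.2.2⟩
  have e1 : rayIdeal hx1 * ⟨I.1, coprime_mono Ideal.mul_le_left I.2⟩ =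
      rayIdeal hy1 * ⟨primeIdeal v, hv1⟩ := Subtype.ext (Subtype.ext e)
  have e2 : rayIdeal hx2 * ⟨I.1, coprime_mono Ideal.mul_le_right I.2⟩ =
      rayIdeal hy2 * ⟨primeIdeal v, hv2⟩ := Subtype.ext (Subtype.ext e)
  have e1' := congrArg z e1
  have e2' := congrArg z' e2
  rw [map_mul, map_mul, hray, hray, ← hρdef] at e1'
  rw [map_mul, map_mul, hray', hray', ← hρ'def, hρ] at e2'
  exact mul_left_cancel₀ (nm_ne_zero hx.1) (e1'.trans e2'.symm)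

end FA.DeuringCM

end
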