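import Fermat.Agent.DeuringCM.Artin
import Fermat.Agent.DeuringCM.Character

/-!
# The Hecke character of a curve with complex multiplication
-/

set_option autoImplicit false
set_option linter.style.haveILetI false
set_option linter.unusedSectionVars false

noncomputable section

open WeierstrassCurve NumberField IsDedekindDomain
open FA.TraceNF (frobTrace)
open FA.AlgHecke (IsAlgChar)
open FA.Hecke (coprimeIdeals IsRayElt)
open FA.Ext (primeIdeal)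
open scoped WeierstrassCurve.Affine nonZeroDivisors Classical ComplexConjugate

namespace FA.DeuringCM

/-- Conjugation of the quadratic field is complex conjugation. -/
theorem IQF.map_conj {K : Type*} [Field K] [NumberField K] (Q : IQF K) (ψ₀ : K →+* ℂ)
    (x : 𝓞 K) : ψ₀ ((Q.conj x : 𝓞 K) : K) = conj (ψ₀ (x : K)) := by
  obtain ⟨A, B, N, h2, -⟩ := Q.exists_coord x
  have hs : conj (ψ₀ Q.s) = -ψ₀ Q.s := by
    have h := congrArg ψ₀ Q.hs
    rw [map_pow, map_intCast] at h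
    have hre : (ψ₀ Q.s).re = 0 := by
      have him := congrArg Complex.im h
      have hre' := congrArg Complex.re h
      simp only [pow_two, Complex.mul_re, Complex.mul_im, Complex.intCast_re, Complex.intCast_im]
        at him hre'
      by_contra hne
      have hi : (ψ₀ Q.s).im = 0 := (mul_eq_zero.mp (show (ψ₀ Q.s).re * (ψ₀ Q.s).im = 0 by
        linarith)).resolve_left hne
      rw [hi, mul_zero, sub_zero] at hre'
      have : (Q.d : ℝ) < 0 := by exact_mod_cast Q.hd0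
      nlinarith [mul_self_nonneg (ψ₀ Q.s).re]
    exact Complex.ext (by simp [hre]) (by simp)
  have e1 := congrArg ψ₀ (Q.coe_conj_s h2)
  have e2 := congrArg (fun t => conj (ψ₀ t)) h2
  simp only [map_mul, map_ofNat, map_sub, map_add, map_intCast, hs] at e1 e2
  refine mul_left_cancel₀ (two_ne_zero (α := ℂ)) ?_
  linear_combination e1 - e2

variable {F : Type} [Field F] [NumberField F]

/-- **A character with values in the conjugate pairs of traces `a` and norms.** -/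
theorem exists_char_of_subfield {K : Type*} [Field K] [NumberField K] (Q : IQF K) [Algebra K F]
    (ψ₀ : K →+* ℂ) {a : HeightOneSpectrum (𝓞 F) → ℤ} {D : 𝓞 F} (hD : D ≠ 0)
    (hroot : ∀ v, D ∉ v.asIdeal → ∃ π : 𝓞 K, Q.tr π = a v ∧
      π * Q.conj π = (Ideal.absNorm v.asIdeal : 𝓞 K))
    (hart : ∀ N : ℕ, ∃ ℓ : ℕ, ℓ.Prime ∧ N < ℓ ∧ ¬ IsSquare (Q.d : ZMod ℓ) ∧
      HasArtinChar K a D ℓ) :
    ∃ (𝔪 : ℕ → Ideal (𝓞 F)) (f : ℕ → Ideal (𝓞 F) →* ℂ),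
      ∀ N : ℕ, IsAlgChar (𝔪 N) (nType ψ₀) (f N) ∧
      (∀ v : HeightOneSpectrum (𝓞 F), v.asIdeal ⊔ 𝔪 N = ⊤ → D ∉ v.asIdeal ∧
        f N v.asIdeal + conj (f N v.asIdeal) = a v ∧
        f N v.asIdeal * conj (f N v.asIdeal) = (Ideal.absNorm v.asIdeal : ℂ)) ∧
      (∀ v : HeightOneSpectrum (𝓞 F), D ∉ v.asIdeal → Ideal.absNorm v.asIdeal ≤ N →
        v.asIdeal ⊔ 𝔪 N = ⊤) ∧
      ∀ (M : ℕ) (v : HeightOneSpectrum (𝓞 F)), v.asIdeal ⊔ 𝔪 N = ⊤ → v.asIdeal ⊔ 𝔪 M = ⊤ →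
        f N v.asIdeal = f M v.asIdeal := by
  let ev : 𝓞 K →+* ℂ := ψ₀.comp (algebraMap (𝓞 K) K)
  choose 𝔪 h𝔪 z hnD hcov hz hzray htr using fun N => Q.exists_pinned N hD hroot hart
  suffices hf : ∀ N, ∃ f : Ideal (𝓞 F) →* ℂ, IsAlgChar (𝔪 N) (nType ψ₀) f ∧
      (∀ v : HeightOneSpectrum (𝓞 F), v.asIdeal ⊔ 𝔪 N = ⊤ → D ∉ v.asIdeal ∧
        f v.asIdeal + conj (f v.asIdeal) = a v ∧
        f v.asIdeal * conj (f v.asIdeal) = (Ideal.absNorm v.asIdeal : ℂ)) ∧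
      ∀ I : coprimeIdeals (𝔪 N), f I.1.1 = ev (z N I) by
    choose f hf1 hf2 hf3 using hf
    refine ⟨𝔪, f, fun N => ⟨hf1 N, hf2 N, hcov N, fun M v h1 h2 => ?_⟩⟩
    rw [show f N v.asIdeal = ev (z N ⟨primeIdeal v, h1⟩) from hf3 N ⟨primeIdeal v, h1⟩,
      show f M v.asIdeal = ev (z M ⟨primeIdeal v, h2⟩) from hf3 M ⟨primeIdeal v, h2⟩]
    refine congrArg ev (Q.pinned_agree (h𝔪 N) (h𝔪 M) (hz N) (hz M) (hzray N) (hzray M) (htr N)
      (htr M) ⟨primeIdeal v, by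
        show v.asIdeal ⊔ _ = ⊤
        rw [sup_comm] at h1 h2 ⊢
        exact FA.Hecke.mul_sup_eq_top.mpr ⟨h1, h2⟩⟩)
  intro N
  let 𝔫 := 𝔪 N
  let f : Ideal (𝓞 F) →* ℂ :=
    { toFun := fun I => if h : I ≠ ⊥ ∧ I ⊔ 𝔫 = ⊤ then
        ev (z N ⟨⟨I, mem_nonZeroDivisors_iff_ne_zero.mpr h.1⟩, h.2⟩) else 0
      map_one' := by
        rw [dif_pos ⟨(one_ne_zero : (1 : Ideal (𝓞 F)) ≠ 0), by simp [Ideal.one_eq_top]⟩]
        show ev (z N 1) = 1
        rw [map_one, map_one]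
      map_mul' := fun I J => by
        by_cases hI : I ≠ ⊥ ∧ I ⊔ 𝔫 = ⊤
        · by_cases hJ : J ≠ ⊥ ∧ J ⊔ 𝔫 = ⊤
          · rw [dif_pos hI, dif_pos hJ,
              dif_pos ⟨mul_ne_zero hI.1 hJ.1, FA.Hecke.mul_sup_eq_top.mpr ⟨hI.2, hJ.2⟩⟩, ← map_mul,
              ← map_mul]
            rfl
          · rw [dif_neg hJ, mul_zero, dif_neg fun h => hJ ⟨right_ne_zero_of_mul h.1,
              (FA.Hecke.mul_sup_eq_top.mp h.2).2⟩]
        · rw [dif_neg hI, zero_mul, dif_neg fun h => hI ⟨left_ne_zero_of_mul h.1,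
            (FA.Hecke.mul_sup_eq_top.mp h.2).1⟩] }
  have hf : ∀ I : coprimeIdeals 𝔫, f I.1.1 = ev (z N I) := fun I =>
    dif_pos ⟨nonZeroDivisors.coe_ne_zero I.1, I.2⟩
  refine ⟨f, ⟨h𝔪 N, fun I hI => ?_, fun x hx => ?_⟩, fun v hv => ⟨not_mem_of_le hv (hnD N), ?_⟩,
    hf⟩
  · show (if h : I ≠ ⊥ ∧ I ⊔ 𝔫 = ⊤ then _ else 0) ≠ 0 ↔ _
    split_ifs with h
    · refine iff_of_true (fun e => ?_) h.2
      have e' := hz N ⟨⟨I, mem_nonZeroDivisors_iff_ne_zero.mpr h.1⟩, h.2⟩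
      rw [(map_eq_zero_iff ev (ψ₀.injective.comp RingOfIntegers.coe_injective)).mp e,
        Ideal.span_singleton_eq_bot.mpr rfl, Ideal.relNorm_eq_bot_iff] at e'
      exact h.1 e'
    · exact iff_of_false (fun h0 => h0 rfl) fun hc => h ⟨hI, hc⟩
  · rw [typeVal_nType, show Ideal.span {x} = (rayIdeal hx).1.1 from rfl, hf, hzray N x hx]
    rfl
  · have e : f v.asIdeal = ev (z N ⟨primeIdeal v, hv⟩) := hf ⟨primeIdeal v, hv⟩
    have hc : conj (f v.asIdeal) = ev (Q.conj (z N ⟨primeIdeal v, hv⟩)) := by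
      rw [e]
      exact (Q.map_conj ψ₀ _).symm
    rw [e] at hc ⊢
    rw [hc, ← map_add, ← map_mul]
    refine ⟨?_, ?_⟩
    · rw [show z N ⟨primeIdeal v, hv⟩ + Q.conj (z N ⟨primeIdeal v, hv⟩) = (a v : 𝓞 K) from
        htr N v hv,
        map_intCast]
    · rw [Q.mul_conj, ← hz N, absNorm_relNorm', map_natCast]
      rfl

variable (W₀ : WeierstrassCurve (𝓞 F)) [(W₀.map (algebraMap (𝓞 F) F)).IsElliptic]

local notation "W" => W₀.map (algebraMap (𝓞 F) F)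

/-- The characters at all bounds. -/
theorem exists_hecke_chars (ψ : F →+* ℂ) {d : ℤ} (hd : Squarefree d) (hd0 : d < 0) {s : F}
    (hs : s ^ 2 = (d : F))
    (hcm : ∃ L : PeriodPair, L.g₂ = ψ (W).c₄ / 12 ∧ L.g₃ = ψ (W).c₆ / 216 ∧
      ∃ ω : ℂ, (∀ m : ℤ, ω ≠ m) ∧ (∀ l ∈ L.lattice, ω * l ∈ L.lattice) ∧
        ∃ x y : ℚ, (ω - (x : ℂ)) ^ 2 = (d : ℂ) * (y : ℂ) ^ 2) :
    ∃ (𝔪 : ℕ → Ideal (𝓞 F)) (f : ℕ → Ideal (𝓞 F) →* ℂ),
      ∀ N : ℕ, IsAlgChar (𝔪 N) (fun σ => if σ s = ψ s then 1 else 0) (f N) ∧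
      (∀ v : HeightOneSpectrum (𝓞 F), v.asIdeal ⊔ 𝔪 N = ⊤ → W₀.Δ ∉ v.asIdeal ∧
        f N v.asIdeal + conj (f N v.asIdeal) = frobTrace W₀ v ∧
        f N v.asIdeal * conj (f N v.asIdeal) = (Ideal.absNorm v.asIdeal : ℂ)) ∧
      (∀ v : HeightOneSpectrum (𝓞 F), W₀.Δ ∉ v.asIdeal → Ideal.absNorm v.asIdeal ≤ N →
        v.asIdeal ⊔ 𝔪 N = ⊤) ∧
      ∀ (M : ℕ) (v : HeightOneSpectrum (𝓞 F)), v.asIdeal ⊔ 𝔪 N = ⊤ → v.asIdeal ⊔ 𝔪 M = ⊤ →
        f N v.asIdeal = f M v.asIdeal := by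
  let K := IntermediateField.adjoin ℚ ({s} : Set F)
  haveI : NumberField K := { }
  have hsK : s ∈ K := IntermediateField.mem_adjoin_simple_self ℚ s
  have hint : IsIntegral ℚ s := Algebra.IsIntegral.isIntegral s
  have hK : Module.finrank ℚ K = 2 := by
    rw [IntermediateField.adjoin.finrank hint]
    refine le_antisymm ?_ ((minpoly.two_le_natDegree_iff hint).mpr fun ⟨r, hr⟩ => ?_)
    · have hdvd : minpoly ℚ s ∣ Polynomial.X ^ 2 - Polynomial.C (d : ℚ) :=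
        minpoly.dvd ℚ s (by simp [hs])
      exact (Polynomial.natDegree_le_of_dvd hdvd
        (Polynomial.X_pow_sub_C_ne_zero two_pos _)).trans_eq (Polynomial.natDegree_X_pow_sub_C)
    · have h2 : r ^ 2 = (d : ℚ) := (algebraMap ℚ F).injective (by rw [map_pow, hr, hs, map_intCast])
      have : (d : ℚ) < 0 := by exact_mod_cast hd0
      nlinarith [sq_nonneg r]
  let Q : IQF K := ⟨d, ⟨s, hsK⟩, hd, hd0, Subtype.ext (by simpa using hs), hK⟩
  obtain ⟨L, hg2, hg3, ω, hω, hst, x, y, hxy⟩ := hcm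
  have hD : W₀.Δ ≠ 0 := fun h => (W).isUnit_Δ.ne_zero (by rw [map_Δ, h, map_zero])
  obtain ⟨A, B, C, D, c, h1, h2, hB, hquad, hdisc, -⟩ := exists_matrix_disc hd hω hst hxy
  obtain ⟨𝔪, f, hv⟩ := exists_char_of_subfield Q (ψ.comp (algebraMap K F))
    (a := frobTrace W₀) hD
    (fun v hΔ => by
      obtain ⟨b, hb⟩ := FA.JugendtraumField.frobTrace_normEquation W₀ ψ hd
        ⟨L, hg2, hg3, ω, hω, hst, x, y, hxy⟩ hs hΔ
      obtain ⟨π, e1, e2, -⟩ := Q.exists_trace_norm hb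
      exact ⟨π, e1, e2⟩)
    fun N => by
      obtain ⟨ℓ, hℓ, hlt, hns⟩ := Q.exists_inert (max N B.natAbs)
      have hℓB : ¬ (ℓ : ℤ) ∣ B := fun hdvd => by
        have := Nat.le_of_dvd (Int.natAbs_pos.mpr hB) (Int.natCast_dvd.mp hdvd)
        have := le_max_right N B.natAbs
        omega
      obtain ⟨θ, g, hcomm, hg, hθθ, hind, hgen⟩ := exists_cyclic (Kb := AlgebraicClosure F) (W) ψ
        hg2 hg3 hω hst h1 h2 hquad hdisc hs hℓ hℓB
      obtain ⟨w, hw⟩ := Q.exists_order_gen hdisc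
      exact ⟨ℓ, hℓ, lt_of_le_of_lt (le_max_left _ _) hlt, hns,
        exists_artin_char W₀ θ g hℓ hcomm hg hθθ hind hgen hw⟩
  refine ⟨𝔪, f, fun N => ⟨?_, (hv N).2⟩⟩
  suffices hn : (fun σ : F →+* ℂ => if σ s = ψ s then (1 : ℤ) else 0) =
      nType (ψ.comp (algebraMap K F)) by
    rw [hn]; exact (hv N).1
  funext σ
  rw [nType]
  refine if_congr ⟨fun h => RingHom.ext fun k => ?_, fun h => RingHom.congr_fun h ⟨s, hsK⟩⟩ rfl rfl
  obtain ⟨k, hk⟩ := k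
  show σ k = ψ k
  induction hk using IntermediateField.adjoin_induction with
  | mem u hu => rw [Set.mem_singleton_iff.mp hu, h]
  | algebraMap u => simp
  | add u v _ _ hu hv => rw [map_add, map_add, hu, hv]
  | inv u _ hu => rw [map_inv₀, map_inv₀, hu]
  | mul u v _ _ hu hv => rw [map_mul, map_mul, hu, hv]

end FA.DeuringCM

end
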