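import Fermat.Agent.DeuringCM.Descent

/-!
# The L-series of a curve without `√d`

Grouping the primes of `F (√d)` by the primes of `F` under them turns the L-series of the character
into that of the curve, and `f (τ w) = conj (f w)` makes the completed series real.
-/

set_option autoImplicit false
set_option linter.style.haveILetI false
set_option linter.unusedSectionVars false

noncomputable section

open WeierstrassCurve NumberField NumberField.InfinitePlace IsDedekindDomain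
open FA.TraceNF (frobTrace)
open FA.AlgHecke (IsAlgChar IsNormPower)
open scoped WeierstrassCurve.Affine nonZeroDivisors Pointwise Classical ComplexConjugate

namespace FA.DeuringCM

section Fibres

variable {F : Type} [Field F] [NumberField F] {E : Type} [Field E] [NumberField E] [Algebra F E]

theorem hasProd_fibres {h : HeightOneSpectrum (𝓞 E) → ℂ} {L : ℂ} (hp : HasProd h L)
    {g : HeightOneSpectrum (𝓞 F) → ℂ}
    (hg : ∀ v : HeightOneSpectrum (𝓞 F), ∃ s : Finset (HeightOneSpectrum (𝓞 E)),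
      (∀ w, w ∈ s ↔ w.under (𝓞 F) = v) ∧ ∏ w ∈ s, h w = g v) : HasProd g L :=
  ((Equiv.sigmaFiberEquiv fun w : HeightOneSpectrum (𝓞 E) =>
    w.under (𝓞 F)).hasProd_iff.mpr hp).sigma fun v => by
      obtain ⟨s, hs, e⟩ := hg v
      rw [← e]
      exact ((Equiv.subtypeEquivRight hs).hasProd_iff).mp (s.hasProd h)

theorem under_conjPlace (τ : E ≃ₐ[F] E) (w : HeightOneSpectrum (𝓞 E)) :
    (conjPlace τ w).under (𝓞 F) = w.under (𝓞 F) :=
  HeightOneSpectrum.ext (Ideal.under_smul (𝓞 F) w.asIdeal τ)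

/-- **The places over a place, in a quadratic extension.** -/
theorem fibre_cases [IsGalois F E] (hdeg : Module.finrank F E = 2) {τ : E ≃ₐ[F] E} (hτ : τ ≠ 1)
    (v : HeightOneSpectrum (𝓞 F)) :
    ∃ w : HeightOneSpectrum (𝓞 E), w.asIdeal.under (𝓞 F) = v.asIdeal ∧
      ((τ • w.asIdeal = w.asIdeal ∧ (Ideal.absNorm w.asIdeal = Ideal.absNorm v.asIdeal ∨
          Ideal.absNorm w.asIdeal = Ideal.absNorm v.asIdeal ^ 2) ∧
          ∀ w', w' ∈ ({w} : Finset _) ↔ w'.under (𝓞 F) = v) ∨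
        (τ • w.asIdeal ≠ w.asIdeal ∧ Ideal.absNorm w.asIdeal = Ideal.absNorm v.asIdeal ∧
          ∀ w', w' ∈ ({w, conjPlace τ w} : Finset _) ↔ w'.under (𝓞 F) = v)) := by
  haveI := v.isMaximal
  obtain ⟨P, hP, hPv⟩ := Ideal.exists_maximal_ideal_liesOver_of_isIntegral (S := 𝓞 E) v.asIdeal
  let w : HeightOneSpectrum (𝓞 E) :=
    ⟨P, hP.isPrime, Ring.ne_bot_of_isMaximal_of_not_isField hP (RingOfIntegers.not_isField _)⟩
  have hwv : w.asIdeal.under (𝓞 F) = v.asIdeal := hPv.over.symm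
  have hv : w.under (𝓞 F) = v := HeightOneSpectrum.ext hwv
  refine ⟨w, hwv, ?_⟩
  haveI := w.isMaximal
  haveI : w.asIdeal.LiesOver v.asIdeal := ⟨hwv.symm⟩
  have hcard : Nat.card (E ≃ₐ[F] E) = 2 := by rw [IsGalois.card_aut_eq_finrank, hdeg]
  have horb : ∀ w' : HeightOneSpectrum (𝓞 E), w'.under (𝓞 F) = v →
      w' = w ∨ w' = conjPlace τ w := fun w' hw' => by
    haveI := w'.isPrime
    obtain ⟨σ, hσ⟩ := Algebra.IsInvariant.exists_smul_of_under_eq (𝓞 F) (𝓞 E) (E ≃ₐ[F] E)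
      w.asIdeal w'.asIdeal (hwv.trans (congrArg HeightOneSpectrum.asIdeal hw').symm)
    rcases (show σ = 1 ∨ σ = τ by
      by_contra h
      rw [not_or] at h
      have h3 := Finset.card_le_univ ({1, σ, τ} : Finset (E ≃ₐ[F] E))
      rw [Finset.card_insert_of_notMem (by simp [Ne.symm h.1, Ne.symm hτ]),
        Finset.card_pair h.2, ← Nat.card_eq_fintype_card, hcard] at h3
      omega) with rfl | rfl
    · exact Or.inl (HeightOneSpectrum.ext (hσ.trans (one_smul _ _)))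
    · exact Or.inr (HeightOneSpectrum.ext hσ)
  have hfund := Ideal.ncard_primesOver_mul_ramificationIdxIn_mul_inertiaDegIn v.asIdeal (𝓞 E)
    (E ≃ₐ[F] E)
  rw [hcard, Ideal.ramificationIdxIn_eq_ramificationIdx v.asIdeal w.asIdeal (E ≃ₐ[F] E),
    Ideal.inertiaDegIn_eq_inertiaDeg v.asIdeal w.asIdeal (E ≃ₐ[F] E)] at hfund
  have hnorm : Ideal.absNorm w.asIdeal = Ideal.absNorm v.asIdeal ^ w.asIdeal.inertiaDeg (𝓞 F) :=
    (Ideal.absNorm_pow_inertiaDeg v.asIdeal w.asIdeal).symm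
  have hf2 : w.asIdeal.inertiaDeg (𝓞 F) ∣ 2 :=
    ⟨(v.asIdeal.primesOver (𝓞 E)).ncard * w.asIdeal.ramificationIdx (𝓞 F), by
      linarith [hfund]⟩
  by_cases hτw : τ • w.asIdeal = w.asIdeal
  · refine Or.inl ⟨hτw, ?_, fun w' => ?_⟩
    · rcases (Nat.dvd_prime Nat.prime_two).mp hf2 with e | e
      · exact Or.inl (by rw [hnorm, e, pow_one])
      · exact Or.inr (by rw [hnorm, e])
    · rw [Finset.mem_singleton]
      refine ⟨fun h => h ▸ hv, fun h => (horb w' h).elim id fun e => ?_⟩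
      exact e.trans (HeightOneSpectrum.ext hτw)
  · refine Or.inr ⟨hτw, ?_, fun w' => ?_⟩
    · have hfin := IsDedekindDomain.primesOver_finite v.asIdeal (𝓞 E)
      have htwo : 1 < (v.asIdeal.primesOver (𝓞 E)).ncard :=
        (Set.one_lt_ncard hfin).mpr ⟨w.asIdeal, ⟨w.isPrime, ⟨hwv.symm⟩⟩, τ • w.asIdeal,
          ⟨(conjPlace τ w).isPrime, ⟨by rw [← hwv, Ideal.under_smul]⟩⟩, Ne.symm hτw⟩
      have hle := Nat.le_of_dvd (by omega) (Dvd.intro _ hfund)
      rw [show (v.asIdeal.primesOver (𝓞 E)).ncard = 2 by omega] at hfund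
      have hef : w.asIdeal.ramificationIdx (𝓞 F) * w.asIdeal.inertiaDeg (𝓞 F) = 1 :=
        Nat.eq_of_mul_eq_mul_left two_pos (hfund.trans (mul_one 2).symm)
      rw [hnorm, Nat.eq_one_of_mul_eq_one_left hef, pow_one]
    · rw [Finset.mem_insert, Finset.mem_singleton]
      exact ⟨fun h => h.elim (fun e => e ▸ hv) fun e => e ▸ (under_conjPlace τ w).trans hv,
        horb w'⟩

theorem natCast_sq_cpow (q : ℕ) (z : ℂ) :
    ((q ^ 2 : ℕ) : ℂ) ^ z = ((q : ℂ) ^ z) ^ 2 := by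
  rw [pow_two, pow_two, Nat.cast_mul, Complex.natCast_mul_natCast_cpow]

end Fibres

variable {F : Type} [Field F] [NumberField F] (W₀ : WeierstrassCurve (𝓞 F))
  [(W₀.map (algebraMap (𝓞 F) F)).IsElliptic]

local notation "W" => W₀.map (algebraMap (𝓞 F) F)

/-- **Hasse's conjecture for the curves with complex multiplication defined without the field of
multiplication.** -/
theorem exists_completed_lSeries_descended (ψ : F →+* ℂ) {d : ℤ} (hd : Squarefree d) (hd0 : d < 0)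
    (hnot : ¬ ∃ s : F, s ^ 2 = (d : F))
    (hcm : ∃ L : PeriodPair, L.g₂ = ψ (W).c₄ / 12 ∧ L.g₃ = ψ (W).c₆ / 216 ∧
      ∃ ω : ℂ, (∀ m : ℤ, ω ≠ m) ∧ (∀ l ∈ L.lattice, ω * l ∈ L.lattice) ∧
        ∃ x y : ℚ, (ω - (x : ℂ)) ^ 2 = (d : ℂ) * (y : ℂ) ^ 2) :
    ∃ (M : ℕ) (ε : ℂ) (c : HeightOneSpectrum (𝓞 F) → ℝ × ℝ) (Λ : ℂ → ℂ), 0 < M ∧
      (ε = 1 ∨ ε = -1) ∧ Differentiable ℂ Λ ∧
      (∀ z : ℂ, 3 / 2 < z.re → ∃ L : ℂ,
        HasProd (fun v : HeightOneSpectrum (𝓞 F) =>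
          if W₀.Δ ∉ v.asIdeal then
            (1 - (frobTrace W₀ v : ℂ) * ((Ideal.absNorm v.asIdeal : ℕ) : ℂ) ^ (-z) +
              ((Ideal.absNorm v.asIdeal : ℕ) : ℂ) ^ (1 - 2 * z))⁻¹
          else (1 - ((c v).1 : ℂ) * ((Ideal.absNorm v.asIdeal : ℕ) : ℂ) ^ (-z) +
            ((c v).2 : ℂ) * (((Ideal.absNorm v.asIdeal : ℕ) : ℂ) ^ (-z)) ^ 2)⁻¹) L ∧
        Λ z = (M : ℂ) ^ (z / 2) * Complex.Gammaℂ z ^ Module.finrank ℚ F * L) ∧
      (∀ z : ℂ, Λ (2 - z) = ε * Λ z) ∧ ∀ z : ℂ, 3 / 2 ≤ z.re → Λ z ≠ 0 := by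
  obtain ⟨E, instE, τ, s, ψ', 𝔣, f, hdeg, hgal, hτ, hs, -, hf, hne, hmin, hsymm, hv⟩ :=
    exists_descended_char W₀ ψ hd hd0 hnot hcm
  obtain ⟨w, 𝔣', g, e, C, Λ, hw, hdvd, hg, hag, -, -, hC, hΛ, hL, hfe⟩ :=
    FA.AlgHeckeFE.exists_functional_equation hf hne
  obtain rfl : w = 1 := by
    obtain ⟨σ⟩ : Nonempty (E →+* ℂ) := inferInstance
    exact (hw σ).symm.trans (sum_type_eq_one hd0 hs ψ' σ)
  -- the primitive character is `f`
  have hgf : ∀ u : HeightOneSpectrum (𝓞 E), g u.asIdeal = f u.asIdeal := fun u => by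
    by_cases h : f u.asIdeal = 0
    · have hdvd' : 𝔣 ∣ 𝔣' := hmin 𝔣' g hg ((Ideal.finite_factors hf.ne_bot).subset fun x hx => by
        by_contra hx'
        exact hx (hag _ x.ne_bot ((hf.ne_zero_iff _ x.ne_bot).mpr
          (sup_eq_top x fun hle => hx' (Ideal.dvd_iff_le.mpr hle)))))
      rw [h]
      by_contra hg0
      exact (hf.ne_zero_iff _ u.ne_bot).mpr
        (coprime_mono (Ideal.le_of_dvd hdvd') ((hg.ne_zero_iff _ u.ne_bot).mp hg0)) h
    · exact hag _ u.ne_bot h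
  -- the Euler factors
  have hfac : ∀ v : HeightOneSpectrum (𝓞 F), ∃ (c : ℝ × ℝ) (t : Finset (HeightOneSpectrum (𝓞 E))),
      (∀ u, u ∈ t ↔ u.under (𝓞 F) = v) ∧
      (W₀.Δ ∉ v.asIdeal → (c.1 : ℂ) = frobTrace W₀ v ∧ (c.2 : ℂ) = Ideal.absNorm v.asIdeal) ∧
      ∀ z : ℂ, ∏ u ∈ t, (1 - g u.asIdeal * ((Ideal.absNorm u.asIdeal : ℕ) : ℂ) ^ (-z))⁻¹ =
        (1 - (c.1 : ℂ) * ((Ideal.absNorm v.asIdeal : ℕ) : ℂ) ^ (-z) +
          (c.2 : ℂ) * (((Ideal.absNorm v.asIdeal : ℕ) : ℂ) ^ (-z)) ^ 2)⁻¹ := fun v => by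
    obtain ⟨u, hu, hcase⟩ := fibre_cases hdeg hτ v
    simp only [hgf]
    have hq : Ideal.absNorm v.asIdeal ≠ Ideal.absNorm v.asIdeal ^ 2 := fun h => by
      have := FA.Ext.two_le_absNorm v
      nlinarith
    rcases hcase with ⟨hfix, hN, hmem⟩ | ⟨hmove, hN, hmem⟩
    · have hr := hsymm u
      rw [hfix] at hr
      have hre : ((f u.asIdeal).re : ℂ) = f u.asIdeal := Complex.conj_eq_iff_re.mp hr.symm
      rcases hN with hN | hN
      · refine ⟨((f u.asIdeal).re, 0), {u}, hmem, fun hΔ => ?_, fun z => ?_⟩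
        · rcases (hv v hΔ u hu).2 with ⟨h, -⟩ | ⟨-, h, -⟩
          · exact absurd hfix h
          · exact absurd (hN.symm.trans h) hq
        · rw [Finset.prod_singleton, hN, hre]
          simp
      · refine ⟨(0, -(f u.asIdeal).re), {u}, hmem, fun hΔ => ?_, fun z => ?_⟩
        · rcases (hv v hΔ u hu).2 with ⟨h, -⟩ | ⟨-, -, ha, hval⟩
          · exact absurd hfix h
          · push_cast
            rw [hre, hval, neg_neg, ha]
            simp
        · rw [Finset.prod_singleton, hN, natCast_sq_cpow]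
          push_cast
          rw [hre]
          ring_nf
    · refine ⟨(2 * (f u.asIdeal).re, Complex.normSq (f u.asIdeal)), {u, conjPlace τ u}, hmem,
        fun hΔ => ?_, fun z => ?_⟩
      · rcases (hv v hΔ u hu).2 with ⟨-, -, h1, h2⟩ | ⟨h, -⟩
        · exact ⟨by rw [← h1, Complex.add_conj],
            by rw [← h2, Complex.mul_conj]⟩
        · exact absurd h hmove
      · rw [Finset.prod_pair (fun h => hmove (congrArg HeightOneSpectrum.asIdeal h).symm),
          conjPlace_asIdeal, absNorm_smul, hN, hsymm, ← mul_inv, ← Complex.mul_conj,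
          show (((2 * (f u.asIdeal).re : ℝ)) : ℂ) = f u.asIdeal + conj (f u.asIdeal) by
            rw [Complex.add_conj]]
        congr 1
        ring
  choose c t hmem hc hprod using hfac
  haveI : IsEmpty {v : InfinitePlace E // IsReal v} :=
    ⟨fun v => (not_isReal_iff_isComplex.mpr (totallyComplex_of_sqrt hd0 hs v.1)) v.2⟩
  have hcard : Fintype.card {v : InfinitePlace E // IsComplex v} = Module.finrank ℚ F := by
    have h := card_add_two_mul_card_eq_rank E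
    rw [NumberField.InfinitePlace.nrRealPlaces, NumberField.InfinitePlace.nrComplexPlaces,
      Fintype.card_eq_zero (α := {v : InfinitePlace E // IsReal v}), zero_add,
      ← Module.finrank_mul_finrank ℚ F E, hdeg, mul_comm] at h
    exact Nat.eq_of_mul_eq_mul_right two_pos h
  have hgamma : ∀ z, FA.AlgHeckeFE.gammaFactor
      (fun σ => if σ s = ψ' s then 1 else 0) e 1 z = Complex.Gammaℂ z ^ Module.finrank ℚ F :=
    fun z => by
      rw [FA.AlgHeckeFE.gammaFactor, Fintype.prod_empty, one_mul, ← hcard,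
        ← Finset.card_univ, ← Finset.prod_const]
      refine Finset.prod_congr rfl fun v _ => ?_
      have h := sum_type_eq_one hd0 hs ψ' v.1.embedding
      have hmin0 : min (if v.1.embedding s = ψ' s then (1 : ℤ) else 0)
          (if ComplexEmbedding.conjugate v.1.embedding s = ψ' s then (1 : ℤ) else 0) = 0 := by
        split_ifs at h ⊢ <;> omega
      rw [hmin0, Int.cast_zero, sub_zero]
  set A : ℕ := (discr E).natAbs * Ideal.absNorm 𝔣' with hA
  have hA0 : 0 < A := Nat.mul_pos (Int.natAbs_pos.mpr (discr_ne_zero E))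
    (Nat.pos_of_ne_zero fun h0 => hg.ne_bot (Ideal.absNorm_eq_zero_iff.mp h0))
  have hAR : |((discr E : ℤ) : ℝ)| * ((Ideal.absNorm 𝔣' : ℕ) : ℝ) = (A : ℝ) := by
    rw [hA, Nat.cast_mul, Nat.cast_natAbs, Int.cast_abs]
  -- the series is real
  have hreal : ∀ z : ℂ, conj (Λ (conj z)) = Λ z := by
    have hd' : Differentiable ℂ fun z => conj (Λ (conj z)) := fun z => by
      have h1 := (hΛ (conj z)).conj_conj
      rwa [Complex.conj_conj] at h1
    refine congrFun ((Complex.analyticOnNhd_univ_iff_differentiable.mpr hd').eq_of_eventuallyEq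
      (Complex.analyticOnNhd_univ_iff_differentiable.mpr hΛ) (z₀ := 2) ?_)
    filter_upwards [(isOpen_lt continuous_const Complex.continuous_re).mem_nhds
      (show (3 / 2 : ℝ) < (2 : ℂ).re by norm_num)] with z hz
    have hz1 : 1 + ((1 : ℤ) : ℝ) / 2 < z.re := by push_cast; linarith
    have hz2 : 1 + ((1 : ℤ) : ℝ) / 2 < (conj z).re := by rwa [Complex.conj_re]
    obtain ⟨L₁, hs₁, e₁⟩ := hL z hz1
    obtain ⟨L₂, hs₂, e₂⟩ := hL (conj z) hz2
    obtain ⟨L₁', hs₁', hp₁, -⟩ := FA.AlgHeckeFE.hasProd_algChar hg hw hz1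
    obtain ⟨L₂', hs₂', hp₂, -⟩ := FA.AlgHeckeFE.hasProd_algChar hg hw hz2
    obtain rfl := hs₁'.unique hs₁
    obtain rfl := hs₂'.unique hs₂
    let π : HeightOneSpectrum (𝓞 E) ≃ HeightOneSpectrum (𝓞 E) :=
      Function.Involutive.toPerm (conjPlace τ) fun u =>
        HeightOneSpectrum.ext (smul_smul_self hdeg τ u.asIdeal)
    have hp : HasProd (fun u : HeightOneSpectrum (𝓞 E) =>
        (1 - g u.asIdeal * ((Ideal.absNorm u.asIdeal : ℕ) : ℂ) ^ (-z))⁻¹) (conj L₂') := by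
      refine (π.hasProd_iff.mpr (hp₂.map (starRingEnd ℂ) Complex.continuous_conj)).congr_fun
        fun u => ?_
      show _ = conj ((1 - g (τ • u.asIdeal) *
        ((Ideal.absNorm (τ • u.asIdeal) : ℕ) : ℂ) ^ (-conj z))⁻¹)
      rw [map_inv₀, map_sub, map_one, map_mul, FA.AlgHeckeFE.conj_natCast_cpow, map_neg,
        Complex.conj_conj, absNorm_smul]
      rw [show g (τ • u.asIdeal) = conj (g u.asIdeal) by
        rw [← conjPlace_asIdeal, hgf, hgf, conjPlace_asIdeal, hsymm], Complex.conj_conj]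
    rw [hp₁.unique hp] at e₁
    show conj (Λ (conj z)) = Λ z
    rw [e₁, e₂, hAR, hgamma, hgamma, map_mul, map_mul, map_pow, Complex.ofReal_natCast,
      FA.AlgHeckeFE.conj_natCast_cpow, FA.AlgHeckeFE.conj_Gammaℂ, map_div₀, Complex.conj_conj,
      map_ofNat]
  have hfe' : ∀ z : ℂ, Λ z = C * Λ (2 - z) := fun z => by
    rw [hfe z, ← hreal (2 - z), map_sub, map_ofNat]
    push_cast
    norm_num
  obtain ⟨ε, hε, hεfe⟩ : ∃ ε : ℂ, (ε = 1 ∨ ε = -1) ∧ ∀ z, Λ (2 - z) = ε * Λ z := by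
    by_cases h0 : ∀ z, Λ z = 0
    · exact ⟨1, Or.inl rfl, fun z => by rw [h0, h0, mul_zero]⟩
    obtain ⟨z₀, hz₀⟩ := not_forall.mp h0
    have h2 := hfe' (2 - z₀)
    rw [sub_sub_cancel] at h2
    have h3 : (C ^ 2 - 1) * Λ z₀ = 0 := by linear_combination -(hfe' z₀) - C * h2
    have hC2 : C ^ 2 = 1 := sub_eq_zero.mp ((mul_eq_zero.mp h3).resolve_right hz₀)
    refine ⟨C, sq_eq_one_iff.mp hC2, fun z => ?_⟩
    have h4 := hfe' (2 - z)
    rwa [sub_sub_cancel] at h4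
  have hne' : ¬ IsNormPower g := fun ⟨a, ha⟩ => hne ⟨a, fun I hI h0 => by
    rw [← hag I hI h0]
    exact ha I hI (by rw [hag I hI h0]; exact h0)⟩
  refine ⟨A, ε, c, Λ, hA0, hε, hΛ, fun z hz => ?_, hεfe, fun z hz =>
    completed_ne_zero hg hw hne' hA0 hΛ (fun u hu => by
      obtain ⟨L, hs', e'⟩ := hL u hu
      rw [hAR, hgamma, Complex.ofReal_natCast] at e'
      exact ⟨L, hs', e'⟩) hz⟩
  have hz1 : 1 + ((1 : ℤ) : ℝ) / 2 < z.re := by push_cast; linarith
  obtain ⟨L₁, hs₁, e₁⟩ := hL z hz1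
  obtain ⟨L₁', hs₁', hp₁, -⟩ := FA.AlgHeckeFE.hasProd_algChar hg hw hz1
  obtain rfl := hs₁'.unique hs₁
  refine ⟨L₁', hasProd_fibres hp₁ fun v => ⟨t v, hmem v, ?_⟩, ?_⟩
  · rw [hprod v z]
    by_cases h : W₀.Δ ∉ v.asIdeal
    swap; · rw [if_neg h]
    rw [if_pos h]
    obtain ⟨h1, h2⟩ := hc v h
    rw [h1, h2, show (1 : ℂ) - 2 * z = 1 + (-z + -z) by ring,
      Complex.cpow_add _ _ (Nat.cast_ne_zero.mpr
        fun h0 => v.ne_bot (Ideal.absNorm_eq_zero_iff.mp h0)),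
      Complex.cpow_one, Complex.cpow_add _ _ (Nat.cast_ne_zero.mpr
        fun h0 => v.ne_bot (Ideal.absNorm_eq_zero_iff.mp h0)), pow_two]
  · rw [e₁, hAR, hgamma, Complex.ofReal_natCast]

end FA.DeuringCM

end
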