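import Fermat.Agent.Tau.EuclideanFields
import Fermat.Agent.Root.SummaryPowerResidues

/-!
# Residues of an imaginary quadratic field at inert primes

Conjugation, norms and traces in `ℚ(√d)`, `d < 0`; elements with given trace and norm, the ideals
of prime norm, and small elements modulo an inert prime.
-/

set_option autoImplicit false
set_option linter.style.haveILetI false
set_option linter.unusedSectionVars false

noncomputable section

open NumberField Module IsDedekindDomain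
open scoped Classical

namespace FA.DeuringCM

/-- An imaginary quadratic field with a square root of `d`. -/
structure IQF (K : Type*) [Field K] [NumberField K] where
  /-- The radicand. -/
  d : ℤ
  /-- The root. -/
  s : K
  hd : Squarefree d
  hd0 : d < 0
  hs : s ^ 2 = (d : K)
  hK : finrank ℚ K = 2

variable {K : Type*} [Field K] [NumberField K] (Q : IQF K)

theorem IQF.exists_neg : ∃ c : K ≃ₐ[ℚ] K, c Q.s = -Q.s := by
  haveI : Algebra.IsQuadraticExtension ℚ K := { finrank_eq_two' := Q.hK }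
  by_contra hcon
  push Not at hcon
  have hfixed : Q.s ∈ (⊥ : IntermediateField ℚ K) := by
    rw [← IsGalois.fixedField_top (F := ℚ) (E := K), IntermediateField.mem_fixedField_iff]
    intro c _
    exact ((sq_eq_sq_iff_eq_or_eq_neg).mp (by
      rw [← map_pow, Q.hs, map_intCast])).resolve_right (hcon c)
  obtain ⟨r, hr⟩ := IntermediateField.mem_bot.mp hfixed
  have hsq : r ^ 2 = (Q.d : ℚ) := (algebraMap ℚ K).injective (by
    rw [map_pow, hr, map_intCast]; exact Q.hs)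
  have : (Q.d : ℚ) < 0 := Int.cast_lt_zero.mpr Q.hd0
  nlinarith [sq_nonneg r]

/-- Conjugation of the integers. -/
def IQF.conj : 𝓞 K ≃+* 𝓞 K :=
  RingOfIntegers.mapRingEquiv Q.exists_neg.choose.toRingEquiv

/-- The trace of an integer. -/
def IQF.tr (x : 𝓞 K) : 𝓞 K := x + Q.conj x

theorem IQF.coe_conj_s {x : 𝓞 K} {A B : ℤ} (h : 2 * (x : K) = (A : K) + (B : K) * Q.s) :
    2 * ((Q.conj x : 𝓞 K) : K) = (A : K) - (B : K) * Q.s := by
  have h' := congrArg Q.exists_neg.choose h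
  rw [map_mul, map_ofNat, map_add, map_intCast, map_mul, map_intCast, Q.exists_neg.choose_spec]
    at h'
  show 2 * Q.exists_neg.choose (x : K) = _
  rw [h']
  ring

/-- **Coordinates, conjugate, norm and trace.** -/
theorem IQF.exists_coord (x : 𝓞 K) : ∃ (A B : ℤ) (N : ℕ),
    2 * (x : K) = (A : K) + (B : K) * Q.s ∧ A ^ 2 - Q.d * B ^ 2 = 4 * N ∧
      Q.tr x = A ∧ x * Q.conj x = N ∧ Ideal.absNorm (Ideal.span {x}) = N := by
  obtain ⟨A, B, h2, hN⟩ := FA.Euclidean.exists_coord_norm Q.hK Q.hd Q.hd0 Q.hs x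
  have hpos : 0 ≤ Algebra.norm ℤ x := by nlinarith [sq_nonneg A, sq_nonneg B, Q.hd0]
  refine ⟨A, B, (Algebra.norm ℤ x).natAbs, h2, ?_, ?_, ?_, Ideal.absNorm_span_singleton x⟩
  · rw [Int.natAbs_of_nonneg hpos]; exact hN
  · refine RingOfIntegers.coe_injective (mul_left_cancel₀ (two_ne_zero (α := K)) ?_)
    rw [IQF.tr, map_add, map_intCast, mul_add]
    linear_combination h2 + Q.coe_conj_s h2
  · refine RingOfIntegers.coe_injective (mul_left_cancel₀ (show (4 : K) ≠ 0 by norm_num) ?_)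
    rw [map_mul, map_natCast,
      show (((Algebra.norm ℤ x).natAbs : ℕ) : K) = ((Algebra.norm ℤ x : ℤ) : K) by
        rw [← Int.cast_natCast, Int.natAbs_of_nonneg hpos]]
    have h4 := congrArg (Int.cast (R := K)) hN
    push_cast at h4
    linear_combination (2 * ((Q.conj x : 𝓞 K) : K)) * h2 +
      ((A : K) + (B : K) * Q.s) * Q.coe_conj_s h2 + h4 - (B : K) ^ 2 * Q.hs

theorem IQF.conj_conj (x : 𝓞 K) : Q.conj (Q.conj x) = x := by
  obtain ⟨A, B, N, h2, -⟩ := Q.exists_coord x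
  have h3 := Q.coe_conj_s (x := Q.conj x) (A := A) (B := -B)
    (by push_cast; linear_combination Q.coe_conj_s h2)
  refine RingOfIntegers.coe_injective (mul_left_cancel₀ (two_ne_zero (α := K)) ?_)
  push_cast at h3
  linear_combination h3 - h2

theorem IQF.mul_conj (x : 𝓞 K) : x * Q.conj x = (Ideal.absNorm (Ideal.span {x}) : 𝓞 K) := by
  obtain ⟨A, B, N, -, -, -, h, e⟩ := Q.exists_coord x
  rw [e, h]

theorem IQF.absNorm_conj (x : 𝓞 K) :
    Ideal.absNorm (Ideal.span {Q.conj x}) = Ideal.absNorm (Ideal.span {x}) := by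
  have h := Q.mul_conj (Q.conj x)
  rw [Q.conj_conj, mul_comm, Q.mul_conj x] at h
  exact_mod_cast h.symm

/-- **An element with given trace and norm.** -/
theorem IQF.exists_trace_norm {a b : ℤ} {q : ℕ} (h : a ^ 2 - 4 * (q : ℤ) = Q.d * b ^ 2) :
    ∃ π : 𝓞 K, Q.tr π = a ∧ π * Q.conj π = q ∧ Ideal.absNorm (Ideal.span {π}) = q := by
  set z : K := ((a : K) + (b : K) * Q.s) / 2 with hz
  have h' := congrArg (Int.cast (R := K)) h
  push_cast at h'
  have hint : IsIntegral ℤ z := by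
    refine ⟨Polynomial.X ^ 2 + Polynomial.C (-a) * Polynomial.X + Polynomial.C (q : ℤ),
      by monicity!, ?_⟩
    rw [← Polynomial.aeval_def]
    simp only [map_add, map_mul, map_pow, Polynomial.aeval_X, eq_intCast, map_intCast, map_neg,
      map_natCast]
    rw [hz]
    linear_combination (-(1 / 4) : K) * h' + ((b : K) ^ 2 / 4) * Q.hs
  set π : 𝓞 K := ⟨z, hint⟩
  obtain ⟨A, B, N, h2, hN, htr, hmul, habs⟩ := Q.exists_coord π
  have hz2 : 2 * (π : K) = (a : K) + (b : K) * Q.s := by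
    show 2 * z = _
    rw [hz]; ring
  have hA : A = a := by
    have e := Q.coe_conj_s h2
    rw [Q.coe_conj_s hz2] at e
    have : ((A : ℤ) : K) = (a : K) := by linear_combination (hz2 - h2 - e) / 2
    exact_mod_cast this
  have hNq : N = q := by
    have e4 : (4 : K) * (N : K) = 4 * (q : K) := by
      have e := congrArg (algebraMap (𝓞 K) K) hmul
      rw [map_mul, map_natCast] at e
      linear_combination -4 * e + 2 * ((Q.conj π : 𝓞 K) : K) * hz2 +
        ((a : K) + (b : K) * Q.s) * Q.coe_conj_s hz2 + h' - (b : K) ^ 2 * Q.hs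
    exact_mod_cast mul_left_cancel₀ (show (4 : K) ≠ 0 by norm_num) e4
  exact ⟨π, by rw [htr, hA], by rw [hmul, hNq], by rw [habs, hNq]⟩

/-- **An ideal of prime norm generated by `π` or its conjugate.** -/
theorem IQF.eq_span_or {P : Ideal (𝓞 K)} {q : ℕ} (hq : q.Prime) (hP : Ideal.absNorm P = q)
    {π : 𝓞 K} (hπ : π * Q.conj π = q) :
    P = Ideal.span {π} ∨ P = Ideal.span {Q.conj π} := by
  have hPp : P.IsPrime := Ideal.isPrime_of_irreducible_absNorm
    ((Nat.irreducible_iff_nat_prime _).mpr (hP ▸ hq))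
  have hn : Ideal.absNorm (Ideal.span {π}) = q := by
    have h := Q.mul_conj π
    rw [hπ] at h
    exact_mod_cast h.symm
  have hmem : π * Q.conj π ∈ P := by
    rw [hπ, ← hP]
    exact Ideal.absNorm_mem P
  have key : ∀ z : 𝓞 K, z ∈ P → Ideal.absNorm (Ideal.span {z}) = q → P = Ideal.span {z} :=
    fun z hz hz' => by
    have hle : Ideal.span {z} ≤ P := (Ideal.span_singleton_le_iff_mem _).mpr hz
    obtain ⟨J, hJ⟩ := Ideal.dvd_iff_le.mpr hle
    have h1 := congrArg Ideal.absNorm hJ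
    rw [map_mul, hz', hP] at h1
    have hJ1 : Ideal.absNorm J = 1 :=
      mul_left_cancel₀ hq.ne_zero (by rw [mul_one]; exact h1.symm)
    rw [hJ, Ideal.absNorm_eq_one_iff.mp hJ1, Ideal.mul_top]
  rcases hPp.mem_or_mem hmem with h | h
  · exact Or.inl (key _ h hn)
  · exact Or.inr (key _ h ((Q.absNorm_conj π).trans hn))

/-- A unit times its conjugate is one. -/
theorem IQF.unit_mul_conj (u : (𝓞 K)ˣ) : (u : 𝓞 K) * Q.conj u = 1 := by
  rw [Q.mul_conj, Ideal.span_singleton_eq_top.mpr u.isUnit, Ideal.absNorm_top, Nat.cast_one]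

/-- Infinitely many primes are inert. -/
theorem IQF.exists_inert (N : ℕ) : ∃ ℓ : ℕ, ℓ.Prime ∧ N < ℓ ∧ ¬ IsSquare (Q.d : ZMod ℓ) := by
  by_contra hcon
  push Not at hcon
  have hd := Q.hd0
  obtain ⟨b, hb⟩ := (FA.Summary.nthPower_iff two_ne_zero (by norm_num) Q.d).2
    ((Set.finite_Iic N).subset fun q ⟨hq, hns⟩ => by
      by_contra hle
      obtain ⟨r, hr⟩ := hcon q hq (not_le.mp hle)
      exact hns ⟨r, by rw [hr, pow_two]⟩)
  nlinarith [sq_nonneg b]

section inert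

variable {ℓ : ℕ} (hℓ : ℓ.Prime) (hns : ¬ IsSquare (Q.d : ZMod ℓ))

include hℓ hns

theorem IQF.odd_of_inert : ℓ ≠ 2 := by
  rintro rfl
  exact hns ⟨(Q.d : ZMod 2), by
    generalize (Q.d : ZMod 2) = x
    revert x; decide⟩

theorem IQF.dvd_of_norm {A B : ℤ} (h : (ℓ : ℤ) ∣ A ^ 2 - Q.d * B ^ 2) :
    (ℓ : ℤ) ∣ A ∧ (ℓ : ℤ) ∣ B := by
  haveI := Fact.mk hℓ
  have hB : (ℓ : ℤ) ∣ B := by
    by_contra hB
    refine hns ⟨(A : ZMod ℓ) / B, ?_⟩
    have hB' : (B : ZMod ℓ) ≠ 0 := fun e => hB ((ZMod.intCast_zmod_eq_zero_iff_dvd _ _).mp e)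
    have h' := (ZMod.intCast_zmod_eq_zero_iff_dvd _ _).mpr h
    push_cast at h'
    field_simp
    linear_combination -h'
  have hA2 : (ℓ : ℤ) ∣ A ^ 2 := by
    have := dvd_add h (Dvd.dvd.mul_left (dvd_pow hB two_ne_zero) Q.d)
    simpa using this
  exact ⟨(Nat.prime_iff_prime_int.mp hℓ).dvd_of_dvd_pow hA2, hB⟩

theorem IQF.mem_span_of_coord {x : 𝓞 K} {A B : ℤ}
    (h2 : 2 * (x : K) = (A : K) + (B : K) * Q.s) (hA : (ℓ : ℤ) ∣ A) (hB : (ℓ : ℤ) ∣ B) :
    x ∈ Ideal.span {(ℓ : 𝓞 K)} := by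
  obtain ⟨A', rfl⟩ := hA
  obtain ⟨B', rfl⟩ := hB
  have hint : IsIntegral ℤ Q.s :=
    IsIntegral.of_pow two_pos (by rw [Q.hs]; exact isIntegral_algebraMap (x := Q.d))
  have h2x : (2 : 𝓞 K) * x ∈ Ideal.span {(ℓ : 𝓞 K)} :=
    Ideal.mem_span_singleton.mpr ⟨(A' : 𝓞 K) + (B' : 𝓞 K) * ⟨Q.s, hint⟩,
      RingOfIntegers.coe_injective (by
        push_cast at h2
        simp only [map_mul, map_add, map_ofNat, map_natCast, map_intCast]
        show 2 * (x : K) = (ℓ : K) * ((A' : K) + (B' : K) * Q.s)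
        linear_combination h2)⟩
  obtain ⟨u, v, huv⟩ : IsCoprime (2 : ℤ) (ℓ : ℤ) :=
    ((Nat.coprime_primes Nat.prime_two hℓ).mpr (Q.odd_of_inert hℓ hns).symm).cast
  have e := congrArg (Int.cast (R := 𝓞 K)) huv
  push_cast at e
  rw [show x = (u : 𝓞 K) * (2 * x) + (v : 𝓞 K) * x * (ℓ : 𝓞 K) by linear_combination -x * e]
  exact add_mem (Ideal.mul_mem_left _ _ h2x)
    (Ideal.mul_mem_left _ _ (Ideal.mem_span_singleton_self _))

/-- An element of norm divisible by an inert prime is divisible by it. -/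
theorem IQF.mem_span_of_dvd_absNorm {x : 𝓞 K} (h : ℓ ∣ Ideal.absNorm (Ideal.span {x})) :
    x ∈ Ideal.span {(ℓ : 𝓞 K)} := by
  obtain ⟨A, B, N, h2, hN, -, -, habs⟩ := Q.exists_coord x
  rw [habs] at h
  obtain ⟨hA, hB⟩ := Q.dvd_of_norm hℓ hns (A := A) (B := B)
    (hN ▸ Dvd.dvd.mul_left (Int.natCast_dvd_natCast.mpr h) 4)
  exact Q.mem_span_of_coord hℓ hns h2 hA hB

theorem IQF.isMaximal_span : (Ideal.span {(ℓ : 𝓞 K)}).IsMaximal := by
  refine Ideal.IsPrime.isMaximal ⟨?_, fun {x y} hxy => ?_⟩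
    (by simp [hℓ.ne_zero])
  · rw [Ne, Ideal.span_singleton_eq_top]
    intro hu
    have h1 := Q.mul_conj (ℓ : 𝓞 K)
    rw [Ideal.span_singleton_eq_top.mpr hu, Ideal.absNorm_top, map_natCast] at h1
    exact hℓ.ne_one (Nat.eq_one_of_mul_eq_one_right (show ℓ * ℓ = 1 by exact_mod_cast h1))
  obtain ⟨z, hz⟩ := Ideal.mem_span_singleton.mp hxy
  have hdvd : ℓ ∣ Ideal.absNorm (Ideal.span {x}) * Ideal.absNorm (Ideal.span {y}) := by
    rw [← map_mul, Ideal.span_singleton_mul_span_singleton, hz,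
      ← Ideal.span_singleton_mul_span_singleton, map_mul]
    refine Dvd.dvd.mul_right ?_ _
    have h1 := Q.mul_conj (ℓ : 𝓞 K)
    rw [map_natCast] at h1
    exact Dvd.intro _ (by exact_mod_cast h1)
  rcases hℓ.dvd_mul.mp hdvd with h | h
  · exact Or.inl (Q.mem_span_of_dvd_absNorm hℓ hns h)
  · exact Or.inr (Q.mem_span_of_dvd_absNorm hℓ hns h)

/-- **Small elements congruent modulo a large prime are equal.** -/
theorem IQF.eq_of_sub_mem {x y : 𝓞 K} (h : x - y ∈ Ideal.span {(ℓ : 𝓞 K)}) {M : ℕ}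
    (hx : Ideal.absNorm (Ideal.span {x}) ≤ M) (hy : Ideal.absNorm (Ideal.span {y}) ≤ M)
    (hM : 4 * M < ℓ ^ 2) : x = y := by
  obtain ⟨z, hz⟩ := Ideal.mem_span_singleton.mp h
  obtain ⟨A, B, N, h2, hN, htr, hmul, habs⟩ := Q.exists_coord (x * Q.conj y)
  obtain ⟨Az, Bz, Nz, -, -, -, hmulz, -⟩ := Q.exists_coord z
  have hxy : N = Ideal.absNorm (Ideal.span {x}) * Ideal.absNorm (Ideal.span {y}) := by
    rw [← habs, ← Ideal.span_singleton_mul_span_singleton, map_mul, Q.absNorm_conj]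
  set a := Ideal.absNorm (Ideal.span {x})
  set b := Ideal.absNorm (Ideal.span {y})
  have hid : (((a : ℤ) + b - A : ℤ) : 𝓞 K) = (((ℓ : ℤ) ^ 2 * Nz : ℤ) : 𝓞 K) := by
    push_cast
    rw [← Q.mul_conj x, ← Q.mul_conj y, ← htr, ← hmulz, IQF.tr, map_mul, Q.conj_conj]
    have h' := congrArg Q.conj hz
    rw [map_sub, map_mul, map_natCast] at h'
    linear_combination (Q.conj x - Q.conj y) * hz + (ℓ : 𝓞 K) * z * h'
  have hid' : (a : ℤ) + b - A = (ℓ : ℤ) ^ 2 * Nz := Int.cast_injective hid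
  have hA : A ^ 2 ≤ 4 * ((a : ℤ) * b) := by
    have : (N : ℤ) = (a : ℤ) * b := by exact_mod_cast hxy
    nlinarith [sq_nonneg B, Q.hd0]
  have ha : (a : ℤ) ≤ M := by exact_mod_cast hx
  have hb : (b : ℤ) ≤ M := by exact_mod_cast hy
  have hM' : 4 * (M : ℤ) < (ℓ : ℤ) ^ 2 := by exact_mod_cast hM
  have hN0 : Nz = 0 := by
    by_contra h0
    have hAM : -A ≤ 2 * (M : ℤ) := by
      nlinarith [sq_nonneg (A + 2 * (M : ℤ)), mul_le_mul ha hb (by positivity) (by positivity)]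
    have : (1 : ℤ) ≤ Nz := by exact_mod_cast Nat.one_le_iff_ne_zero.mpr h0
    nlinarith
  rw [hN0, Nat.cast_zero] at hmulz
  rcases mul_eq_zero.mp hmulz with h0 | h0
  · rw [h0, mul_zero] at hz; exact sub_eq_zero.mp hz
  · rw [(map_eq_zero_iff Q.conj Q.conj.injective).mp h0, mul_zero] at hz
    exact sub_eq_zero.mp hz

end inert

end FA.DeuringCM

end
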