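import Fermat.Agent.DeuringCM.Quadratic
import Fermat.Agent.JugendtraumField.NormEquation
import Fermat.Agent.Root.SummaryArtinReciprocity

/-!
# The character of the points killed by a good prime

With a multiplier of discriminant `d c²` and `ℓ` prime to `2 B c` the points killed by `ℓ` are free
of rank one over the multiplier ring modulo `ℓ`, so Galois acts on them through an abelian character
into `𝓞/ℓ`; by Artin reciprocity it is a character of a ray class group, whose value at a good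
place satisfies `X² - a X + q`.
-/

set_option autoImplicit false
set_option linter.style.haveILetI false
set_option linter.unusedSectionVars false

noncomputable section

open WeierstrassCurve NumberField IsDedekindDomain FA.Mazur.Wp FA.IsogenyNF FA.TraceNF
open FA.JugendtraumField (exists_trQ_eq_frobTrace)
open FA.Frob (Res redCurve residueField_isAlgClosed redCurve_isElliptic)
open FA.Hecke (RayClassGroup rayClass)
open FA.Ext (primeIdeal)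
open FA.ClassNumberOne (xP yP)
open scoped WeierstrassCurve.Affine Classical

namespace FA.DeuringCM

/-- **The matrix of the multiplier and its discriminant.** -/
theorem exists_matrix_disc {L : PeriodPair} {ω : ℂ} {d : ℤ} {x y : ℚ} (hd : Squarefree d)
    (hω : ∀ m : ℤ, ω ≠ m) (hst : ∀ l ∈ L.lattice, ω * l ∈ L.lattice)
    (hxy : (ω - (x : ℂ)) ^ 2 = (d : ℂ) * (y : ℂ) ^ 2) :
    ∃ A B C D c : ℤ, ω * L.ω₁ = A * L.ω₁ + B * L.ω₂ ∧ ω * L.ω₂ = C * L.ω₁ + D * L.ω₂ ∧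
      B ≠ 0 ∧ ω ^ 2 - ((A + D : ℤ) : ℂ) * ω + ((A * D - B * C : ℤ) : ℂ) = 0 ∧
      (A + D) ^ 2 - 4 * (A * D - B * C) = d * c ^ 2 ∧ c ≠ 0 := by
  obtain ⟨A, B, C, D, h1, h2, hB, hquad, -⟩ := exists_matrix hω hst
  have him : ω.im ≠ 0 := fun hi => by
    have hre : ω = (ω.re : ℂ) := Complex.ext (by simp) (by simp [hi])
    have := LinearIndependent.pair_iff.mp L.indep (ω.re - A) (-(B : ℝ)) (by
      simp only [Complex.real_smul]
      push_cast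
      rw [← hre]
      linear_combination h1)
    exact hB (by exact_mod_cast neg_eq_zero.1 this.2)
  set t : ℤ := A + D with ht
  set n : ℤ := A * D - B * C with hn
  have hquad' : ω ^ 2 - (t : ℂ) * ω + (n : ℂ) = 0 := hquad
  have hx : (t : ℚ) = 2 * x := by
    have h0 : (((2 * x - t : ℚ) : ℂ)) * ω = ((x ^ 2 - d * y ^ 2 - n : ℚ) : ℂ) := by
      push_cast
      linear_combination hquad' - hxy
    have := congrArg Complex.im h0
    simp [sq, him] at this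
    have h' : ((2 * x - t : ℚ) : ℝ) = 0 := by push_cast; linarith
    have : (2 * x - t : ℚ) = 0 := by exact_mod_cast h'
    linarith
  have hdisc : ((t ^ 2 - 4 * n : ℤ) : ℚ) = (d : ℚ) * (2 * y) ^ 2 := by
    apply (algebraMap ℚ ℂ).injective
    have hx' : (t : ℂ) = 2 * (x : ℂ) := by exact_mod_cast congrArg (Rat.cast : ℚ → ℂ) hx
    simp only [eq_ratCast, Rat.cast_intCast, Rat.cast_mul, Rat.cast_pow, Rat.cast_ofNat]
    push_cast
    linear_combination -4 * hquad' + (4 : ℂ) * hxy + ((t : ℂ) + 2 * x - 4 * ω) * hx'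
  have hy : y ≠ 0 := fun h0 => him (by
    rw [h0, Rat.cast_zero, zero_pow two_ne_zero, mul_zero, sq_eq_zero_iff, sub_eq_zero] at hxy
    simp [hxy])
  -- `2 y` is an integer
  obtain ⟨f, hf⟩ := Rat.isSquare_intCast_iff.1 (show IsSquare ((((t ^ 2 - 4 * n) * d : ℤ)) : ℚ) from
    ⟨(d : ℚ) * (2 * y), by rw [Int.cast_mul, hdisc]; ring⟩)
  obtain ⟨c, rfl⟩ : d ∣ f :=
    (hd.dvd_pow_iff_dvd two_ne_zero).1 ⟨t ^ 2 - 4 * n, by linear_combination -hf⟩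
  refine ⟨A, B, C, D, c, h1, h2, hB, hquad', mul_right_cancel₀ hd.ne_zero
    (by linear_combination hf), ?_⟩
  rintro rfl
  rw [mul_zero, mul_zero] at hf
  have h0 : t ^ 2 - 4 * n = 0 := (mul_eq_zero.mp hf).resolve_right hd.ne_zero
  rw [h0, Int.cast_zero] at hdisc
  exact mul_ne_zero (Int.cast_ne_zero.mpr hd.ne_zero)
    (pow_ne_zero 2 (mul_ne_zero two_ne_zero hy)) hdisc.symm

universe u v

variable {F : Type u} [Field F] [CharZero F] {Kb : Type v} [Field Kb] [DecidableEq Kb]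
  [Algebra F Kb] [CharZero Kb] [IsAlgClosed Kb] [Algebra.IsAlgebraic F Kb]

/-- Coordinates on the periods are unique. -/
theorem coeff_unique {L : PeriodPair} {x : ℂ} {A B A' B' : ℤ} (h : x = A * L.ω₁ + B * L.ω₂)
    (h' : x = A' * L.ω₁ + B' * L.ω₂) : A = A' ∧ B = B' := by
  have e := LinearIndependent.pair_iff.mp L.indep ((A : ℝ) - A') ((B : ℝ) - B') (by
    simp only [Complex.real_smul]
    push_cast
    linear_combination h' - h)
  exact ⟨by exact_mod_cast sub_eq_zero.mp e.1, by exact_mod_cast sub_eq_zero.mp e.2⟩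

/-- **The automorphisms moving the multiplier act semilinearly.** -/
theorem smul_of_moved {W : WeierstrassCurve F} [W.IsElliptic] {φ : Kb →+* ℂ} {L : PeriodPair}
    {hL : (W.baseChange Kb).map φ = latCurve L} {ω : ℂ} {ω₀ : Kb} (hω₀ : φ ω₀ = ω)
    (hst : ∀ l ∈ L.lattice, ω * l ∈ L.lattice) {t n : ℤ} (hn : n ≠ 0)
    (hquad : ω ^ 2 - t * ω + n = 0) {θ : (W.toAffine⁄Kb).Point →+ (W.toAffine⁄Kb).Point}
    (hθ : ∀ P z, unif L z = toC W φ hL P → toC W φ hL (θ P) = unif L (ω * z))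
    {σ : Kb ≃ₐ[F] Kb} (hσ : σ ω₀ = (t : Kb) - ω₀) (P : (W.toAffine⁄Kb).Point) :
    θ (σ • P) = t • (σ • P) - σ • θ P := by
  obtain ⟨τ, hτ⟩ := exists_extension φ σ.toRingEquiv
  have hτ' : ∀ x, τ (φ x) = φ (σ x) := hτ
  have ha : ∀ a : F, τ (φ (algebraMap F Kb a)) = φ (algebraMap F Kb a) := fun a => by
    rw [hτ', σ.commutes]
  have h2 : τ L.g₂ = L.g₂ := by
    have e : φ (algebraMap F Kb W.a₄) = -L.g₂ / 4 := congrArg WeierstrassCurve.a₄ hL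
    rw [show L.g₂ = -4 * φ (algebraMap F Kb W.a₄) by rw [e]; ring, map_mul, map_neg, map_ofNat, ha]
  have h3 : τ L.g₃ = L.g₃ := by
    have e : φ (algebraMap F Kb W.a₆) = -L.g₃ / 4 := congrArg WeierstrassCurve.a₆ hL
    rw [show L.g₃ = -4 * φ (algebraMap F Kb W.a₆) by rw [e]; ring, map_mul, map_neg, map_ofNat, ha]
  have hmap : ∀ R : (W.toAffine⁄Kb).Point,
      FA.ClassNumberOne.mapPt (τ : ℂ →+* ℂ) (FA.ClassNumberOne.map_latCurve τ h2 h3)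
        (toC W φ hL R) = toC W φ hL (σ • R) := fun R => by
    rcases R with _ | ⟨x, y, h⟩
    · rfl
    · exact (Affine.Point.some.injEq ..).mpr ⟨hτ' x, hτ' y⟩
  obtain ⟨z, hz⟩ := exists_preimage (hL := hL) P
  obtain ⟨z', hz'⟩ := exists_preimage (hL := hL) (σ • P)
  refine FA.Frob.mapHom_injective φ hL ?_
  refine (hθ _ _ hz').trans ?_
  have h := (FA.ClassNumberOne.transport τ h2 h3 hst hn hquad).2 (toC W φ hL P) z'
    ((hmap P).trans hz'.symm)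
  rw [show τ ω = t - ω by rw [← hω₀, hτ', hσ, map_sub, map_intCast], ← hz,
    FA.ClassNumberOne.mulPt_unif, ← hθ P z hz, hmap] at h
  rw [map_sub, map_zsmul, ← hz', h, ← unif_int_mul, eq_sub_iff_add_eq, ← unif_add]
  ring_nf

/-- **The points killed by `ℓ` are cyclic over the multiplier.** -/
theorem exists_cyclic_short {W : WeierstrassCurve F} [W.IsElliptic] {φ : Kb →+* ℂ}
    {L : PeriodPair} (hL : (W.baseChange Kb).map φ = latCurve L) {ω : ℂ} (hω : ∀ m : ℤ, ω ≠ m)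
    (hst : ∀ l ∈ L.lattice, ω * l ∈ L.lattice) {A B C D : ℤ}
    (h1 : ω * L.ω₁ = A * L.ω₁ + B * L.ω₂) (h2 : ω * L.ω₂ = C * L.ω₁ + D * L.ω₂)
    {ℓ : ℕ} (hℓ : ℓ.Prime) (hℓB : ¬ (ℓ : ℤ) ∣ B) :
    ∃ (ω₀ : Kb) (θ : (W.toAffine⁄Kb).Point →+ (W.toAffine⁄Kb).Point) (g : (W.toAffine⁄Kb).Point),
      φ ω₀ = ω ∧ (∀ σ : Kb ≃ₐ[F] Kb, σ ω₀ = ω₀ → ∀ P, θ (σ • P) = σ • θ P) ∧
      (∀ σ : Kb ≃ₐ[F] Kb, σ ω₀ = ((A + D : ℤ) : Kb) - ω₀ → ∀ P,
        θ (σ • P) = (A + D) • (σ • P) - σ • θ P) ∧ ℓ • g = 0 ∧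
      θ (θ g) = (A + D) • θ g - (A * D - B * C) • g ∧
      (∀ X Y : ℤ, X • g + Y • θ g = 0 → (ℓ : ℤ) ∣ X ∧ (ℓ : ℤ) ∣ Y) ∧
      ∀ P : (W.toAffine⁄Kb).Point, ℓ • P = 0 → ∃ X Y : ℤ, P = X • g + Y • θ g := by
  obtain ⟨ω₀, θ, hω₀, heq, hθ⟩ := exists_endomorphism hL hω hst
  have hrC : (ℓ : ℂ) ≠ 0 := Nat.cast_ne_zero.2 hℓ.ne_zero
  have hr0 : (ℓ : ℤ) ≠ 0 := by exact_mod_cast hℓ.ne_zero
  have hex : ∀ o ∈ L.lattice, ∃ g : (W.toAffine⁄Kb).Point,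
      toC W φ hL g = unif L (o / ℓ) ∧ ℓ • g = 0 := fun o ho =>
    exists_of_nsmul_eq_zero (hL := hL) hℓ.ne_zero (Q := unif L (o / ℓ)) (by
      rw [← natCast_zsmul, ← unif_int_mul, Int.cast_natCast, mul_div_cancel₀ _ hrC,
        unif_of_mem L ho])
  obtain ⟨g₁, hg₁, hk₁⟩ := hex _ L.ω₁_mem_lattice
  obtain ⟨g₂, hg₂, hk₂⟩ := hex _ L.ω₂_mem_lattice
  have hcomb : ∀ i j : ℤ, toC W φ hL (i • g₁ + j • g₂) =
      unif L ((i : ℂ) * (L.ω₁ / ℓ) + (j : ℂ) * (L.ω₂ / ℓ)) := fun i j => by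
    rw [map_add, map_zsmul, map_zsmul, hg₁, hg₂, ← unif_int_mul, ← unif_int_mul, unif_add]
  have hspan : ∀ i j : ℤ, i • g₁ + j • g₂ = 0 ↔ (ℓ : ℤ) ∣ i ∧ (ℓ : ℤ) ∣ j := fun i j => by
    rw [← map_eq_zero_iff (toC W φ hL) (FA.Frob.mapHom_injective φ hL), hcomb, unif_eq_zero_iff,
      show (i : ℂ) * (L.ω₁ / ℓ) + (j : ℂ) * (L.ω₂ / ℓ) = (((i : ℚ) / (ℓ : ℤ) : ℚ) : ℂ) * L.ω₁ +
        (((j : ℚ) / (ℓ : ℤ) : ℚ) : ℂ) * L.ω₂ by push_cast; ring,
      PeriodPair.mul_ω₁_add_mul_ω₂_mem_lattice,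
      Rat.den_div_intCast_eq_one_iff i ℓ hr0, Rat.den_div_intCast_eq_one_iff j ℓ hr0]
  have hθ₁ : θ g₁ = A • g₁ + B • g₂ := by
    refine FA.Frob.mapHom_injective φ hL ?_
    refine ((hθ _ _ hg₁.symm).trans (congrArg (unif L) ?_)).trans (hcomb A B).symm
    field_simp
    linear_combination h1
  have hθ₂ : θ g₂ = C • g₁ + D • g₂ := by
    refine FA.Frob.mapHom_injective φ hL ?_
    refine ((hθ _ _ hg₂.symm).trans (congrArg (unif L) ?_)).trans (hcomb C D).symm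
    field_simp
    linear_combination h2
  have hℓp : Prime (ℓ : ℤ) := Nat.prime_iff_prime_int.mp hℓ
  obtain ⟨b, e, hbe⟩ : IsCoprime B (ℓ : ℤ) := ((hℓp.coprime_iff_not_dvd).mpr hℓB).symm
  have hmoved : ∀ σ : Kb ≃ₐ[F] Kb, σ ω₀ = ((A + D : ℤ) : Kb) - ω₀ → ∀ P,
      θ (σ • P) = (A + D) • (σ • P) - σ • θ P := by
    obtain ⟨A', B', C', D', h1', h2', -, hquad', hn'⟩ := exists_matrix hω hst
    obtain ⟨rfl, rfl⟩ := FA.DeuringCM.coeff_unique h1 h1'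
    obtain ⟨rfl, rfl⟩ := FA.DeuringCM.coeff_unique h2 h2'
    exact fun σ hσ P => smul_of_moved hω₀ hst hn' hquad' hθ hσ P
  refine ⟨ω₀, θ, g₁, hω₀, heq, hmoved, hk₁, ?_, fun X Y h => ?_, fun P hP => ?_⟩
  · rw [hθ₁, map_add, map_zsmul, map_zsmul, hθ₁, hθ₂]
    module
  · rw [hθ₁] at h
    obtain ⟨hX, hY⟩ := (hspan (X + Y * A) (Y * B)).mp (by rw [← h]; module)
    have hY' : (ℓ : ℤ) ∣ Y := (hℓp.dvd_or_dvd hY).resolve_right hℓB
    exact ⟨(dvd_add_left (hY'.mul_right A)).mp hX, hY'⟩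
  · obtain ⟨z, hz⟩ := exists_preimage (hL := hL) P
    have hmem : (ℓ : ℂ) * z ∈ L.lattice := by
      rw [← unif_eq_zero_iff, ← Int.cast_natCast, unif_int_mul, hz, natCast_zsmul, ← map_nsmul,
        hP, map_zero]
    obtain ⟨i, j, hij⟩ := PeriodPair.mem_lattice.1 hmem
    have hP' : P = i • g₁ + j • g₂ := by
      refine FA.Frob.mapHom_injective φ hL ?_
      refine hz.symm.trans ((congrArg (unif L) ?_).trans (hcomb i j).symm)
      field_simp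
      linear_combination -hij
    refine ⟨i - j * b * A, j * b, ?_⟩
    rw [hP', hθ₁, ← sub_eq_zero, show i • g₁ + j • g₂ - ((i - j * b * A) • g₁ +
      (j * b) • (A • g₁ + B • g₂)) = (0 : ℤ) • g₁ + (j - j * b * B) • g₂ by module]
    exact (hspan _ _).mpr ⟨dvd_zero _, ⟨j * e, by linear_combination (-j) * hbe⟩⟩

/-- The same on any equation. -/
theorem exists_cyclic_galois (E : WeierstrassCurve F) [E.IsElliptic] (ψ : F →+* ℂ) {L : PeriodPair}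
    (hg2 : L.g₂ = ψ E.c₄ / 12) (hg3 : L.g₃ = ψ E.c₆ / 216) {ω : ℂ} (hω : ∀ m : ℤ, ω ≠ m)
    (hst : ∀ l ∈ L.lattice, ω * l ∈ L.lattice) {A B C D : ℤ}
    (h1 : ω * L.ω₁ = A * L.ω₁ + B * L.ω₂) (h2 : ω * L.ω₂ = C * L.ω₁ + D * L.ω₂)
    (hquad : ω ^ 2 - ((A + D : ℤ) : ℂ) * ω + ((A * D - B * C : ℤ) : ℂ) = 0) {d c : ℤ}
    (hdisc : (A + D) ^ 2 - 4 * (A * D - B * C) = d * c ^ 2) {sb : Kb} (hs : sb ^ 2 = (d : Kb))
    {ℓ : ℕ} (hℓ : ℓ.Prime) (hℓB : ¬ (ℓ : ℤ) ∣ B) :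
    ∃ (θ : (E.toAffine⁄Kb).Point →+ (E.toAffine⁄Kb).Point) (g : (E.toAffine⁄Kb).Point),
      (∀ σ : Kb ≃ₐ[F] Kb, σ sb = sb → ∀ P, θ (σ • P) = σ • θ P) ∧
      (∀ σ : Kb ≃ₐ[F] Kb, σ sb = -sb → ∀ P, θ (σ • P) = (A + D) • (σ • P) - σ • θ P) ∧
      ℓ • g = 0 ∧
      θ (θ g) = (A + D) • θ g - (A * D - B * C) • g ∧
      (∀ X Y : ℤ, X • g + Y • θ g = 0 → (ℓ : ℤ) ∣ X ∧ (ℓ : ℤ) ∣ Y) ∧
      ∀ P : (E.toAffine⁄Kb).Point, ℓ • P = 0 → ∃ X Y : ℤ, P = X • g + Y • θ g := by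
  letI := ψ.toAlgebra
  let φ : Kb →ₐ[F] ℂ := IsAlgClosed.lift
  have hψ : ∀ c : F, φ (algebraMap F Kb c) = ψ c := φ.commutes
  obtain ⟨Cv, hC⟩ := exists_variableChange E
  haveI : (shortModel E).IsElliptic := hC ▸ inferInstance
  have hC' : Cv.map (algebraMap F Kb) • E.baseChange Kb = (shortModel E).baseChange Kb := by
    simp only [WeierstrassCurve.baseChange, map_variableChange, hC]
  have hL : ((shortModel E).baseChange Kb).map (φ : Kb →+* ℂ) = latCurve L := by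
    ext <;> simp [WeierstrassCurve.baseChange, shortModel, latCurve, hg2, hg3, hψ, map_ofNat] <;>
      ring
  set e := FA.Frob.vcEquiv _ hC' with he_def
  have he : ∀ σ : Kb ≃ₐ[F] Kb, ∀ P, e (σ • P) = σ • e P := fun σ P => vcEquiv_smul hC' σ P
  have he' : ∀ σ : Kb ≃ₐ[F] Kb, ∀ P, e.symm (σ • P) = σ • e.symm P := fun σ P => by
    apply e.injective
    rw [he, e.apply_symm_apply, e.apply_symm_apply]
  obtain ⟨ω₀, θ, g, hω₀, hcomm, hmoved, hkg, hθθ, hind, hgen⟩ :=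
    exists_cyclic_short hL hω hst h1 h2 hℓ hℓB
  obtain ⟨e₀, he₀⟩ : ∃ e₀ : ℤ, 2 * ω₀ - ((A + D : ℤ) : Kb) = (e₀ : Kb) * sb := by
    have hroot : ω₀ ^ 2 - ((A + D : ℤ) : Kb) * ω₀ + ((A * D - B * C : ℤ) : Kb) = 0 :=
      (φ : Kb →+* ℂ).injective <| by
        rw [map_add, map_sub, map_pow, map_mul, map_intCast, map_intCast, hω₀, map_zero]
        exact hquad
    have hd2 := congrArg (Int.cast (R := Kb)) hdisc
    push_cast at hd2 hroot
    have hsq : (2 * ω₀ - ((A : Kb) + D)) ^ 2 = ((c : Kb) * sb) ^ 2 := by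
      linear_combination 4 * hroot + hd2 - (c : Kb) ^ 2 * hs
    rcases sq_eq_sq_iff_eq_or_eq_neg.1 hsq with h | h
    · exact ⟨c, by rw [Int.cast_add]; exact h⟩
    · exact ⟨-c, by rw [Int.cast_add, h]; push_cast; ring⟩
  have hfix : ∀ σ : Kb ≃ₐ[F] Kb, σ sb = sb → σ ω₀ = ω₀ := fun σ hσ => by
    have h := congrArg σ he₀
    rw [map_sub, map_mul, map_ofNat, map_intCast, map_mul, map_intCast, hσ, ← he₀, sub_left_inj] at h
    exact mul_left_cancel₀ two_ne_zero h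
  have hmov : ∀ σ : Kb ≃ₐ[F] Kb, σ sb = -sb → σ ω₀ = ((A + D : ℤ) : Kb) - ω₀ := fun σ hσ => by
    have h := congrArg σ he₀
    rw [map_sub, map_mul, map_ofNat, map_intCast, map_mul, map_intCast, hσ, mul_neg, ← he₀] at h
    exact mul_left_cancel₀ (two_ne_zero (α := Kb)) (by linear_combination h)
  refine ⟨(e.toAddMonoidHom.comp θ).comp e.symm.toAddMonoidHom, e g, fun σ hσ P => ?_, fun σ hσ P => ?_,
    ?_, ?_,
    fun X Y h => ?_, fun P hP => ?_⟩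
  · show e (θ (e.symm (σ • P))) = σ • e (θ (e.symm P))
    rw [he', hcomm σ (hfix σ hσ), he]
  · show e (θ (e.symm (σ • P))) = (A + D) • (σ • P) - σ • e (θ (e.symm P))
    rw [he', hmoved σ (hmov σ hσ), map_sub, map_zsmul, he, he, e.apply_symm_apply]
  · rw [← map_nsmul, hkg, map_zero]
  · show e (θ (e.symm (e (θ (e.symm (e g)))))) =
      (A + D) • e (θ (e.symm (e g))) - (A * D - B * C) • e g
    rw [e.symm_apply_apply, e.symm_apply_apply, hθθ, map_sub, map_zsmul, map_zsmul]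
  · refine hind X Y (e.injective ?_)
    change X • e g + Y • e (θ (e.symm (e g))) = 0 at h
    rw [e.symm_apply_apply] at h
    rwa [map_add, map_zsmul, map_zsmul, map_zero]
  · obtain ⟨X, Y, h⟩ := hgen (e.symm P) (by rw [← map_nsmul, hP, map_zero])
    refine ⟨X, Y, e.symm.injective ?_⟩
    show e.symm P = e.symm (X • e g + Y • e (θ (e.symm (e g))))
    rw [h, e.symm_apply_apply, map_add, map_zsmul, map_zsmul, e.symm_apply_apply,
      e.symm_apply_apply]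

/-- The same on any equation. -/
theorem exists_cyclic (E : WeierstrassCurve F) [E.IsElliptic] (ψ : F →+* ℂ) {L : PeriodPair}
    (hg2 : L.g₂ = ψ E.c₄ / 12) (hg3 : L.g₃ = ψ E.c₆ / 216) {ω : ℂ} (hω : ∀ m : ℤ, ω ≠ m)
    (hst : ∀ l ∈ L.lattice, ω * l ∈ L.lattice) {A B C D : ℤ}
    (h1 : ω * L.ω₁ = A * L.ω₁ + B * L.ω₂) (h2 : ω * L.ω₂ = C * L.ω₁ + D * L.ω₂)
    (hquad : ω ^ 2 - ((A + D : ℤ) : ℂ) * ω + ((A * D - B * C : ℤ) : ℂ) = 0) {d c : ℤ}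
    (hdisc : (A + D) ^ 2 - 4 * (A * D - B * C) = d * c ^ 2) {s : F} (hs : s ^ 2 = (d : F))
    {ℓ : ℕ} (hℓ : ℓ.Prime) (hℓB : ¬ (ℓ : ℤ) ∣ B) :
    ∃ (θ : (E.toAffine⁄Kb).Point →+ (E.toAffine⁄Kb).Point) (g : (E.toAffine⁄Kb).Point),
      (∀ (σ : Kb ≃ₐ[F] Kb) P, θ (σ • P) = σ • θ P) ∧ ℓ • g = 0 ∧
      θ (θ g) = (A + D) • θ g - (A * D - B * C) • g ∧
      (∀ X Y : ℤ, X • g + Y • θ g = 0 → (ℓ : ℤ) ∣ X ∧ (ℓ : ℤ) ∣ Y) ∧
      ∀ P : (E.toAffine⁄Kb).Point, ℓ • P = 0 → ∃ X Y : ℤ, P = X • g + Y • θ g := by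
  obtain ⟨θ, g, hcomm, -, h⟩ := exists_cyclic_galois (Kb := Kb) E ψ hg2 hg3 hω hst h1 h2 hquad
    hdisc (sb := algebraMap F Kb s) (by rw [← map_pow, hs, map_intCast]) hℓ hℓB
  exact ⟨θ, g, fun σ => hcomm σ (σ.commutes s), h⟩

end FA.DeuringCM

end
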