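import Fermat.Agent.DeuringCM.DescentLSeries
import Fermat.Agent.AlgebraicHecke.Angles

/-!
# The law of the real part of an equidistributed angle

A point equidistributed on the circle has real part at most `t` with mean `1 - arccos t / π`; the
places of a quadratic extension which are moved by the automorphism count twice in the means.
-/

set_option autoImplicit false
set_option linter.style.haveILetI false
set_option linter.unusedSectionVars false

noncomputable section

open NumberField IsDedekindDomain MeasureTheory Filter Topology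
open FA.Hecke (HasMean wSum hasMean_congr mem_primesLE primesLE)
open FA.PrimeEquidist
open scoped Pointwise Classical Real

namespace FA.DeuringCM

theorem cos_two_pi_le {t y : ℝ} (ht : -1 ≤ t) (ht' : t ≤ 1) (hy : y ∈ Set.Ico (0 : ℝ) 1) :
    Real.cos (2 * π * y) ≤ t ↔
      y ∈ Set.Icc (Real.arccos t / (2 * π)) (1 - Real.arccos t / (2 * π)) := by
  obtain ⟨c, hc⟩ : ∃ c, c = Real.arccos t / (2 * π) := ⟨_, rfl⟩
  have hπ := Real.pi_pos
  have hA : Real.arccos t = 2 * π * c := by rw [hc]; field_simp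
  have hc0 : 0 ≤ c := by rw [hc]; exact div_nonneg (Real.arccos_nonneg t) (by positivity)
  have hc2 : c ≤ 1 / 2 := by
    have := Real.arccos_le_pi t
    rw [hA] at this
    nlinarith
  have key : ∀ u, 0 ≤ u → u ≤ 1 / 2 → (Real.cos (2 * π * u) ≤ t ↔ c ≤ u) := fun u h0 h1 => by
    conv_lhs => rw [← Real.cos_arccos ht ht', hA]
    rw [Real.strictAntiOn_cos.le_iff_ge ⟨by positivity, by nlinarith⟩
      ⟨by positivity, by nlinarith⟩]
    exact ⟨fun h => by nlinarith, fun h => by nlinarith⟩
  rw [← hc, Set.mem_Icc]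
  rcases le_total y (1 / 2) with h | h
  · rw [key y hy.1 h]
    exact ⟨fun h' => ⟨h', by linarith⟩, fun h' => h'.1⟩
  · rw [show 2 * π * y = 2 * π - 2 * π * (1 - y) by ring, Real.cos_two_pi_sub,
      key _ (by linarith [hy.2]) (by linarith)]
    exact ⟨fun h' => ⟨by linarith, by linarith⟩, fun h' => by linarith [h'.2]⟩

/-- On the circle the real parts at most `t` are an arc. -/
theorem re_le_iff_mem_arc {z : ℂ} (hz : ‖z‖ = 1) {t : ℝ} (ht : -1 ≤ t) (ht' : t ≤ 1) :
    z.re ≤ t ↔ ∃ u ∈ Set.Icc (Real.arccos t / (2 * π)) (1 - Real.arccos t / (2 * π)),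
      z = Complex.exp (2 * π * Complex.I * u) := by
  have hexp : ∀ u : ℝ, Complex.exp (2 * π * Complex.I * u) =
      Complex.exp (((2 * π * u : ℝ) : ℂ) * Complex.I) := fun u => by push_cast; ring_nf
  have hu : ∃ u ∈ Set.Ico (0 : ℝ) 1, z = Complex.exp (2 * π * Complex.I * u) := by
    refine ⟨Int.fract (Complex.arg z / (2 * π)),
      ⟨Int.fract_nonneg _, Int.fract_lt_one _⟩, ?_⟩
    have h := Complex.norm_mul_exp_arg_mul_I z
    rw [hz, Complex.ofReal_one, one_mul] at h
    conv_lhs => rw [← h]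
    rw [Complex.exp_eq_exp_iff_exists_int]
    refine ⟨⌊Complex.arg z / (2 * π)⌋, ?_⟩
    have : (π : ℂ) ≠ 0 := Complex.ofReal_ne_zero.2 Real.pi_ne_zero
    rw [Int.fract]
    push_cast
    field_simp
    ring
  obtain ⟨u, hu01, rfl⟩ := hu
  constructor
  · intro h
    rw [hexp, Complex.exp_ofReal_mul_I_re, cos_two_pi_le ht ht' hu01] at h
    exact ⟨u, h, rfl⟩
  · rintro ⟨y, hy, e⟩
    rw [e, hexp, Complex.exp_ofReal_mul_I_re]
    rcases lt_or_eq_of_le (show y ≤ 1 by
        linarith [hy.2, div_nonneg (Real.arccos_nonneg t) (Real.two_pi_pos.le)]) with h1 | h1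
    · exact (cos_two_pi_le ht ht'
        ⟨(div_nonneg (Real.arccos_nonneg t) (Real.two_pi_pos.le)).trans hy.1, h1⟩).mpr hy
    · have h0 : Real.arccos t / (2 * π) = 0 :=
        le_antisymm (by linarith [hy.2]) (div_nonneg (Real.arccos_nonneg t) Real.two_pi_pos.le)
      have ht1 : 1 ≤ t := Real.arccos_eq_zero.mp
        ((div_eq_zero_iff.mp h0).resolve_right Real.two_pi_pos.ne')
      linarith [Real.cos_le_one (2 * π * y)]

section Law

variable {K : Type*} [Field K] [NumberField K]

/-- **The mean of the real parts at most `t`.** -/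
theorem hasMean_re_le {z : HeightOneSpectrum (𝓞 K) → ℂ} {S : Set (HeightOneSpectrum (𝓞 K))}
    (hS : S.Finite) (hz : ∀ v ∉ S, ‖z v‖ = 1)
    (h : Equidistributed AddCircle.haarAddCircle fun v => circlePoint (z v)) {t : ℝ} (ht : -1 ≤ t)
    (ht' : t ≤ 1) :
    HasMean (fun v => if (z v).re ≤ t then (1 : ℝ) else 0) (1 - Real.arccos t / π) := by
  obtain ⟨a, ha⟩ : ∃ a, a = Real.arccos t / (2 * π) := ⟨_, rfl⟩
  obtain ⟨b, hb⟩ : ∃ b, b = 1 - a := ⟨_, rfl⟩
  have hπ := Real.pi_pos
  have ha0 : 0 ≤ a := by rw [ha]; exact div_nonneg (Real.arccos_nonneg t) (by positivity)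
  have hab : a ≤ b := by
    have h1 := Real.arccos_le_pi t
    have : a ≤ 1 / 2 := by rw [ha, div_le_iff₀ (by positivity)]; linarith
    linarith
  set B := Metric.closedBall (((a + b) / 2 : ℝ) : AddCircle (1 : ℝ)) ((b - a) / 2) with hB
  have hvol : (AddCircle.haarAddCircle : Measure (AddCircle (1 : ℝ))) = volume := by
    rw [AddCircle.volume_eq_smul_haarAddCircle, ENNReal.ofReal_one, one_smul]
  have hnull : AddCircle.haarAddCircle (frontier B) = 0 := by
    rw [hvol]
    refine measure_mono_null ?_ (ae_eq_set.1 (AddCircle.closedBall_ae_eq_ball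
      (x := (((a + b) / 2 : ℝ) : AddCircle (1 : ℝ))) (ε := (b - a) / 2))).1
    exact fun x hx => ⟨Metric.isClosed_closedBall.frontier_subset hx, fun hx' => hx.2
      (interior_maximal Metric.ball_subset_closedBall Metric.isOpen_ball hx')⟩
  have hm : AddCircle.haarAddCircle.real B = 1 - Real.arccos t / π := by
    rw [hvol, measureReal_def, hB, AddCircle.volume_closedBall,
      ENNReal.toReal_ofReal (le_min one_pos.le (by linarith)), min_eq_right (by linarith), hb, ha]
    field_simp
    ring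
  rw [← hm]
  refine hasMean_congr S hS (B := 1) (fun v => ?_) (fun v hv _ => ?_) (h.hasMean_mem hnull)
  · unfold Set.indicator; split_ifs <;> simp
  · simp only [Set.indicator, hB, circlePoint_mem_arc (hz v hv)]
    exact if_congr (by rw [re_le_iff_mem_arc (hz v hv) ht ht', ← ha, ← hb]) rfl rfl

/-- The count form of a mean of an indicator. -/
theorem tendsto_natCard {P : HeightOneSpectrum (𝓞 K) → Prop} {c : ℝ}
    (h : HasMean (fun v => if P v then (1 : ℝ) else 0) c) :
    Tendsto (fun n : ℕ => Real.log n / n * (Nat.card {v : HeightOneSpectrum (𝓞 K) //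
      Ideal.absNorm v.asIdeal ≤ n ∧ P v} : ℝ)) atTop (𝓝 c) := by
  refine (h.comp tendsto_natCast_atTop_atTop).congr fun n => ?_
  rw [Function.comp_apply, wSum, Nat.floor_natCast, smul_eq_mul, Finset.sum_boole]
  congr 2
  exact (Nat.subtype_card _ (by simp [mem_primesLE])).symm

end Law

section Descent

variable {F : Type} [Field F] [NumberField F] {E : Type} [Field E] [NumberField E] [Algebra F E]

/-- The sums over the places moved by `τ`. -/
theorem wSum_split (τ : E ≃ₐ[F] E) {P : HeightOneSpectrum (𝓞 F) → Prop}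
    (hP : ∀ v, P v → ∃ w : HeightOneSpectrum (𝓞 E), conjPlace τ w ≠ w ∧
      Ideal.absNorm w.asIdeal = Ideal.absNorm v.asIdeal ∧
      (∀ w', w' ∈ ({w, conjPlace τ w} : Finset _) ↔ w'.under (𝓞 F) = v))
    (b : HeightOneSpectrum (𝓞 F) → ℝ) (x : ℝ) :
    wSum (fun w : HeightOneSpectrum (𝓞 E) =>
      if P (w.under (𝓞 F)) then b (w.under (𝓞 F)) else 0) x / 2 =
      wSum (fun v => if P v then b v else 0) x := by
  set n := ⌊x⌋₊
  simp only [wSum]
  rw [← Finset.sum_filter, ← Finset.sum_filter]
  set T := (primesLE F n).filter fun v => P v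
  have hN : ∀ w : HeightOneSpectrum (𝓞 E), P (w.under (𝓞 F)) →
      Ideal.absNorm w.asIdeal = Ideal.absNorm (w.under (𝓞 F)).asIdeal := fun w hw => by
    obtain ⟨u, -, hu, hfib⟩ := hP _ hw
    rcases Finset.mem_insert.mp ((hfib w).mpr rfl) with e | e
    · rw [e] at hu ⊢; exact hu
    · rw [Finset.mem_singleton.mp e, conjPlace_asIdeal, absNorm_smul, hu,
        Finset.mem_singleton.mp e]
  rw [← Finset.sum_fiberwise_of_maps_to (t := T) (g := fun w : HeightOneSpectrum (𝓞 E) =>
    w.under (𝓞 F)) fun w hw => by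
      simp only [T, Finset.mem_filter, mem_primesLE] at hw ⊢
      exact ⟨(hN w hw.2).symm.le.trans hw.1, hw.2⟩, Finset.sum_div]
  refine Finset.sum_congr rfl fun v hv => ?_
  simp only [T, Finset.mem_filter, mem_primesLE] at hv
  obtain ⟨u, hu, -, hfib⟩ := hP v hv.2
  have hset : (((primesLE E n).filter fun w => P (w.under (𝓞 F))).filter
      fun w => w.under (𝓞 F) = v) = {u, conjPlace τ u} := by
    refine Finset.ext fun w => ?_
    simp only [Finset.mem_filter, mem_primesLE, hfib]
    refine ⟨fun h => h.2, fun e => ?_⟩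
    have hw : P (w.under (𝓞 F)) := by rw [e]; exact hv.2
    exact ⟨⟨by rw [hN w hw, e]; exact hv.1, hw⟩, e⟩
  rw [hset, Finset.sum_pair hu.symm, (hfib u).mp (Finset.mem_insert_self _ _),
    (hfib _).mp (Finset.mem_insert_of_mem (Finset.mem_singleton_self _))]
  ring

/-- **The places moved by `τ` count twice.** -/
theorem hasMean_of_split (τ : E ≃ₐ[F] E) {P : HeightOneSpectrum (𝓞 F) → Prop}
    (hP : ∀ v, P v → ∃ w : HeightOneSpectrum (𝓞 E), conjPlace τ w ≠ w ∧
      Ideal.absNorm w.asIdeal = Ideal.absNorm v.asIdeal ∧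
      (∀ w', w' ∈ ({w, conjPlace τ w} : Finset _) ↔ w'.under (𝓞 F) = v))
    (b : HeightOneSpectrum (𝓞 F) → ℝ) {c : ℝ}
    (h : HasMean (fun w : HeightOneSpectrum (𝓞 E) =>
      if P (w.under (𝓞 F)) then b (w.under (𝓞 F)) else 0) c) :
    HasMean (fun v => if P v then b v else 0) (c / 2) := by
  refine (Filter.Tendsto.div_const h 2).congr fun x => ?_
  simp only [smul_eq_mul]
  rw [mul_div_assoc, wSum_split τ hP b x]

end Descent

end FA.DeuringCM

end
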