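import Fermat.Agent.TraceNF.Place
import Fermat.Agent.OpenImageNF.InertValue

/-!
# The field of the points killed by `ℓ` is unramified at the places of good reduction prime to `ℓ`
-/

set_option autoImplicit false
set_option linter.style.haveILetI false
set_option linter.unusedSectionVars false

noncomputable section

open WeierstrassCurve NumberField IsDedekindDomain FA.IsogenyNF FA.TraceNF FA.Local FA.Frob
open FA.ClassNumberOne (xP yP)
open FA.OpenImageNF (exists_overPlace)
open scoped WeierstrassCurve.Affine Classical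

namespace FA.DeuringCM

variable {F : Type} [Field F] [NumberField F] (W₀ : WeierstrassCurve (𝓞 F))
  [(W₀.map (algebraMap (𝓞 F) F)).IsElliptic]

local notation "W" => W₀.map (algebraMap (𝓞 F) F)
local notation "Fb" => AlgebraicClosure F

/-- **The criterion of Néron, Ogg and Shafarevich, one way, at a place of a number field.** -/
theorem inertia_levelField_eq_bot {ℓ : ℕ} (hℓ : ℓ.Prime) {L : IntermediateField F Fb}
    [NumberField L] [IsGalois F L] (hL : L = levelField Fb (W) ℓ)
    {v : HeightOneSpectrum (𝓞 F)} (hΔ : W₀.Δ ∉ v.asIdeal) (hℓv : (ℓ : 𝓞 F) ∉ v.asIdeal)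
    (Q : HeightOneSpectrum (𝓞 L)) (hQv : Q.asIdeal.under (𝓞 F) = v.asIdeal) :
    Q.asIdeal.inertia (L ≃ₐ[F] L) = ⊥ := by
  refine (Subgroup.eq_bot_iff_forall _).2 fun ι hι => ?_
  haveI : IsAlgClosure F Fb := ⟨inferInstance, inferInstance⟩
  haveI : IsGalois F Fb := IsAlgClosure.isGalois F _
  haveI : Algebra.IsAlgebraic L Fb := Algebra.IsAlgebraic.tower_top (K := F) L
  obtain ⟨σ, rfl⟩ := AlgEquiv.restrictNormalHom_surjective (F := F) (K₁ := L) Fb ι
  have hσ : ∀ x : L, ((AlgEquiv.restrictNormalHom L σ x : L) : Fb) = σ (x : Fb) :=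
    fun x => AlgEquiv.restrictNormalHom_apply (F := F) L σ x
  obtain ⟨A, hA⟩ := exists_overPlace (K := L) Fb Q
  have hint : ∀ x : 𝓞 L, A.valuation ((x : L) : Fb) ≤ 1 := fun x =>
    hA.le_one _ (Q.valuation_le_one x)
  have hone : ∀ x : 𝓞 L, x ∉ Q.asIdeal → A.valuation ((x : L) : Fb) = 1 := fun x hx =>
    hA.eq_one (le_antisymm (Q.valuation_le_one x)
      (not_lt.1 fun h => hx ((HeightOneSpectrum.valuation_lt_one_iff_mem Q x).1 h)))
  have hge : ∀ x : L, A.valuation (x : Fb) ≤ 1 → Q.valuation L x ≤ 1 := fun x hx => by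
    by_contra hgt
    rw [not_le] at hgt
    have h1 := hA.lt_one x⁻¹ (by rw [map_inv₀]; exact inv_lt_one_of_one_lt₀ hgt)
    rw [map_inv₀, map_inv₀] at h1
    have hx0 : A.valuation (algebraMap L Fb x) ≠ 0 :=
      A.valuation.ne_zero_iff.2 ((map_ne_zero _).2 fun e => by
        rw [e, map_zero] at hgt; exact not_lt_zero hgt)
    exact absurd hx (not_le.2 ((inv_lt_one₀ (pos_iff_ne_zero.2 hx0)).1 h1))
  have hmove : ∀ x : 𝓞 L, A.valuation (σ ((x : L) : Fb) - ((x : L) : Fb)) < 1 := fun x => by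
    have h := hA.lt_one _ ((HeightOneSpectrum.valuation_lt_one_iff_mem Q _).2 (hι x))
    have e : (((AlgEquiv.restrictNormalHom L σ • x - x : 𝓞 L) : L) : Fb) =
        σ ((x : L) : Fb) - ((x : L) : Fb) := by
      rw [← hσ]
      push_cast
      rfl
    rw [← e]
    exact h
  have key : ∀ x ∈ L, A.valuation x ≤ 1 → A.valuation (σ x - x) < 1 := fun x hxL hx => by
    obtain ⟨a, ⟨b, hb⟩, hab⟩ := Q.exists_primeCompl_mul_eq_of_integer _ (hge ⟨x, hxL⟩ hx)
    have hb1 := hone b hb
    have e : ((a : L) : Fb) = x * ((b : L) : Fb) := by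
      have := congrArg (fun z : L => (z : Fb)) hab
      simpa [mul_comm] using this.symm
    have c1 := hmove a
    rw [e, map_mul] at c1
    have hσb : A.valuation (σ ((b : L) : Fb)) = 1 := by
      have h := A.valuation.map_add_eq_of_lt_left (x := ((b : L) : Fb))
        (y := σ ((b : L) : Fb) - ((b : L) : Fb)) (by rw [hb1]; exact hmove b)
      rwa [add_sub_cancel, hb1] at h
    have hd := A.valuation.map_sub_lt c1
      (show A.valuation (x * (σ ((b : L) : Fb) - ((b : L) : Fb))) < 1 from by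
        rw [map_mul]
        exact lt_of_le_of_lt (mul_le_of_le_one_left' hx) (hmove b))
    rwa [show σ x * σ ((b : L) : Fb) - x * ((b : L) : Fb) -
        x * (σ ((b : L) : Fb) - ((b : L) : Fb)) = σ ((b : L) : Fb) * (σ x - x) by ring, map_mul,
      hσb, one_mul] at hd
  have hv1 : ∀ x : 𝓞 F, x ∉ v.asIdeal → A.valuation (algebraMap F Fb x) = 1 := fun x hx =>
    hone (algebraMap (𝓞 F) (𝓞 L) x) fun h => hx (by rw [← hQv, Ideal.mem_comap]; exact h)
  have hv2 : ∀ x : 𝓞 F, A.valuation (algebraMap F Fb x) ≤ 1 := fun x =>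
    hint (algebraMap (𝓞 F) (𝓞 L) x)
  have hI : IntCoeff A.valuation ((W).baseChange Fb).toAffine :=
    ⟨hv2 _, hv2 _, hv2 _, hv2 _, hv2 _⟩
  have hgood : A.valuation ((W).baseChange Fb).toAffine.Δ = 1 := by
    show A.valuation ((W).baseChange Fb).Δ = 1
    rw [WeierstrassCurve.baseChange, map_Δ, map_Δ]
    exact hv1 _ hΔ
  have hlev : A.valuation (ℓ : Fb) = 1 := by
    rw [← map_natCast (algebraMap F Fb), ← map_natCast (algebraMap (𝓞 F) F)]
    exact hv1 _ hℓv
  have := redCurve_isElliptic hI hgood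
  have hpt : ∀ P : ((W).toAffine⁄Fb).Point, ℓ • P = 0 → σ • P = P := fun P hP => by
    have hinj : ∀ R : ((W).toAffine⁄Fb).Point, ℓ • R = 0 →
        E1 A.valuation ((W).baseChange Fb).toAffine R → R = 0 := fun R hR hE =>
      redHom_injOn hI hgood hℓ hlev hR ((redFun_eq_zero_iff hI).2 hE)
    rcases P with _ | ⟨x, y, h⟩
    · rfl
    have hxL : x ∈ L := hL ▸ IntermediateField.subset_adjoin F _
      (Or.inl (Or.inl (Or.inl ⟨_, hP, rfl⟩)))
    have hyL : y ∈ L := hL ▸ IntermediateField.subset_adjoin F _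
      (Or.inl (Or.inl (Or.inr ⟨_, hP, rfl⟩)))
    have hx : A.valuation x ≤ 1 := by
      by_contra hx
      exact Affine.Point.some_ne_zero h (hinj _ hP ((e1_some h).2 (not_le.1 hx)))
    obtain ⟨h', he⟩ := FA.Local.smul_some (σ := σ) (W) h
    have hE : E1 A.valuation ((W).baseChange Fb).toAffine
        ((Affine.Point.some x y h : ((W).toAffine⁄Fb).Point) - σ • Affine.Point.some x y h) := by
      rw [he]
      refine e1_sub_of_congr hI h h' hx (nsRed_of_unit_Δ hI hgood h.1 hx) ?_ ?_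
      · rw [A.valuation.map_sub_swap]; exact key x hxL hx
      · rw [A.valuation.map_sub_swap]; exact key y hyL (le_y_of_le_x hI h.1 hx)
    refine (sub_eq_zero.1 (hinj _ ?_ hE)).symm
    rw [nsmul_sub, ← smul_nsmul', hP, smul_zero, sub_zero]
  have hroot : ∀ μ ∈ L, μ ^ ℓ = 1 → σ μ = μ := fun μ hμL hμ => by
    refine eq_of_congr_root hℓ.ne_zero hlev (by rw [← map_pow, hμ, map_one]) hμ
      (key μ hμL ?_)
    exact ((pow_eq_one_iff_of_nonneg zero_le hℓ.ne_zero).1
      (by rw [← map_pow, hμ, map_one])).le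
  have hfix : ∀ z ∈ levelField Fb (W) ℓ, σ z = z := by
    intro z hz
    induction hz using IntermediateField.adjoin_induction with
    | mem u hu =>
      have huL : u ∈ L := hL ▸ IntermediateField.subset_adjoin F _ hu
      rcases hu with ((⟨P, hP, rfl⟩ | ⟨P, hP, rfl⟩) | hμ) | ⟨c, -, rfl⟩
      · rw [← FA.IsogenyNF.xP_smul, hpt P hP]
      · rw [← FA.IsogenyNF.yP_smul, hpt P hP]
      · exact hroot u huL hμ
      · exact σ.commutes c
    | algebraMap u => exact σ.commutes u
    | add u v _ _ hu hv => rw [map_add, hu, hv]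
    | inv u _ hu => rw [map_inv₀, hu]
    | mul u v _ _ hu hv => rw [map_mul, hu, hv]
  exact AlgEquiv.ext fun z => Subtype.ext (by
    rw [hσ, AlgEquiv.one_apply]
    exact hfix _ (hL ▸ z.2))

end FA.DeuringCM

end
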