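import Fermat.Agent.DeuringCM.Action
import Fermat.Agent.DeuringCM.Unramified
import Fermat.Agent.Chebotarev.Relative

/-!
# The character of the points killed by `ℓ` on the ray classes
-/

set_option autoImplicit false
set_option linter.style.haveILetI false
set_option linter.unusedSectionVars false

noncomputable section

open WeierstrassCurve NumberField IsDedekindDomain FA.IsogenyNF FA.TraceNF
open FA.JugendtraumField (exists_trQ_eq_frobTrace)
open FA.Frob (Res redCurve residueField_isAlgClosed redCurve_isElliptic)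
open FA.Hecke (RayClassGroup rayClass)
open FA.Ext (primeIdeal)
open FA.ClassNumberOne (xP yP)
open scoped WeierstrassCurve.Affine Classical

namespace FA.DeuringCM

variable {K : Type*} [Field K] [NumberField K] (Q : IQF K)

/-- **The multiplier in the integers.** -/
theorem IQF.exists_order_gen {t n c : ℤ} (hdisc : t ^ 2 - 4 * n = Q.d * c ^ 2) :
    ∃ w : 𝓞 K, w ^ 2 - (t : 𝓞 K) * w + (n : 𝓞 K) = 0 := by
  set z : K := ((t : K) + (c : K) * Q.s) / 2 with hz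
  have h' := congrArg (Int.cast (R := K)) hdisc
  push_cast at h'
  have hquad : z ^ 2 - (t : K) * z + (n : K) = 0 := by
    rw [hz]
    linear_combination (-(1 / 4) : K) * h' + ((c : K) ^ 2 / 4) * Q.hs
  have hint : IsIntegral ℤ z := by
    refine ⟨Polynomial.X ^ 2 + Polynomial.C (-t) * Polynomial.X + Polynomial.C n,
      by monicity!, ?_⟩
    rw [← Polynomial.aeval_def]
    simp only [map_add, map_mul, map_pow, Polynomial.aeval_X, eq_intCast, map_intCast, map_neg]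
    linear_combination hquad
  exact ⟨⟨z, hint⟩, RingOfIntegers.coe_injective (by
    simp only [map_add, map_sub, map_mul, map_pow, map_intCast, map_zero]
    exact hquad)⟩

variable {F : Type} [Field F] [NumberField F] (W₀ : WeierstrassCurve (𝓞 F))
  [(W₀.map (algebraMap (𝓞 F) F)).IsElliptic]

local notation "W" => W₀.map (algebraMap (𝓞 F) F)
local notation "Fb" => AlgebraicClosure F

theorem smul_add_pt (σ : Fb ≃ₐ[F] Fb) (P P' : ((W).toAffine⁄Fb).Point) :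
    σ • (P + P') = σ • P + σ • P' :=
  by
  exact (Affine.Point.map σ.toAlgHom).map_add P P'

/-- **The character of the points killed by `ℓ`, on the ray classes.** -/
theorem exists_artin_char (θ : ((W).toAffine⁄Fb).Point →+ ((W).toAffine⁄Fb).Point)
    (g : ((W).toAffine⁄Fb).Point) {ℓ : ℕ} (hℓ : ℓ.Prime) {t n : ℤ}
    (hcomm : ∀ (σ : Fb ≃ₐ[F] Fb) P, θ (σ • P) = σ • θ P) (hg : ℓ • g = 0)
    (hθθ : θ (θ g) = t • θ g - n • g)
    (hind : ∀ X Y : ℤ, X • g + Y • θ g = 0 → (ℓ : ℤ) ∣ X ∧ (ℓ : ℤ) ∣ Y)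
    (hgen : ∀ P : ((W).toAffine⁄Fb).Point, ℓ • P = 0 → ∃ X Y : ℤ, P = X • g + Y • θ g)
    {w : 𝓞 K} (hw : w ^ 2 - (t : 𝓞 K) * w + (n : 𝓞 K) = 0) :
    ∃ (𝔪 : Ideal (𝓞 F)) (h𝔪 : 𝔪 ≠ ⊥)
      (f : RayClassGroup 𝔪 →* (𝓞 K ⧸ Ideal.span {(ℓ : 𝓞 K)})),
      (∀ v : HeightOneSpectrum (𝓞 F), W₀.Δ ∉ v.asIdeal → (ℓ : 𝓞 F) ∉ v.asIdeal →
        v.asIdeal ⊔ 𝔪 = ⊤) ∧
      ∀ (v : HeightOneSpectrum (𝓞 F)) (hv : v.asIdeal ⊔ 𝔪 = ⊤), W₀.Δ ∉ v.asIdeal →
        (ℓ : 𝓞 F) ∉ v.asIdeal →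
          f (rayClass h𝔪 ⟨primeIdeal v, hv⟩) * f (rayClass h𝔪 ⟨primeIdeal v, hv⟩) -
              ((frobTrace W₀ v : ℤ) : 𝓞 K ⧸ Ideal.span {(ℓ : 𝓞 K)}) *
                f (rayClass h𝔪 ⟨primeIdeal v, hv⟩) +
            ((Ideal.absNorm v.asIdeal : ℕ) : 𝓞 K ⧸ Ideal.span {(ℓ : 𝓞 K)}) = 0 := by
  set I : Ideal (𝓞 K) := Ideal.span {(ℓ : 𝓞 K)}
  let ev : ℤ → ℤ → 𝓞 K ⧸ I := fun X Y =>
    Ideal.Quotient.mk I ((X : 𝓞 K) + (Y : 𝓞 K) * w)
  have hev : ∀ X Y X' Y', X • g + Y • θ g = X' • g + Y' • θ g → ev X Y = ev X' Y' :=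
    fun X Y X' Y' h => by
      obtain ⟨⟨u, hu⟩, v, hv⟩ := hind (X - X') (Y - Y') (by
        rw [sub_zsmul, sub_zsmul, ← sub_eq_zero.mpr h]; abel)
      refine Ideal.Quotient.eq.mpr (Ideal.mem_span_singleton.mpr ⟨(u : 𝓞 K) + (v : 𝓞 K) * w, ?_⟩)
      have hu' := congrArg (Int.cast (R := 𝓞 K)) hu
      have hv' := congrArg (Int.cast (R := 𝓞 K)) hv
      push_cast at hu' hv'
      linear_combination hu' + w * hv'
  have hker : ∀ (σ : Fb ≃ₐ[F] Fb), ∃ X Y : ℤ, σ • g = X • g + Y • θ g := fun σ =>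
    hgen _ (by rw [← smul_nsmul', hg, smul_zero])
  have hθσ : ∀ (σ : Fb ≃ₐ[F] Fb) (X Y : ℤ), σ • g = X • g + Y • θ g →
      σ • θ g = (-(Y * n)) • g + (X + Y * t) • θ g := fun σ X Y h => by
    rw [← hcomm, h, map_add, map_zsmul, map_zsmul, hθθ]
    module
  choose X Y hXY using hker
  let χ : (Fb ≃ₐ[F] Fb) → 𝓞 K ⧸ I := fun σ => ev (X σ) (Y σ)
  have hχ : ∀ σ X' Y', σ • g = X' • g + Y' • θ g → χ σ = ev X' Y' :=
    fun σ X' Y' h => hev _ _ _ _ ((hXY σ).symm.trans h)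
  have hmul : ∀ σ τ, χ (σ * τ) = χ σ * χ τ := fun σ τ => by
    have e : (σ * τ) • g = (X τ * X σ - Y τ * Y σ * n) • g +
        (X τ * Y σ + Y τ * X σ + Y τ * Y σ * t) • θ g := by
      rw [mul_smul, hXY τ, smul_add_pt, smul_zsmul', smul_zsmul', hXY σ,
        hθσ σ _ _ (hXY σ)]
      module
    rw [hχ _ _ _ e]
    show Ideal.Quotient.mk I _ = Ideal.Quotient.mk I _ * Ideal.Quotient.mk I _
    rw [← map_mul]
    congr 1
    push_cast
    linear_combination (-((Y σ : 𝓞 K) * (Y τ : 𝓞 K))) * hw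
  have hone : χ 1 = 1 := by
    rw [hχ 1 1 0 (by simp)]
    simp [ev]
  haveI : IsAlgClosure F Fb := ⟨inferInstance, inferInstance⟩
  haveI : IsGalois F Fb := IsAlgClosure.isGalois F _
  haveI := finiteDimensional_levelField (Kb := Fb) (W) hℓ.ne_zero
  haveI := isGalois_levelField (Kb := Fb) (W) ℓ
  set L := levelField Fb (W) ℓ
  haveI : FiniteDimensional ℚ L := Module.Finite.trans F L
  haveI : NumberField L := { }
  -- automorphisms equal on `L` act alike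
  have hpts : ∀ σ τ : Fb ≃ₐ[F] Fb, (∀ z ∈ L, σ z = τ z) →
      ∀ P : ((W).toAffine⁄Fb).Point, ℓ • P = 0 → σ • P = τ • P := fun σ τ h P hP => by
    rcases P with _ | ⟨x, y, hxy⟩
    · rfl
    obtain ⟨h', e'⟩ := FA.Local.smul_some (σ := σ) (W) hxy
    obtain ⟨h'', e''⟩ := FA.Local.smul_some (σ := τ) (W) hxy
    rw [e', e'']
    exact (Affine.Point.some.injEq ..).mpr
      ⟨h x (IntermediateField.subset_adjoin F _ (Or.inl (Or.inl (Or.inl ⟨_, hP, rfl⟩)))),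
        h y (IntermediateField.subset_adjoin F _ (Or.inl (Or.inl (Or.inr ⟨_, hP, rfl⟩))))⟩
  have hsurj := AlgEquiv.restrictNormalHom_surjective (F := F) (K₁ := L) Fb
  have hval : ∀ (σ : Fb ≃ₐ[F] Fb) (z : L),
      ((AlgEquiv.restrictNormalHom L σ z : L) : Fb) = σ z :=
    fun σ z => AlgEquiv.restrictNormalHom_apply (F := F) L σ z
  have hdesc : ∀ σ τ : Fb ≃ₐ[F] Fb,
      AlgEquiv.restrictNormalHom L σ = AlgEquiv.restrictNormalHom L τ → χ σ = χ τ :=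
    fun σ τ h => by
      have := hpts σ τ (fun z hz => by
        rw [← hval σ ⟨z, hz⟩, ← hval τ ⟨z, hz⟩, h]) g hg
      exact hχ σ _ _ (this.trans (hXY τ))
  choose lift hlift using hsurj
  let χL : (L ≃ₐ[F] L) →* 𝓞 K ⧸ I :=
    { toFun := fun τ => χ (lift τ)
      map_one' := (hdesc _ 1 (by rw [hlift, map_one])).trans hone
      map_mul' := fun τ τ' =>
        (hdesc _ (lift τ * lift τ') (by rw [hlift, map_mul, hlift, hlift])).trans (hmul _ _) }
  -- commutativity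
  have hab : ∀ a b : L ≃ₐ[F] L, a * b = b * a := fun a b => by
    obtain ⟨σ, rfl⟩ := AlgEquiv.restrictNormalHom_surjective (F := F) (K₁ := L) Fb a
    obtain ⟨τ, rfl⟩ := AlgEquiv.restrictNormalHom_surjective (F := F) (K₁ := L) Fb b
    rw [← map_mul, ← map_mul]
    have hpt : ∀ P : ((W).toAffine⁄Fb).Point, ℓ • P = 0 → (σ * τ) • P = (τ * σ) • P := by
      intro P hP
      obtain ⟨i, j, rfl⟩ := hgen P hP
      simp only [mul_smul, smul_add_pt, smul_zsmul', hXY σ, hXY τ, hθσ σ _ _ (hXY σ),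
        hθσ τ _ _ (hXY τ)]
      module
    have heq : ∀ z ∈ L, (σ * τ) z = (τ * σ) z := by
      intro z hz
      induction hz using IntermediateField.adjoin_induction with
      | mem u hu =>
        rcases hu with ((⟨P, hP, rfl⟩ | ⟨P, hP, rfl⟩) | hμ) | ⟨c, -, rfl⟩
        · rw [← FA.IsogenyNF.xP_smul, ← FA.IsogenyNF.xP_smul, hpt P hP]
        · rw [← FA.IsogenyNF.yP_smul, ← FA.IsogenyNF.yP_smul, hpt P hP]
        · haveI : NeZero ℓ := ⟨hℓ.ne_zero⟩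
          obtain ⟨ζ, hζ⟩ := HasEnoughRootsOfUnity.exists_primitiveRoot Fb ℓ
          obtain ⟨i, -, rfl⟩ := hζ.eq_pow_of_pow_eq_one hμ
          obtain ⟨a, -, ha⟩ := hζ.eq_pow_of_pow_eq_one (show σ ζ ^ ℓ = 1 by
            rw [← map_pow, hζ.pow_eq_one, map_one])
          obtain ⟨b, -, hb⟩ := hζ.eq_pow_of_pow_eq_one (show τ ζ ^ ℓ = 1 by
            rw [← map_pow, hζ.pow_eq_one, map_one])
          simp only [AlgEquiv.mul_apply, map_pow, ← ha, ← hb, ← pow_mul]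
          ring
        · rw [AlgEquiv.commutes, AlgEquiv.commutes]
      | algebraMap u => rw [AlgEquiv.commutes, AlgEquiv.commutes]
      | add u v _ _ hu hv => rw [map_add, map_add, hu, hv]
      | inv u _ hu => rw [map_inv₀, map_inv₀, hu]
      | mul u v _ _ hu hv => rw [map_mul, map_mul, hu, hv]
    exact AlgEquiv.ext fun z => Subtype.ext (by rw [hval, hval]; exact heq z z.2)
  obtain ⟨𝔪, h𝔪, hram, α, -, -, hα⟩ := FA.Summary.artin_reciprocity F L hab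
  refine ⟨𝔪, h𝔪, χL.comp α, fun v hΔ hℓv => ?_, fun v hv hΔ hℓv => ?_⟩
  · by_contra hne
    obtain ⟨Q', hQ', hI'⟩ := (hram v).1 (Ideal.dvd_iff_le.2
      (le_sup_right.trans (v.isMaximal.eq_of_le hne le_sup_left).ge))
    exact hI' (inertia_levelField_eq_bot W₀ hℓ rfl hΔ hℓv Q' hQ')
  obtain ⟨P, hP, hPv, τ, hτ⟩ := FA.Chebotarev.exists_isArithFrobAt (L := L) v
  have hPbot : P ≠ ⊥ := Ring.ne_bot_of_isMaximal_of_not_isField hP (RingOfIntegers.not_isField _)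
  obtain ⟨Fr, hq, hKlt⟩ := exists_frobPlace_at W₀ hℓ.ne_zero hΔ hℓv
    (IntermediateField.subset_adjoin F _) hP hPv hτ (hlift τ)
  haveI := Fr.charP
  haveI : Fact Fr.l.Prime := ⟨Fr.prime⟩
  haveI := residueField_isAlgClosed Fr.A
  haveI := redCurve_isElliptic Fr.int Fr.good
  obtain ⟨hW, htr⟩ := exists_trQ_eq_frobTrace W₀ Fr hq hKlt
  have h := quadratic_trQ (W) Fr hW g hg
  rw [htr, show ((Fr.l : ℤ) ^ Fr.n) = ((Ideal.absNorm v.asIdeal : ℕ) : ℤ) by exact_mod_cast hq] at h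
  rw [MonoidHom.comp_apply, hα v hv ⟨P, hP.isPrime, hPbot⟩ τ hPv hτ]
  show χ (lift τ) * χ (lift τ) - _ * χ (lift τ) + _ = 0
  generalize lift τ = σ at h ⊢
  generalize hT : frobTrace W₀ v = T at h ⊢
  generalize hN : Ideal.absNorm v.asIdeal = N at h ⊢
  rw [hXY σ, smul_add_pt, smul_zsmul', smul_zsmul', hXY σ, hθσ σ _ _ (hXY σ)] at h
  obtain ⟨⟨u, hu⟩, r, hr⟩ := hind (X σ * X σ - Y σ * Y σ * n - T * X σ + N)
    (2 * X σ * Y σ + Y σ * Y σ * t - T * Y σ) (by rw [← h]; module)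
  show Ideal.Quotient.mk I _ * Ideal.Quotient.mk I _ - _ * Ideal.Quotient.mk I _ + _ = 0
  rw [← map_intCast (Ideal.Quotient.mk I), ← map_natCast (Ideal.Quotient.mk I), ← map_mul,
    ← map_mul, ← map_sub, ← map_add, Ideal.Quotient.eq_zero_iff_mem, Ideal.mem_span_singleton]
  refine ⟨(u : 𝓞 K) + (r : 𝓞 K) * w, ?_⟩
  have hu' := congrArg (Int.cast (R := 𝓞 K)) hu
  have hr' := congrArg (Int.cast (R := 𝓞 K)) hr
  push_cast at hu' hr'
  linear_combination hu' + w * hr' + ((Y σ : 𝓞 K) * (Y σ : 𝓞 K)) * hw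

end FA.DeuringCM

end
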