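import Fermat.Agent.TraceNF.Place
import Fermat.Agent.HasseBound.Extensions
import Fermat.Agent.Root.LFunctionFormLocal

/-!
# Traces of Frobenius after extending the field

A place of the same norm has the same trace, one of squared norm has trace `a² - 2 q`, and the
trace is invariant under the automorphisms over the field of definition.
-/

set_option autoImplicit false
set_option linter.style.haveILetI false
set_option linter.unusedSectionVars false

noncomputable section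

open NumberField IsDedekindDomain WeierstrassCurve
open FA.TraceNF (frobTrace)
open scoped Pointwise Classical

namespace FA.DeuringCM

variable {F : Type} [Field F] [NumberField F] {E : Type} [Field E] [NumberField E] [Algebra F E]
  (W₀ : WeierstrassCurve (𝓞 F)) {v : HeightOneSpectrum (𝓞 F)} {w : HeightOneSpectrum (𝓞 E)}

/-- The map of residue fields. -/
def residueMap (h : w.asIdeal.under (𝓞 F) = v.asIdeal) :
    𝓞 F ⧸ v.asIdeal →+* 𝓞 E ⧸ w.asIdeal :=
  Ideal.quotientMap w.asIdeal (algebraMap (𝓞 F) (𝓞 E)) h.ge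

theorem residueMap_injective (h : w.asIdeal.under (𝓞 F) = v.asIdeal) :
    Function.Injective (residueMap h) :=
  Ideal.quotientMap_injective' h.le

theorem map_residueMap (h : w.asIdeal.under (𝓞 F) = v.asIdeal) :
    (W₀.map (Ideal.Quotient.mk v.asIdeal)).map (residueMap h) =
      (W₀.map (algebraMap (𝓞 F) (𝓞 E))).map (Ideal.Quotient.mk w.asIdeal) := by
  rw [WeierstrassCurve.map_map, WeierstrassCurve.map_map]
  rfl

theorem natCard_residue (u : HeightOneSpectrum (𝓞 F)) :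
    Nat.card (𝓞 F ⧸ u.asIdeal) = Ideal.absNorm u.asIdeal := (Ideal.absNorm_apply _).symm

/-- **The same norm gives the same trace.** -/
theorem frobTrace_of_absNorm_eq (h : w.asIdeal.under (𝓞 F) = v.asIdeal)
    (hN : Ideal.absNorm w.asIdeal = Ideal.absNorm v.asIdeal) :
    frobTrace (W₀.map (algebraMap (𝓞 F) (𝓞 E))) w = frobTrace W₀ v := by
  haveI := v.isMaximal
  haveI := w.isMaximal
  letI := Ideal.Quotient.field v.asIdeal
  letI := Ideal.Quotient.field w.asIdeal
  haveI : Finite (𝓞 E ⧸ w.asIdeal) := Ideal.finiteQuotientOfFreeOfNeBot _ w.ne_bot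
  haveI : Finite (𝓞 F ⧸ v.asIdeal) := Ideal.finiteQuotientOfFreeOfNeBot _ v.ne_bot
  have hbij : Function.Bijective (residueMap h) :=
    (Nat.bijective_iff_injective_and_card _).mpr ⟨residueMap_injective h, by
      rw [natCard_residue, natCard_residue, hN]⟩
  rw [frobTrace, frobTrace, hN, ← map_residueMap W₀ h]
  have := FA.Root.natCard_point_map (RingEquiv.ofBijective (residueMap h) hbij)
    (W₀.map (Ideal.Quotient.mk v.asIdeal))
  rw [show ((RingEquiv.ofBijective (residueMap h) hbij : 𝓞 F ⧸ v.asIdeal ≃+* 𝓞 E ⧸ w.asIdeal) :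
    𝓞 F ⧸ v.asIdeal →+* 𝓞 E ⧸ w.asIdeal) = residueMap h from RingHom.ext fun _ => rfl] at this
  rw [this]

/-- **The squared norm.** -/
theorem frobTrace_of_absNorm_sq (hΔ : W₀.Δ ∉ v.asIdeal) (h : w.asIdeal.under (𝓞 F) = v.asIdeal)
    (hN : Ideal.absNorm w.asIdeal = Ideal.absNorm v.asIdeal ^ 2) :
    frobTrace (W₀.map (algebraMap (𝓞 F) (𝓞 E))) w =
      frobTrace W₀ v ^ 2 - 2 * (Ideal.absNorm v.asIdeal : ℤ) := by
  haveI := v.isMaximal
  haveI := w.isMaximal
  letI := Ideal.Quotient.field v.asIdeal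
  letI := Ideal.Quotient.field w.asIdeal
  haveI : Finite (𝓞 F ⧸ v.asIdeal) := Ideal.finiteQuotientOfFreeOfNeBot _ v.ne_bot
  haveI : Finite (𝓞 E ⧸ w.asIdeal) := Ideal.finiteQuotientOfFreeOfNeBot _ w.ne_bot
  letI := Fintype.ofFinite (𝓞 F ⧸ v.asIdeal)
  letI := Fintype.ofFinite (𝓞 E ⧸ w.asIdeal)
  letI := (residueMap h).toAlgebra
  haveI : (W₀.map (Ideal.Quotient.mk v.asIdeal)).IsElliptic := ⟨by
    rw [map_Δ, isUnit_iff_ne_zero, Ne, Ideal.Quotient.eq_zero_iff_mem]
    exact hΔ⟩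
  have hq : Fintype.card (𝓞 F ⧸ v.asIdeal) = Ideal.absNorm v.asIdeal := by
    rw [← Nat.card_eq_fintype_card, natCard_residue]
  have hq2 : 1 < Ideal.absNorm v.asIdeal := FA.Ext.two_le_absNorm v
  have hfin : Module.finrank (𝓞 F ⧸ v.asIdeal) (𝓞 E ⧸ w.asIdeal) = 2 := by
    have h1 := Module.card_eq_pow_finrank (K := 𝓞 F ⧸ v.asIdeal) (V := 𝓞 E ⧸ w.asIdeal)
    rw [hq, ← Nat.card_eq_fintype_card, natCard_residue, hN] at h1
    exact (Nat.pow_right_injective hq2 h1).symm
  have e := FA.HasseBound.natCard_point_extension (W₀.map (Ideal.Quotient.mk v.asIdeal))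
    (𝓞 E ⧸ w.asIdeal)
  rw [hfin, hq, show algebraMap (𝓞 F ⧸ v.asIdeal) (𝓞 E ⧸ w.asIdeal) = residueMap h from rfl,
    map_residueMap W₀ h] at e
  rw [frobTrace, frobTrace, e, hN]
  simp only [FA.HasseBound.pointTrace]
  push_cast
  ring

/-- The automorphisms over `F` preserve the traces. -/
theorem frobTrace_smul (σ : E ≃ₐ[F] E) {w' : HeightOneSpectrum (𝓞 E)}
    (hw : w'.asIdeal = σ • w.asIdeal) :
    frobTrace (W₀.map (algebraMap (𝓞 F) (𝓞 E))) w' =
      frobTrace (W₀.map (algebraMap (𝓞 F) (𝓞 E))) w := by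
  haveI := w.isMaximal
  haveI := w'.isMaximal
  letI := Ideal.Quotient.field w.asIdeal
  letI := Ideal.Quotient.field w'.asIdeal
  let e₀ : 𝓞 E ≃+* 𝓞 E := MulSemiringAction.toRingEquiv (E ≃ₐ[F] E) (𝓞 E) σ
  have hmap : w'.asIdeal = w.asIdeal.map (e₀ : 𝓞 E →+* 𝓞 E) := hw
  let e := Ideal.quotientEquiv w.asIdeal w'.asIdeal e₀ hmap
  have hcomp : ((W₀.map (algebraMap (𝓞 F) (𝓞 E))).map (Ideal.Quotient.mk w.asIdeal)).map
      (e : 𝓞 E ⧸ w.asIdeal →+* 𝓞 E ⧸ w'.asIdeal) =
      (W₀.map (algebraMap (𝓞 F) (𝓞 E))).map (Ideal.Quotient.mk w'.asIdeal) := by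
    rw [WeierstrassCurve.map_map, WeierstrassCurve.map_map, WeierstrassCurve.map_map]
    congr 1
    refine RingHom.ext fun x => ?_
    show e (Ideal.Quotient.mk w.asIdeal (algebraMap (𝓞 F) (𝓞 E) x)) = _
    rw [Ideal.quotientEquiv_mk]
    exact congrArg (Ideal.Quotient.mk w'.asIdeal) (smul_algebraMap σ x)
  have := FA.Root.natCard_point_map e
    ((W₀.map (algebraMap (𝓞 F) (𝓞 E))).map (Ideal.Quotient.mk w.asIdeal))
  rw [hcomp] at this
  have hN : Ideal.absNorm w'.asIdeal = Ideal.absNorm w.asIdeal := by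
    rw [Ideal.absNorm_apply, Ideal.absNorm_apply, Submodule.cardQuot_apply,
      Submodule.cardQuot_apply]
    exact (Nat.card_congr e.toEquiv).symm
  rw [frobTrace, frobTrace, this, hN]

end FA.DeuringCM

end
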