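import Fermat.Agent.DeuringCM.LSeries

/-!
# Characters with the same trace at the ordinary primes

Two algebraic characters of one type differ at each prime by a root of unity; at an ordinary prime
the conjugate value differs from the value by none, so equal traces make the characters equal.
-/

set_option autoImplicit false
set_option linter.style.haveILetI false
set_option linter.unusedSectionVars false

noncomputable section

open NumberField NumberField.InfinitePlace IsDedekindDomain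
open FA.AlgHecke (IsAlgChar typeVal typeVal_ne_zero)
open FA.Hecke (IsRayElt RayClassGroup rayClass rayClass_eq_iff finite_rayClassGroup)
open FA.Ext (primeIdeal)
open scoped nonZeroDivisors Pointwise Classical ComplexConjugate

namespace FA.DeuringCM

/-- **The powers of an ordinary number and of its conjugate differ.** -/
theorem dvd_of_pow_eq {α : ℂ} {a : ℤ} {q k : ℕ} (hq : q.Prime) (hk : 0 < k)
    (ha : α + conj α = a) (hn : α * conj α = q) (h : conj α ^ k = α ^ k) : (q : ℤ) ∣ a := by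
  have hint : IsIntegral ℤ α := by
    refine ⟨Polynomial.X ^ 2 + Polynomial.C (-a) * Polynomial.X + Polynomial.C (q : ℤ),
      by monicity!, ?_⟩
    rw [← Polynomial.aeval_def]
    simp only [map_add, map_mul, map_pow, Polynomial.aeval_X, eq_intCast, map_intCast, map_neg,
      map_natCast]
    linear_combination (-hn) + α * ha
  have hintc : IsIntegral ℤ (conj α) := map_isIntegral_int (starRingEnd ℂ) hint
  have hnat : ∀ m : ℕ, IsIntegral ℤ (m : ℂ) := fun m => by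
    simpa using isIntegral_algebraMap (R := ℤ) (A := ℂ) (x := (m : ℤ))
  have hbin : ∀ m : ℕ, ∃ β : ℂ, IsIntegral ℤ β ∧
      (a : ℂ) ^ (m + 1) = α ^ (m + 1) + conj α ^ (m + 1) + (q : ℂ) * β := by
    intro m
    induction m with
    | zero => exact ⟨0, isIntegral_zero, by simp [← ha]⟩
    | succ m ih =>
      obtain ⟨β, hβ, e⟩ := ih
      refine ⟨β * (α + conj α) + (α ^ m + conj α ^ m),
        (hβ.mul (hint.add hintc)).add ((hint.pow m).add (hintc.pow m)), ?_⟩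
      rw [pow_succ (a : ℂ), e, ← ha]
      linear_combination (α ^ m + conj α ^ m) * hn
  obtain ⟨m, rfl⟩ : ∃ m, k = m + 1 := ⟨k - 1, by omega⟩
  obtain ⟨β, hβ, e⟩ := hbin m
  obtain ⟨γ, hγ, e2⟩ : ∃ γ : ℂ, IsIntegral ℤ γ ∧ (a : ℂ) ^ (2 * (m + 1)) = (q : ℂ) * γ := by
    refine ⟨4 * (α * conj α) ^ m + 4 * α ^ (m + 1) * β + (q : ℂ) * β ^ 2,
      ((((hnat 4).mul ((hint.mul hintc).pow m))).add
        (((hnat 4).mul (hint.pow _)).mul hβ)).add ((hnat q).mul (hβ.pow 2)), ?_⟩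
    rw [pow_mul', e]
    linear_combination (conj α ^ (m + 1) + 3 * α ^ (m + 1) + 2 * (q : ℂ) * β -
      4 * α ^ (m + 1)) * h + (4 * (α * conj α) ^ m) * hn
  set r : ℚ := (a : ℚ) ^ (2 * (m + 1)) / (q : ℚ) with hr
  have hrC : algebraMap ℚ ℂ r = γ := by
    rw [hr, map_div₀, map_pow, map_intCast, map_natCast, e2,
      mul_div_cancel_left₀ _ (Nat.cast_ne_zero.mpr hq.ne_zero)]
  obtain ⟨z, hz⟩ := IsIntegrallyClosed.isIntegral_iff.mp
    ((isIntegral_algebraMap_iff (algebraMap ℚ ℂ).injective).mp (hrC ▸ hγ) : IsIntegral ℤ r)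
  have hz' : (z : ℚ) = r := by simpa using hz
  rw [hr, eq_div_iff (Nat.cast_ne_zero.mpr hq.ne_zero)] at hz'
  have hz'' : z * (q : ℤ) = a ^ (2 * (m + 1)) := Rat.intCast_injective (by push_cast; exact hz')
  exact (Nat.prime_iff_prime_int.mp hq).dvd_of_dvd_pow
    (show (q : ℤ) ∣ a ^ (2 * (m + 1)) from ⟨z, by rw [← hz'', mul_comm]⟩)

variable {F : Type} [Field F] [NumberField F] {𝔪 : Ideal (𝓞 F)} {n : (F →+* ℂ) → ℤ}
  {f g : Ideal (𝓞 F) →* ℂ}

/-- **Two characters of one type differ by roots of unity.** -/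
theorem exists_pow_eq (hf : IsAlgChar 𝔪 n f) {𝔫 : Ideal (𝓞 F)} (hg : IsAlgChar 𝔫 n g) :
    ∃ k : ℕ, 0 < k ∧ ∀ v : HeightOneSpectrum (𝓞 F), v.asIdeal ⊔ 𝔪 = ⊤ → v.asIdeal ⊔ 𝔫 = ⊤ →
      f v.asIdeal ^ k = g v.asIdeal ^ k := by
  have hm : 𝔪 * 𝔫 ≠ ⊥ := mul_ne_zero hf.ne_bot hg.ne_bot
  haveI := finite_rayClassGroup hm
  refine ⟨Nat.card (RayClassGroup (𝔪 * 𝔫)), Nat.card_pos, fun v hv hv' => ?_⟩
  have hvm : v.asIdeal ⊔ 𝔪 * 𝔫 = ⊤ := by
    rw [sup_comm] at hv hv' ⊢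
    exact FA.Hecke.mul_sup_eq_top.mpr ⟨hv, hv'⟩
  set k := Nat.card (RayClassGroup (𝔪 * 𝔫))
  have h1 : rayClass hm (⟨primeIdeal v, hvm⟩ ^ k) = rayClass hm 1 := by
    rw [map_pow, pow_card_eq_one', map_one]
  obtain ⟨x, y, hx, hy, e⟩ := (rayClass_eq_iff hm).mp h1
  simp only [SubmonoidClass.coe_pow, OneMemClass.coe_one, mul_one] at e
  change Ideal.span {x} * v.asIdeal ^ k = Ideal.span {y} at e
  have e1 := congrArg f e
  have e2 := congrArg g e
  rw [map_mul, map_pow, hf.ray x ⟨hx.1, Ideal.mul_le_left hx.2.1, hx.2.2⟩,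
    hf.ray y ⟨hy.1, Ideal.mul_le_left hy.2.1, hy.2.2⟩] at e1
  rw [map_mul, map_pow, hg.ray x ⟨hx.1, Ideal.mul_le_right hx.2.1, hx.2.2⟩,
    hg.ray y ⟨hy.1, Ideal.mul_le_right hy.2.1, hy.2.2⟩, ← e1] at e2
  exact mul_left_cancel₀ (typeVal_ne_zero n (RingOfIntegers.coe_ne_zero_iff.mpr hx.1)) e2.symm

/-- **Equal traces and norms at the primes of degree one give equal characters.** -/
theorem eq_of_traces (hf : IsAlgChar 𝔪 n f) {𝔫 : Ideal (𝓞 F)} (hg : IsAlgChar 𝔫 n g)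
    (a : HeightOneSpectrum (𝓞 F) → ℤ) {S : Set (HeightOneSpectrum (𝓞 F))} (hS : S.Finite)
    (hord : ∀ v : HeightOneSpectrum (𝓞 F), v ∉ S → (Ideal.absNorm v.asIdeal).Prime →
      ¬ ((Ideal.absNorm v.asIdeal : ℤ) ∣ a v) ∧
      f v.asIdeal + conj (f v.asIdeal) = a v ∧
      f v.asIdeal * conj (f v.asIdeal) = (Ideal.absNorm v.asIdeal : ℂ) ∧
      g v.asIdeal + conj (g v.asIdeal) = a v ∧
      g v.asIdeal * conj (g v.asIdeal) = (Ideal.absNorm v.asIdeal : ℂ))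
    {v : HeightOneSpectrum (𝓞 F)} (hv : v.asIdeal ⊔ 𝔪 = ⊤) (hv' : v.asIdeal ⊔ 𝔫 = ⊤) :
    f v.asIdeal = g v.asIdeal := by
  have hm : 𝔪 * 𝔫 ≠ ⊥ := mul_ne_zero hf.ne_bot hg.ne_bot
  have hvm : v.asIdeal ⊔ 𝔪 * 𝔫 = ⊤ := by
    rw [sup_comm] at hv hv' ⊢
    exact FA.Hecke.mul_sup_eq_top.mpr ⟨hv, hv'⟩
  obtain ⟨k, hk, hpow⟩ := exists_pow_eq hf hg
  obtain ⟨w, hw, hwS, hq, hγ⟩ :=
    exists_degree_one_class hm (rayClass hm ⟨primeIdeal v, hvm⟩) hS
  have hw1 : w.asIdeal ⊔ 𝔪 = ⊤ := coprime_mono Ideal.mul_le_left hw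
  have hw2 : w.asIdeal ⊔ 𝔫 = ⊤ := coprime_mono Ideal.mul_le_right hw
  obtain ⟨hqa, h1, h2, h3, h4⟩ := hord w hwS hq
  have hfg : f w.asIdeal = g w.asIdeal := by
    have h : (g w.asIdeal - f w.asIdeal) * (g w.asIdeal - conj (f w.asIdeal)) = 0 := by
      linear_combination g w.asIdeal * (h3.trans h1.symm) + h2 - h4
    rcases mul_eq_zero.mp h with e | e
    · exact (sub_eq_zero.mp e).symm
    · exact absurd (dvd_of_pow_eq hq hk h1 h2
        (by rw [← sub_eq_zero.mp e]; exact (hpow w hw1 hw2).symm)) hqa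
  obtain ⟨x, y, hx, hy, e⟩ := (rayClass_eq_iff hm).mp hγ.symm
  have e1 := congrArg f e
  have e2 := congrArg g e
  rw [map_mul, map_mul, hf.ray x ⟨hx.1, Ideal.mul_le_left hx.2.1, hx.2.2⟩,
    hf.ray y ⟨hy.1, Ideal.mul_le_left hy.2.1, hy.2.2⟩] at e1
  rw [map_mul, map_mul, hg.ray x ⟨hx.1, Ideal.mul_le_right hx.2.1, hx.2.2⟩,
    hg.ray y ⟨hy.1, Ideal.mul_le_right hy.2.1, hy.2.2⟩] at e2
  change _ * f v.asIdeal = _ * f w.asIdeal at e1
  change _ * g v.asIdeal = _ * g w.asIdeal at e2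
  rw [hfg, ← e2] at e1
  exact mul_left_cancel₀ (typeVal_ne_zero n (RingOfIntegers.coe_ne_zero_iff.mpr hx.1)) e1

/-- **The conjugate of a character by an automorphism moving the root.** -/
theorem exists_conj_char {d : ℤ} (hd0 : d < 0) {s : F} (hs : s ^ 2 = (d : F))
    {K₀ : Type} [Field K₀] [Algebra K₀ F] (τ : F ≃ₐ[K₀] F) (hτs : τ s = -s) {ψ : F →+* ℂ}
    {𝔣 : Ideal (𝓞 F)} {f : Ideal (𝓞 F) →* ℂ}
    (hf : IsAlgChar 𝔣 (fun σ => if σ s = ψ s then 1 else 0) f) :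
    ∃ (𝔣' : Ideal (𝓞 F)) (g : Ideal (𝓞 F) →* ℂ),
      IsAlgChar 𝔣' (fun σ => if σ s = ψ s then 1 else 0) g ∧
      (∀ I : Ideal (𝓞 F), (τ • I) ⊔ 𝔣 = ⊤ → I ⊔ 𝔣' = ⊤) ∧
      ∀ I : Ideal (𝓞 F), g I = conj (f (τ • I)) := by
  set t : 𝓞 F →+* 𝓞 F := MulSemiringAction.toRingHom (F ≃ₐ[K₀] F) (𝓞 F) τ
  have hsmul : ∀ I : Ideal (𝓞 F), τ • I = I.map t := fun _ => rfl
  let g : Ideal (𝓞 F) →* ℂ :=
    { toFun := fun I => conj (f (τ • I))
      map_one' := by rw [Ideal.one_eq_top, hsmul, Ideal.map_top, ← Ideal.one_eq_top, map_one, map_one]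
      map_mul' := fun I J => by rw [hsmul, Ideal.map_mul, map_mul, map_mul, ← hsmul, ← hsmul] }
  have hsup : ∀ I : Ideal (𝓞 F), (τ • I) ⊔ 𝔣 = ⊤ ↔ I ⊔ τ⁻¹ • 𝔣 = ⊤ := fun I => by
    have e : τ • (I ⊔ τ⁻¹ • 𝔣) = (τ • I) ⊔ 𝔣 := by
      rw [hsmul, Ideal.map_sup, ← hsmul, ← hsmul, smul_inv_smul]
    constructor
    · intro h
      rw [← inv_smul_smul τ (I ⊔ τ⁻¹ • 𝔣), e, h]
      exact Ideal.map_top _
    · intro h
      rw [← e, h, hsmul, Ideal.map_top]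
  refine ⟨τ⁻¹ • 𝔣, g, ⟨?_, fun I hI => ?_, fun x hx => ?_⟩, fun I h => (hsup I).mp h,
    fun I => rfl⟩
  · intro h
    have := congrArg (fun J : Ideal (𝓞 F) => τ • J) h
    simp only [smul_inv_smul] at this
    exact hf.ne_bot (this.trans (by rw [hsmul, Ideal.map_bot]))
  · show conj (f (τ • I)) ≠ 0 ↔ _
    have hI' : τ • I ≠ ⊥ := fun h => hI (by
      have := congrArg (fun J : Ideal (𝓞 F) => τ⁻¹ • J) h
      simp only [inv_smul_smul] at this
      exact this.trans Ideal.map_bot)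
    rw [map_ne_zero_iff _ (starRingEnd ℂ).injective, hf.ne_zero_iff _ hI', hsup]
  · have htx : IsRayElt 𝔣 (τ • x) := by
      refine ⟨fun h => hx.1 (by simpa using congrArg (τ⁻¹ • ·) h), ?_, fun φ => ?_⟩
      · have h := Ideal.smul_mem_pointwise_smul τ (x - 1) (τ⁻¹ • 𝔣) hx.2.1
        rwa [smul_inv_smul, smul_sub, smul_one] at h
      · exact hx.2.2 (φ.comp (τ : F →+* F))
    show conj (f (τ • Ideal.span {x})) = _
    rw [show τ • Ideal.span {x} = Ideal.span {τ • x} by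
        rw [hsmul, Ideal.map_span, Set.image_singleton]; rfl,
      hf.ray _ htx, typeVal, typeVal, map_prod]
    refine Fintype.prod_equiv (Equiv.mk (fun σ => ComplexEmbedding.conjugate (σ.comp (τ : F →+* F)))
      (fun σ => (ComplexEmbedding.conjugate σ).comp ((τ.symm : F ≃ₐ[K₀] F) : F →+* F))
      (fun σ => RingHom.ext fun z => by simp)
      (fun σ => RingHom.ext fun z => by simp)) _ _ fun σ => ?_
    simp only [Equiv.coe_fn_mk, ComplexEmbedding.conjugate_coe_eq, RingHom.comp_apply]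
    have hσ : conj (σ ((τ : F →+* F) s)) = σ s := by
      rw [show ((τ : F →+* F) s) = τ s from rfl, hτs, map_neg, map_neg, (apply_sqrt hd0 hs σ).1,
        neg_neg]
    rw [map_zpow₀]
    simp only [hσ]
    rfl

end FA.DeuringCM

end
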