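import Fermat.Agent.DeuringCM.Inert
import Fermat.Agent.DeuringCM.BaseChange
import Fermat.Agent.DeuringCM.Symmetry

/-!
# The character over the quadratic extension by the field of multiplication

For a field `F` without `√d` the curve over `E = F (√d)` has Deuring's character `f`; it satisfies
`f (τ w) = conj (f w)` for the automorphism `τ` of `E` over `F`, and its values at the primes over a
place of good reduction give the trace at that place.
-/

set_option autoImplicit false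
set_option linter.style.haveILetI false
set_option linter.unusedSectionVars false

noncomputable section

open WeierstrassCurve NumberField IsDedekindDomain
open FA.TraceNF (frobTrace)
open FA.AlgHecke (IsAlgChar IsNormPower)
open scoped WeierstrassCurve.Affine nonZeroDivisors Pointwise Classical ComplexConjugate

namespace FA.DeuringCM

section Conjugate

variable {F : Type} [Field F] [NumberField F] {E : Type} [Field E] [NumberField E] [Algebra F E]

/-- The conjugate of a prime of `E` by an automorphism over `F`. -/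
def conjPlace (σ : E ≃ₐ[F] E) (w : HeightOneSpectrum (𝓞 E)) : HeightOneSpectrum (𝓞 E) where
  asIdeal := σ • w.asIdeal
  isPrime := by haveI := w.isPrime; infer_instance
  ne_bot := fun h => w.ne_bot (by
    have h' := congrArg (σ⁻¹ • ·) h
    simp only [inv_smul_smul] at h'
    exact h'.trans Ideal.map_bot)

@[simp] theorem conjPlace_asIdeal (σ : E ≃ₐ[F] E) (w : HeightOneSpectrum (𝓞 E)) :
    (conjPlace σ w).asIdeal = σ • w.asIdeal := rfl

theorem sup_eq_top (w : HeightOneSpectrum (𝓞 E)) {I : Ideal (𝓞 E)} (h : ¬ I ≤ w.asIdeal) :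
    w.asIdeal ⊔ I = ⊤ :=
  w.isMaximal.1.2 _ (lt_of_le_of_ne le_sup_left fun e => h (e ▸ le_sup_right))

theorem absNorm_smul (σ : E ≃ₐ[F] E) (I : Ideal (𝓞 E)) :
    Ideal.absNorm (σ • I) = Ideal.absNorm I := by
  let e₀ : 𝓞 E ≃+* 𝓞 E := MulSemiringAction.toRingEquiv (E ≃ₐ[F] E) (𝓞 E) σ
  let e := Ideal.quotientEquiv I (σ • I) e₀ rfl
  rw [Ideal.absNorm_apply, Ideal.absNorm_apply, Submodule.cardQuot_apply, Submodule.cardQuot_apply]
  exact (Nat.card_congr e.toEquiv).symm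

theorem algebraMap_mem_smul_iff (σ : E ≃ₐ[F] E) (x : 𝓞 F) (I : Ideal (𝓞 E)) :
    algebraMap (𝓞 F) (𝓞 E) x ∈ σ • I ↔ algebraMap (𝓞 F) (𝓞 E) x ∈ I := by
  rw [Ideal.mem_pointwise_smul_iff_inv_smul_mem, smul_algebraMap]

theorem smul_smul_self (hdeg : Module.finrank F E = 2) [IsGalois F E] (τ : E ≃ₐ[F] E)
    (I : Ideal (𝓞 E)) : τ • τ • I = I := by
  have h : τ ^ Nat.card (E ≃ₐ[F] E) = 1 := pow_card_eq_one'
  rw [IsGalois.card_aut_eq_finrank, hdeg, pow_two] at h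
  rw [smul_smul, h, one_smul]

end Conjugate

variable {F : Type} [Field F] [NumberField F] (W₀ : WeierstrassCurve (𝓞 F))
  [(W₀.map (algebraMap (𝓞 F) F)).IsElliptic]

local notation "W" => W₀.map (algebraMap (𝓞 F) F)

/-- **Deuring's character over `F (√d)`.** -/
theorem exists_descended_char (ψ : F →+* ℂ) {d : ℤ} (hd : Squarefree d) (hd0 : d < 0)
    (hnot : ¬ ∃ s : F, s ^ 2 = (d : F))
    (hcm : ∃ L : PeriodPair, L.g₂ = ψ (W).c₄ / 12 ∧ L.g₃ = ψ (W).c₆ / 216 ∧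
      ∃ ω : ℂ, (∀ m : ℤ, ω ≠ m) ∧ (∀ l ∈ L.lattice, ω * l ∈ L.lattice) ∧
        ∃ x y : ℚ, (ω - (x : ℂ)) ^ 2 = (d : ℂ) * (y : ℂ) ^ 2) :
    ∃ (E : IntermediateField F (AlgebraicClosure F)) (_ : NumberField E) (τ : E ≃ₐ[F] E) (s : E)
      (ψ' : E →+* ℂ) (𝔣 : Ideal (𝓞 E)) (f : Ideal (𝓞 E) →* ℂ),
      Module.finrank F E = 2 ∧ IsGalois F E ∧ τ ≠ 1 ∧ s ^ 2 = (d : E) ∧
      ψ'.comp (algebraMap F E) = ψ ∧
      IsAlgChar 𝔣 (fun σ => if σ s = ψ' s then 1 else 0) f ∧ ¬ IsNormPower f ∧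
      (∀ (𝔪 : Ideal (𝓞 E)) (g : Ideal (𝓞 E) →* ℂ),
        IsAlgChar 𝔪 (fun σ => if σ s = ψ' s then 1 else 0) g →
        {w : HeightOneSpectrum (𝓞 E) | g w.asIdeal ≠ f w.asIdeal}.Finite → 𝔣 ∣ 𝔪) ∧
      (∀ w : HeightOneSpectrum (𝓞 E), f (τ • w.asIdeal) = conj (f w.asIdeal)) ∧
      ∀ v : HeightOneSpectrum (𝓞 F), W₀.Δ ∉ v.asIdeal →
        ∀ w : HeightOneSpectrum (𝓞 E), w.asIdeal.under (𝓞 F) = v.asIdeal →
        w.asIdeal ⊔ 𝔣 = ⊤ ∧
        ((τ • w.asIdeal ≠ w.asIdeal ∧ Ideal.absNorm w.asIdeal = Ideal.absNorm v.asIdeal ∧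
            f w.asIdeal + conj (f w.asIdeal) = frobTrace W₀ v ∧
            f w.asIdeal * conj (f w.asIdeal) = (Ideal.absNorm v.asIdeal : ℂ)) ∨
          (τ • w.asIdeal = w.asIdeal ∧
            Ideal.absNorm w.asIdeal = Ideal.absNorm v.asIdeal ^ 2 ∧ frobTrace W₀ v = 0 ∧
            f w.asIdeal = -(Ideal.absNorm v.asIdeal : ℂ))) := by
  obtain ⟨L, hg2, hg3, ω, hω, hst, x, y, hxy⟩ := hcm
  obtain ⟨sb, hsb⟩ := IsAlgClosed.exists_pow_nat_eq ((d : AlgebraicClosure F)) two_pos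
  set E := IntermediateField.adjoin F ({sb} : Set (AlgebraicClosure F)) with hE
  have hint : IsIntegral F sb := Algebra.IsIntegral.isIntegral sb
  haveI : FiniteDimensional F E := IntermediateField.adjoin.finiteDimensional hint
  haveI : FiniteDimensional ℚ E := Module.Finite.trans F E
  haveI : NumberField E := { }
  have hdeg : Module.finrank F E = 2 := by
    rw [IntermediateField.adjoin.finrank hint]
    refine le_antisymm ?_ ((minpoly.two_le_natDegree_iff hint).mpr fun ⟨r, hr⟩ => hnot ⟨r,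
      (algebraMap F (AlgebraicClosure F)).injective (by rw [map_pow, hr, hsb, map_intCast])⟩)
    have hdvd : minpoly F sb ∣ Polynomial.X ^ 2 - Polynomial.C (d : F) :=
      minpoly.dvd F sb (by simp [hsb])
    exact (Polynomial.natDegree_le_of_dvd hdvd
      (Polynomial.X_pow_sub_C_ne_zero two_pos _)).trans_eq Polynomial.natDegree_X_pow_sub_C
  haveI : Algebra.IsQuadraticExtension F E := { finrank_eq_two' := hdeg }
  haveI : IsGalois F E := inferInstance
  set s : E := ⟨sb, IntermediateField.mem_adjoin_simple_self F sb⟩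
  have hs : s ^ 2 = (d : E) := Subtype.ext (by simpa using hsb)
  obtain ⟨τ, hτ⟩ : ∃ τ : E ≃ₐ[F] E, τ ≠ 1 := by
    haveI : Nontrivial (E ≃ₐ[F] E) := by
      rw [← Finite.one_lt_card_iff_nontrivial, IsGalois.card_aut_eq_finrank, hdeg]
      omega
    exact exists_ne 1
  have hτs : τ s = -s := by
    rcases sq_eq_sq_iff_eq_or_eq_neg.mp (show τ s ^ 2 = s ^ 2 by
      rw [← map_pow, hs, map_intCast]) with h | h
    · refine absurd (AlgEquiv.ext fun z => ?_) hτ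
      obtain ⟨z, hz⟩ := z
      show τ ⟨z, hz⟩ = ⟨z, hz⟩
      induction hz using IntermediateField.adjoin_induction with
      | mem u hu => obtain rfl := Set.mem_singleton_iff.mp hu; exact h
      | algebraMap u => exact τ.commutes u
      | add u v hu' hv' hu hv =>
        exact (map_add τ ⟨u, hu'⟩ ⟨v, hv'⟩).trans (congrArg₂ (· + ·) hu hv)
      | inv u hu' hu => exact (map_inv₀ τ ⟨u, hu'⟩).trans (congrArg Inv.inv hu)
      | mul u v hu' hv' hu hv =>
        exact (map_mul τ ⟨u, hu'⟩ ⟨v, hv'⟩).trans (congrArg₂ (· * ·) hu hv)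
    · exact h
  obtain ⟨ψ', hψ⟩ : ∃ ψ' : E →+* ℂ, ψ'.comp (algebraMap F E) = ψ := by
    letI := ψ.toAlgebra
    let e : E →ₐ[F] ℂ := IsAlgClosed.lift
    exact ⟨e.toRingHom, RingHom.ext fun z => e.commutes z⟩
  set W₁ := W₀.map (algebraMap (𝓞 F) (𝓞 E)) with hW₁
  have hW : W₁.map (algebraMap (𝓞 E) E) = (W).map (algebraMap F E) := by
    rw [hW₁, WeierstrassCurve.map_map, WeierstrassCurve.map_map]
    rfl
  haveI : (W₁.map (algebraMap (𝓞 E) E)).IsElliptic := by rw [hW]; infer_instance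
  have hcm₁ : ∃ L : PeriodPair, L.g₂ = ψ' (W₁.map (algebraMap (𝓞 E) E)).c₄ / 12 ∧
      L.g₃ = ψ' (W₁.map (algebraMap (𝓞 E) E)).c₆ / 216 ∧
      ∃ ω : ℂ, (∀ m : ℤ, ω ≠ m) ∧ (∀ l ∈ L.lattice, ω * l ∈ L.lattice) ∧
        ∃ x y : ℚ, (ω - (x : ℂ)) ^ 2 = (d : ℂ) * (y : ℂ) ^ 2 := by
    refine ⟨L, ?_, ?_, ω, hω, hst, x, y, hxy⟩
    · rw [hW, map_c₄, ← RingHom.comp_apply, hψ, hg2]
    · rw [hW, map_c₆, ← RingHom.comp_apply, hψ, hg3]
  obtain ⟨𝔣, f, hf, hne, hmin, hv⟩ := exists_hecke_char W₁ ψ' hd hd0 hs hcm₁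
  obtain ⟨𝔣', g, hg, hcop, hgI⟩ := exists_conj_char hd0 hs τ hτs (ψ := ψ') hf
  have hΔ₁ : ∀ w : HeightOneSpectrum (𝓞 E), W₁.Δ ∈ w.asIdeal ↔
      W₀.Δ ∈ w.asIdeal.under (𝓞 F) := fun w => by
    rw [hW₁, map_Δ]; rfl
  -- equal values at almost all primes
  have hS : {w : HeightOneSpectrum (𝓞 E) | W₁.Δ ∈ w.asIdeal ∨
      ((6 * d : ℤ) : 𝓞 E) ∈ w.asIdeal}.Finite := by
    have hfin : ∀ z : 𝓞 E, z ≠ 0 →
        {w : HeightOneSpectrum (𝓞 E) | z ∈ w.asIdeal}.Finite := fun z hz =>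
      (Ideal.finite_factors (show Ideal.span {z} ≠ ⊥ by simpa using hz)).subset fun w hw =>
        Ideal.dvd_span_singleton.mpr hw
    exact (hfin _ fun h => (W₁.map (algebraMap (𝓞 E) E)).isUnit_Δ.ne_zero (by
      rw [map_Δ, h, map_zero])).union (hfin _ (Int.cast_ne_zero.mpr (by omega)))
  have hgood : ∀ w : HeightOneSpectrum (𝓞 E), W₁.Δ ∉ w.asIdeal →
      W₁.Δ ∉ (conjPlace τ w).asIdeal ∧
        frobTrace W₁ (conjPlace τ w) = frobTrace W₁ w := fun w hw => by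
    refine ⟨?_, frobTrace_smul W₀ τ rfl⟩
    rw [hW₁, map_Δ, conjPlace_asIdeal, algebraMap_mem_smul_iff]
    rwa [hW₁, map_Δ] at hw
  have heq : ∀ w : HeightOneSpectrum (𝓞 E), w.asIdeal ⊔ 𝔣 = ⊤ → w.asIdeal ⊔ 𝔣' = ⊤ →
      f w.asIdeal = g w.asIdeal := fun w h h' => by
    refine eq_of_traces hf hg (frobTrace W₁) hS (fun u hu hq => ?_) h h'
    simp only [Set.mem_ofPred_eq, not_or] at hu
    obtain ⟨-, h1, h2⟩ := hv u hu.1
    obtain ⟨hu', htr⟩ := hgood u hu.1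
    obtain ⟨-, h3, h4⟩ := hv _ hu'
    rw [htr, conjPlace_asIdeal] at h3
    rw [conjPlace_asIdeal, absNorm_smul] at h4
    refine ⟨fun hdvd => ?_, h1, h2, ?_, ?_⟩
    · obtain ⟨b, hb⟩ := FA.JugendtraumField.frobTrace_normEquation W₁ ψ' hd hcm₁ hs hu.1
      set q := Ideal.absNorm u.asIdeal with hqdef
      have hq6 : 4 < q := by
        by_contra hlt
        have hmem : (q : 𝓞 E) ∈ u.asIdeal := Ideal.absNorm_mem _
        have h6 : q ∣ 6 := by
          have := hq.two_le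
          interval_cases q <;> norm_num at *
        obtain ⟨k, hk⟩ := h6
        refine hu.2 ?_
        rw [show ((6 * d : ℤ) : 𝓞 E) = ((k : ℤ) * d : ℤ) * (q : 𝓞 E) by
          have h6' : (6 : 𝓞 E) = (q : 𝓞 E) * (k : 𝓞 E) := by exact_mod_cast congrArg (Nat.cast) hk
          push_cast; rw [h6']; ring]
        exact Ideal.mul_mem_left _ _ hmem
      obtain ⟨k, hk⟩ := hdvd
      have hneg : (d : ℤ) * b ^ 2 ≤ 0 := mul_nonpos_of_nonpos_of_nonneg hd0.le (sq_nonneg b)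
      have hq' : (4 : ℤ) < q := by exact_mod_cast hq6
      have hk0 : k = 0 := by
        by_contra hk0
        have : (1 : ℤ) ≤ k ^ 2 := by
          have := sq_pos_of_ne_zero hk0
          omega
        have h3 := mul_le_mul_of_nonneg_left this (sq_nonneg (q : ℤ))
        have h4 : (q : ℤ) * 4 < q * q := mul_lt_mul_of_pos_left hq' (by omega)
        rw [hk] at hb
        linarith [show (q : ℤ) ^ 2 * k ^ 2 = ((q : ℤ) * k) ^ 2 by ring, sq (q : ℤ)]
      rw [hk, hk0] at hb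
      have hdiv : (q : ℤ) ∣ d * b ^ 2 := ⟨-4, by rw [← hb]; ring⟩
      rcases (Nat.prime_iff_prime_int.mp hq).dvd_or_dvd hdiv with hqd | hqb
      · refine hu.2 ?_
        obtain ⟨k', hk'⟩ := hqd
        rw [show ((6 * d : ℤ) : 𝓞 E) = ((6 * k' : ℤ) : 𝓞 E) * (q : 𝓞 E) by
          rw [hk']; push_cast; ring]
        exact Ideal.mul_mem_left _ _ (Ideal.absNorm_mem _)
      · obtain ⟨b', hb'⟩ := (Nat.prime_iff_prime_int.mp hq).dvd_of_dvd_pow hqb
        rw [hb'] at hb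
        have hmul : (q : ℤ) * (d * b' ^ 2) = -4 :=
          mul_left_cancel₀ (show (q : ℤ) ≠ 0 by omega) (by linear_combination -hb)
        have hq4 : (q : ℤ) ∣ 4 := ⟨-(d * b' ^ 2), by linear_combination hmul⟩
        have := Int.le_of_dvd (by omega) hq4
        omega
    · rw [hgI, Complex.conj_conj, add_comm, h3]
    · rw [hgI, Complex.conj_conj, mul_comm, h4]
  have hdvd : 𝔣 ∣ 𝔣' := hmin 𝔣' g hg (((Ideal.finite_factors hf.ne_bot).union
    (Ideal.finite_factors hg.ne_bot)).subset fun w hw => by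
      by_contra h
      simp only [Set.mem_union, Set.mem_ofPred_eq, not_or, Ideal.dvd_iff_le] at h
      exact hw (heq w (sup_eq_top w h.1)
        (sup_eq_top w h.2)).symm)
  have hstable : ∀ w : HeightOneSpectrum (𝓞 E), (τ • w.asIdeal) ⊔ 𝔣 = ⊤ → w.asIdeal ⊔ 𝔣 = ⊤ :=
    fun w h => coprime_mono (Ideal.le_of_dvd hdvd) (hcop _ h)
  have hsymm : ∀ w : HeightOneSpectrum (𝓞 E), f (τ • w.asIdeal) = conj (f w.asIdeal) := fun w => by
    by_cases h : (τ • w.asIdeal) ⊔ 𝔣 = ⊤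
    · rw [heq w (hstable w h) (hcop _ h), hgI, Complex.conj_conj]
    · have h1 : f (τ • w.asIdeal) = 0 :=
        not_not.mp fun e => h ((hf.ne_zero_iff _ (conjPlace τ w).ne_bot).mp e)
      have h2 : f w.asIdeal = 0 := not_not.mp fun e => h (hstable (conjPlace τ w) (by
        rw [conjPlace_asIdeal, smul_smul_self hdeg]
        exact (hf.ne_zero_iff _ w.ne_bot).mp e))
      rw [h1, h2, map_zero]
  refine ⟨E, inferInstance, τ, s, ψ', 𝔣, f, hdeg, inferInstance, hτ, hs, hψ, hf, hne, hmin, hsymm,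
    fun v hΔ w hwv => ?_⟩
  have hw : W₁.Δ ∉ w.asIdeal := by rw [hΔ₁, hwv]; exact hΔ
  obtain ⟨hwf, h1, h2⟩ := hv w hw
  refine ⟨hwf, ?_⟩
  rcases place_cases W₀ hd hg2 hg3 hω hst hxy hsb hE hdeg hτ hΔ w hwv with
    ⟨hmove, hN⟩ | ⟨hfix, hN, ha⟩
  · refine Or.inl ⟨hmove, hN, ?_, ?_⟩
    · rw [h1, hW₁, frobTrace_of_absNorm_eq W₀ hwv hN]
    · rw [h2, hN]
  · refine Or.inr ⟨hfix, hN, ha, ?_⟩
    have hr := hsymm w
    rw [hfix] at hr
    rw [hW₁, frobTrace_of_absNorm_sq W₀ hΔ hwv hN, ha, ← hr] at h1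
    push_cast at h1
    linear_combination h1 / 2

end FA.DeuringCM

end
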