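import Fermat.Agent.DeuringCM.GoodConductor
import Fermat.Agent.DeuringCM.DescentLSeries

/-!
# The places of bad reduction are the divisors of the conductor

Over a field with `√d` the places of good reduction are those prime to the conductor of Deuring's
character. Without `√d` an inertia element moving `√d` acts semilinearly on the points killed by a
large prime: good reduction forbids it, and if the curve is good over the quadratic extension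
it fixes a point of large prime order, so the curve is good. So good reduction at `v` is coprimality
to the conductor at a place over `v`, and it makes `v` unramified in the extension.
-/

set_option autoImplicit false
set_option linter.style.haveILetI false
set_option linter.unusedSectionVars false

noncomputable section

open WeierstrassCurve NumberField IsDedekindDomain FA.IsogenyNF FA.TraceNF
open FA.AlgHecke (IsAlgChar)
open FA.GoodNF (GoodAt)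
open FA.OpenImageNF (OverPlace inertGroup)
open scoped WeierstrassCurve.Affine nonZeroDivisors Pointwise Classical ComplexConjugate

namespace FA.DeuringCM

variable {F : Type} [Field F] [NumberField F] (W₀ : WeierstrassCurve (𝓞 F))
  [(W₀.map (algebraMap (𝓞 F) F)).IsElliptic]

local notation "W" => W₀.map (algebraMap (𝓞 F) F)
local notation "Fb" => AlgebraicClosure F

/-- The invariant of a curve with a multiplier is integral everywhere. -/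
theorem j_le_one_of_cm (ψ : F →+* ℂ)
    (hcm : ∃ L : PeriodPair, L.g₂ = ψ (W).c₄ / 12 ∧ L.g₃ = ψ (W).c₆ / 216 ∧
      ∃ ω : ℂ, (∀ m : ℤ, ω ≠ m) ∧ (∀ l ∈ L.lattice, ω * l ∈ L.lattice))
    (v : HeightOneSpectrum (𝓞 F)) : v.valuation F (W).j ≤ 1 := by
  obtain ⟨Lp, hg2, hg3, ω, hω, hst⟩ := hcm
  exact v.valuation_le_one
    (⟨_, FA.IsogenyNF.isIntegral_j (W) ⟨Lp, hg2, hg3, ω, hω, hst⟩⟩ : 𝓞 F)

variable {W₀}

/-- **The bad places are the divisors of the conductor.** -/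
theorem goodAt_iff_coprime (ψ : F →+* ℂ) {d : ℤ} (hd : Squarefree d) (hd0 : d < 0) {s : F}
    (hs : s ^ 2 = (d : F))
    (hcm : ∃ L : PeriodPair, L.g₂ = ψ (W).c₄ / 12 ∧ L.g₃ = ψ (W).c₆ / 216 ∧
      ∃ ω : ℂ, (∀ m : ℤ, ω ≠ m) ∧ (∀ l ∈ L.lattice, ω * l ∈ L.lattice) ∧
        ∃ x y : ℚ, (ω - (x : ℂ)) ^ 2 = (d : ℂ) * (y : ℂ) ^ 2)
    {𝔣 : Ideal (𝓞 F)} {f : Ideal (𝓞 F) →* ℂ}
    (hf : IsAlgChar 𝔣 (fun σ => if σ s = ψ s then 1 else 0) f)
    (hmin : ∀ (𝔪 : Ideal (𝓞 F)) (g : Ideal (𝓞 F) →* ℂ),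
      IsAlgChar 𝔪 (fun σ => if σ s = ψ s then 1 else 0) g →
      {u : HeightOneSpectrum (𝓞 F) | g u.asIdeal ≠ f u.asIdeal}.Finite → 𝔣 ∣ 𝔪)
    (hv : ∀ u : HeightOneSpectrum (𝓞 F), W₀.Δ ∉ u.asIdeal → u.asIdeal ⊔ 𝔣 = ⊤ ∧
      f u.asIdeal + conj (f u.asIdeal) = frobTrace W₀ u ∧
      f u.asIdeal * conj (f u.asIdeal) = (Ideal.absNorm u.asIdeal : ℂ))
    (v : HeightOneSpectrum (𝓞 F)) : GoodAt (W) v ↔ v.asIdeal ⊔ 𝔣 = ⊤ := by
  refine ⟨fun h => ?_, goodAt_of_coprime ψ hd hd0 hs hcm hf hv⟩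
  obtain ⟨W₁, C, hC, hΔ⟩ := FA.GoodNF.exists_globalModel h
  exact (values_of_good_model ψ hd hd0 hs hcm hf hmin hv hC hΔ).1

variable (W₀)

/-- A semilinear map which commutes with `-1` or with `1` on the basis is excluded. -/
theorem not_semilinear_scalar (θ : ((W).toAffine⁄Fb).Point →+ ((W).toAffine⁄Fb).Point)
    (g : ((W).toAffine⁄Fb).Point) {ℓ : ℕ} (hℓ : ℓ.Prime) (hℓ2 : ℓ ≠ 2) {t e : ℤ}
    (he : e = 1 ∨ e = -1)
    (hind : ∀ X Y : ℤ, X • g + Y • θ g = 0 → (ℓ : ℤ) ∣ X ∧ (ℓ : ℤ) ∣ Y)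
    (h : θ (e • g) = t • (e • g) - e • θ g) : False := by
  refine hℓ2 ((Nat.prime_dvd_prime_iff_eq hℓ Nat.prime_two).mp (Int.natCast_dvd_natCast.mp ?_))
  rcases he with rfl | rfl
  · refine (hind (-t) 2 ?_).2
    rw [one_zsmul, one_zsmul] at h
    rw [two_zsmul, neg_zsmul]
    nth_rw 1 [h]
    abel
  · refine (hind (-t) 2 ?_).2
    rw [neg_one_zsmul, neg_one_zsmul, map_neg] at h
    rw [two_zsmul, neg_zsmul]
    rw [zsmul_neg] at h
    nth_rw 1 [neg_inj.1 (show -θ g = -(t • g - θ g) by rw [h]; abel)]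
    abel

/-- A large prime prime to `v`, with a basis of the points it kills. -/
theorem exists_semilinear_basis (ψ : F →+* ℂ) {d : ℤ} (hd : Squarefree d)
    (hcm : ∃ L : PeriodPair, L.g₂ = ψ (W).c₄ / 12 ∧ L.g₃ = ψ (W).c₆ / 216 ∧
      ∃ ω : ℂ, (∀ m : ℤ, ω ≠ m) ∧ (∀ l ∈ L.lattice, ω * l ∈ L.lattice) ∧
        ∃ x y : ℚ, (ω - (x : ℂ)) ^ 2 = (d : ℂ) * (y : ℂ) ^ 2)
    {sb : Fb} (hs : sb ^ 2 = (d : Fb)) (v : HeightOneSpectrum (𝓞 F)) :
    ∃ (ℓ : ℕ) (t n : ℤ) (θ : ((W).toAffine⁄Fb).Point →+ ((W).toAffine⁄Fb).Point)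
      (g : ((W).toAffine⁄Fb).Point), ℓ.Prime ∧ 5 ≤ ℓ ∧ v.valuation F (ℓ : F) = 1 ∧
      (∀ σ : Fb ≃ₐ[F] Fb, σ sb = -sb → ∀ P, θ (σ • P) = t • (σ • P) - σ • θ P) ∧
      ℓ • g = 0 ∧ θ (θ g) = t • θ g - n • g ∧
      ∀ X Y : ℤ, X • g + Y • θ g = 0 → (ℓ : ℤ) ∣ X ∧ (ℓ : ℤ) ∣ Y := by
  obtain ⟨Lp, hg2, hg3, ω, hω, hst, x, y, hxy⟩ := hcm
  obtain ⟨A', B', C', D', c, h1, h2, hB, hquad, hdisc, -⟩ := exists_matrix_disc hd hω hst hxy
  obtain ⟨ℓ, hlt, hℓ⟩ := Nat.exists_infinite_primes (B'.natAbs + Ideal.absNorm v.asIdeal + 5)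
  obtain ⟨θ, g, -, hsemi, hg, hθθ, hind, -⟩ := exists_cyclic_galois (Kb := Fb) (W) ψ hg2 hg3 hω
    hst h1 h2 hquad hdisc hs hℓ (fun hdvd => by
      have := Nat.le_of_dvd (Int.natAbs_pos.mpr hB) (Int.natCast_dvd.mp hdvd)
      omega)
  refine ⟨ℓ, _, _, θ, g, hℓ, by omega, ?_, hsemi, hg, hθθ, hind⟩
  rw [← map_natCast (algebraMap (𝓞 F) F)]
  exact le_antisymm (v.valuation_le_one _) (not_lt.1 fun h =>
    not_mem_of_absNorm_lt hℓ (by omega) ((v.valuation_lt_one_iff_mem _).1 h))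

/-- **Good reduction makes inertia fix `√d`.** -/
theorem inertia_fix_sqrt_of_goodAt (ψ : F →+* ℂ) {d : ℤ} (hd : Squarefree d)
    (hcm : ∃ L : PeriodPair, L.g₂ = ψ (W).c₄ / 12 ∧ L.g₃ = ψ (W).c₆ / 216 ∧
      ∃ ω : ℂ, (∀ m : ℤ, ω ≠ m) ∧ (∀ l ∈ L.lattice, ω * l ∈ L.lattice) ∧
        ∃ x y : ℚ, (ω - (x : ℂ)) ^ 2 = (d : ℂ) * (y : ℂ) ^ 2)
    {sb : Fb} (hs : sb ^ 2 = (d : Fb)) {v : HeightOneSpectrum (𝓞 F)} {A : ValuationSubring Fb}
    (hA : OverPlace A v) (hgood : GoodAt (W) v) {σ : Fb ≃ₐ[F] Fb} (hσ : σ ∈ inertGroup F A) :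
    σ sb = sb := by
  obtain ⟨ℓ, t, n, θ, g, hℓ, h5, hℓv, hsemi, hg, -, hind⟩ :=
    exists_semilinear_basis W₀ ψ hd hcm hs v
  refine ((sq_eq_sq_iff_eq_or_eq_neg).mp (by rw [← map_pow, hs, map_intCast])).resolve_right
    fun hneg => ?_
  have hfix : ∀ P : ((W).toAffine⁄Fb).Point, ℓ • P = 0 → σ • P = P := fun P hP =>
    FA.GoodNF.smul_eq_of_goodAt hA hgood hℓ hℓv hσ (n := 1) (by rwa [pow_one])
  have h := hsemi σ hneg g
  rw [hfix g hg, hfix _ (by rw [← map_nsmul, hg, map_zero])] at h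
  exact not_semilinear_scalar W₀ θ g hℓ (by omega) (t := t) (Or.inl rfl) hind
    (by rwa [one_zsmul, one_zsmul])

/-- **Inertia fixing the torsion as soon as it fixes `√d`** gives good reduction. -/
theorem goodAt_of_fixing_sqrt (ψ : F →+* ℂ) {d : ℤ} (hd : Squarefree d)
    (hcm : ∃ L : PeriodPair, L.g₂ = ψ (W).c₄ / 12 ∧ L.g₃ = ψ (W).c₆ / 216 ∧
      ∃ ω : ℂ, (∀ m : ℤ, ω ≠ m) ∧ (∀ l ∈ L.lattice, ω * l ∈ L.lattice) ∧
        ∃ x y : ℚ, (ω - (x : ℂ)) ^ 2 = (d : ℂ) * (y : ℂ) ^ 2)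
    {sb : Fb} (hs : sb ^ 2 = (d : Fb)) {v : HeightOneSpectrum (𝓞 F)} {A : ValuationSubring Fb}
    (hA : OverPlace A v)
    (h : ∀ σ ∈ inertGroup F A, σ sb = sb → ∀ ℓ : ℕ, ℓ.Prime → v.valuation F (ℓ : F) = 1 →
      ∀ P : ((W).toAffine⁄Fb).Point, ℓ • P = 0 → σ • P = P) : GoodAt (W) v := by
  obtain ⟨ℓ, t, n, θ, g, hℓ, h5, hℓv, hsemi, hg, -, hind⟩ :=
    exists_semilinear_basis W₀ ψ hd hcm hs v
  have hj : v.valuation F (W).j ≤ 1 := j_le_one_of_cm W₀ ψ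
    (by obtain ⟨L, a, b, ω, c, e, -⟩ := hcm; exact ⟨L, a, b, ω, c, e⟩) v
  have hcase : ∀ σ : Fb ≃ₐ[F] Fb, σ sb = sb ∨ σ sb = -sb := fun σ =>
    (sq_eq_sq_iff_eq_or_eq_neg).mp (by rw [← map_pow, hs, map_intCast])
  by_cases hall : ∀ σ ∈ inertGroup F A, σ sb = sb
  · exact FA.GoodNF.goodAt_of_level hA hℓ hℓv hj (a := 1) (by rw [pow_one]; omega)
      fun σ hσ P hP => h σ hσ (hall σ hσ) ℓ hℓ hℓv P (by rwa [pow_one] at hP)
  push Not at hall
  obtain ⟨σ₀, hσ₀, hne⟩ := hall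
  have hneg : σ₀ sb = -sb := (hcase σ₀).resolve_left hne
  have hsame : ∀ σ ∈ inertGroup F A, ∀ P : ((W).toAffine⁄Fb).Point, ℓ • P = 0 →
      σ • (P + σ₀ • P) = P + σ₀ • P := fun σ hσ P hP => by
    have hP₀ : ℓ • (σ₀ • P) = 0 := by
      rw [← smul_nsmul', hP]; exact FA.Local.gal_smul_zero (W) σ₀
    rw [gal_add]
    rcases hcase σ with hσs | hσs
    · rw [h σ hσ hσs ℓ hℓ hℓv P hP, h σ hσ hσs ℓ hℓ hℓv _ hP₀]
    have hinv : σ₀⁻¹ sb = -sb := by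
      have h1 := congrArg (σ₀⁻¹ : Fb ≃ₐ[F] Fb) hneg
      rw [show (σ₀⁻¹ : Fb ≃ₐ[F] Fb) (σ₀ sb) = sb from σ₀.symm_apply_apply sb, map_neg] at h1
      rw [eq_neg_iff_add_eq_zero, add_comm, ← eq_neg_iff_add_eq_zero]
      exact h1
    have key : ∀ P : ((W).toAffine⁄Fb).Point, ℓ • P = 0 → σ • P = σ₀ • P := fun P hP => by
      have h1 := h (σ₀⁻¹ * σ) (mul_mem (inv_mem hσ₀) hσ)
        (by rw [AlgEquiv.mul_apply, hσs, map_neg, hinv, neg_neg]) ℓ hℓ hℓv P hP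
      calc σ • P = σ₀ • (σ₀⁻¹ * σ) • P := by rw [← mul_smul, mul_inv_cancel_left]
        _ = σ₀ • P := by rw [h1]
    rw [key P hP, key _ hP₀, ← mul_smul,
      h (σ₀ * σ₀) (mul_mem hσ₀ hσ₀) (by rw [AlgEquiv.mul_apply, hneg, map_neg, hneg, neg_neg])
        ℓ hℓ hℓv P hP, add_comm]
  have hpt : ∀ P : ((W).toAffine⁄Fb).Point, ℓ • P = 0 → P + σ₀ • P ≠ 0 → GoodAt (W) v :=
    fun P hP h0 => FA.GoodNF.goodAt_of_fixed_point (W) hA hℓ hℓv hj (a := 1) (P := P + σ₀ • P)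
      (by
        rw [pow_one, nsmul_add, hP, zero_add, ← smul_nsmul', hP]
        exact FA.Local.gal_smul_zero (W) σ₀)
      (fun k hk hk4 hz => by
        obtain ⟨u, w, huw⟩ := Nat.isCoprime_iff_coprime.2
          ((hℓ.coprime_iff_not_dvd).2 fun hd' : ℓ ∣ k =>
            absurd (Nat.le_of_dvd hk hd') (by omega))
        refine h0 ?_
        rw [← one_zsmul (P + σ₀ • P), ← huw, add_zsmul, mul_zsmul, mul_zsmul, natCast_zsmul,
          natCast_zsmul, hz, show ℓ • (P + σ₀ • P) = 0 by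
            rw [nsmul_add, hP, zero_add, ← smul_nsmul', hP]
            exact FA.Local.gal_smul_zero (W) σ₀, zsmul_zero, zsmul_zero, add_zero])
      fun σ hσ => hsame σ hσ P hP
  have hθg : ℓ • θ g = 0 := by rw [← map_nsmul, hg, map_zero]
  by_cases h0 : g + σ₀ • g = 0
  · refine hpt _ hθg fun h1 => ?_
    have h2 := hsemi σ₀ hneg g
    rw [eq_neg_of_add_eq_zero_right h0, eq_neg_of_add_eq_zero_right h1] at h2
    exact not_semilinear_scalar W₀ θ g hℓ (by omega) (t := t) (Or.inr rfl) hind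
      (by rw [neg_one_zsmul, neg_one_zsmul]; exact h2)
  · exact hpt g hg h0

section Descended

variable {E : IntermediateField F (AlgebraicClosure F)} [NumberField E]

theorem map_algebraMap_eq :
    (W₀.map (algebraMap (𝓞 F) (𝓞 E))).map (algebraMap (𝓞 E) E) = (W).map (algebraMap F E) := by
  simp only [WeierstrassCurve.map_map]
  rfl

/-- A quadratic layer containing `√d` is generated by it. -/
theorem eq_adjoin_of_sqrt {d : ℤ} (hnot : ¬ ∃ s : F, s ^ 2 = (d : F)) {s : E}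
    (hs : s ^ 2 = (d : E)) (hdeg : Module.finrank F E = 2) :
    E = IntermediateField.adjoin F {(s : Fb)} := by
  haveI : FiniteDimensional F E := Module.finite_of_finrank_eq_succ hdeg
  have hle : IntermediateField.adjoin F {(s : Fb)} ≤ E :=
    IntermediateField.adjoin_le_iff.2 (Set.singleton_subset_iff.2 s.2)
  refine (IntermediateField.eq_of_le_of_finrank_le hle ?_).symm
  have hint : IsIntegral F (s : Fb) := Algebra.IsIntegral.isIntegral _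
  rw [hdeg, IntermediateField.adjoin.finrank hint]
  refine (minpoly.two_le_natDegree_iff hint).mpr fun ⟨r, hr⟩ => hnot ⟨r,
    (algebraMap F Fb).injective ?_⟩
  rw [map_pow, hr, map_intCast, ← IntermediateField.coe_pow, hs]
  rfl

/-- The values of the descended character as those of a character over the quadratic field. -/
theorem values_map {f : Ideal (𝓞 E) →* ℂ} {𝔣 : Ideal (𝓞 E)} {τ : E ≃ₐ[F] E}
    (hv : ∀ v : HeightOneSpectrum (𝓞 F), W₀.Δ ∉ v.asIdeal →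
      ∀ w : HeightOneSpectrum (𝓞 E), w.asIdeal.under (𝓞 F) = v.asIdeal →
        w.asIdeal ⊔ 𝔣 = ⊤ ∧
        ((τ • w.asIdeal ≠ w.asIdeal ∧ Ideal.absNorm w.asIdeal = Ideal.absNorm v.asIdeal ∧
            f w.asIdeal + conj (f w.asIdeal) = frobTrace W₀ v ∧
            f w.asIdeal * conj (f w.asIdeal) = (Ideal.absNorm v.asIdeal : ℂ)) ∨
          (τ • w.asIdeal = w.asIdeal ∧
            Ideal.absNorm w.asIdeal = Ideal.absNorm v.asIdeal ^ 2 ∧ frobTrace W₀ v = 0 ∧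
            f w.asIdeal = -(Ideal.absNorm v.asIdeal : ℂ))))
    (u : HeightOneSpectrum (𝓞 E)) (hu : (W₀.map (algebraMap (𝓞 F) (𝓞 E))).Δ ∉ u.asIdeal) :
    u.asIdeal ⊔ 𝔣 = ⊤ ∧
      f u.asIdeal + conj (f u.asIdeal) = frobTrace (W₀.map (algebraMap (𝓞 F) (𝓞 E))) u ∧
      f u.asIdeal * conj (f u.asIdeal) = (Ideal.absNorm u.asIdeal : ℂ) := by
  set v := u.under (𝓞 F)
  have huv : u.asIdeal.under (𝓞 F) = v.asIdeal := rfl
  have hΔ : W₀.Δ ∉ v.asIdeal := fun h => hu (by rw [map_Δ]; exact h)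
  obtain ⟨hcop, ⟨-, hN, h1, h2⟩ | ⟨-, hN, ha, hval⟩⟩ := hv v hΔ u huv
  · exact ⟨hcop, by rw [h1, frobTrace_of_absNorm_eq W₀ huv hN], by rw [h2, hN]⟩
  · refine ⟨hcop, ?_, ?_⟩
    · rw [frobTrace_of_absNorm_sq W₀ hΔ huv hN, ha, hval, map_neg, Complex.conj_natCast]
      push_cast
      ring
    · rw [hN, hval, map_neg, Complex.conj_natCast]
      push_cast
      ring

variable {W₀} [IsGalois F E] {ψ : F →+* ℂ} {d : ℤ} {s : E} {ψ' : E →+* ℂ}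
  {𝔣 : Ideal (𝓞 E)} {f : Ideal (𝓞 E) →* ℂ} {τ : E ≃ₐ[F] E}

/-- **Good reduction is coprimality to the conductor at a place over the place.** -/
theorem goodAt_iff_coprime_descended (hd : Squarefree d) (hd0 : d < 0)
    (hnot : ¬ ∃ s : F, s ^ 2 = (d : F))
    (hcm : ∃ L : PeriodPair, L.g₂ = ψ (W).c₄ / 12 ∧ L.g₃ = ψ (W).c₆ / 216 ∧
      ∃ ω : ℂ, (∀ m : ℤ, ω ≠ m) ∧ (∀ l ∈ L.lattice, ω * l ∈ L.lattice) ∧
        ∃ x y : ℚ, (ω - (x : ℂ)) ^ 2 = (d : ℂ) * (y : ℂ) ^ 2)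
    (hdeg : Module.finrank F E = 2) (hτ : τ ≠ 1) (hs : s ^ 2 = (d : E))
    (hψ : ψ'.comp (algebraMap F E) = ψ)
    (hf : IsAlgChar 𝔣 (fun σ => if σ s = ψ' s then 1 else 0) f)
    (hmin : ∀ (𝔪 : Ideal (𝓞 E)) (g : Ideal (𝓞 E) →* ℂ),
      IsAlgChar 𝔪 (fun σ => if σ s = ψ' s then 1 else 0) g →
      {w : HeightOneSpectrum (𝓞 E) | g w.asIdeal ≠ f w.asIdeal}.Finite → 𝔣 ∣ 𝔪)
    (hsymm : ∀ w : HeightOneSpectrum (𝓞 E), f (τ • w.asIdeal) = conj (f w.asIdeal))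
    (hv : ∀ v : HeightOneSpectrum (𝓞 F), W₀.Δ ∉ v.asIdeal →
      ∀ w : HeightOneSpectrum (𝓞 E), w.asIdeal.under (𝓞 F) = v.asIdeal →
        w.asIdeal ⊔ 𝔣 = ⊤ ∧
        ((τ • w.asIdeal ≠ w.asIdeal ∧ Ideal.absNorm w.asIdeal = Ideal.absNorm v.asIdeal ∧
            f w.asIdeal + conj (f w.asIdeal) = frobTrace W₀ v ∧
            f w.asIdeal * conj (f w.asIdeal) = (Ideal.absNorm v.asIdeal : ℂ)) ∨
          (τ • w.asIdeal = w.asIdeal ∧
            Ideal.absNorm w.asIdeal = Ideal.absNorm v.asIdeal ^ 2 ∧ frobTrace W₀ v = 0 ∧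
            f w.asIdeal = -(Ideal.absNorm v.asIdeal : ℂ))))
    {v : HeightOneSpectrum (𝓞 F)} {w : HeightOneSpectrum (𝓞 E)}
    (hwv : w.asIdeal.under (𝓞 F) = v.asIdeal) : GoodAt (W) v ↔ w.asIdeal ⊔ 𝔣 = ⊤ := by
  obtain ⟨hell, hcm₁⟩ := hcm_map W₀ hψ hcm
  haveI := hell
  refine ⟨fun h => ?_, fun h => ?_⟩
  · obtain ⟨W₁, C, hC, hΔ⟩ := FA.GoodNF.exists_globalModel h
    refine (values_of_good_model ψ' hd hd0 hs hcm₁ hf hmin (values_map W₀ hv)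
      (W₁ := W₁.map (algebraMap (𝓞 F) (𝓞 E))) (C := C.map (algebraMap F E)) ?_ ?_).1
    · rw [map_algebraMap_eq, map_variableChange, hC, WeierstrassCurve.map_map,
        WeierstrassCurve.map_map]
      rfl
    · rw [map_Δ]
      exact fun hmem => hΔ (hwv ▸ hmem)
  obtain ⟨A, hA⟩ := FA.OpenImageNF.exists_overPlace Fb v
  obtain ⟨Q, hQ, hQv, -⟩ := FA.GoodNF.exists_place hA E
  have horb : Q = w ∨ Q = conjPlace τ w := by
    obtain ⟨u, -, hcase⟩ := fibre_cases hdeg hτ v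
    rcases hcase with ⟨-, -, hmem⟩ | ⟨-, -, hmem⟩
    · left
      rw [Finset.mem_singleton.1 ((hmem Q).2 (HeightOneSpectrum.ext hQv)),
        Finset.mem_singleton.1 ((hmem w).2 (HeightOneSpectrum.ext hwv))]
    · have h1 := (hmem Q).2 (HeightOneSpectrum.ext hQv)
      have h2 := (hmem w).2 (HeightOneSpectrum.ext hwv)
      simp only [Finset.mem_insert, Finset.mem_singleton] at h1 h2
      rcases h1 with rfl | rfl <;> rcases h2 with rfl | rfl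
      · exact Or.inl rfl
      · exact Or.inr (HeightOneSpectrum.ext (smul_smul_self hdeg τ _).symm)
      · exact Or.inr rfl
      · exact Or.inl rfl
  have hQf : Q.asIdeal ⊔ 𝔣 = ⊤ := by
    rcases horb with rfl | rfl
    · exact h
    · refine (hf.ne_zero_iff _ (conjPlace τ w).ne_bot).1 ?_
      rw [conjPlace_asIdeal, hsymm]
      exact (map_ne_zero _).2 ((hf.ne_zero_iff _ w.ne_bot).2 h)
  have hgood : GoodAt ((W).map (algebraMap F E)) Q := by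
    rw [← map_algebraMap_eq]
    exact goodAt_of_coprime ψ' hd hd0 hs hcm₁ hf (values_map W₀ hv) hQf
  have hsb : (s : Fb) ^ 2 = (d : Fb) := by
    rw [← IntermediateField.coe_pow, hs]
    rfl
  refine goodAt_of_fixing_sqrt W₀ ψ hd hcm hsb hA fun σ hσ hfix ℓ hℓ hℓv P hP => ?_
  haveI : Algebra.IsAlgebraic E Fb := Algebra.IsAlgebraic.tower_top (K := F) E
  have hσE : σ ∈ E.fixingSubgroup := by
    rw [IntermediateField.mem_fixingSubgroup_iff]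
    intro z hz
    rw [eq_adjoin_of_sqrt hnot hs hdeg] at hz
    induction hz using IntermediateField.adjoin_induction with
    | mem u hu => obtain rfl := Set.mem_singleton_iff.mp hu; exact hfix
    | algebraMap u => exact σ.commutes u
    | add u u' _ _ hu hu' => rw [map_add, hu, hu']
    | inv u _ hu => rw [map_inv₀, hu]
    | mul u u' _ _ hu hu' => rw [map_mul, hu, hu']
  have hℓQ : Q.valuation E (ℓ : E) = 1 := by
    refine (FA.GoodNF.overPlace_eq_one_iff hQ _).1 ?_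
    rw [map_natCast, ← map_natCast (algebraMap F Fb)]
    exact hA.eq_one hℓv
  have h' := FA.GoodNF.smul_eq_of_goodAt (Kb := Fb) hQ hgood hℓ hℓQ
    (FA.GoodNF.mem_inertGroup_layer hσ hσE) (n := 1)
    (P := (show (((W).map (algebraMap F E)).toAffine⁄Fb).Point from P)) (by rw [pow_one]; exact hP)
  rcases P with _ | ⟨x, y, hxy⟩
  · exact FA.Local.gal_smul_zero (W) σ
  · exact h'

/-- **The values at a place of good reduction**, by any model good there. -/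
theorem values_descended (hd : Squarefree d) (hd0 : d < 0)
    (hnot : ¬ ∃ s : F, s ^ 2 = (d : F))
    (hcm : ∃ L : PeriodPair, L.g₂ = ψ (W).c₄ / 12 ∧ L.g₃ = ψ (W).c₆ / 216 ∧
      ∃ ω : ℂ, (∀ m : ℤ, ω ≠ m) ∧ (∀ l ∈ L.lattice, ω * l ∈ L.lattice) ∧
        ∃ x y : ℚ, (ω - (x : ℂ)) ^ 2 = (d : ℂ) * (y : ℂ) ^ 2)
    (hdeg : Module.finrank F E = 2) (hτ : τ ≠ 1) (hs : s ^ 2 = (d : E))
    (hψ : ψ'.comp (algebraMap F E) = ψ)
    (hf : IsAlgChar 𝔣 (fun σ => if σ s = ψ' s then 1 else 0) f)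
    (hmin : ∀ (𝔪 : Ideal (𝓞 E)) (g : Ideal (𝓞 E) →* ℂ),
      IsAlgChar 𝔪 (fun σ => if σ s = ψ' s then 1 else 0) g →
      {w : HeightOneSpectrum (𝓞 E) | g w.asIdeal ≠ f w.asIdeal}.Finite → 𝔣 ∣ 𝔪)
    (hsymm : ∀ w : HeightOneSpectrum (𝓞 E), f (τ • w.asIdeal) = conj (f w.asIdeal))
    (hv : ∀ v : HeightOneSpectrum (𝓞 F), W₀.Δ ∉ v.asIdeal →
      ∀ w : HeightOneSpectrum (𝓞 E), w.asIdeal.under (𝓞 F) = v.asIdeal →
        w.asIdeal ⊔ 𝔣 = ⊤ ∧
        ((τ • w.asIdeal ≠ w.asIdeal ∧ Ideal.absNorm w.asIdeal = Ideal.absNorm v.asIdeal ∧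
            f w.asIdeal + conj (f w.asIdeal) = frobTrace W₀ v ∧
            f w.asIdeal * conj (f w.asIdeal) = (Ideal.absNorm v.asIdeal : ℂ)) ∨
          (τ • w.asIdeal = w.asIdeal ∧
            Ideal.absNorm w.asIdeal = Ideal.absNorm v.asIdeal ^ 2 ∧ frobTrace W₀ v = 0 ∧
            f w.asIdeal = -(Ideal.absNorm v.asIdeal : ℂ))))
    {v : HeightOneSpectrum (𝓞 F)} {W₁ : WeierstrassCurve (𝓞 F)} {C : VariableChange F}
    (hC : C • W = W₁.map (algebraMap (𝓞 F) F)) (hΔ : W₁.Δ ∉ v.asIdeal)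
    {w : HeightOneSpectrum (𝓞 E)} (hwv : w.asIdeal.under (𝓞 F) = v.asIdeal) :
    (τ • w.asIdeal ≠ w.asIdeal ∧ Ideal.absNorm w.asIdeal = Ideal.absNorm v.asIdeal ∧
        f w.asIdeal + conj (f w.asIdeal) = frobTrace W₁ v ∧
        f w.asIdeal * conj (f w.asIdeal) = (Ideal.absNorm v.asIdeal : ℂ)) ∨
      (τ • w.asIdeal = w.asIdeal ∧
        Ideal.absNorm w.asIdeal = Ideal.absNorm v.asIdeal ^ 2 ∧ frobTrace W₁ v = 0 ∧
        f w.asIdeal = -(Ideal.absNorm v.asIdeal : ℂ)) := by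
  obtain ⟨hell, hcm₁⟩ := hcm_map W₀ hψ hcm
  haveI := hell
  haveI : (W₁.map (algebraMap (𝓞 F) F)).IsElliptic := hC ▸ inferInstance
  obtain ⟨-, h1, h2⟩ := values_of_good_model (v := w) ψ' hd hd0 hs hcm₁ hf hmin (values_map W₀ hv)
    (W₁ := W₁.map (algebraMap (𝓞 F) (𝓞 E))) (C := C.map (algebraMap F E))
    (by
      rw [map_algebraMap_eq, map_variableChange, hC, WeierstrassCurve.map_map,
        WeierstrassCurve.map_map]
      rfl)
    (by rw [map_Δ]; exact fun hmem => hΔ (hwv ▸ hmem))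
  obtain ⟨L, hg2, hg3, ω, hω, hst, x, y, hxy⟩ := hcm_vc W₀ hC hcm
  have hsb : (s : Fb) ^ 2 = (d : Fb) := by
    rw [← IntermediateField.coe_pow, hs]
    rfl
  rcases place_cases W₁ hd hg2 hg3 hω hst hxy hsb (eq_adjoin_of_sqrt hnot hs hdeg) hdeg hτ hΔ w hwv
    with ⟨hmove, hN⟩ | ⟨hfix, hN, ha⟩
  · refine Or.inl ⟨hmove, hN, ?_, ?_⟩
    · rw [h1, frobTrace_of_absNorm_eq W₁ hwv hN]
    · rw [h2, hN]
  · refine Or.inr ⟨hfix, hN, ha, ?_⟩
    have hr := hsymm w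
    rw [hfix] at hr
    rw [frobTrace_of_absNorm_sq W₁ hΔ hwv hN, ha, ← hr] at h1
    push_cast at h1
    linear_combination h1 / 2

end Descended

end FA.DeuringCM

end
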