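import Fermat.Agent.DeuringCM.GoodConductor
import Fermat.Agent.DeuringCM.GoodConductorDescended
import Fermat.Agent.DeuringCM.DescentLSeries
import Fermat.Agent.GoodReductionNF.LocalTrace

/-!
# The L-series of Hasse and Weil of a curve with complex multiplication

The Euler factor at a place is `(1 - a_v q ^ (-z) + q ^ (1 - 2 z))⁻¹` where the reduction is good and
`1` at the other places, the reduction there being additive since `j` is integral. The bad places
dividing the conductor of the primitive character, whose values vanish there, this is the product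
of the series of the character and its conjugate, so it continues to an entire function with a
functional equation in which the constant is made from the discriminant and that conductor.
-/

set_option autoImplicit false
set_option linter.style.haveILetI false
set_option linter.unusedSectionVars false

noncomputable section

open WeierstrassCurve NumberField NumberField.InfinitePlace IsDedekindDomain
open FA.TraceNF (frobTrace)
open FA.AlgHecke (IsAlgChar IsNormPower)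
open FA.GoodNF (GoodAt traceAt)
open scoped WeierstrassCurve.Affine nonZeroDivisors Classical ComplexConjugate

namespace FA.DeuringCM

variable {F : Type} [Field F] [NumberField F]

/-- The Euler factor of a curve with potentially good reduction: that of a good equation, and `1`
at the places of bad reduction. -/
def eulerFactorAt (E : WeierstrassCurve F) (v : HeightOneSpectrum (𝓞 F)) (z : ℂ) : ℂ :=
  if GoodAt E v then
    (1 - (traceAt E v : ℂ) * ((Ideal.absNorm v.asIdeal : ℕ) : ℂ) ^ (-z) +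
      ((Ideal.absNorm v.asIdeal : ℕ) : ℂ) ^ (1 - 2 * z))⁻¹
  else 1

variable (W₀ : WeierstrassCurve (𝓞 F)) [(W₀.map (algebraMap (𝓞 F) F)).IsElliptic]

local notation "W" => W₀.map (algebraMap (𝓞 F) F)

/-- A prime dividing the norm of an ideal lies in a place dividing it. -/
theorem exists_place_of_dvd_absNorm {K : Type} [Field K] [NumberField K] {I : Ideal (𝓞 K)}
    (hI : I ≠ ⊥) {p : ℕ} (hp : p.Prime) (h : p ∣ Ideal.absNorm I) :
    ∃ u : HeightOneSpectrum (𝓞 K), ¬ u.asIdeal ⊔ I = ⊤ ∧ (p : 𝓞 K) ∈ u.asIdeal := by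
  obtain ⟨P, hP, hPZ, hPdvd⟩ := Ideal.exists_isMaximal_dvd_of_dvd_absNorm' hp I h
  have hP0 : P ≠ ⊥ := fun h0 => hI (zero_dvd_iff.mp (by rwa [h0, ← Ideal.zero_eq_bot] at hPdvd))
  refine ⟨⟨P, hP.isPrime, hP0⟩, fun htop => hP.ne_top ?_, ?_⟩
  · show P = ⊤
    rwa [show (⟨P, hP.isPrime, hP0⟩ : HeightOneSpectrum (𝓞 K)).asIdeal = P from rfl,
      sup_eq_left.mpr (Ideal.dvd_iff_le.mp hPdvd)] at htop
  · have h1 : (p : ℤ) ∈ P.under ℤ := hPZ ▸ Ideal.mem_span_singleton_self _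
    simpa using h1

/-- A prime in the constant divides the discriminant or lies in a bad place. -/
theorem prime_dvd_const {E : WeierstrassCurve F} {𝔣 : Ideal (𝓞 F)} (h0 : 𝔣 ≠ ⊥)
    (h : ∀ v : HeightOneSpectrum (𝓞 F), GoodAt E v ↔ v.asIdeal ⊔ 𝔣 = ⊤) {p : ℕ} (hp : p.Prime)
    (hdvd : p ∣ ((discr F).natAbs * Ideal.absNorm 𝔣) ^ 2) :
    (p : ℤ) ∣ discr F ∨
      ∃ v : HeightOneSpectrum (𝓞 F), ¬ GoodAt E v ∧ (p : 𝓞 F) ∈ v.asIdeal := by
  rcases hp.dvd_mul.mp (hp.dvd_of_dvd_pow hdvd) with h1 | h1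
  · exact Or.inl (Int.natCast_dvd.mpr h1)
  · obtain ⟨u, hu, hpu⟩ := exists_place_of_dvd_absNorm h0 hp h1
    exact Or.inr ⟨u, fun hg => hu ((h u).1 hg), hpu⟩

variable {W₀}

/-- **The exact functional equation with `√d` in the field.** -/
theorem exists_exact_lSeries (ψ : F →+* ℂ) {d : ℤ} (hd : Squarefree d) (hd0 : d < 0) {s : F}
    (hs : s ^ 2 = (d : F))
    (hcm : ∃ L : PeriodPair, L.g₂ = ψ (W).c₄ / 12 ∧ L.g₃ = ψ (W).c₆ / 216 ∧
      ∃ ω : ℂ, (∀ m : ℤ, ω ≠ m) ∧ (∀ l ∈ L.lattice, ω * l ∈ L.lattice) ∧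
        ∃ x y : ℚ, (ω - (x : ℂ)) ^ 2 = (d : ℂ) * (y : ℂ) ^ 2) :
    ∃ (𝔣 : Ideal (𝓞 F)) (Λ : ℂ → ℂ), 𝔣 ≠ ⊥ ∧
      (∀ v : HeightOneSpectrum (𝓞 F), GoodAt (W) v ↔ v.asIdeal ⊔ 𝔣 = ⊤) ∧
      Differentiable ℂ Λ ∧
      (∀ z : ℂ, 3 / 2 < z.re → ∃ L : ℂ,
        HasProd (fun v : HeightOneSpectrum (𝓞 F) => eulerFactorAt (W) v z) L ∧
        Λ z = ((((discr F).natAbs * Ideal.absNorm 𝔣) ^ 2 : ℕ) : ℂ) ^ (z / 2) *
          Complex.Gammaℂ z ^ Module.finrank ℚ F * L) ∧
      (∀ z : ℂ, Λ (2 - z) = Λ z) ∧ ∀ z : ℂ, 3 / 2 ≤ z.re → Λ z ≠ 0 := by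
  obtain ⟨𝔣, f, hf, hne, hmin, hv⟩ := exists_hecke_char W₀ ψ hd hd0 hs hcm
  have hiff := goodAt_iff_coprime ψ hd hd0 hs hcm hf hmin hv
  obtain ⟨w, 𝔣', g, e, C, Λ, hw, hdvd, hg, hag, -, -, hC, hΛ, hL, hfe⟩ :=
    FA.AlgHeckeFE.exists_functional_equation hf hne
  obtain rfl : w = 1 := by
    obtain ⟨σ⟩ : Nonempty (F →+* ℂ) := inferInstance
    exact (hw σ).symm.trans (sum_type_eq_one hd0 hs ψ σ)
  have hdvd' : 𝔣 ∣ 𝔣' := hmin 𝔣' g hg ((Ideal.finite_factors hf.ne_bot).subset fun x hx => by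
    by_contra hx'
    exact hx (hag _ x.ne_bot ((hf.ne_zero_iff _ x.ne_bot).mpr
      (sup_eq_top x fun hle => hx' (Ideal.dvd_iff_le.mpr hle)))))
  obtain rfl : 𝔣' = 𝔣 := dvd_antisymm hdvd hdvd'
  have hgf : ∀ u : HeightOneSpectrum (𝓞 F), g u.asIdeal = f u.asIdeal := fun u => by
    by_cases h : f u.asIdeal = 0
    · rw [h]
      by_contra hg0
      exact (hf.ne_zero_iff _ u.ne_bot).mpr ((hg.ne_zero_iff _ u.ne_bot).mp hg0) h
    · exact hag _ u.ne_bot h
  -- the Euler factors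
  have hloc : ∀ (v : HeightOneSpectrum (𝓞 F)) (z : ℂ), eulerFactorAt (W) v z =
      (1 - g v.asIdeal * ((Ideal.absNorm v.asIdeal : ℕ) : ℂ) ^ (-z))⁻¹ *
        (1 - conj (g v.asIdeal) * ((Ideal.absNorm v.asIdeal : ℕ) : ℂ) ^ (-z))⁻¹ := fun v z => by
    rw [hgf]
    by_cases h : GoodAt (W) v
    · obtain ⟨W₁, D, hD, hΔ⟩ := FA.GoodNF.exists_globalModel h
      obtain ⟨-, h1, h2⟩ := values_of_good_model ψ hd hd0 hs hcm hf hmin hv hD hΔ
      rw [eulerFactorAt, if_pos h, FA.GoodNF.traceAt_eq hD hΔ, ← mul_inv, ← h1]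
      congr 1
      rw [show (1 : ℂ) - 2 * z = 1 + (-z + -z) by ring,
        Complex.cpow_add _ _ (Nat.cast_ne_zero.mpr
          fun h0 => v.ne_bot (Ideal.absNorm_eq_zero_iff.mp h0)),
        Complex.cpow_one, Complex.cpow_add _ _ (Nat.cast_ne_zero.mpr
          fun h0 => v.ne_bot (Ideal.absNorm_eq_zero_iff.mp h0))]
      linear_combination -(((Ideal.absNorm v.asIdeal : ℕ) : ℂ) ^ (-z) *
        ((Ideal.absNorm v.asIdeal : ℕ) : ℂ) ^ (-z)) * h2
    · have h0 : f v.asIdeal = 0 :=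
        not_not.mp fun e => h ((hiff v).2 ((hf.ne_zero_iff _ v.ne_bot).mp e))
      simp [eulerFactorAt, if_neg h, h0]
  haveI : IsEmpty {v : InfinitePlace F // IsReal v} :=
    ⟨fun v => (not_isReal_iff_isComplex.mpr (totallyComplex_of_sqrt hd0 hs v.1)) v.2⟩
  have hcard : Fintype.card {v : InfinitePlace F // IsComplex v} * 2 = Module.finrank ℚ F := by
    rw [← card_add_two_mul_card_eq_rank, NumberField.InfinitePlace.nrRealPlaces,
      NumberField.InfinitePlace.nrComplexPlaces,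
      Fintype.card_eq_zero (α := {v : InfinitePlace F // IsReal v}), zero_add, mul_comm]
  have hgamma : ∀ z, FA.AlgHeckeFE.gammaFactor
      (fun σ => if σ s = ψ s then 1 else 0) e 1 z =
      Complex.Gammaℂ z ^ Fintype.card {v : InfinitePlace F // IsComplex v} := fun z => by
    rw [FA.AlgHeckeFE.gammaFactor, Fintype.prod_empty, one_mul,
      ← Finset.card_univ, ← Finset.prod_const]
    refine Finset.prod_congr rfl fun v _ => ?_
    have h := sum_type_eq_one hd0 hs ψ v.1.embedding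
    have hmin0 : min (if v.1.embedding s = ψ s then (1 : ℤ) else 0)
        (if ComplexEmbedding.conjugate v.1.embedding s = ψ s then (1 : ℤ) else 0) = 0 := by
      split_ifs at h ⊢ <;> omega
    rw [hmin0, Int.cast_zero, sub_zero]
  set A : ℕ := (discr F).natAbs * Ideal.absNorm 𝔣' with hA
  have hA0 : 0 < A := Nat.mul_pos (Int.natAbs_pos.mpr (discr_ne_zero F))
    (Nat.pos_of_ne_zero fun h0 => hg.ne_bot (Ideal.absNorm_eq_zero_iff.mp h0))
  have hAR : |((discr F : ℤ) : ℝ)| * ((Ideal.absNorm 𝔣' : ℕ) : ℝ) = (A : ℝ) := by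
    rw [hA, Nat.cast_mul, Nat.cast_natAbs, Int.cast_abs]
  refine ⟨𝔣', fun z => Λ z * conj (Λ (conj z)), hg.ne_bot, hiff, hΛ.mul fun z => ?_,
    fun z hz => ?_, fun z => ?_, fun z hz => ?_⟩
  · have h1 := (hΛ (conj z)).conj_conj
    rwa [Complex.conj_conj] at h1
  · have hz1 : 1 + ((1 : ℤ) : ℝ) / 2 < z.re := by push_cast; linarith
    have hz2 : 1 + ((1 : ℤ) : ℝ) / 2 < (conj z).re := by rwa [Complex.conj_re]
    obtain ⟨L₁, hs₁, e₁⟩ := hL z hz1
    obtain ⟨L₂, hs₂, e₂⟩ := hL (conj z) hz2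
    obtain ⟨L₁', hs₁', hp₁, -⟩ := FA.AlgHeckeFE.hasProd_algChar hg hw hz1
    obtain ⟨L₂', hs₂', hp₂, -⟩ := FA.AlgHeckeFE.hasProd_algChar hg hw hz2
    obtain rfl := hs₁'.unique hs₁
    obtain rfl := hs₂'.unique hs₂
    refine ⟨L₁' * conj L₂', ?_, ?_⟩
    · refine (hp₁.mul (hp₂.map (starRingEnd ℂ) Complex.continuous_conj)).congr_fun fun v => ?_
      rw [Function.comp_apply, map_inv₀, map_sub, map_one, map_mul,
        FA.AlgHeckeFE.conj_natCast_cpow, map_neg, Complex.conj_conj, hloc]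
    · show Λ z * conj (Λ (conj z)) = _
      rw [e₁, e₂, hAR, hgamma, hgamma, map_mul, map_mul, map_pow, Complex.ofReal_natCast,
        FA.AlgHeckeFE.conj_natCast_cpow, FA.AlgHeckeFE.conj_Gammaℂ, Complex.conj_conj, ← hcard,
        map_div₀, Complex.conj_conj, map_ofNat, pow_mul, Nat.cast_pow,
        ← Complex.natCast_cpow_natCast_mul]
      rw [show ((2 : ℕ) : ℂ) * (z / 2) = z / 2 + z / 2 by push_cast; ring,
        Complex.cpow_add _ _ (Nat.cast_ne_zero.mpr hA0.ne')]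
      ring
  · have h1 := hfe (2 - z)
    have h2 := hfe z
    have hC' : C * conj C = 1 := by
      rw [Complex.mul_conj, Complex.normSq_eq_norm_sq, hC]; simp
    have e1 : (1 : ℂ) + ((1 : ℤ) : ℂ) - conj (2 - z) = conj z := by
      rw [map_sub, map_ofNat]; push_cast; ring
    have e2 : (1 : ℂ) + ((1 : ℤ) : ℂ) - conj z = conj (2 - z) := by
      rw [map_sub, map_ofNat]; push_cast; ring
    rw [e1] at h1
    rw [e2] at h2
    have h3 : conj (Λ (conj (2 - z))) = conj C * Λ z := by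
      rw [h2, ← mul_assoc, mul_comm (conj C), hC', one_mul]
    show Λ (2 - z) * conj (Λ (conj (2 - z))) = Λ z * conj (Λ (conj z))
    rw [h1, h3]
    linear_combination (Λ z * conj (Λ (conj z))) * hC'
  · have hne' : ¬ IsNormPower g := fun ⟨a, ha⟩ => hne ⟨a, fun I hI h0 => by
      rw [← hag I hI h0]
      exact ha I hI (by rw [hag I hI h0]; exact h0)⟩
    have h0 : ∀ y : ℂ, 3 / 2 ≤ y.re → Λ y ≠ 0 := fun y hy =>
      completed_ne_zero hg hw hne' hA0 hΛ (fun u hu => by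
        obtain ⟨L, hs', e'⟩ := hL u hu
        rw [hAR, hgamma, Complex.ofReal_natCast] at e'
        exact ⟨L, hs', e'⟩) hy
    exact mul_ne_zero (h0 z hz) ((map_ne_zero_iff _ (starRingEnd ℂ).injective).mpr
      (h0 _ (by rwa [Complex.conj_re])))

end FA.DeuringCM

end
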