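import Fermat.Agent.AlgebraicHeckeFE.Main
import Fermat.Agent.AlgebraicHeckeFE.Euler
import Fermat.Agent.HeckeFE.Extension

/-!
# The completed zeta function without its poles

`s (s - 1) ξ (s)` is entire, invariant under `s ↦ 1 - s` and has no zero with `1 ≤ re s`.
-/

set_option autoImplicit false
set_option linter.style.haveILetI false

noncomputable section

open NumberField NumberField.InfinitePlace IsDedekindDomain Filter Topology
open FA.Hecke (heckeL heckeL_one IsRayChar IsNontrivial exists_heckeG)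
open scoped Classical

namespace FA.DeuringCM

theorem Gammaℂ_ne_zero' {z : ℂ} (hz : 0 < z.re) : Complex.Gammaℂ z ≠ 0 := by
  rw [Complex.Gammaℂ_def]
  refine mul_ne_zero (mul_ne_zero two_ne_zero (Complex.cpow_ne_zero_iff.mpr (Or.inl ?_)))
    (Complex.Gamma_ne_zero_of_re_pos hz)
  exact mul_ne_zero two_ne_zero (Complex.ofReal_ne_zero.mpr Real.pi_ne_zero)

theorem continuousAt_Gammaℂ' {z : ℂ} (hz : 0 < z.re) : ContinuousAt Complex.Gammaℂ z :=
  ((Complex.differentiable_Gammaℂ_inv z).continuousAt.inv₀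
    (inv_ne_zero (Gammaℂ_ne_zero' hz))).congr (Eventually.of_forall fun _ => inv_inv _)

/-- A continuous equality on an open half plane holds on its boundary. -/
theorem eq_of_halfPlane {F G : ℂ → ℂ} {a : ℝ} {z : ℂ} (hz : a ≤ z.re) (hF : ContinuousAt F z)
    (hG : ContinuousAt G z) (h : ∀ s : ℂ, a < s.re → F s = G s) : F z = G z := by
  have hseq : Tendsto (fun k : ℕ => z + ((1 / ((k : ℝ) + 1) : ℝ) : ℂ)) atTop (𝓝 z) := by
    have h0 := (Complex.continuous_ofReal.tendsto 0).comp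
      (tendsto_one_div_add_atTop_nhds_zero_nat (𝕜 := ℝ))
    rw [Complex.ofReal_zero] at h0
    simpa using h0.const_add z
  refine tendsto_nhds_unique (hF.tendsto.comp hseq) ((hG.tendsto.comp hseq).congr fun k => ?_)
  refine (h _ ?_).symm
  rw [Complex.add_re, Complex.ofReal_re]
  have : (0 : ℝ) < 1 / ((k : ℝ) + 1) := by positivity
  linarith

variable (K : Type) [Field K] [NumberField K]

/-- **`s (s - 1) ξ (s)`.** -/
theorem exists_zetaEntire (hK : IsTotallyComplex K) :
    ∃ H : ℂ → ℂ, Differentiable ℂ H ∧ (∀ s, H (1 - s) = H s) ∧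
      (∀ s : ℂ, 1 < s.re → ∃ L : ℂ,
        HasProd (fun v : HeightOneSpectrum (𝓞 K) =>
          (1 - ((Ideal.absNorm v.asIdeal : ℕ) : ℂ) ^ (-s))⁻¹) L ∧
        H s = s * (s - 1) * (((discr K).natAbs : ℕ) : ℂ) ^ (s / 2) *
          Complex.Gammaℂ s ^ nrComplexPlaces K * L) ∧
      ∀ s : ℂ, 1 ≤ s.re → H s ≠ 0 := by
  set H : ℂ → ℂ := fun s => s * (s - 1) * FA.HeckeFE.zetaXi K s + FA.HeckeFE.polarConst K
  have hH : Differentiable ℂ H :=
    ((differentiable_id.mul (differentiable_id.sub_const 1)).mul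
      (FA.HeckeFE.differentiable_zetaXi (K := K))).add_const _
  have hd0 : (((discr K).natAbs : ℕ) : ℂ) ≠ 0 :=
    Nat.cast_ne_zero.mpr (Int.natAbs_ne_zero.mpr (discr_ne_zero K))
  have hr1 : nrRealPlaces K = 0 :=
    (NumberField.nrRealPlaces_eq_zero_iff (K := K)).mpr hK
  have hhalf : ∀ s : ℂ, 1 < s.re → H s = s * (s - 1) * (((discr K).natAbs : ℕ) : ℂ) ^ (s / 2) *
      Complex.Gammaℂ s ^ nrComplexPlaces K * heckeL (1 : Ideal (𝓞 K) →* ℂ) s := fun s hs => by
    have h0 : s ≠ 0 := fun e => by rw [e, Complex.zero_re] at hs; linarith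
    have h1 : s - 1 ≠ 0 := fun e => by
      rw [sub_eq_zero.mp e, Complex.one_re] at hs; linarith
    have e : FA.HeckeFE.zetaXi K s =
        FA.HeckeFE.gamFac (K := K) s * dedekindZeta K s + FA.HeckeFE.polarConst K / (s * (1 - s)) := by
      rw [FA.HeckeFE.zetaXi_half hs, sub_add_cancel]
    show s * (s - 1) * FA.HeckeFE.zetaXi K s + FA.HeckeFE.polarConst K = _
    have hq : s * (s - 1) * (FA.HeckeFE.polarConst K / (s * (1 - s))) =
        -FA.HeckeFE.polarConst K := by
      rw [show s * (1 - s) = -(s * (s - 1)) by ring, div_neg, mul_neg,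
        mul_div_cancel₀ _ (mul_ne_zero h0 h1)]
    rw [e, mul_add, hq, neg_add_cancel_right, FA.HeckeFE.gamFac, hr1, heckeL_one hs, pow_zero,
      one_mul]
    ring
  have hone : IsRayChar (⊤ : Ideal (𝓞 K)) (1 : Ideal (𝓞 K) →* ℂ) := IsRayChar.one
  have ht : ¬IsNontrivial (1 : Ideal (𝓞 K) →* ℂ) := fun ⟨_, _, _, h1⟩ => h1 rfl
  refine ⟨H, hH, fun s => ?_, fun s hs => ?_, fun s hs => ?_⟩
  · show (1 - s) * (1 - s - 1) * FA.HeckeFE.zetaXi K (1 - s) + _ = _
    rw [FA.HeckeFE.zetaXi_one_sub]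
    show _ = s * (s - 1) * _ + _
    ring
  · have hu : FA.HeckeTorus.Unimod (1 : Ideal (𝓞 K) →* ℂ) :=
      ⟨fun I _ => by simp, fun v => Or.inr (by simp)⟩
    refine ⟨_, ?_, hhalf s hs⟩
    simpa using (FA.AlgHeckeFE.hasProd_unimod hu hs).1
  · obtain ⟨G, hG, -, hG'⟩ := exists_heckeG hone
    set T : ℂ → ℂ := fun y => y * (((discr K).natAbs : ℕ) : ℂ) ^ (y / 2) *
      Complex.Gammaℂ y ^ nrComplexPlaces K * G y with hT
    have hs0 : 0 < s.re := by linarith
    have hcont : ContinuousAt T s :=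
      ((continuousAt_id.mul
        ((differentiable_id.div_const (2 : ℂ)).const_cpow (Or.inl hd0)).continuous.continuousAt).mul
        ((continuousAt_Gammaℂ' hs0).pow _)).mul hG.continuous.continuousAt
    rw [eq_of_halfPlane hs hH.continuous.continuousAt hcont fun y hy => by
      rw [hhalf y hy, hT]
      show _ = y * _ * _ * G y
      rw [← hG' y hy]
      ring]
    refine mul_ne_zero (mul_ne_zero (mul_ne_zero ?_ (Complex.cpow_ne_zero_iff.mpr (Or.inl hd0)))
      (pow_ne_zero _ (Gammaℂ_ne_zero' hs0))) (hone.heckeG_ne_zero ht hG hG' hs)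
    exact fun e => by rw [e, Complex.zero_re] at hs0; exact lt_irrefl _ hs0

end FA.DeuringCM

end
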