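import Fermat.Agent.DeuringCM.DescentLSeries
import Fermat.Agent.DeuringCM.SymZeta
import Fermat.Agent.ArtinFE.Completed
import Mathlib.NumberTheory.NumberField.Discriminant.Different

/-!
# The character of a totally imaginary quadratic extension

If the places in `G` are split or inert in the quadratic extension, the character of the extension
is `1` or `-1` there, and its completed L-series is entire with `Γℝ (s + 1)` at every real place.
-/

set_option autoImplicit false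
set_option linter.style.haveILetI false
set_option linter.unusedSectionVars false

noncomputable section

open NumberField NumberField.InfinitePlace IsDedekindDomain Filter Topology
open FA.Hecke (IsRayChar IsNontrivial heckeL rayCharFn rayCharFn_apply isRayChar_rayCharFn
  coprimeIdeals)
open FA.ArtinRec (IsRam artinAt artinAt_spec exists_artinRayHom)
open FA.Ext (primeIdeal)
open scoped Pointwise nonZeroDivisors Classical ComplexConjugate

namespace FA.DeuringCM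

variable {F : Type} [Field F] [NumberField F] {E : Type} [Field E] [NumberField E] [Algebra F E]
  [IsGalois F E]

/-- Every place over `v` is moved by `τ` with the norm of `v`, or fixed with its square. -/
def SplitOrInert (τ : E ≃ₐ[F] E) (v : HeightOneSpectrum (𝓞 F)) : Prop :=
  ∀ u : HeightOneSpectrum (𝓞 E), u.asIdeal.under (𝓞 F) = v.asIdeal →
    (τ • u.asIdeal ≠ u.asIdeal ∧ Ideal.absNorm u.asIdeal = Ideal.absNorm v.asIdeal) ∨
      (τ • u.asIdeal = u.asIdeal ∧ Ideal.absNorm u.asIdeal = Ideal.absNorm v.asIdeal ^ 2)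

variable (hdeg : Module.finrank F E = 2) {τ : E ≃ₐ[F] E} (hτ : τ ≠ 1)
include hdeg hτ

theorem eq_one_or_eq (σ : E ≃ₐ[F] E) : σ = 1 ∨ σ = τ := by
  by_contra h
  rw [not_or] at h
  have h3 := Finset.card_le_univ ({1, σ, τ} : Finset (E ≃ₐ[F] E))
  rw [Finset.card_insert_of_notMem (by simp [Ne.symm h.1, Ne.symm hτ]),
    Finset.card_pair h.2, ← Nat.card_eq_fintype_card, IsGalois.card_aut_eq_finrank, hdeg] at h3
  omega

theorem ramificationIdx_of_splitOrInert {v : HeightOneSpectrum (𝓞 F)} (h : SplitOrInert τ v)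
    (u : HeightOneSpectrum (𝓞 E)) (hu : u.asIdeal.under (𝓞 F) = v.asIdeal) :
    u.asIdeal.ramificationIdx (𝓞 F) = 1 := by
  haveI := v.isMaximal
  haveI := u.isMaximal
  haveI : u.asIdeal.LiesOver v.asIdeal := ⟨hu.symm⟩
  have hfund := Ideal.ncard_primesOver_mul_ramificationIdxIn_mul_inertiaDegIn v.asIdeal (𝓞 E)
    (E ≃ₐ[F] E)
  rw [IsGalois.card_aut_eq_finrank, hdeg,
    Ideal.ramificationIdxIn_eq_ramificationIdx v.asIdeal u.asIdeal (E ≃ₐ[F] E),
    Ideal.inertiaDegIn_eq_inertiaDeg v.asIdeal u.asIdeal (E ≃ₐ[F] E)] at hfund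
  have hnorm : Ideal.absNorm u.asIdeal = Ideal.absNorm v.asIdeal ^ u.asIdeal.inertiaDeg (𝓞 F) :=
    (Ideal.absNorm_pow_inertiaDeg v.asIdeal u.asIdeal).symm
  have hfin := IsDedekindDomain.primesOver_finite v.asIdeal (𝓞 E)
  have hpos : 0 < (v.asIdeal.primesOver (𝓞 E)).ncard :=
    (Set.ncard_pos hfin).mpr ⟨u.asIdeal, u.isPrime, ⟨hu.symm⟩⟩
  have hinj := Nat.pow_right_injective (FA.Ext.two_le_absNorm v)
  rcases h u hu with ⟨hmove, hN⟩ | ⟨-, hN⟩
  · have hf : u.asIdeal.inertiaDeg (𝓞 F) = 1 :=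
      hinj (show Ideal.absNorm v.asIdeal ^ _ = Ideal.absNorm v.asIdeal ^ 1 by
        rw [pow_one, ← hnorm, hN])
    have htwo : 1 < (v.asIdeal.primesOver (𝓞 E)).ncard :=
      (Set.one_lt_ncard hfin).mpr ⟨u.asIdeal, ⟨u.isPrime, ⟨hu.symm⟩⟩, τ • u.asIdeal,
        ⟨(conjPlace τ u).isPrime, ⟨by rw [← hu, Ideal.under_smul]⟩⟩, Ne.symm hmove⟩
    have hle := Nat.le_of_dvd two_pos (Dvd.intro _ hfund)
    rw [show (v.asIdeal.primesOver (𝓞 E)).ncard = 2 by omega, hf] at hfund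
    omega
  · have hf : u.asIdeal.inertiaDeg (𝓞 F) = 2 := hinj (hnorm.symm.trans hN)
    rw [hf, ← mul_assoc] at hfund
    exact Nat.eq_one_of_mul_eq_one_left (Nat.eq_of_mul_eq_mul_right two_pos
      (hfund.trans (one_mul 2).symm))

theorem not_isRam {v : HeightOneSpectrum (𝓞 F)} (h : SplitOrInert τ v) : ¬ IsRam E v := by
  rintro ⟨Q, hQ, hne⟩
  haveI := v.isMaximal
  haveI := Q.isMaximal
  have hQv : Q.asIdeal.under (𝓞 F) = v.asIdeal := congrArg HeightOneSpectrum.asIdeal hQ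
  haveI : Q.asIdeal.LiesOver v.asIdeal := ⟨hQv.symm⟩
  haveI : Finite (𝓞 F ⧸ v.asIdeal) := Ideal.finiteQuotientOfFreeOfNeBot _ v.ne_bot
  refine hne (Subgroup.card_eq_one.mp ?_)
  rw [Ideal.card_inertia_eq_ramificationIdxIn v.asIdeal Q.asIdeal,
    Ideal.ramificationIdxIn_eq_ramificationIdx v.asIdeal Q.asIdeal (E ≃ₐ[F] E),
    ramificationIdx_of_splitOrInert hdeg hτ h Q hQv]

/-- The Frobenius is trivial exactly at the split places. -/
theorem artinAt_eq_one_iff' {v : HeightOneSpectrum (𝓞 F)} (h : SplitOrInert τ v)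
    (u : HeightOneSpectrum (𝓞 E)) (hu : u.asIdeal.under (𝓞 F) = v.asIdeal) :
    artinAt E v = 1 ↔ τ • u.asIdeal ≠ u.asIdeal := by
  obtain ⟨Q, hQ, hfrob⟩ := artinAt_spec (L := E) v
  have hQv : Q.asIdeal.under (𝓞 F) = v.asIdeal := congrArg HeightOneSpectrum.asIdeal hQ
  have hsame : τ • Q.asIdeal = Q.asIdeal ↔ τ • u.asIdeal = u.asIdeal := by
    obtain ⟨σ, hσ⟩ := Algebra.IsInvariant.exists_smul_of_under_eq (𝓞 F) (𝓞 E) (E ≃ₐ[F] E)
      u.asIdeal Q.asIdeal (hu.trans hQv.symm)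
    rcases eq_one_or_eq hdeg hτ σ with rfl | rfl
    · rw [hσ, one_smul]
    · rw [hσ, smul_smul_self hdeg]
      exact eq_comm
  rw [ne_eq, ← hsame]
  have hq : Nat.card (𝓞 F ⧸ Q.asIdeal.under (𝓞 F)) = Ideal.absNorm v.asIdeal := by
    rw [hQv, Ideal.absNorm_apply, Submodule.cardQuot_apply]
  constructor
  · intro he hfix
    rcases h Q hQv with ⟨hm, -⟩ | ⟨-, hN⟩
    · exact hm hfix
    rw [he] at hfrob
    haveI := Q.isMaximal
    letI := Ideal.Quotient.field Q.asIdeal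
    haveI : Finite (𝓞 E ⧸ Q.asIdeal) := Ideal.finiteQuotientOfFreeOfNeBot _ Q.ne_bot
    haveI := Fintype.ofFinite (𝓞 E ⧸ Q.asIdeal)
    set q := Ideal.absNorm v.asIdeal
    have hroots : ∀ x : 𝓞 E ⧸ Q.asIdeal, x ^ q = x := fun x => by
      obtain ⟨y, rfl⟩ := Ideal.Quotient.mk_surjective x
      have h1 : (1 : E ≃ₐ[F] E) • y - y ^ q ∈ Q.asIdeal := hq ▸ hfrob y
      rw [one_smul] at h1
      rw [← map_pow]
      exact (Ideal.Quotient.eq.mpr h1).symm
    have h2 := FA.Ext.two_le_absNorm v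
    have hle : Fintype.card (𝓞 E ⧸ Q.asIdeal) ≤ q := by
      have hne : (Polynomial.X ^ q - Polynomial.X : Polynomial (𝓞 E ⧸ Q.asIdeal)) ≠ 0 :=
        FiniteField.X_pow_card_sub_X_ne_zero (𝓞 E ⧸ Q.asIdeal) h2
      refine le_trans ?_ ((Polynomial.card_roots' _).trans
        (FiniteField.X_pow_card_sub_X_natDegree_eq (𝓞 E ⧸ Q.asIdeal) h2).le)
      refine le_trans (Finset.card_le_card (t := (Polynomial.X ^ q -
        Polynomial.X : Polynomial (𝓞 E ⧸ Q.asIdeal)).roots.toFinset) fun x _ => ?_)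
        (Multiset.toFinset_card_le _)
      simp [Polynomial.mem_roots hne, hroots x]
    rw [← Nat.card_eq_fintype_card, ← Submodule.cardQuot_apply, ← Ideal.absNorm_apply, hN] at hle
    nlinarith
  · intro hm
    refine (eq_one_or_eq hdeg hτ _).resolve_right fun he => hm ?_
    rw [he] at hfrob
    refine ((conjPlace τ Q).isMaximal.eq_of_le Q.isPrime.ne_top fun x hx => ?_)
    rw [conjPlace_asIdeal, Ideal.mem_pointwise_smul_iff_inv_smul_mem] at hx
    have h1 : τ • (τ⁻¹ • x) - (τ⁻¹ • x) ^ Ideal.absNorm v.asIdeal ∈ Q.asIdeal := hq ▸ hfrob _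
    rw [smul_inv_smul] at h1
    have hpos : 0 < Ideal.absNorm v.asIdeal := by have := FA.Ext.two_le_absNorm v; omega
    simpa using Q.asIdeal.add_mem h1 (Ideal.pow_mem_of_mem _ hx _ hpos)

/-- **The rational primes of the discriminant.** -/
theorem prime_dvd_discr {p : ℕ} (hp : p.Prime) (h : (p : ℤ) ∣ discr E) :
    (p : ℤ) ∣ discr F ∨
      ∃ v : HeightOneSpectrum (𝓞 F), ¬ SplitOrInert τ v ∧ (p : 𝓞 F) ∈ v.asIdeal := by
  rw [← Int.dvd_natAbs, Int.natCast_dvd_natCast,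
    natAbs_discr_eq_absNorm_differentIdeal_mul_natAbs_discr_pow F (𝓞 F) E (𝓞 E)] at h
  rcases hp.dvd_mul.mp h with h | h
  swap
  · exact Or.inl (Int.natCast_dvd.mpr (hp.dvd_of_dvd_pow h))
  obtain ⟨P, hP, hPZ, hPdvd⟩ := Ideal.exists_isMaximal_dvd_of_dvd_absNorm' hp _ h
  have hP0 : P ≠ ⊥ := fun h0 => hp.ne_zero (by
    have := congrArg (fun I : Ideal ℤ => (p : ℤ) ∈ I) hPZ
    rw [h0] at this
    simpa [Ideal.mem_span_singleton_self] using this)
  set u : HeightOneSpectrum (𝓞 E) := ⟨P, hP.isPrime, hP0⟩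
  refine Or.inr ⟨u.under (𝓞 F), fun hG => ?_, ?_⟩
  · haveI := hP.isPrime
    refine dvd_differentIdeal_iff.mp hPdvd ?_
    rw [← Ideal.ramificationIdx_eq_one_iff]
    exact ramificationIdx_of_splitOrInert hdeg hτ hG u rfl
  · have h1 : (p : ℤ) ∈ P.under ℤ := hPZ ▸ Ideal.mem_span_singleton_self _
    show algebraMap (𝓞 F) (𝓞 E) (p : 𝓞 F) ∈ P
    rw [map_natCast]
    simpa using h1

/-- **The completed L-series of the quadratic character.** -/
theorem exists_etaEntire (hE : IsTotallyComplex E) :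
    ∃ (A : ℕ) (χ : HeightOneSpectrum (𝓞 F) → ℂ) (ε : ℂ) (Λ : ℂ → ℂ), 0 < A ∧
      (∀ p : ℕ, p.Prime → p ∣ A → (p : ℤ) ∣ discr F ∨
        ∃ v : HeightOneSpectrum (𝓞 F), ¬ SplitOrInert τ v ∧ (p : 𝓞 F) ∈ v.asIdeal) ∧
      (∀ v, χ v = 0 ∨ ‖χ v‖ = 1) ∧
      (∀ v, SplitOrInert τ v → ∀ u : HeightOneSpectrum (𝓞 E),
        u.asIdeal.under (𝓞 F) = v.asIdeal → χ v = if τ • u.asIdeal ≠ u.asIdeal then 1 else -1) ∧
      (ε = 1 ∨ ε = -1) ∧ Differentiable ℂ Λ ∧ (∀ s, Λ (1 - s) = ε * Λ s) ∧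
      (∀ s : ℂ, 1 < s.re → ∃ L : ℂ,
        HasProd (fun v : HeightOneSpectrum (𝓞 F) =>
          (1 - χ v * ((Ideal.absNorm v.asIdeal : ℕ) : ℂ) ^ (-s))⁻¹) L ∧
        Λ s = (A : ℂ) ^ (s / 2) *
          (Complex.Gammaℝ (s + 1) ^ nrRealPlaces F * Complex.Gammaℂ s ^ nrComplexPlaces F) * L) ∧
      ∀ s : ℂ, 1 ≤ s.re → Λ s ≠ 0 := by
  haveI : IsMulCommutative (E ≃ₐ[F] E) := ⟨⟨fun a b => by
    rcases eq_one_or_eq hdeg hτ a with rfl | rfl <;> rcases eq_one_or_eq hdeg hτ b with rfl | rfl <;>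
      simp⟩⟩
  have hττ : τ * τ = 1 := (eq_one_or_eq hdeg hτ _).resolve_right fun h => hτ (mul_eq_left.mp h)
  let ψ : (E ≃ₐ[F] E) →* ℂˣ :=
    { toFun := fun σ => if σ = 1 then 1 else -1
      map_one' := if_pos rfl
      map_mul' := fun a b => by
        rcases eq_one_or_eq hdeg hτ a with rfl | rfl <;>
          rcases eq_one_or_eq hdeg hτ b with rfl | rfl <;> simp [hττ, hτ] }
  have hψτ : ψ τ = -1 := if_neg hτ
  have hneg : (-1 : ℂˣ) ≠ 1 := fun h => by
    have := congrArg Units.val h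
    norm_num at this
  have hψ : Function.Injective ψ := (injective_iff_map_eq_one ψ).mpr fun σ h =>
    (eq_one_or_eq hdeg hτ σ).resolve_right fun e => hneg (hψτ ▸ e ▸ h)
  have hne : ψ ≠ 1 := fun h => hneg (hψτ ▸ DFunLike.congr_fun h τ)
  obtain ⟨𝔣, g, hS, hprim, hnt, hcond, hL⟩ :=
    FA.ArtinFE.exists_hecke_conductor_faithful ψ hψ hne
  obtain ⟨𝔪, h𝔪, hiff, ω, -, -, hω⟩ := exists_artinRayHom (K := F) (L := E)
  set f := rayCharFn h𝔪 (ψ.comp ω) with hf
  have hray : IsRayChar 𝔪 f := isRayChar_rayCharFn h𝔪 _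
  have hval : ∀ v, ¬ IsRam E v → f v.asIdeal = (ψ (artinAt E v) : ℂ) := fun v hv => by
    have hc : v.asIdeal ⊔ 𝔪 = ⊤ := (FA.ArtinRec.sup_eq_top_iff_not_le v 𝔪).2 fun h =>
      hv ((hiff v).1 (Ideal.dvd_iff_le.2 h))
    rw [hf, show v.asIdeal = (⟨primeIdeal v, hc⟩ : coprimeIdeals 𝔪).1.1 from rfl, rayCharFn_apply,
      MonoidHom.comp_apply, hω]
    exact congrArg (fun σ => (ψ σ : ℂ)) (FA.ArtinRec.artinHom_prime v)
  have hfL : ∀ s : ℂ, 1 < s.re → FA.ArtinL.artinL (fun σ => (ψ σ : ℂ)) s = heckeL f s :=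
    fun s hs => FA.ArtinFE.artinL_eq_heckeL ψ hψ hray hiff hval hs
  -- the real places ramify
  have hcard : (FA.ArtinFE.realRam F E).card = nrRealPlaces F := by
    rw [nrRealPlaces, Fintype.card_subtype]
    congr 1
    ext w
    rw [FA.ArtinFE.mem_realRam, Finset.mem_filter]
    refine ⟨fun h => ⟨Finset.mem_univ _,
      FA.ArtinFE.isReal_of_mem_realRam (FA.ArtinFE.mem_realRam.mpr h)⟩, fun hw hun => ?_⟩
    obtain ⟨z, hz⟩ := InfinitePlace.comap_surjective (K := E) w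
    refine (not_isUnramified_iff.mpr ⟨hE.isComplex z, ?_⟩) (hun z hz)
    simp only at hz
    rw [hz]
    exact hw.2
  have hfac : ∀ s, FA.HeckeCharFE.charFac F 𝔣 (FA.ArtinFE.realRam F E) s =
      (((discr F).natAbs * Ideal.absNorm 𝔣 : ℕ) : ℂ) ^ (s / 2) *
        (Complex.Gammaℝ (s + 1) ^ nrRealPlaces F * Complex.Gammaℂ s ^ nrComplexPlaces F) :=
    fun s => by rw [FA.HeckeCharFE.charFac, hcard, Nat.sub_self, pow_zero, one_mul]
  set Λ := hS.completedL hprim with hΛdef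
  have hΛ : Differentiable ℂ Λ := hS.differentiable_completedL hprim
  have hhalf : ∀ s : ℂ, 1 < s.re → Λ s = FA.HeckeCharFE.charFac F 𝔣 (FA.ArtinFE.realRam F E) s *
      heckeL g s := fun s hs => hS.completedL_half hprim hnt hs
  set A := (discr F).natAbs * Ideal.absNorm 𝔣 with hA
  have hA0 : 0 < A := Nat.mul_pos (Int.natAbs_pos.mpr (discr_ne_zero F))
    (Nat.pos_of_ne_zero fun h0 => hS.ray.ne_bot (Ideal.absNorm_eq_zero_iff.mp h0))
  have h0 : ∀ s : ℂ, 1 ≤ s.re → Λ s ≠ 0 := fun s hs => by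
    obtain ⟨G, hG, hG'⟩ := FA.Hecke.exists_heckeE hS.ray hnt
    have hs0 : 0 < s.re := by linarith
    set T : ℂ → ℂ := fun y => (A : ℂ) ^ (y / 2) *
      (Complex.Gammaℝ (y + 1) ^ nrRealPlaces F * Complex.Gammaℂ y ^ nrComplexPlaces F) * G y
      with hT
    have hne : Complex.Gammaℝ (s + 1) ≠ 0 := (FA.ArtinFE.gamma_ne_zero hs0).2
    have hA' : (A : ℂ) ≠ 0 := Nat.cast_ne_zero.mpr hA0.ne'
    have hcont : ContinuousAt T s :=
      ((((differentiable_id.div_const (2 : ℂ)).const_cpow (Or.inl hA')).continuous.continuousAt).mul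
        (((FA.ArtinFE.analyticAt_Gammaℝ_add hne).continuousAt.pow _).mul
          ((continuousAt_Gammaℂ' hs0).pow _))).mul hG.continuous.continuousAt
    rw [eq_of_halfPlane hs hΛ.continuous.continuousAt hcont fun y hy => by
      rw [hhalf y hy, hfac, hG' y hy, hT]]
    exact mul_ne_zero (mul_ne_zero (Complex.cpow_ne_zero_iff.mpr (Or.inl hA'))
      (mul_ne_zero (pow_ne_zero _ hne) (pow_ne_zero _ (Gammaℂ_ne_zero' hs0))))
      (hS.ray.heckeE_ne_zero hG hG' hs)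
  have hreal : ∀ σ, conj (ψ σ : ℂ) = (ψ σ : ℂ) := fun σ => by
    rcases eq_one_or_eq hdeg hτ σ with rfl | rfl
    · simp
    · rw [hψτ]; simp
  have hconj : hS.conj.completedL hprim.conj = Λ := by
    refine FA.PrimeIdeal.eq_of_eq_halfPlane (hS.conj.differentiable_completedL hprim.conj) hΛ
      fun s hs => ?_
    rw [hS.conj.completedL_half hprim.conj hnt.conj hs, hhalf s hs,
      FA.ArtinFE.heckeL_conjChar, ← hL _ (by simpa using hs), ← FA.ArtinFE.artinL_conj,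
      ← hL s hs]
    simp only [hreal]
  set C := FA.HeckeCharFE.rootC 𝔣 g (FA.ArtinFE.realRam F E)
  have hfe : ∀ s, Λ (1 - s) = C * Λ s := fun s => by
    show hS.completedL hprim (1 - s) = _
    rw [hS.completedL_one_sub hprim hnt s, hconj]
  have hC : C = 1 ∨ C = -1 := by
    have h2 := hfe (1 - 2)
    rw [sub_sub_cancel, hfe 2] at h2
    have h3 : (C ^ 2 - 1) * Λ 2 = 0 := by linear_combination -h2
    exact sq_eq_one_iff.mp (sub_eq_zero.mp ((mul_eq_zero.mp h3).resolve_right (h0 2 (by norm_num))))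
  refine ⟨A, fun v => f v.asIdeal, C, Λ, hA0, fun p hp hpA => ?_, fun v => ?_,
    fun v hv u hu => ?_, hC, hΛ, hfe, fun s hs => ⟨heckeL f s, ?_, ?_⟩, h0⟩
  · rcases hp.dvd_mul.mp hpA with h | h
    · exact Or.inl (Int.natCast_dvd.mpr h)
    obtain ⟨𝔠, hciff, hc, hcsupp⟩ := FA.RayFields.exists_conductor F E
    rw [hcond.unique (show FA.ArtinFE.IsCond E 𝔠 from hciff) hS.ray.ne_bot hc.ne_bot] at h
    obtain ⟨P, hP, hPZ, hPdvd⟩ := Ideal.exists_isMaximal_dvd_of_dvd_absNorm' hp 𝔠 h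
    have hP0 : P ≠ ⊥ := fun h0 => hc.ne_bot (zero_dvd_iff.mp
      (by rwa [h0, ← Ideal.zero_eq_bot] at hPdvd))
    refine Or.inr ⟨⟨P, hP.isPrime, hP0⟩, fun hG =>
      not_isRam hdeg hτ hG ((hcsupp ⟨P, hP.isPrime, hP0⟩).mp hPdvd), ?_⟩
    have h1 : (p : ℤ) ∈ P.under ℤ := hPZ ▸ Ideal.mem_span_singleton_self _
    simpa using h1
  · exact hray.prime_zero_or_one v
  · have hi := artinAt_eq_one_iff' hdeg hτ hv u hu
    simp only [hval v (not_isRam hdeg hτ hv)]
    split_ifs with hm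
    · rw [hi.mpr hm, map_one, Units.val_one]
    · rw [(eq_one_or_eq hdeg hτ (artinAt E v)).resolve_left fun e => hm (hi.mp e), hψτ]
      simp
  · exact (FA.AlgHeckeFE.hasProd_unimod
      ⟨fun I hI => hray.norm_le hI, hray.prime_zero_or_one⟩ hs).1
  · rw [hhalf s hs, hfac, ← hfL s hs, hL s hs]

end FA.DeuringCM

end
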