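import Fermat.Agent.DeuringCM.ExactLSeries
import Fermat.Agent.DeuringCM.QuadChar

/-!
# The L-series of Hasse and Weil without `√d` in the field

Grouping the places of `E = F (√d)` by those of `F`, the series of the character of `E` is that of
Hasse and Weil of the curve: over a place of good reduction the values give the factor, and over a
bad place they all vanish. So the constant is the discriminant of `E` times the norm of the
conductor, whose primes are those of the discriminant of `F` and those of the bad places.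
-/

set_option autoImplicit false
set_option linter.style.haveILetI false
set_option linter.unusedSectionVars false

noncomputable section

open WeierstrassCurve NumberField NumberField.InfinitePlace IsDedekindDomain
open FA.TraceNF (frobTrace)
open FA.AlgHecke (IsAlgChar IsNormPower)
open FA.GoodNF (GoodAt traceAt)
open scoped WeierstrassCurve.Affine nonZeroDivisors Pointwise Classical ComplexConjugate

namespace FA.DeuringCM

variable {F : Type} [Field F] [NumberField F] (W₀ : WeierstrassCurve (𝓞 F))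
  [(W₀.map (algebraMap (𝓞 F) F)).IsElliptic]

local notation "W" => W₀.map (algebraMap (𝓞 F) F)

/-- **The exact functional equation without `√d` in the field.** -/
theorem exists_exact_lSeries_descended (ψ : F →+* ℂ) {d : ℤ} (hd : Squarefree d) (hd0 : d < 0)
    (hnot : ¬ ∃ s : F, s ^ 2 = (d : F))
    (hcm : ∃ L : PeriodPair, L.g₂ = ψ (W).c₄ / 12 ∧ L.g₃ = ψ (W).c₆ / 216 ∧
      ∃ ω : ℂ, (∀ m : ℤ, ω ≠ m) ∧ (∀ l ∈ L.lattice, ω * l ∈ L.lattice) ∧
        ∃ x y : ℚ, (ω - (x : ℂ)) ^ 2 = (d : ℂ) * (y : ℂ) ^ 2) :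
    ∃ (M : ℕ) (ε : ℂ) (Λ : ℂ → ℂ), 0 < M ∧ (ε = 1 ∨ ε = -1) ∧
      (∀ p : ℕ, p.Prime → p ∣ M → (p : ℤ) ∣ discr F ∨
        ∃ v : HeightOneSpectrum (𝓞 F), ¬ GoodAt (W) v ∧ (p : 𝓞 F) ∈ v.asIdeal) ∧
      (∃ (E : IntermediateField F (AlgebraicClosure F)) (_ : NumberField E) (𝔣 : Ideal (𝓞 E)),
        Module.finrank F E = 2 ∧ (∃ s : E, s ^ 2 = (d : E)) ∧
        (∀ (v : HeightOneSpectrum (𝓞 F)) (w : HeightOneSpectrum (𝓞 E)),
          w.asIdeal.under (𝓞 F) = v.asIdeal → (GoodAt (W) v ↔ w.asIdeal ⊔ 𝔣 = ⊤)) ∧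
        M = (discr E).natAbs * Ideal.absNorm 𝔣) ∧
      Differentiable ℂ Λ ∧
      (∀ z : ℂ, 3 / 2 < z.re → ∃ L : ℂ,
        HasProd (fun v : HeightOneSpectrum (𝓞 F) => eulerFactorAt (W) v z) L ∧
        Λ z = (M : ℂ) ^ (z / 2) * Complex.Gammaℂ z ^ Module.finrank ℚ F * L) ∧
      (∀ z : ℂ, Λ (2 - z) = ε * Λ z) ∧ ∀ z : ℂ, 3 / 2 ≤ z.re → Λ z ≠ 0 := by
  obtain ⟨E, instE, τ, s, ψ', 𝔣, f, hdeg, hgal, hτ, hs, hψ, hf, hne, hmin, hsymm, hv⟩ :=
    exists_descended_char W₀ ψ hd hd0 hnot hcm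
  have hiff : ∀ (v : HeightOneSpectrum (𝓞 F)) (u : HeightOneSpectrum (𝓞 E)),
      u.asIdeal.under (𝓞 F) = v.asIdeal → (GoodAt (W) v ↔ u.asIdeal ⊔ 𝔣 = ⊤) := fun v u hu =>
    goodAt_iff_coprime_descended hd hd0 hnot hcm hdeg hτ hs hψ hf hmin hsymm hv hu
  obtain ⟨w, 𝔣', g, e, C, Λ, hw, hdvd, hg, hag, -, -, hC, hΛ, hL, hfe⟩ :=
    FA.AlgHeckeFE.exists_functional_equation hf hne
  obtain rfl : w = 1 := by
    obtain ⟨σ⟩ : Nonempty (E →+* ℂ) := inferInstance
    exact (hw σ).symm.trans (sum_type_eq_one hd0 hs ψ' σ)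
  have hdvd' : 𝔣 ∣ 𝔣' := hmin 𝔣' g hg ((Ideal.finite_factors hf.ne_bot).subset fun x hx => by
    by_contra hx'
    exact hx (hag _ x.ne_bot ((hf.ne_zero_iff _ x.ne_bot).mpr
      (sup_eq_top x fun hle => hx' (Ideal.dvd_iff_le.mpr hle)))))
  obtain rfl : 𝔣' = 𝔣 := dvd_antisymm hdvd hdvd'
  have hgf : ∀ u : HeightOneSpectrum (𝓞 E), g u.asIdeal = f u.asIdeal := fun u => by
    by_cases h : f u.asIdeal = 0
    · rw [h]
      by_contra hg0
      exact (hf.ne_zero_iff _ u.ne_bot).mpr ((hg.ne_zero_iff _ u.ne_bot).mp hg0) h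
    · exact hag _ u.ne_bot h
  have hgood : ∀ v : HeightOneSpectrum (𝓞 F), GoodAt (W) v → SplitOrInert τ v :=
    fun v h u hu => by
      obtain ⟨W₁, D, hD, hΔ⟩ := FA.GoodNF.exists_globalModel h
      rcases values_descended hd hd0 hnot hcm hdeg hτ hs hψ hf hmin hsymm hv hD hΔ hu with
        ⟨h1, h2, -⟩ | ⟨h1, h2, -⟩
      · exact Or.inl ⟨h1, h2⟩
      · exact Or.inr ⟨h1, h2⟩
  -- the Euler factors
  have hfac : ∀ v : HeightOneSpectrum (𝓞 F), ∃ t : Finset (HeightOneSpectrum (𝓞 E)),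
      (∀ u, u ∈ t ↔ u.under (𝓞 F) = v) ∧
      ∀ z : ℂ, ∏ u ∈ t, (1 - g u.asIdeal * ((Ideal.absNorm u.asIdeal : ℕ) : ℂ) ^ (-z))⁻¹ =
        eulerFactorAt (W) v z := fun v => by
    obtain ⟨u, hu, hcase⟩ := fibre_cases hdeg hτ v
    simp only [hgf]
    by_cases h : GoodAt (W) v
    swap
    · have h0 : ∀ u' : HeightOneSpectrum (𝓞 E), u'.under (𝓞 F) = v → f u'.asIdeal = 0 :=
        fun u' hu' => not_not.mp fun e =>
          h ((hiff v u' (congrArg HeightOneSpectrum.asIdeal hu')).2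
            ((hf.ne_zero_iff _ u'.ne_bot).mp e))
      rcases hcase with ⟨-, -, hmem⟩ | ⟨-, -, hmem⟩ <;>
      exact ⟨_, hmem, fun z => by
        rw [eulerFactorAt, if_neg h]
        refine Finset.prod_eq_one fun u' hu' => ?_
        rw [h0 u' ((hmem u').1 hu'), zero_mul, sub_zero, inv_one]⟩
    obtain ⟨W₁, D, hD, hΔ⟩ := FA.GoodNF.exists_globalModel h
    have hval := values_descended hd hd0 hnot hcm hdeg hτ hs hψ hf hmin hsymm hv hD hΔ hu
    have hq0 : ((Ideal.absNorm v.asIdeal : ℕ) : ℂ) ≠ 0 :=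
      Nat.cast_ne_zero.mpr fun h0 => v.ne_bot (Ideal.absNorm_eq_zero_iff.mp h0)
    rcases hcase with ⟨hfix, hN, hmem⟩ | ⟨hmove, hN, hmem⟩
    · refine ⟨_, hmem, fun z => ?_⟩
      obtain ⟨h', -⟩ | ⟨-, hN2, ha, hu0⟩ := hval
      · exact absurd hfix h'
      rw [eulerFactorAt, if_pos h, FA.GoodNF.traceAt_eq hD hΔ, ha, Finset.prod_singleton, hN2,
        natCast_sq_cpow, hu0, show (1 : ℂ) - 2 * z = 1 + (-z + -z) by ring,
        Complex.cpow_add _ _ hq0, Complex.cpow_one, Complex.cpow_add _ _ hq0]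
      push_cast
      ring_nf
    · refine ⟨_, hmem, fun z => ?_⟩
      obtain ⟨-, -, h1, h2⟩ | ⟨h', -⟩ := hval
      swap
      · exact absurd h' hmove
      rw [eulerFactorAt, if_pos h, FA.GoodNF.traceAt_eq hD hΔ,
        Finset.prod_pair (fun h => hmove (congrArg HeightOneSpectrum.asIdeal h).symm),
        conjPlace_asIdeal, absNorm_smul, hN, hsymm, ← mul_inv, ← h1,
        show (1 : ℂ) - 2 * z = 1 + (-z + -z) by ring, Complex.cpow_add _ _ hq0, Complex.cpow_one,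
        Complex.cpow_add _ _ hq0, ← h2]
      congr 1
      ring
  choose t hmem hprod using hfac
  haveI : IsEmpty {v : InfinitePlace E // IsReal v} :=
    ⟨fun v => (not_isReal_iff_isComplex.mpr (totallyComplex_of_sqrt hd0 hs v.1)) v.2⟩
  have hcard : Fintype.card {v : InfinitePlace E // IsComplex v} = Module.finrank ℚ F := by
    have h := card_add_two_mul_card_eq_rank E
    rw [NumberField.InfinitePlace.nrRealPlaces, NumberField.InfinitePlace.nrComplexPlaces,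
      Fintype.card_eq_zero (α := {v : InfinitePlace E // IsReal v}), zero_add,
      ← Module.finrank_mul_finrank ℚ F E, hdeg, mul_comm] at h
    exact Nat.eq_of_mul_eq_mul_right two_pos h
  have hgamma : ∀ z, FA.AlgHeckeFE.gammaFactor
      (fun σ => if σ s = ψ' s then 1 else 0) e 1 z = Complex.Gammaℂ z ^ Module.finrank ℚ F :=
    fun z => by
      rw [FA.AlgHeckeFE.gammaFactor, Fintype.prod_empty, one_mul, ← hcard,
        ← Finset.card_univ, ← Finset.prod_const]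
      refine Finset.prod_congr rfl fun v _ => ?_
      have h := sum_type_eq_one hd0 hs ψ' v.1.embedding
      have hmin0 : min (if v.1.embedding s = ψ' s then (1 : ℤ) else 0)
          (if ComplexEmbedding.conjugate v.1.embedding s = ψ' s then (1 : ℤ) else 0) = 0 := by
        split_ifs at h ⊢ <;> omega
      rw [hmin0, Int.cast_zero, sub_zero]
  set A : ℕ := (discr E).natAbs * Ideal.absNorm 𝔣' with hA
  have hA0 : 0 < A := Nat.mul_pos (Int.natAbs_pos.mpr (discr_ne_zero E))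
    (Nat.pos_of_ne_zero fun h0 => hg.ne_bot (Ideal.absNorm_eq_zero_iff.mp h0))
  have hAR : |((discr E : ℤ) : ℝ)| * ((Ideal.absNorm 𝔣' : ℕ) : ℝ) = (A : ℝ) := by
    rw [hA, Nat.cast_mul, Nat.cast_natAbs, Int.cast_abs]
  -- the series is real
  have hreal : ∀ z : ℂ, conj (Λ (conj z)) = Λ z := by
    have hd' : Differentiable ℂ fun z => conj (Λ (conj z)) := fun z => by
      have h1 := (hΛ (conj z)).conj_conj
      rwa [Complex.conj_conj] at h1
    refine congrFun ((Complex.analyticOnNhd_univ_iff_differentiable.mpr hd').eq_of_eventuallyEq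
      (Complex.analyticOnNhd_univ_iff_differentiable.mpr hΛ) (z₀ := 2) ?_)
    filter_upwards [(isOpen_lt continuous_const Complex.continuous_re).mem_nhds
      (show (3 / 2 : ℝ) < (2 : ℂ).re by norm_num)] with z hz
    have hz1 : 1 + ((1 : ℤ) : ℝ) / 2 < z.re := by push_cast; linarith
    have hz2 : 1 + ((1 : ℤ) : ℝ) / 2 < (conj z).re := by rwa [Complex.conj_re]
    obtain ⟨L₁, hs₁, e₁⟩ := hL z hz1
    obtain ⟨L₂, hs₂, e₂⟩ := hL (conj z) hz2
    obtain ⟨L₁', hs₁', hp₁, -⟩ := FA.AlgHeckeFE.hasProd_algChar hg hw hz1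
    obtain ⟨L₂', hs₂', hp₂, -⟩ := FA.AlgHeckeFE.hasProd_algChar hg hw hz2
    obtain rfl := hs₁'.unique hs₁
    obtain rfl := hs₂'.unique hs₂
    let π : HeightOneSpectrum (𝓞 E) ≃ HeightOneSpectrum (𝓞 E) :=
      Function.Involutive.toPerm (conjPlace τ) fun u =>
        HeightOneSpectrum.ext (smul_smul_self hdeg τ u.asIdeal)
    have hp : HasProd (fun u : HeightOneSpectrum (𝓞 E) =>
        (1 - g u.asIdeal * ((Ideal.absNorm u.asIdeal : ℕ) : ℂ) ^ (-z))⁻¹) (conj L₂') := by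
      refine (π.hasProd_iff.mpr (hp₂.map (starRingEnd ℂ) Complex.continuous_conj)).congr_fun
        fun u => ?_
      show _ = conj ((1 - g (τ • u.asIdeal) *
        ((Ideal.absNorm (τ • u.asIdeal) : ℕ) : ℂ) ^ (-conj z))⁻¹)
      rw [map_inv₀, map_sub, map_one, map_mul, FA.AlgHeckeFE.conj_natCast_cpow, map_neg,
        Complex.conj_conj, absNorm_smul]
      rw [show g (τ • u.asIdeal) = conj (g u.asIdeal) by
        rw [← conjPlace_asIdeal, hgf, hgf, conjPlace_asIdeal, hsymm], Complex.conj_conj]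
    rw [hp₁.unique hp] at e₁
    show conj (Λ (conj z)) = Λ z
    rw [e₁, e₂, hAR, hgamma, hgamma, map_mul, map_mul, map_pow, Complex.ofReal_natCast,
      FA.AlgHeckeFE.conj_natCast_cpow, FA.AlgHeckeFE.conj_Gammaℂ, map_div₀, Complex.conj_conj,
      map_ofNat]
  have hfe' : ∀ z : ℂ, Λ z = C * Λ (2 - z) := fun z => by
    rw [hfe z, ← hreal (2 - z), map_sub, map_ofNat]
    push_cast
    norm_num
  obtain ⟨ε, hε, hεfe⟩ : ∃ ε : ℂ, (ε = 1 ∨ ε = -1) ∧ ∀ z, Λ (2 - z) = ε * Λ z := by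
    by_cases h0 : ∀ z, Λ z = 0
    · exact ⟨1, Or.inl rfl, fun z => by rw [h0, h0, mul_zero]⟩
    obtain ⟨z₀, hz₀⟩ := not_forall.mp h0
    have h2 := hfe' (2 - z₀)
    rw [sub_sub_cancel] at h2
    have h3 : (C ^ 2 - 1) * Λ z₀ = 0 := by linear_combination -(hfe' z₀) - C * h2
    have hC2 : C ^ 2 = 1 := sub_eq_zero.mp ((mul_eq_zero.mp h3).resolve_right hz₀)
    refine ⟨C, sq_eq_one_iff.mp hC2, fun z => ?_⟩
    have h4 := hfe' (2 - z)
    rwa [sub_sub_cancel] at h4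
  have hne' : ¬ IsNormPower g := fun ⟨a, ha⟩ => hne ⟨a, fun I hI h0 => by
    rw [← hag I hI h0]
    exact ha I hI (by rw [hag I hI h0]; exact h0)⟩
  refine ⟨A, ε, Λ, hA0, hε, fun p hp hpM => ?_,
    ⟨E, instE, 𝔣', hdeg, ⟨s, hs⟩, hiff, hA⟩, hΛ, fun z hz => ?_, hεfe, fun z hz =>
    completed_ne_zero hg hw hne' hA0 hΛ (fun u hu => by
      obtain ⟨L, hs', e'⟩ := hL u hu
      rw [hAR, hgamma, Complex.ofReal_natCast] at e'
      exact ⟨L, hs', e'⟩) hz⟩
  · rcases hp.dvd_mul.mp hpM with h1 | h1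
    · refine (prime_dvd_discr hdeg hτ hp (Int.natCast_dvd.mpr h1)).imp id ?_
      rintro ⟨v, h2, h3⟩
      exact ⟨v, fun h => h2 (hgood v h), h3⟩
    · obtain ⟨u, hu, hpu⟩ := exists_place_of_dvd_absNorm hg.ne_bot hp h1
      refine Or.inr ⟨u.under (𝓞 F), fun h => hu ((hiff _ u rfl).1 h), ?_⟩
      show algebraMap (𝓞 F) (𝓞 E) (p : 𝓞 F) ∈ u.asIdeal
      rwa [map_natCast]
  have hz1 : 1 + ((1 : ℤ) : ℝ) / 2 < z.re := by push_cast; linarith
  obtain ⟨L₁, hs₁, e₁⟩ := hL z hz1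
  obtain ⟨L₁', hs₁', hp₁, -⟩ := FA.AlgHeckeFE.hasProd_algChar hg hw hz1
  obtain rfl := hs₁'.unique hs₁
  exact ⟨L₁', hasProd_fibres hp₁ fun v => ⟨t v, hmem v, hprod v z⟩,
    by rw [e₁, hAR, hgamma, Complex.ofReal_natCast]⟩

end FA.DeuringCM

end
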