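import Fermat.Agent.DeuringCM.AngleLaw
import Fermat.Agent.DeuringCM.AllFields

/-!
# The Sato–Tate law of the curves with complex multiplication over number fields

The normalised values of Deuring's character have equidistributed angles, none of their powers
being powers of the norm, and their real parts are `a_v / (2 √(N v))`. Without `√d` in the field the
places split in `F (√d)` carry half of this law and the others have `a_v = 0`.
-/

set_option autoImplicit false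
set_option linter.style.haveILetI false
set_option linter.unusedSectionVars false

noncomputable section

open WeierstrassCurve NumberField IsDedekindDomain Filter Topology
open FA.TraceNF (frobTrace)
open FA.AlgHecke (IsAlgChar IsPure IsNormPower)
open FA.Hecke (HasMean hasMean_congr hasMean_one)
open FA.PrimeEquidist
open scoped WeierstrassCurve.Affine Pointwise Classical Real ComplexConjugate

namespace FA.DeuringCM

variable {F : Type} [Field F] [NumberField F] (W₀ : WeierstrassCurve (𝓞 F))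
  [(W₀.map (algebraMap (𝓞 F) F)).IsElliptic]

local notation "W" => W₀.map (algebraMap (𝓞 F) F)

theorem hcm_map {E : Type} [Field E] [NumberField E] [Algebra F E] {ψ : F →+* ℂ} {ψ' : E →+* ℂ}
    (hψ : ψ'.comp (algebraMap F E) = ψ) {d : ℤ}
    (hcm : ∃ L : PeriodPair, L.g₂ = ψ (W).c₄ / 12 ∧ L.g₃ = ψ (W).c₆ / 216 ∧
      ∃ ω : ℂ, (∀ m : ℤ, ω ≠ m) ∧ (∀ l ∈ L.lattice, ω * l ∈ L.lattice) ∧
        ∃ x y : ℚ, (ω - (x : ℂ)) ^ 2 = (d : ℂ) * (y : ℂ) ^ 2) :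
    let W₁ := W₀.map (algebraMap (𝓞 F) (𝓞 E))
    (W₁.map (algebraMap (𝓞 E) E)).IsElliptic ∧
    ∃ L : PeriodPair, L.g₂ = ψ' (W₁.map (algebraMap (𝓞 E) E)).c₄ / 12 ∧
      L.g₃ = ψ' (W₁.map (algebraMap (𝓞 E) E)).c₆ / 216 ∧
      ∃ ω : ℂ, (∀ m : ℤ, ω ≠ m) ∧ (∀ l ∈ L.lattice, ω * l ∈ L.lattice) ∧
        ∃ x y : ℚ, (ω - (x : ℂ)) ^ 2 = (d : ℂ) * (y : ℂ) ^ 2 := by
  intro W₁
  have hW : W₁.map (algebraMap (𝓞 E) E) = (W).map (algebraMap F E) := by
    simp only [W₁, WeierstrassCurve.map_map]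
    rfl
  obtain ⟨L, h2, h3, hω⟩ := hcm
  refine ⟨by rw [hW]; infer_instance, L, ?_, ?_, hω⟩
  · rw [hW, map_c₄, ← RingHom.comp_apply, hψ, h2]
  · rw [hW, map_c₆, ← RingHom.comp_apply, hψ, h3]

/-- **At almost every prime of degree one the reduction is ordinary.** -/
theorem exists_ordinary (ψ : F →+* ℂ) {d : ℤ} (hd : Squarefree d) (hd0 : d < 0) {s : F}
    (hs : s ^ 2 = (d : F))
    (hcm : ∃ L : PeriodPair, L.g₂ = ψ (W).c₄ / 12 ∧ L.g₃ = ψ (W).c₆ / 216 ∧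
      ∃ ω : ℂ, (∀ m : ℤ, ω ≠ m) ∧ (∀ l ∈ L.lattice, ω * l ∈ L.lattice) ∧
        ∃ x y : ℚ, (ω - (x : ℂ)) ^ 2 = (d : ℂ) * (y : ℂ) ^ 2) :
    ∃ S : Set (HeightOneSpectrum (𝓞 F)), S.Finite ∧ ∀ v ∉ S, W₀.Δ ∉ v.asIdeal ∧
      ((Ideal.absNorm v.asIdeal).Prime → ¬ (Ideal.absNorm v.asIdeal : ℤ) ∣ frobTrace W₀ v) := by
  have hfin : ∀ z : 𝓞 F, z ≠ 0 →
      {v : HeightOneSpectrum (𝓞 F) | z ∈ v.asIdeal}.Finite := fun z hz =>
    (Ideal.finite_factors (show Ideal.span {z} ≠ ⊥ by simpa using hz)).subset fun v hv =>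
      Ideal.dvd_span_singleton.mpr hv
  refine ⟨_, (hfin W₀.Δ fun h => (W).isUnit_Δ.ne_zero (by rw [map_Δ, h, map_zero])).union
    (hfin ((6 * d : ℤ) : 𝓞 F) (Int.cast_ne_zero.mpr (by omega))), fun u hu => ?_⟩
  simp only [Set.mem_union, Set.mem_ofPred_eq, not_or] at hu
  refine ⟨hu.1, fun hq hdvd => ?_⟩
  obtain ⟨b, hb⟩ := FA.JugendtraumField.frobTrace_normEquation W₀ ψ hd hcm hs hu.1
  set q := Ideal.absNorm u.asIdeal with hqdef
  have hq6 : 4 < q := by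
    by_contra hlt
    have h6 : q ∣ 6 := by
      have := hq.two_le
      interval_cases q <;> norm_num at *
    obtain ⟨k, hk⟩ := h6
    refine hu.2 ?_
    rw [show ((6 * d : ℤ) : 𝓞 F) = ((k : ℤ) * d : ℤ) * (q : 𝓞 F) by
      have h6' : (6 : 𝓞 F) = (q : 𝓞 F) * (k : 𝓞 F) := by exact_mod_cast congrArg (Nat.cast) hk
      push_cast; rw [h6']; ring]
    exact Ideal.mul_mem_left _ _ (Ideal.absNorm_mem _)
  obtain ⟨k, hk⟩ := hdvd
  have hneg : (d : ℤ) * b ^ 2 ≤ 0 := mul_nonpos_of_nonpos_of_nonneg hd0.le (sq_nonneg b)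
  have hq' : (4 : ℤ) < q := by exact_mod_cast hq6
  have hk0 : k = 0 := by
    by_contra hk0
    have h1 : (1 : ℤ) ≤ k ^ 2 := by have := sq_pos_of_ne_zero hk0; omega
    have h3 := mul_le_mul_of_nonneg_left h1 (sq_nonneg (q : ℤ))
    have h4 : (q : ℤ) * 4 < q * q := mul_lt_mul_of_pos_left hq' (by omega)
    rw [hk] at hb
    linarith [show (q : ℤ) ^ 2 * k ^ 2 = ((q : ℤ) * k) ^ 2 by ring, sq (q : ℤ)]
  rw [hk, hk0] at hb
  have hdiv : (q : ℤ) ∣ d * b ^ 2 := ⟨-4, by rw [← hb]; ring⟩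
  rcases (Nat.prime_iff_prime_int.mp hq).dvd_or_dvd hdiv with hqd | hqb
  · refine hu.2 ?_
    obtain ⟨k', hk'⟩ := hqd
    rw [show ((6 * d : ℤ) : 𝓞 F) = ((6 * k' : ℤ) : 𝓞 F) * (q : 𝓞 F) by
      rw [hk']; push_cast; ring]
    exact Ideal.mul_mem_left _ _ (Ideal.absNorm_mem _)
  · obtain ⟨b', hb'⟩ := (Nat.prime_iff_prime_int.mp hq).dvd_of_dvd_pow hqb
    rw [hb'] at hb
    have hmul : (q : ℤ) * (d * b' ^ 2) = -4 :=
      mul_left_cancel₀ (show (q : ℤ) ≠ 0 by omega) (by linear_combination -hb)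
    have hq4 : (q : ℤ) ∣ 4 := ⟨-(d * b' ^ 2), by linear_combination hmul⟩
    have := Int.le_of_dvd (by omega) hq4
    omega

/-- **No power of the character is a power of the norm.** -/
theorem not_normPower_pow {𝔣 : Ideal (𝓞 F)} {n : (F →+* ℂ) → ℤ} {f : Ideal (𝓞 F) →* ℂ}
    (hf : IsAlgChar 𝔣 n f) {a : HeightOneSpectrum (𝓞 F) → ℤ} {S : Set (HeightOneSpectrum (𝓞 F))}
    (hS : S.Finite)
    (hord : ∀ v ∉ S, (Ideal.absNorm v.asIdeal).Prime →
      ¬ (Ideal.absNorm v.asIdeal : ℤ) ∣ a v ∧ f v.asIdeal + conj (f v.asIdeal) = a v ∧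
      f v.asIdeal * conj (f v.asIdeal) = (Ideal.absNorm v.asIdeal : ℂ)) {j : ℕ} (hj : j ≠ 0) :
    ¬ IsNormPower ((powMonoidHom j).comp f) := by
  rintro ⟨e, he⟩
  obtain ⟨v, hv, hvS, hq, -⟩ := exists_degree_one_class hf.ne_bot 1 hS
  obtain ⟨hqa, h1, h2⟩ := hord v hvS hq
  have h := he v.asIdeal v.ne_bot (pow_ne_zero j ((hf.ne_zero_iff _ v.ne_bot).mpr hv))
  refine hqa (dvd_of_pow_eq hq (Nat.pos_of_ne_zero hj) h1 h2 ?_)
  change f v.asIdeal ^ j = _ at h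
  rw [← map_pow, h, map_zpow₀, Complex.conj_natCast]

theorem natCast_cpow_neg_half (q : ℕ) :
    ((q : ℕ) : ℂ) ^ (-(((1 : ℤ) : ℂ) / 2)) = (((Real.sqrt q)⁻¹ : ℝ) : ℂ) := by
  rw [Real.sqrt_eq_rpow, ← Real.rpow_neg (Nat.cast_nonneg _),
    Complex.ofReal_cpow (Nat.cast_nonneg _)]
  push_cast
  rfl

theorem re_normalised_le_iff {z : ℂ} {q : ℕ} (hq : 0 < q) {a : ℤ} (h : z + conj z = a) (t : ℝ) :
    (z * ((q : ℕ) : ℂ) ^ (-(((1 : ℤ) : ℂ) / 2))).re ≤ t ↔ (a : ℝ) ≤ 2 * t * Real.sqrt q := by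
  have hre : 2 * z.re = (a : ℝ) := by
    have := congrArg Complex.re h
    simpa [two_mul] using this
  rw [natCast_cpow_neg_half, Complex.mul_re, Complex.ofReal_re, Complex.ofReal_im, mul_zero,
    sub_zero, ← div_eq_mul_inv, div_le_iff₀ (Real.sqrt_pos.mpr (Nat.cast_pos.mpr hq)), ← hre]
  constructor <;> intro h' <;> linarith

/-- The mean of `a ≤ 2 t √N` for a character with traces `a` at almost all places. -/
theorem hasMean_trace_le {d : ℤ} (hd0 : d < 0) {s : F} (hs : s ^ 2 = (d : F)) (ψ : F →+* ℂ)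
    {𝔣 : Ideal (𝓞 F)} {f : Ideal (𝓞 F) →* ℂ}
    (hf : IsAlgChar 𝔣 (fun σ => if σ s = ψ s then 1 else 0) f)
    (a : HeightOneSpectrum (𝓞 F) → ℤ) {S : Set (HeightOneSpectrum (𝓞 F))} (hS : S.Finite)
    (hord : ∀ v ∉ S, v.asIdeal ⊔ 𝔣 = ⊤ ∧ f v.asIdeal + conj (f v.asIdeal) = a v ∧
      f v.asIdeal * conj (f v.asIdeal) = (Ideal.absNorm v.asIdeal : ℂ) ∧
      ((Ideal.absNorm v.asIdeal).Prime → ¬ (Ideal.absNorm v.asIdeal : ℤ) ∣ a v))
    {t : ℝ} (ht : -1 ≤ t) (ht' : t ≤ 1) :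
    HasMean (fun v => if (a v : ℝ) ≤ 2 * t * Real.sqrt (Ideal.absNorm v.asIdeal) then (1 : ℝ)
      else 0) (1 - Real.arccos t / π) := by
  have hw : IsPure (fun σ : F →+* ℂ => if σ s = ψ s then (1 : ℤ) else 0) 1 :=
    sum_type_eq_one hd0 hs ψ
  have heq := hf.equidistributed hw fun j hj => not_normPower_pow hf hS (a := a)
    (fun v hv hq => ⟨(hord v hv).2.2.2 hq, (hord v hv).2.1, (hord v hv).2.2.1⟩) hj
  have hmean := hasMean_re_le (S := {v | v.asIdeal ⊔ 𝔣 ≠ ⊤})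
    (FA.AlgHecke.finite_primes_dividing hf.ne_bot) (fun v hv => hf.norm_unit hw (not_not.mp hv))
    heq ht ht'
  refine hasMean_congr S hS (B := 1) (fun v => ?_) (fun v hv _ => ?_) hmean
  · split_ifs <;> simp
  · exact if_congr (re_normalised_le_iff
      (Nat.pos_of_ne_zero fun h0 => v.ne_bot (Ideal.absNorm_eq_zero_iff.mp h0))
      (hord v hv).2.1 t).symm rfl rfl

/-- **Sato–Tate with `√d` in the field.** -/
theorem hasMean_satoTate (ψ : F →+* ℂ) {d : ℤ} (hd : Squarefree d) (hd0 : d < 0) {s : F}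
    (hs : s ^ 2 = (d : F))
    (hcm : ∃ L : PeriodPair, L.g₂ = ψ (W).c₄ / 12 ∧ L.g₃ = ψ (W).c₆ / 216 ∧
      ∃ ω : ℂ, (∀ m : ℤ, ω ≠ m) ∧ (∀ l ∈ L.lattice, ω * l ∈ L.lattice) ∧
        ∃ x y : ℚ, (ω - (x : ℂ)) ^ 2 = (d : ℂ) * (y : ℂ) ^ 2) :
    (∀ t : ℝ, -1 ≤ t → t ≤ 1 → HasMean (fun v =>
      if (frobTrace W₀ v : ℝ) ≤ 2 * t * Real.sqrt (Ideal.absNorm v.asIdeal) then (1 : ℝ) else 0)
      (1 - Real.arccos t / π)) ∧
    HasMean (fun v => if frobTrace W₀ v = 0 then (1 : ℝ) else 0) 0 := by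
  obtain ⟨𝔣, f, hf, -, -, hv⟩ := exists_hecke_char W₀ ψ hd hd0 hs hcm
  obtain ⟨S, hS, hord⟩ := exists_ordinary W₀ ψ hd hd0 hs hcm
  refine ⟨fun t ht ht' => hasMean_trace_le hd0 hs ψ hf (frobTrace W₀) hS (fun v h => ?_) ht ht',
    hasMean_congr S hS (B := 1) (fun v => ?_) (fun v h hq => ?_) (b := fun _ => (0 : ℝ))
      (by simp [HasMean, FA.Hecke.wSum])⟩
  · exact ⟨(hv v (hord v h).1).1, (hv v (hord v h).1).2.1, (hv v (hord v h).1).2.2, (hord v h).2⟩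
  · split_ifs <;> simp
  · rw [if_neg fun h0 => (hord v h).2 hq (by rw [h0]; exact dvd_zero _)]

/-- The mean of an indicator split along a set of mean one half. -/
theorem hasMean_split_add {P : HeightOneSpectrum (𝓞 F) → Prop}
    {Q : HeightOneSpectrum (𝓞 F) → Prop} {c : ℝ} {e : Prop}
    (h1 : HasMean (fun v => if P v then (1 : ℝ) else 0) (1 / 2))
    (hQ : HasMean (fun v => if P v then (if Q v then (1 : ℝ) else 0) else 0) c)
    {S : Set (HeightOneSpectrum (𝓞 F))} (hS : S.Finite)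
    (hne : ∀ v ∉ S, (Ideal.absNorm v.asIdeal).Prime → ¬ P v → (Q v ↔ e)) :
    HasMean (fun v => if Q v then (1 : ℝ) else 0) (c + if e then 1 / 2 else 0) := by
  have h2 := ((hasMean_one F).sub h1).map
    ((if e then (1 : ℝ) else 0) • ContinuousLinearMap.id ℝ ℝ)
  have h3 := hQ.add h2
  simp only [FunLike.coe_smul, Pi.smul_apply, ContinuousLinearMap.coe_id',
    id_eq, smul_eq_mul] at h3
  rw [show (if e then (1 : ℝ) else 0) * (1 - 1 / 2) = if e then 1 / 2 else 0 by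
    split_ifs <;> norm_num] at h3
  refine hasMean_congr S hS (B := 1) (fun v => ?_) (fun v hv hq => ?_) h3
  · split_ifs <;> norm_num
  · by_cases hP : P v
    · simp [hP]
    · simp [hP, hne v hv hq hP]

/-- **Sato–Tate without `√d` in the field.** -/
theorem hasMean_satoTate_descended (ψ : F →+* ℂ) {d : ℤ} (hd : Squarefree d) (hd0 : d < 0)
    (hnot : ¬ ∃ s : F, s ^ 2 = (d : F))
    (hcm : ∃ L : PeriodPair, L.g₂ = ψ (W).c₄ / 12 ∧ L.g₃ = ψ (W).c₆ / 216 ∧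
      ∃ ω : ℂ, (∀ m : ℤ, ω ≠ m) ∧ (∀ l ∈ L.lattice, ω * l ∈ L.lattice) ∧
        ∃ x y : ℚ, (ω - (x : ℂ)) ^ 2 = (d : ℂ) * (y : ℂ) ^ 2) :
    (∀ t : ℝ, -1 ≤ t → t ≤ 1 → HasMean (fun v =>
      if (frobTrace W₀ v : ℝ) ≤ 2 * t * Real.sqrt (Ideal.absNorm v.asIdeal) then (1 : ℝ) else 0)
      ((1 - Real.arccos t / π) / 2 + if 0 ≤ t then 1 / 2 else 0)) ∧
    HasMean (fun v => if frobTrace W₀ v = 0 then (1 : ℝ) else 0) (1 / 2) := by
  obtain ⟨E, instE, τ, s, ψ', 𝔣, f, hdeg, hgal, hτ, hs, hψ, hf, -, -, -, hv⟩ :=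
    exists_descended_char W₀ ψ hd hd0 hnot hcm
  set W₁ := W₀.map (algebraMap (𝓞 F) (𝓞 E)) with hW₁
  obtain ⟨hell, hcm₁⟩ := hcm_map W₀ hψ hcm
  haveI := hell
  obtain ⟨S, hS, hord⟩ := exists_ordinary W₁ ψ' hd hd0 hs hcm₁
  -- split places
  obtain ⟨P, hPiff⟩ : ∃ P : HeightOneSpectrum (𝓞 F) → Prop, ∀ v, P v ↔ (W₀.Δ ∉ v.asIdeal ∧
      ∃ w : HeightOneSpectrum (𝓞 E), w.under (𝓞 F) = v ∧ τ • w.asIdeal ≠ w.asIdeal) :=
    ⟨_, fun _ => Iff.rfl⟩
  have hgood : ∀ w : HeightOneSpectrum (𝓞 E),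
      W₁.Δ ∈ w.asIdeal ↔ W₀.Δ ∈ (w.under (𝓞 F)).asIdeal := fun w => by
    rw [hW₁, map_Δ]; rfl
  have hP : ∀ v, P v → ∃ w : HeightOneSpectrum (𝓞 E), conjPlace τ w ≠ w ∧
      Ideal.absNorm w.asIdeal = Ideal.absNorm v.asIdeal ∧
      (∀ w', w' ∈ ({w, conjPlace τ w} : Finset _) ↔ w'.under (𝓞 F) = v) := fun v hPv => by
    obtain ⟨-, w, hw, hmove⟩ := (hPiff v).mp hPv
    obtain ⟨u, hu, ⟨hfix, -, hmem⟩ | ⟨hm, hN, hmem⟩⟩ := fibre_cases hdeg hτ v
    · refine absurd ?_ hmove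
      rw [Finset.mem_singleton.mp ((hmem w).mpr hw)]
      exact hfix
    · exact ⟨u, fun h => hm (congrArg HeightOneSpectrum.asIdeal h), hN, hmem⟩
  -- the places of `E` over split places have the trace of the place below
  have htr : ∀ w : HeightOneSpectrum (𝓞 E), P (w.under (𝓞 F)) →
      f w.asIdeal + conj (f w.asIdeal) = frobTrace W₀ (w.under (𝓞 F)) ∧
        Ideal.absNorm w.asIdeal = Ideal.absNorm (w.under (𝓞 F)).asIdeal ∧
        frobTrace W₁ w = frobTrace W₀ (w.under (𝓞 F)) := fun w hw => by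
    rcases (hv _ ((hPiff _).mp hw).1 w rfl).2 with ⟨-, hN, h1, -⟩ | ⟨hfix, -, -, -⟩
    · exact ⟨h1, hN, frobTrace_of_absNorm_eq W₀ (v := w.under (𝓞 F)) rfl hN⟩
    · obtain ⟨u, hu, -, hmem⟩ := hP _ hw
      rcases Finset.mem_insert.mp ((hmem w).mpr rfl) with e | e
      · exact absurd (HeightOneSpectrum.ext (e ▸ hfix)) hu
      · rw [Finset.mem_singleton.mp e, conjPlace_asIdeal, smul_smul_self hdeg] at hfix
        exact absurd (HeightOneSpectrum.ext hfix.symm) hu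
  have hval : ∀ w : HeightOneSpectrum (𝓞 E), w ∉ S → w.asIdeal ⊔ 𝔣 = ⊤ ∧
      f w.asIdeal + conj (f w.asIdeal) = frobTrace W₁ w ∧
      f w.asIdeal * conj (f w.asIdeal) = (Ideal.absNorm w.asIdeal : ℂ) := fun w hw => by
    have hΔ : W₀.Δ ∉ (w.under (𝓞 F)).asIdeal := fun h => (hord w hw).1 ((hgood w).mpr h)
    obtain ⟨hwf, hcase⟩ := hv _ hΔ w rfl
    refine ⟨hwf, ?_⟩
    rcases hcase with ⟨-, hN, h1, h2⟩ | ⟨-, hN, ha, hval⟩
    · rw [frobTrace_of_absNorm_eq W₀ (v := w.under (𝓞 F)) rfl hN, h1, h2, hN]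
      exact ⟨rfl, rfl⟩
    · rw [frobTrace_of_absNorm_sq W₀ (v := w.under (𝓞 F)) hΔ rfl hN, ha, hval, hN]
      push_cast
      constructor <;> simp <;> ring
  have hfinE : {w : HeightOneSpectrum (𝓞 E) | w ∈ S}.Finite := hS
  -- a place of `E` of prime norm outside `S` lies over a split place
  have hdegone : ∀ w : HeightOneSpectrum (𝓞 E), w ∉ S → (Ideal.absNorm w.asIdeal).Prime →
      P (w.under (𝓞 F)) := fun w hw hq => by
    have hΔ : W₀.Δ ∉ (w.under (𝓞 F)).asIdeal := fun h => (hord w hw).1 ((hgood w).mpr h)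
    refine (hPiff _).mpr ⟨hΔ, w, rfl, ?_⟩
    rcases (hv _ hΔ w rfl).2 with ⟨hmove, -⟩ | ⟨-, hN, -, -⟩
    · exact hmove
    · rw [hN] at hq
      exact absurd hq (Nat.Prime.not_prime_pow le_rfl)
  have hhalf : HasMean (fun v => if P v then (1 : ℝ) else 0) (1 / 2) := by
    refine hasMean_of_split τ hP (fun _ => (1 : ℝ)) ?_
    refine hasMean_congr S hS (B := 1) (fun w => ?_) (fun w hw hq => ?_) (hasMean_one E)
    · split_ifs <;> simp
    · rw [if_pos (hdegone w hw hq)]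
  -- the exceptional places of `F`
  have hSF : ((fun w : HeightOneSpectrum (𝓞 E) => w.under (𝓞 F)) '' S).Finite := hS.image _
  refine ⟨fun t ht ht' => ?_, ?_⟩
  · have hE := hasMean_trace_le hd0 hs ψ' hf (frobTrace W₁) hS
      (fun w hw => ⟨(hval w hw).1, (hval w hw).2.1, (hval w hw).2.2, (hord w hw).2⟩) ht ht'
    have hsplit : HasMean (fun v => if P v then
        (if (frobTrace W₀ v : ℝ) ≤ 2 * t * Real.sqrt (Ideal.absNorm v.asIdeal) then (1 : ℝ)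
          else 0) else 0) ((1 - Real.arccos t / π) / 2) := by
      refine hasMean_of_split τ hP _ (hasMean_congr S hS (B := 1) (fun w => ?_)
        (fun w hw hq => ?_) hE)
      · split_ifs <;> simp
      · have hPw := hdegone w hw hq
        obtain ⟨-, hN, ha⟩ := htr w hPw
        rw [if_pos hPw, ha, hN]
    refine hasMean_split_add hhalf hsplit hSF fun v hvS hq hPv => ?_
    obtain ⟨u, hu, -⟩ := fibre_cases hdeg hτ v
    have huv : u.under (𝓞 F) = v := HeightOneSpectrum.ext hu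
    have huS : u ∉ S := fun h => hvS ⟨u, h, huv⟩
    have hΔ : W₀.Δ ∉ v.asIdeal := fun h => (hord u huS).1 ((hgood u).mpr (by rw [huv]; exact h))
    rcases (hv v hΔ u hu).2 with ⟨hmove, -⟩ | ⟨-, -, ha, -⟩
    · exact absurd ((hPiff v).mpr ⟨hΔ, u, huv, hmove⟩) hPv
    · rw [ha, Int.cast_zero]
      have hq0 : (0 : ℝ) < Real.sqrt (Ideal.absNorm v.asIdeal) :=
        Real.sqrt_pos.mpr (Nat.cast_pos.mpr hq.pos)
      exact ⟨fun h => by nlinarith, fun h => by positivity⟩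
  · have hsplit : HasMean (fun v => if P v then
        (if frobTrace W₀ v = 0 then (1 : ℝ) else 0) else 0) 0 := by
      refine hasMean_congr _ hSF (B := 1) (fun v => ?_) (fun v hvS hq => ?_)
        (b := fun _ => (0 : ℝ)) (by simp [HasMean, FA.Hecke.wSum])
      · split_ifs <;> simp
      · by_cases hPv : P v
        swap; · rw [if_neg hPv]
        obtain ⟨u, hu, hfibu⟩ := ((hPiff v).mp hPv).2
        subst hu
        have huS : u ∉ S := fun h => hvS ⟨u, h, rfl⟩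
        obtain ⟨-, hN, ha⟩ := htr u hPv
        rw [if_pos hPv, if_neg fun h0 => (hord u huS).2 (hN ▸ hq) (by
          rw [ha, h0]; exact dvd_zero _)]
    have h := hasMean_split_add (Q := fun v => frobTrace W₀ v = 0) (e := True) hhalf
      (by convert hsplit using 2 with v; split_ifs <;> rfl) hSF
      fun v hvS hq hPv => by
        refine iff_true_intro ?_
        obtain ⟨u, hu, -⟩ := fibre_cases hdeg hτ v
        have huv : u.under (𝓞 F) = v := HeightOneSpectrum.ext hu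
        have huS : u ∉ S := fun h => hvS ⟨u, h, huv⟩
        have hΔ : W₀.Δ ∉ v.asIdeal := fun h => (hord u huS).1 ((hgood u).mpr (by rw [huv]; exact h))
        rcases (hv v hΔ u hu).2 with ⟨hmove, -⟩ | ⟨-, -, ha, -⟩
        · exact absurd ((hPiff v).mpr ⟨hΔ, u, huv, hmove⟩) hPv
        · exact ha
    convert h using 2 with v
    · split_ifs <;> rfl
    · simp

end FA.DeuringCM

end
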