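import Fermat.Agent.GoodReductionNF.Potential
import Fermat.Agent.GoodReductionNF.IntegralModel
import Fermat.Agent.DeuringCM.Symmetry
import Fermat.Agent.DeuringCM.SatoTate
import Fermat.Agent.Root.SummaryRayClassFields

/-!
# Good reduction and the conductor of Deuring's character

A model with good reduction at `v` has the same character as the given one, so `v` is prime to the
conductor. Conversely, if `v` is prime to the conductor `𝔣` and `ℓ` is a large prime then a place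
split in the ray class field modulo `𝔣 ℓ` has character value and trace congruent to `1` and `2`,
so its Frobenius fixes the points killed by `ℓ`; their field lies in that ray class field, inertia
at `v` fixes them and the reduction at `v` is good.
-/

set_option autoImplicit false
set_option linter.style.haveILetI false
set_option linter.unusedSectionVars false

noncomputable section

open WeierstrassCurve NumberField IsDedekindDomain FA.IsogenyNF FA.TraceNF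
open FA.JugendtraumField (exists_trQ_eq_frobTrace)
open FA.Frob (Res redCurve residueField_isAlgClosed redCurve_isElliptic)
open FA.AlgHecke (IsAlgChar typeVal)
open FA.Hecke (IsRayElt RayClassGroup rayClass rayClass_eq_iff)
open FA.Ext (primeIdeal)
open FA.ClassNumberOne (xP yP)
open FA.GoodNF (GoodAt)
open FA.OpenImageNF (OverPlace inertGroup)
open scoped WeierstrassCurve.Affine nonZeroDivisors Classical ComplexConjugate

namespace FA.DeuringCM

/-- An element congruent to one modulo `ℓ` among the algebraic integers. -/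
def NearOne (ℓ : ℕ) (z : ℂ) : Prop := ∃ α : ℂ, IsIntegral ℤ α ∧ z = 1 + (ℓ : ℂ) * α

theorem nearOne_mul {ℓ : ℕ} {z w : ℂ} (hz : NearOne ℓ z) (hw : NearOne ℓ w) :
    NearOne ℓ (z * w) := by
  obtain ⟨α, hα, rfl⟩ := hz
  obtain ⟨β, hβ, rfl⟩ := hw
  refine ⟨α + β + (ℓ : ℂ) * (α * β), (hα.add hβ).add (IsIntegral.mul ?_ (hα.mul hβ)), by ring⟩
  simpa using isIntegral_algebraMap (R := ℤ) (A := ℂ) (x := (ℓ : ℤ))

theorem nearOne_one (ℓ : ℕ) : NearOne ℓ 1 := ⟨0, isIntegral_zero, by simp⟩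

theorem nearOne_conj {ℓ : ℕ} {z : ℂ} (h : NearOne ℓ z) : NearOne ℓ (conj z) := by
  obtain ⟨α, hα, rfl⟩ := h
  exact ⟨conj α, map_isIntegral_int (starRingEnd ℂ) hα, by simp [map_add, map_mul]⟩

/-- An integer divisible by `ℓ` among the algebraic integers is divisible by `ℓ`. -/
theorem int_dvd_of_integral {ℓ : ℕ} (hℓ : ℓ ≠ 0) {m : ℤ} {γ : ℂ} (hγ : IsIntegral ℤ γ)
    (h : (m : ℂ) = (ℓ : ℂ) * γ) : (ℓ : ℤ) ∣ m := by
  set r : ℚ := (m : ℚ) / (ℓ : ℚ) with hr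
  have hrC : algebraMap ℚ ℂ r = γ := by
    rw [hr, map_div₀, map_intCast, map_natCast, h,
      mul_div_cancel_left₀ _ (Nat.cast_ne_zero.mpr hℓ)]
  obtain ⟨z, hz⟩ := IsIntegrallyClosed.isIntegral_iff.mp
    ((isIntegral_algebraMap_iff (algebraMap ℚ ℂ).injective).mp (hrC ▸ hγ) : IsIntegral ℤ r)
  have hz' : (z : ℚ) = r := by simpa using hz
  rw [hr, eq_div_iff (Nat.cast_ne_zero.mpr hℓ)] at hz'
  exact ⟨z, Rat.intCast_injective (by push_cast; rw [← hz']; ring)⟩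

variable {F : Type} [Field F] [NumberField F]

/-- The value of a type with exponents `0` and `1` at an element congruent to one. -/
theorem nearOne_typeVal {n : (F →+* ℂ) → ℤ} (hn : ∀ σ, n σ = 0 ∨ n σ = 1) {ℓ : ℕ} {x : 𝓞 F}
    (hx : x - 1 ∈ Ideal.span {(ℓ : 𝓞 F)}) : NearOne ℓ (typeVal n (x : F)) := by
  obtain ⟨z, hz⟩ := Ideal.mem_span_singleton.1 hx
  refine Finset.prod_induction _ (NearOne ℓ) (fun a b => nearOne_mul) (nearOne_one ℓ)
    fun σ _ => ?_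
  rcases hn σ with h | h
  · rw [h, zpow_zero]; exact nearOne_one ℓ
  refine ⟨σ (z : F), map_isIntegral_int σ z.isIntegral_coe, ?_⟩
  have e := congrArg (fun a : 𝓞 F => σ (a : F)) hz
  simp only [map_mul, map_sub, map_one, map_natCast] at e
  rw [h, zpow_one]
  linear_combination e

variable (W₀ : WeierstrassCurve (𝓞 F)) [(W₀.map (algebraMap (𝓞 F) F)).IsElliptic]

local notation "W" => W₀.map (algebraMap (𝓞 F) F)
local notation "Fb" => AlgebraicClosure F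

/-- The multiplier passes to isomorphic equations. -/
theorem hcm_vc {ψ : F →+* ℂ} {d : ℤ} {W₁ : WeierstrassCurve (𝓞 F)} {C : VariableChange F}
    (hC : C • W = W₁.map (algebraMap (𝓞 F) F))
    (hcm : ∃ L : PeriodPair, L.g₂ = ψ (W).c₄ / 12 ∧ L.g₃ = ψ (W).c₆ / 216 ∧
      ∃ ω : ℂ, (∀ m : ℤ, ω ≠ m) ∧ (∀ l ∈ L.lattice, ω * l ∈ L.lattice) ∧
        ∃ x y : ℚ, (ω - (x : ℂ)) ^ 2 = (d : ℂ) * (y : ℂ) ^ 2) :
    ∃ L : PeriodPair, L.g₂ = ψ (W₁.map (algebraMap (𝓞 F) F)).c₄ / 12 ∧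
      L.g₃ = ψ (W₁.map (algebraMap (𝓞 F) F)).c₆ / 216 ∧
      ∃ ω : ℂ, (∀ m : ℤ, ω ≠ m) ∧ (∀ l ∈ L.lattice, ω * l ∈ L.lattice) ∧
        ∃ x y : ℚ, (ω - (x : ℂ)) ^ 2 = (d : ℂ) * (y : ℂ) ^ 2 := by
  obtain ⟨L, h2, h3, ω, hω, hst, hxy⟩ := hcm
  have hc : ψ (C.u : F) ≠ 0 := (map_ne_zero ψ).2 C.u.ne_zero
  refine ⟨FA.JInj.scalePair L (ψ (C.u : F)) hc, ?_, ?_, ω, hω, fun l hl => ?_, hxy⟩
  · rw [FA.JInj.g₂_scalePair, ← hC, variableChange_c₄, h2, map_mul, map_pow,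
      Units.val_inv_eq_inv_val, map_inv₀, inv_pow, mul_div_assoc]
  · rw [FA.JInj.g₃_scalePair, ← hC, variableChange_c₆, h3, map_mul, map_pow,
      Units.val_inv_eq_inv_val, map_inv₀, inv_pow, mul_div_assoc]
  · obtain ⟨y, hy, rfl⟩ := FA.JInj.mem_scalePair.1 hl
    exact FA.JInj.mem_scalePair.2 ⟨ω * y, hst y hy, by ring⟩

variable {W₀}

/-- **A good model has the same character.** -/
theorem values_of_good_model (ψ : F →+* ℂ) {d : ℤ} (hd : Squarefree d) (hd0 : d < 0) {s : F}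
    (hs : s ^ 2 = (d : F))
    (hcm : ∃ L : PeriodPair, L.g₂ = ψ (W).c₄ / 12 ∧ L.g₃ = ψ (W).c₆ / 216 ∧
      ∃ ω : ℂ, (∀ m : ℤ, ω ≠ m) ∧ (∀ l ∈ L.lattice, ω * l ∈ L.lattice) ∧
        ∃ x y : ℚ, (ω - (x : ℂ)) ^ 2 = (d : ℂ) * (y : ℂ) ^ 2)
    {𝔣 : Ideal (𝓞 F)} {f : Ideal (𝓞 F) →* ℂ}
    (hf : IsAlgChar 𝔣 (fun σ => if σ s = ψ s then 1 else 0) f)
    (hmin : ∀ (𝔪 : Ideal (𝓞 F)) (g : Ideal (𝓞 F) →* ℂ),
      IsAlgChar 𝔪 (fun σ => if σ s = ψ s then 1 else 0) g →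
      {u : HeightOneSpectrum (𝓞 F) | g u.asIdeal ≠ f u.asIdeal}.Finite → 𝔣 ∣ 𝔪)
    (hv : ∀ u : HeightOneSpectrum (𝓞 F), W₀.Δ ∉ u.asIdeal → u.asIdeal ⊔ 𝔣 = ⊤ ∧
      f u.asIdeal + conj (f u.asIdeal) = frobTrace W₀ u ∧
      f u.asIdeal * conj (f u.asIdeal) = (Ideal.absNorm u.asIdeal : ℂ))
    {v : HeightOneSpectrum (𝓞 F)} {W₁ : WeierstrassCurve (𝓞 F)} {C : VariableChange F}
    (hC : C • W = W₁.map (algebraMap (𝓞 F) F)) (hΔ : W₁.Δ ∉ v.asIdeal) :
    v.asIdeal ⊔ 𝔣 = ⊤ ∧ f v.asIdeal + conj (f v.asIdeal) = frobTrace W₁ v ∧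
      f v.asIdeal * conj (f v.asIdeal) = (Ideal.absNorm v.asIdeal : ℂ) := by
  haveI : (W₁.map (algebraMap (𝓞 F) F)).IsElliptic := hC ▸ inferInstance
  obtain ⟨𝔤, g, hg, -, -, hgv⟩ := exists_hecke_char W₁ ψ hd hd0 hs (hcm_vc W₀ hC hcm)
  obtain ⟨S, hS, hord⟩ := exists_ordinary W₀ ψ hd hd0 hs hcm
  have hfinΔ : {u : HeightOneSpectrum (𝓞 F) | W₁.Δ ∈ u.asIdeal}.Finite :=
    (Ideal.finite_factors (show Ideal.span {W₁.Δ} ≠ ⊥ by
      rw [Ne, Ideal.span_singleton_eq_bot]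
      exact fun h => hΔ (h ▸ v.asIdeal.zero_mem))).subset fun u hu =>
        Ideal.dvd_span_singleton.mpr hu
  have hagree : ∀ u : HeightOneSpectrum (𝓞 F), u.asIdeal ⊔ 𝔣 = ⊤ → u.asIdeal ⊔ 𝔤 = ⊤ →
      g u.asIdeal = f u.asIdeal := fun u h1 h2 => by
    refine eq_of_traces hg hf (frobTrace W₀)
      ((hS.union (FA.GoodNF.finite_not_integral_vc C)).union hfinΔ) (fun u hu hq => ?_) h2 h1
    simp only [Set.mem_union, Set.mem_ofPred_eq, not_or, not_not] at hu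
    obtain ⟨⟨hu1, hu2, hu3, hu4, hu5⟩, hu6⟩ := hu
    obtain ⟨hΔu, hndvd⟩ := hord u hu1
    obtain ⟨-, e1, e2⟩ := hv u hΔu
    obtain ⟨-, e3, e4⟩ := hgv u hu6
    rw [← FA.GoodNF.frobTrace_eq_of_vc W₀ W₁ hC hΔu hu6 hu2 hu3 hu4 hu5] at e3
    exact ⟨hndvd hq, e3, e4, e1, e2⟩
  have hfin : ∀ I : Ideal (𝓞 F), I ≠ ⊥ →
      {u : HeightOneSpectrum (𝓞 F) | ¬ u.asIdeal ⊔ I = ⊤}.Finite := fun I hI =>
    (Ideal.finite_factors hI).subset fun u hu => Ideal.dvd_iff_le.mpr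
      (le_sup_right.trans (u.isMaximal.eq_of_le hu le_sup_left).ge)
  obtain ⟨hvg, h1, h2⟩ := hgv v hΔ
  have hdvd : 𝔣 ∣ 𝔤 := hmin 𝔤 g hg (((hfin 𝔣 hf.ne_bot).union (hfin 𝔤 hg.ne_bot)).subset
    fun u hu => by
      by_contra h
      simp only [Set.mem_union, Set.mem_ofPred_eq, not_or, not_not] at h
      exact hu (hagree u h.1 h.2))
  have hvf : v.asIdeal ⊔ 𝔣 = ⊤ := coprime_mono (Ideal.le_of_dvd hdvd) hvg
  rw [← hagree v hvf hvg]
  exact ⟨hvf, h1, h2⟩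

variable (W₀) in
/-- The Galois group of the points killed by `ℓ` is commutative. -/
theorem levelField_comm (θ : ((W).toAffine⁄Fb).Point →+ ((W).toAffine⁄Fb).Point)
    (g : ((W).toAffine⁄Fb).Point) {ℓ : ℕ} (hℓ : ℓ.Prime) {t n : ℤ}
    [IsGalois F (levelField Fb (W) ℓ)]
    (hcomm : ∀ (σ : Fb ≃ₐ[F] Fb) P, θ (σ • P) = σ • θ P) (hg : ℓ • g = 0)
    (hθθ : θ (θ g) = t • θ g - n • g)
    (hgen : ∀ P : ((W).toAffine⁄Fb).Point, ℓ • P = 0 → ∃ X Y : ℤ, P = X • g + Y • θ g)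
    : ∀ a b : levelField Fb (W) ℓ ≃ₐ[F] levelField Fb (W) ℓ, a * b = b * a := by
  haveI : IsAlgClosure F Fb := ⟨inferInstance, inferInstance⟩
  haveI : IsGalois F Fb := IsAlgClosure.isGalois F _
  set L := levelField Fb (W) ℓ
  intro a b
  choose X Y hXY using fun σ : Fb ≃ₐ[F] Fb =>
    hgen (σ • g) (by rw [← smul_nsmul', hg, smul_zero])
  have hθσ : ∀ σ : Fb ≃ₐ[F] Fb,
      σ • θ g = (-(Y σ * n)) • g + (X σ + Y σ * t) • θ g := fun σ => by
    rw [← hcomm, hXY σ, map_add, map_zsmul, map_zsmul, hθθ]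
    module
  obtain ⟨σ, hσa⟩ := AlgEquiv.restrictNormalHom_surjective (F := F) (K₁ := L) Fb a
  obtain ⟨τ, hτb⟩ := AlgEquiv.restrictNormalHom_surjective (F := F) (K₁ := L) Fb b
  rw [← hσa, ← hτb, ← map_mul, ← map_mul]
  have hpt : ∀ P : ((W).toAffine⁄Fb).Point, ℓ • P = 0 → (σ * τ) • P = (τ * σ) • P := by
    intro P hP
    obtain ⟨i, j, rfl⟩ := hgen P hP
    simp only [mul_smul, smul_add_pt, smul_zsmul', hXY σ, hXY τ, hθσ σ, hθσ τ]
    module
  have heq : ∀ z ∈ L, (σ * τ) z = (τ * σ) z := by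
    intro z hz
    induction hz using IntermediateField.adjoin_induction with
    | mem u hu =>
      rcases hu with ((⟨P, hP, rfl⟩ | ⟨P, hP, rfl⟩) | hμ) | ⟨c, -, rfl⟩
      · rw [← FA.IsogenyNF.xP_smul, ← FA.IsogenyNF.xP_smul, hpt P hP]
      · rw [← FA.IsogenyNF.yP_smul, ← FA.IsogenyNF.yP_smul, hpt P hP]
      · haveI : NeZero ℓ := ⟨hℓ.ne_zero⟩
        obtain ⟨ζ, hζ⟩ := HasEnoughRootsOfUnity.exists_primitiveRoot Fb ℓ
        obtain ⟨i, -, rfl⟩ := hζ.eq_pow_of_pow_eq_one hμ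
        obtain ⟨a, -, ha⟩ := hζ.eq_pow_of_pow_eq_one (show σ ζ ^ ℓ = 1 by
          rw [← map_pow, hζ.pow_eq_one, map_one])
        obtain ⟨b, -, hb⟩ := hζ.eq_pow_of_pow_eq_one (show τ ζ ^ ℓ = 1 by
          rw [← map_pow, hζ.pow_eq_one, map_one])
        simp only [AlgEquiv.mul_apply, map_pow, ← ha, ← hb, ← pow_mul]
        ring
      · rw [AlgEquiv.commutes, AlgEquiv.commutes]
    | algebraMap u => rw [AlgEquiv.commutes, AlgEquiv.commutes]
    | add u v _ _ hu hv => rw [map_add, map_add, hu, hv]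
    | inv u _ hu => rw [map_inv₀, map_inv₀, hu]
    | mul u v _ _ hu hv => rw [map_mul, map_mul, hu, hv]
  refine AlgEquiv.ext fun z => Subtype.ext ?_
  rw [AlgEquiv.restrictNormalHom_apply, AlgEquiv.restrictNormalHom_apply]
  exact heq z z.2

/-- **A place prime to the conductor has good reduction.** -/
theorem goodAt_of_coprime (ψ : F →+* ℂ) {d : ℤ} (hd : Squarefree d) (hd0 : d < 0) {s : F}
    (hs : s ^ 2 = (d : F))
    (hcm : ∃ L : PeriodPair, L.g₂ = ψ (W).c₄ / 12 ∧ L.g₃ = ψ (W).c₆ / 216 ∧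
      ∃ ω : ℂ, (∀ m : ℤ, ω ≠ m) ∧ (∀ l ∈ L.lattice, ω * l ∈ L.lattice) ∧
        ∃ x y : ℚ, (ω - (x : ℂ)) ^ 2 = (d : ℂ) * (y : ℂ) ^ 2)
    {𝔣 : Ideal (𝓞 F)} {f : Ideal (𝓞 F) →* ℂ}
    (hf : IsAlgChar 𝔣 (fun σ => if σ s = ψ s then 1 else 0) f)
    (hv : ∀ u : HeightOneSpectrum (𝓞 F), W₀.Δ ∉ u.asIdeal → u.asIdeal ⊔ 𝔣 = ⊤ ∧
      f u.asIdeal + conj (f u.asIdeal) = frobTrace W₀ u ∧
      f u.asIdeal * conj (f u.asIdeal) = (Ideal.absNorm u.asIdeal : ℂ))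
    {v : HeightOneSpectrum (𝓞 F)} (hvf : v.asIdeal ⊔ 𝔣 = ⊤) : GoodAt (W) v := by
  obtain ⟨Lp, hg2, hg3, ω, hω, hst, x, y, hxy⟩ := hcm
  have hj : v.valuation F (W).j ≤ 1 :=
    v.valuation_le_one (⟨_, FA.IsogenyNF.isIntegral_j (W) ⟨Lp, hg2, hg3, ω, hω, hst⟩⟩ : 𝓞 F)
  obtain ⟨A', B', C', D', c, h1, h2, hB, hquad, hdisc, hc⟩ := exists_matrix_disc hd hω hst hxy
  obtain ⟨ℓ, hlt, hℓ⟩ := Nat.exists_infinite_primes
    (B'.natAbs + d.natAbs + c.natAbs + Ideal.absNorm v.asIdeal + 5)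
  have hndvd : ∀ m : ℤ, m ≠ 0 → m.natAbs < ℓ → ¬ (ℓ : ℤ) ∣ m := fun m h0 hm hdvd =>
    absurd (Nat.le_of_dvd (Int.natAbs_pos.mpr h0) (Int.natCast_dvd.mp hdvd)) (not_le.2 hm)
  have hℓv : (ℓ : 𝓞 F) ∉ v.asIdeal := not_mem_of_absNorm_lt hℓ (by omega)
  obtain ⟨θ, g, hcomm, hg, hθθ, hind, hgen⟩ := exists_cyclic (Kb := Fb) (W) ψ
    hg2 hg3 hω hst h1 h2 hquad hdisc hs hℓ (hndvd B' hB (by omega))
  set t := A' + D' with ht
  set n := A' * D' - B' * C' with hn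
  haveI : IsAlgClosure F Fb := ⟨inferInstance, inferInstance⟩
  haveI : IsGalois F Fb := IsAlgClosure.isGalois F _
  haveI := finiteDimensional_levelField (Kb := Fb) (W) hℓ.ne_zero
  haveI := isGalois_levelField (Kb := Fb) (W) ℓ
  set L := levelField Fb (W) ℓ
  haveI : NumberField L := NumberField.of_module_finite F L
  haveI : IsMulCommutative (L ≃ₐ[F] L) := ⟨⟨levelField_comm W₀ θ g hℓ hcomm hg hθθ hgen⟩⟩
  -- the ray class field of the conductor times `ℓ`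
  set 𝔫 := 𝔣 * Ideal.span {(ℓ : 𝓞 F)}
  have h𝔫 : 𝔫 ≠ ⊥ := mul_ne_zero hf.ne_bot (by simpa using hℓ.ne_zero)
  obtain ⟨R, _, _, _, _, _, hR⟩ := FA.ArtinRec.exists_classField h𝔫 Set.univ ⊥
    (by rw [FA.ArtinRec.semiClasses_univ])
  have hbad : ({u : HeightOneSpectrum (𝓞 F) | W₀.Δ ∈ u.asIdeal} ∪
      {u : HeightOneSpectrum (𝓞 F) | u.asIdeal ∣ 𝔫}).Finite :=
    ((Ideal.finite_factors (show Ideal.span {W₀.Δ} ≠ ⊥ by
      rw [Ne, Ideal.span_singleton_eq_bot]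
      exact fun h => (W).isUnit_Δ.ne_zero (by rw [map_Δ, h, map_zero]))).subset fun u hu =>
        Ideal.dvd_span_singleton.mpr hu).union (Ideal.finite_factors h𝔫)
  obtain ⟨e⟩ := FA.ArtinRec.exists_algHom_of_split (L := R) (E := L) hbad fun u hu h1u => by
    simp only [Set.mem_union, Set.mem_ofPred_eq, not_or] at hu
    obtain ⟨hΔu, hun⟩ := hu
    have hu𝔫 : u.asIdeal ⊔ 𝔫 = ⊤ :=
      (FA.ArtinRec.sup_eq_top_iff_not_le u 𝔫).2 fun h => hun (Ideal.dvd_iff_le.2 h)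
    have hℓu : (ℓ : 𝓞 F) ∉ u.asIdeal := fun h => hun (Ideal.dvd_iff_le.2
      (Ideal.mul_le_right.trans ((Ideal.span_singleton_le_iff_mem _).2 h)))
    obtain ⟨x, y, hx, hy, hxy'⟩ := (rayClass_eq_iff h𝔫).mp
      ((Subgroup.mem_bot.1 ((hR.artinAt_eq_one_iff u hu𝔫).1 h1u)).trans
        (map_one (rayClass h𝔫)).symm)
    simp only [OneMemClass.coe_one, mul_one] at hxy'
    change Ideal.span {x} * u.asIdeal = Ideal.span {y} at hxy'
    have e1 := congrArg f hxy'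
    rw [map_mul, hf.ray x ⟨hx.1, Ideal.mul_le_left hx.2.1, hx.2.2⟩,
      hf.ray y ⟨hy.1, Ideal.mul_le_left hy.2.1, hy.2.2⟩] at e1
    obtain ⟨-, htr, hnm⟩ := hv u hΔu
    set T := frobTrace W₀ u
    set q := Ideal.absNorm u.asIdeal
    have hint : IsIntegral ℤ (f u.asIdeal) := by
      refine ⟨Polynomial.X ^ 2 + Polynomial.C (-T) * Polynomial.X + Polynomial.C (q : ℤ),
        by monicity!, ?_⟩
      rw [← Polynomial.aeval_def]
      simp only [map_add, map_mul, map_pow, Polynomial.aeval_X, eq_intCast, map_intCast, map_neg,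
        map_natCast]
      linear_combination (-hnm) + f u.asIdeal * htr
    obtain ⟨α, hα, hfu⟩ : NearOne ℓ (f u.asIdeal) := by
      obtain ⟨a₁, ha₁, ex⟩ := nearOne_typeVal (n := fun σ => if σ s = ψ s then (1 : ℤ) else 0)
        (fun σ => by by_cases h : σ s = ψ s <;> simp [h]) (ℓ := ℓ) (Ideal.mul_le_right hx.2.1)
      obtain ⟨a₂, ha₂, ey⟩ := nearOne_typeVal (n := fun σ => if σ s = ψ s then (1 : ℤ) else 0)
        (fun σ => by by_cases h : σ s = ψ s <;> simp [h]) (ℓ := ℓ) (Ideal.mul_le_right hy.2.1)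
      rw [ex, ey] at e1
      exact ⟨a₂ - f u.asIdeal * a₁, ha₂.sub (hint.mul ha₁), by linear_combination e1⟩
    have hT : (ℓ : ℤ) ∣ T - 2 := int_dvd_of_integral hℓ.ne_zero
      (hα.add (map_isIntegral_int (starRingEnd ℂ) hα)) (by
        push_cast
        rw [← htr, hfu, map_add, map_one, map_mul, Complex.conj_natCast]
        ring)
    obtain ⟨β, hβ, hq1⟩ : NearOne ℓ (q : ℂ) := by
      rw [← hnm]; exact nearOne_mul ⟨α, hα, hfu⟩ (nearOne_conj ⟨α, hα, hfu⟩)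
    have hq : (ℓ : ℤ) ∣ (q : ℤ) - 1 := int_dvd_of_integral hℓ.ne_zero hβ (by
      push_cast
      linear_combination hq1)
    -- the Frobenius element fixes the points killed by `ℓ`
    obtain ⟨Q, hQu, hτ⟩ := FA.ArtinRec.artinAt_spec (L := L) u
    obtain ⟨σ, hσ⟩ := AlgEquiv.restrictNormalHom_surjective (F := F) (K₁ := L) Fb
      (FA.ArtinRec.artinAt L u)
    obtain ⟨Fr, hqn, hKlt⟩ := exists_frobPlace_at W₀ hℓ.ne_zero hΔu hℓu
      (IntermediateField.subset_adjoin F _) Q.isMaximal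
      (congrArg HeightOneSpectrum.asIdeal hQu) hτ hσ
    haveI := Fr.charP
    haveI : Fact Fr.l.Prime := ⟨Fr.prime⟩
    haveI := residueField_isAlgClosed Fr.A
    haveI := redCurve_isElliptic Fr.int Fr.good
    obtain ⟨hW, htrq⟩ := exists_trQ_eq_frobTrace W₀ Fr hqn hKlt
    have h := quadratic_trQ (W) Fr hW g hg
    rw [htrq, show ((Fr.l : ℤ) ^ Fr.n) = ((q : ℕ) : ℤ) by exact_mod_cast hqn] at h
    obtain ⟨X, Y, hXY⟩ := hgen (σ • g) (by rw [← smul_nsmul', hg, smul_zero])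
    have hσθ : σ • θ g = (-(Y * n)) • g + (X + Y * t) • θ g := by
      rw [← hcomm, hXY, map_add, map_zsmul, map_zsmul, hθθ]
      module
    rw [hXY, smul_add_pt, smul_zsmul', smul_zsmul', hXY, hσθ] at h
    obtain ⟨hd1, hd2⟩ := hind (X * X - Y * Y * n - T * X + q) (2 * X * Y + Y * Y * t - T * Y)
      (by rw [← h]; module)
    have hℓZ : Prime (ℓ : ℤ) := Nat.prime_iff_prime_int.mp hℓ
    have h1' : (ℓ : ℤ) ∣ (X - 1) ^ 2 - Y * Y * n := by
      have e : (X - 1) ^ 2 - Y * Y * n =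
          (X * X - Y * Y * n - T * X + q) + X * (T - 2) - ((q : ℤ) - 1) := by ring
      rw [e]
      exact Int.dvd_sub (dvd_add hd1 (dvd_mul_of_dvd_right hT _)) hq
    have h2' : (ℓ : ℤ) ∣ Y * (2 * (X - 1) + Y * t) := by
      have e : Y * (2 * (X - 1) + Y * t) =
          (2 * X * Y + Y * Y * t - T * Y) + Y * (T - 2) := by ring
      rw [e]
      exact dvd_add hd2 (dvd_mul_of_dvd_right hT _)
    have hY : (ℓ : ℤ) ∣ Y := by
      by_contra hY
      have h3 : (ℓ : ℤ) ∣ 2 * (X - 1) + Y * t := (hℓZ.dvd_or_dvd h2').resolve_left hY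
      have h4 : (ℓ : ℤ) ∣ Y * Y * (d * c ^ 2) := by
        have e : Y * Y * (d * c ^ 2) =
            4 * ((X - 1) ^ 2 - Y * Y * n) - (2 * (X - 1) + Y * t) * (2 * (X - 1) - Y * t) := by
          linear_combination -(Y * Y) * hdisc
        rw [e]
        exact Int.dvd_sub (dvd_mul_of_dvd_right h1' _) (dvd_mul_of_dvd_left h3 _)
      rcases hℓZ.dvd_or_dvd h4 with h5 | h5
      · exact hY ((hℓZ.dvd_or_dvd h5).elim id id)
      · exact (hℓZ.dvd_or_dvd h5).elim (hndvd d hd0.ne (by omega))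
          fun h6 => hndvd c hc (by omega) (hℓZ.dvd_of_dvd_pow h6)
    have hX : (ℓ : ℤ) ∣ X - 1 := hℓZ.dvd_of_dvd_pow (n := 2) (by
      have e : (X - 1) ^ 2 = ((X - 1) ^ 2 - Y * Y * n) + Y * (Y * n) := by ring
      rw [e]
      exact dvd_add h1' (dvd_mul_of_dvd_left hY _))
    obtain ⟨X₁, hX₁⟩ := hX
    obtain ⟨Y₁, rfl⟩ := hY
    obtain rfl : X = (ℓ : ℤ) * X₁ + 1 := by linarith
    have hkill : ∀ (m : ℤ) (P : ((W).toAffine⁄Fb).Point), ℓ • P = 0 →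
        ((ℓ : ℤ) * m) • P = 0 := fun m P hP => by
      rw [mul_comm, mul_zsmul, natCast_zsmul, hP, zsmul_zero]
    have hθg : ℓ • θ g = 0 := by rw [← map_nsmul, hg, map_zero]
    have hfixg : σ • g = g := by
      rw [hXY, add_zsmul, one_zsmul, hkill _ _ hg, hkill _ _ hθg, zero_add, add_zero]
    have hfixt : σ • θ g = θ g := by rw [← hcomm, hfixg]
    refine (hσ ▸ AlgEquiv.ext fun z => Subtype.ext ?_)
    rw [AlgEquiv.restrictNormalHom_apply]
    show σ (z : Fb) = (z : Fb)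
    obtain ⟨z, hz⟩ := z
    have hpt : ∀ P : ((W).toAffine⁄Fb).Point, ℓ • P = 0 → σ • P = P := fun P hP => by
      obtain ⟨i, j, rfl⟩ := hgen P hP
      rw [smul_add_pt, smul_zsmul', smul_zsmul', hfixg, hfixt]
    induction hz using IntermediateField.adjoin_induction with
    | mem a ha =>
      rcases ha with ((⟨P, hP, rfl⟩ | ⟨P, hP, rfl⟩) | hμ) | ⟨c, -, rfl⟩
      · rw [← FA.IsogenyNF.xP_smul, hpt P hP]
      · rw [← FA.IsogenyNF.yP_smul, hpt P hP]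
      · have hq0 : 1 ≤ q := Nat.one_le_iff_ne_zero.2 fun h0 =>
            u.ne_bot (Ideal.absNorm_eq_zero_iff.1 h0)
        obtain ⟨k, hk⟩ : ℓ ∣ q - 1 := by
          rw [← Int.natCast_dvd_natCast]
          push_cast [hq0]
          exact hq
        rw [Fr.congr_root a hμ, hqn, show Ideal.absNorm u.asIdeal = ℓ * k + 1 by
          show q = ℓ * k + 1
          omega, pow_succ, pow_mul,
          show a ^ ℓ = 1 from hμ, one_pow, one_mul]
      · rw [AlgEquiv.commutes]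
    | algebraMap a => rw [AlgEquiv.commutes]
    | add a b _ _ ha hb => rw [map_add, ha, hb]
    | inv a _ ha => rw [map_inv₀, ha]
    | mul a b _ _ ha hb => rw [map_mul, ha, hb]
  -- so inertia at `v` fixes them
  have hv𝔫 : v.asIdeal ⊔ 𝔫 = ⊤ := by
    have h2 : v.asIdeal ⊔ Ideal.span {(ℓ : 𝓞 F)} = ⊤ :=
      (FA.ArtinRec.sup_eq_top_iff_not_le v _).2 fun h =>
        hℓv (h (Ideal.mem_span_singleton_self _))
    rw [sup_comm] at hvf h2 ⊢
    exact FA.Hecke.mul_sup_eq_top.mpr ⟨hvf, h2⟩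
  have hunr := ((FA.RayFields.isModulus_of_isClassField hR).of_algHom e).not_isRam hv𝔫
  obtain ⟨A, hA⟩ := FA.OpenImageNF.exists_overPlace Fb v
  obtain ⟨Q, -, hQv, hQ⟩ := FA.GoodNF.exists_place hA L
  have hbot := FA.ArtinRec.inertia_eq_bot hunr (Q := Q) (HeightOneSpectrum.ext hQv)
  refine FA.GoodNF.goodAt_of_fixed_point (W) hA hℓ ?_ hj (a := 1) (P := g)
    (by rw [pow_one]; exact hg) (fun k hk hk4 hz => ?_) fun σ hσ => ?_
  · rw [← map_natCast (algebraMap (𝓞 F) F)]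
    exact le_antisymm (v.valuation_le_one _)
      (not_lt.1 fun h => hℓv ((v.valuation_lt_one_iff_mem _).1 h))
  · obtain ⟨h', -⟩ := hind k 0 (by rw [natCast_zsmul, hz, zero_zsmul, add_zero])
    exact hndvd k (by omega) (by omega) h'
  have hτ : AlgEquiv.restrictNormalHom L σ = 1 := by
    refine Subgroup.mem_bot.1 (hbot ▸ AddSubgroup.mem_inertia.2 fun a => (hQ _).2 ?_)
    have h := (FA.OpenImageNF.mem_inertGroup.1 hσ).sub_lt (algebraMap L Fb (a : L))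
      ?_
    · rw [show ((AlgEquiv.restrictNormalHom L σ • a - a : 𝓞 L) : L) =
        AlgEquiv.restrictNormalHom L σ (a : L) - a from rfl, map_sub,
        show algebraMap L Fb (AlgEquiv.restrictNormalHom L σ (a : L)) = σ ((a : L) : Fb) from
          AlgEquiv.restrictNormalHom_apply L σ _]
      exact h
    · have hi : IsIntegral ℤ (algebraMap L Fb (a : L)) :=
        a.isIntegral_coe.map (algebraMap L Fb).toIntAlgHom
      obtain ⟨p, hp, hpx⟩ := hi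
      exact (Valuation.mem_integer_iff _ _).1
        ((Valuation.integer.integers A.valuation).mem_of_integral
        ⟨p.map (algebraMap ℤ A.valuation.integer), hp.map _, by
          rw [Polynomial.eval₂_map, ← IsScalarTower.algebraMap_eq]; exact hpx⟩)
  rcases hgp : g with _ | ⟨a, b, hab⟩
  · exact smul_zero σ
  · have hfix : ∀ z ∈ L, σ z = z := fun z hz => by
      have := AlgEquiv.restrictNormalHom_apply (F := F) L σ ⟨z, hz⟩
      rw [hτ] at this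
      exact this.symm
    obtain ⟨h', e'⟩ := FA.Local.smul_some (σ := σ) (W) hab
    rw [e']
    exact (Affine.Point.some.injEq ..).mpr
      ⟨hfix a (IntermediateField.subset_adjoin F _ (Or.inl (Or.inl (Or.inl ⟨g, hg, by rw [hgp]; rfl⟩)))),
        hfix b (IntermediateField.subset_adjoin F _ (Or.inl (Or.inl (Or.inr ⟨g, hg, by rw [hgp]; rfl⟩))))⟩

end FA.DeuringCM

end
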