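import Fermat.Agent.DeuringCM.Action
import Fermat.Agent.DeuringCM.Unramified
import Fermat.Agent.Chebotarev.Relative

/-!
# The places of good reduction in the quadratic extension by the multiplier

An automorphism moving `√d` acts semilinearly on the points killed by a large prime, so its square
is a scalar and, if it is a Frobenius element, its trace vanishes; hence the places of good
reduction are unramified in `F (√d)` and the inert ones have trace `0`.
-/

set_option autoImplicit false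
set_option linter.style.haveILetI false
set_option linter.unusedSectionVars false
set_option linter.unusedTactic false
set_option linter.unreachableTactic false

noncomputable section

open WeierstrassCurve NumberField IsDedekindDomain FA.IsogenyNF FA.TraceNF
open FA.JugendtraumField (exists_trQ_eq_frobTrace)
open FA.Frob (Res redCurve residueField_isAlgClosed redCurve_isElliptic)
open FA.ClassNumberOne (xP yP)
open scoped WeierstrassCurve.Affine Classical Pointwise

namespace FA.DeuringCM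

variable {F : Type} [Field F] [NumberField F] (W₀ : WeierstrassCurve (𝓞 F))
  [(W₀.map (algebraMap (𝓞 F) F)).IsElliptic]

local notation "W" => W₀.map (algebraMap (𝓞 F) F)
local notation "Fb" => AlgebraicClosure F

theorem gal_add (σ : Fb ≃ₐ[F] Fb) (P P' : ((W).toAffine⁄Fb).Point) :
    σ • (P + P') = σ • P + σ • P' :=
  (Affine.Point.map σ.toAlgHom).map_add P P'

theorem gal_sub (σ : Fb ≃ₐ[F] Fb) (P P' : ((W).toAffine⁄Fb).Point) :
    σ • (P - P') = σ • P - σ • P' :=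
  (Affine.Point.map σ.toAlgHom).map_sub P P'

/-- **A semilinear Frobenius element has trace zero modulo `ℓ`.** -/
theorem dvd_trace_of_semilinear (θ : ((W).toAffine⁄Fb).Point →+ ((W).toAffine⁄Fb).Point)
    (g : ((W).toAffine⁄Fb).Point) {ℓ : ℕ} (hℓ : ℓ.Prime) (hℓ2 : ℓ ≠ 2) {t n a q : ℤ}
    {σ : Fb ≃ₐ[F] Fb} (hsemi : ∀ P, θ (σ • P) = t • (σ • P) - σ • θ P) (hg : ℓ • g = 0)
    (hθθ : θ (θ g) = t • θ g - n • g)
    (hind : ∀ X Y : ℤ, X • g + Y • θ g = 0 → (ℓ : ℤ) ∣ X ∧ (ℓ : ℤ) ∣ Y)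
    (hgen : ∀ P : ((W).toAffine⁄Fb).Point, ℓ • P = 0 → ∃ X Y : ℤ, P = X • g + Y • θ g)
    (hquad : ∀ P : ((W).toAffine⁄Fb).Point, ℓ • P = 0 → σ • σ • P - a • σ • P + q • P = 0) :
    (ℓ : ℤ) ∣ a := by
  obtain ⟨X, Y, hXY⟩ := hgen (σ • g) (by rw [← smul_nsmul', hg, smul_zero])
  have hσθ : σ • θ g = (t * X + n * Y) • g + (-X) • θ g := by
    rw [show σ • θ g = t • (σ • g) - θ (σ • g) by rw [hsemi]; abel, hXY, map_add, map_zsmul,
      map_zsmul, hθθ]
    module
  have h1 := hquad g hg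
  rw [hXY, gal_add, smul_zsmul', smul_zsmul', hσθ, hXY] at h1
  obtain ⟨h1a, h1b⟩ := hind (X * X + Y * (t * X + n * Y) - a * X + q) (-(a * Y))
    (by rw [← h1]; module)
  have h2 := hquad (θ g) (by rw [← map_nsmul, hg, map_zero])
  rw [hσθ, gal_add, smul_zsmul', smul_zsmul', hσθ, hXY] at h2
  obtain ⟨-, h2b⟩ := hind (-(a * (t * X + n * Y))) (X * X + Y * (t * X + n * Y) + a * X + q)
    (by rw [← h2]; module)
  have hℓp : Prime (ℓ : ℤ) := Nat.prime_iff_prime_int.mp hℓ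
  by_contra ha
  have hY : (ℓ : ℤ) ∣ Y := (hℓp.dvd_or_dvd (dvd_neg.mp h1b)).resolve_left ha
  have h2X : (ℓ : ℤ) ∣ 2 * (a * X) := by
    have := dvd_sub h2b h1a
    rwa [show X * X + Y * (t * X + n * Y) + a * X + q - (X * X + Y * (t * X + n * Y) - a * X + q) =
      2 * (a * X) by ring] at this
  have hX : (ℓ : ℤ) ∣ X := (hℓp.dvd_or_dvd ((hℓp.dvd_or_dvd h2X).resolve_left fun h => hℓ2
    ((Nat.prime_dvd_prime_iff_eq hℓ Nat.prime_two).mp (Int.natCast_dvd_natCast.mp h)))).resolve_left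
      ha
  obtain ⟨X', rfl⟩ := hX
  obtain ⟨Y', rfl⟩ := hY
  have h0 : σ • g = 0 := by
    rw [hXY, mul_comm (ℓ : ℤ) X', mul_comm (ℓ : ℤ) Y', mul_zsmul', mul_zsmul', natCast_zsmul,
      natCast_zsmul, smul_comm ℓ Y', ← map_nsmul, hg, map_zero, smul_comm ℓ X', hg, zsmul_zero,
      zsmul_zero, add_zero]
  have hg0 : g = 0 := MulAction.injective σ (show σ • g = σ • (0 : ((W).toAffine⁄Fb).Point) by
    rw [h0]; exact (FA.Local.gal_smul_zero (W) σ).symm)
  have := (hind 1 0 (by rw [hg0]; simp)).1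
  exact hℓ.not_dvd_one (Int.natCast_dvd_natCast.mp (by simpa using this))

/-- **`√d` lies in the field of the points killed by `ℓ`.** -/
theorem sqrt_mem_levelField (θ : ((W).toAffine⁄Fb).Point →+ ((W).toAffine⁄Fb).Point)
    (g : ((W).toAffine⁄Fb).Point) {ℓ : ℕ} (hℓ : ℓ.Prime) (hℓ2 : ℓ ≠ 2) {t : ℤ} {d : ℤ} {sb : Fb}
    (hs : sb ^ 2 = (d : Fb))
    (hsemi : ∀ σ : Fb ≃ₐ[F] Fb, σ sb = -sb → ∀ P, θ (σ • P) = t • (σ • P) - σ • θ P)
    (hg : ℓ • g = 0)
    (hind : ∀ X Y : ℤ, X • g + Y • θ g = 0 → (ℓ : ℤ) ∣ X ∧ (ℓ : ℤ) ∣ Y) :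
    sb ∈ levelField Fb (W) ℓ := by
  haveI : IsAlgClosure F Fb := ⟨inferInstance, inferInstance⟩
  haveI : IsGalois F Fb := IsAlgClosure.isGalois F _
  rw [← InfiniteGalois.fixedField_fixingSubgroup (levelField Fb (W) ℓ)]
  rintro ⟨σ, hσ⟩
  show σ sb = sb
  rw [IntermediateField.mem_fixingSubgroup_iff] at hσ
  have hfix : ∀ P : ((W).toAffine⁄Fb).Point, ℓ • P = 0 → σ • P = P := fun P hP => by
    rcases P with _ | ⟨x, y, hxy⟩
    · rfl
    obtain ⟨h', he⟩ := FA.Local.smul_some (σ := σ) (W) hxy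
    rw [he]
    exact (Affine.Point.some.injEq ..).mpr
      ⟨hσ x (IntermediateField.subset_adjoin F _ (Or.inl (Or.inl (Or.inl ⟨_, hP, rfl⟩)))),
        hσ y (IntermediateField.subset_adjoin F _ (Or.inl (Or.inl (Or.inr ⟨_, hP, rfl⟩))))⟩
  refine ((sq_eq_sq_iff_eq_or_eq_neg).mp (by rw [← map_pow, hs, map_intCast])).resolve_right
    fun hneg => ?_
  have hθg : ℓ • θ g = 0 := by rw [← map_nsmul, hg, map_zero]
  have h := hsemi σ hneg g
  rw [hfix g hg, hfix _ hθg] at h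
  have := (hind (-t) 2 (by rw [two_zsmul, neg_zsmul]; nth_rw 1 [h]; abel)).2
  exact hℓ2 ((Nat.prime_dvd_prime_iff_eq hℓ Nat.prime_two).mp (Int.natCast_dvd_natCast.mp this))

/-- An unramified prime has ramification index one. -/
theorem ramificationIdx_eq_one {L : Type} [Field L] [NumberField L] [Algebra F L] [IsGalois F L]
    (Q : Ideal (𝓞 L)) (hQ : Q.IsMaximal) (h : Q.inertia (L ≃ₐ[F] L) = ⊥) :
    Q.ramificationIdx (𝓞 F) = 1 := by
  have hQ0 : Q ≠ ⊥ := Ring.ne_bot_of_isMaximal_of_not_isField hQ (RingOfIntegers.not_isField _)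
  have hw0 : Q.under (𝓞 F) ≠ ⊥ := Ideal.under_ne_bot _ hQ0
  have : (Q.under (𝓞 F)).IsMaximal := Ideal.IsPrime.isMaximal inferInstance hw0
  have : Finite (𝓞 F ⧸ Q.under (𝓞 F)) := Ideal.finiteQuotientOfFreeOfNeBot _ hw0
  have hcard := Ideal.card_inertia_eq_ramificationIdxIn (G := L ≃ₐ[F] L) (Q.under (𝓞 F)) Q
  rw [h, Subgroup.card_bot,
    Ideal.ramificationIdxIn_eq_ramificationIdx (Q.under (𝓞 F)) Q (L ≃ₐ[F] L)] at hcard
  exact hcard.symm

/-- A residue field fixed by the `q`-power map has at most `q` elements. -/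
theorem absNorm_le_of_forall_pow {E : Type*} [Field E] [NumberField E] {q : ℕ} (hq : 1 < q)
    (w : HeightOneSpectrum (𝓞 E)) (h : ∀ y : 𝓞 E, y ^ q - y ∈ w.asIdeal) :
    Ideal.absNorm w.asIdeal ≤ q := by
  haveI := w.isMaximal
  letI := Ideal.Quotient.field w.asIdeal
  haveI : Finite (𝓞 E ⧸ w.asIdeal) := Ideal.finiteQuotientOfFreeOfNeBot _ w.ne_bot
  letI := Fintype.ofFinite (𝓞 E ⧸ w.asIdeal)
  rw [Ideal.absNorm_apply, Submodule.cardQuot_apply]
  change Nat.card (𝓞 E ⧸ w.asIdeal) ≤ q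
  rw [Nat.card_eq_fintype_card]
  have hne : (Polynomial.X ^ q - Polynomial.X : Polynomial (𝓞 E ⧸ w.asIdeal)) ≠ 0 :=
    FiniteField.X_pow_card_sub_X_ne_zero _ hq
  calc Fintype.card (𝓞 E ⧸ w.asIdeal)
      ≤ (Polynomial.X ^ q - Polynomial.X :
          Polynomial (𝓞 E ⧸ w.asIdeal)).roots.toFinset.card := by
        rw [← Finset.card_univ]
        refine Finset.card_le_card fun x _ => ?_
        obtain ⟨y, rfl⟩ := Ideal.Quotient.mk_surjective x
        rw [Multiset.mem_toFinset, Polynomial.mem_roots hne, Polynomial.IsRoot.def]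
        simp only [Polynomial.eval_sub, Polynomial.eval_pow, Polynomial.eval_X]
        rw [← map_pow, ← map_sub, Ideal.Quotient.eq_zero_iff_mem]
        exact h y
    _ ≤ _ := (Multiset.toFinset_card_le _).trans ((Polynomial.card_roots' _).trans_eq
        (FiniteField.X_pow_card_sub_X_natDegree_eq _ hq))

variable {ψ : F →+* ℂ} {L : PeriodPair} {ω : ℂ} {d : ℤ} {x y : ℚ} {sb : AlgebraicClosure F}

/-- **The places of good reduction in `F (√d)`**: either exchanged with another place and of norm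
`N v`, or fixed, of norm `N v ^ 2`, and then `a_v = 0`. -/
theorem place_cases (hd : Squarefree d)
    (hg2 : L.g₂ = ψ (W).c₄ / 12) (hg3 : L.g₃ = ψ (W).c₆ / 216)
    (hω : ∀ m : ℤ, ω ≠ m) (hst : ∀ l ∈ L.lattice, ω * l ∈ L.lattice)
    (hxy : (ω - (x : ℂ)) ^ 2 = (d : ℂ) * (y : ℂ) ^ 2) (hs : sb ^ 2 = (d : Fb))
    {E : IntermediateField F (AlgebraicClosure F)} [NumberField E] [IsGalois F E]
    (hE : E = IntermediateField.adjoin F {sb}) (hdeg : Module.finrank F E = 2)
    {τ : E ≃ₐ[F] E} (hτ : τ ≠ 1) {v : HeightOneSpectrum (𝓞 F)} (hΔ : W₀.Δ ∉ v.asIdeal)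
    (w : HeightOneSpectrum (𝓞 E)) (hwv : w.asIdeal.under (𝓞 F) = v.asIdeal) :
    (τ • w.asIdeal ≠ w.asIdeal ∧ Ideal.absNorm w.asIdeal = Ideal.absNorm v.asIdeal) ∨
      (τ • w.asIdeal = w.asIdeal ∧ Ideal.absNorm w.asIdeal = Ideal.absNorm v.asIdeal ^ 2 ∧
        frobTrace W₀ v = 0) := by
  obtain ⟨A, B, C, D, c, h1, h2, hB, hquad, hdisc, -⟩ := exists_matrix_disc hd hω hst hxy
  set q := Ideal.absNorm v.asIdeal with hqdef
  have hq1 : 1 < q := FA.Ext.two_le_absNorm v
  -- a large prime and the field of its points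
  obtain ⟨ℓ, hℓlt, hℓ⟩ :=
    Nat.exists_infinite_primes (q + B.natAbs + (frobTrace W₀ v).natAbs + 3)
  have hℓv : (ℓ : 𝓞 F) ∉ v.asIdeal := fun hmem => by
    have hcop : IsCoprime (ℓ : ℤ) (q : ℤ) := ((hℓ.coprime_iff_not_dvd).2 fun hd' =>
      absurd (Nat.le_of_dvd (by omega) hd') (by omega)).cast
    obtain ⟨x, y, hxy⟩ := hcop
    refine v.isPrime.ne_top ((Ideal.eq_top_iff_one _).2 ?_)
    rw [show (1 : 𝓞 F) = (x : 𝓞 F) * (ℓ : 𝓞 F) + (y : 𝓞 F) * (q : 𝓞 F) by
      exact_mod_cast congrArg (Int.cast : ℤ → 𝓞 F) hxy.symm]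
    exact add_mem (Ideal.mul_mem_left _ _ hmem) (Ideal.mul_mem_left _ _ (Ideal.absNorm_mem _))
  obtain ⟨θ, g, -, hsemi, hg, hθθ, hind, hgen⟩ := exists_cyclic_galois (Kb := Fb) (W) ψ hg2 hg3 hω
    hst h1 h2 hquad hdisc hs hℓ (fun hdvd => by
      have := Nat.le_of_dvd (Int.natAbs_pos.mpr hB) (Int.natCast_dvd.mp hdvd)
      omega)
  haveI : IsAlgClosure F Fb := ⟨inferInstance, inferInstance⟩
  haveI : IsGalois F Fb := IsAlgClosure.isGalois F _
  haveI := finiteDimensional_levelField (Kb := Fb) (W) hℓ.ne_zero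
  haveI := isGalois_levelField (Kb := Fb) (W) ℓ
  set M := levelField Fb (W) ℓ
  haveI : FiniteDimensional ℚ M := Module.Finite.trans F M
  haveI : NumberField M := { }
  have hsM : sb ∈ M := sqrt_mem_levelField W₀ θ g hℓ (by omega) hs hsemi hg hind
  have hEM : E ≤ M := by
    rw [hE, IntermediateField.adjoin_le_iff]
    exact Set.singleton_subset_iff.mpr hsM
  letI : Algebra E M := (IntermediateField.inclusion hEM).toRingHom.toAlgebra
  haveI : IsScalarTower F E M := IsScalarTower.of_algebraMap_eq fun _ => rfl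
  -- a prime of the field of the points above `w`
  haveI := w.isMaximal
  obtain ⟨Q, hQ, hQw⟩ := Ideal.exists_maximal_ideal_liesOver_of_isIntegral (S := 𝓞 M) w.asIdeal
  have hQv : Q.under (𝓞 F) = v.asIdeal := by
    rw [← Ideal.under_under (B := 𝓞 E) Q, ← hQw.over, hwv]
  have hQ0 : Q ≠ ⊥ := Ring.ne_bot_of_isMaximal_of_not_isField hQ (RingOfIntegers.not_isField _)
  have hI := inertia_levelField_eq_bot W₀ hℓ (L := M) rfl hΔ hℓv ⟨Q, hQ.isPrime, hQ0⟩ hQv
  have hram : w.asIdeal.ramificationIdx (𝓞 F) = 1 := by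
    have h1' := ramificationIdx_eq_one Q hQ hI
    rw [Ideal.ramificationIdx_tower (R := 𝓞 F) w.asIdeal Q] at h1'
    first
      | exact Nat.eq_one_of_mul_eq_one_left h1'
      | exact Nat.eq_one_of_mul_eq_one_right h1'
  haveI : w.asIdeal.LiesOver v.asIdeal := ⟨hwv.symm⟩
  haveI := v.isMaximal
  have hcard : Nat.card (E ≃ₐ[F] E) = 2 := by rw [IsGalois.card_aut_eq_finrank, hdeg]
  have hfund := Ideal.ncard_primesOver_mul_ramificationIdxIn_mul_inertiaDegIn v.asIdeal (𝓞 E)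
    (E ≃ₐ[F] E)
  rw [hcard, Ideal.ramificationIdxIn_eq_ramificationIdx v.asIdeal w.asIdeal (E ≃ₐ[F] E),
    Ideal.inertiaDegIn_eq_inertiaDeg v.asIdeal w.asIdeal (E ≃ₐ[F] E), hram, one_mul] at hfund
  have hnorm : Ideal.absNorm w.asIdeal = q ^ w.asIdeal.inertiaDeg (𝓞 F) :=
    (Ideal.absNorm_pow_inertiaDeg v.asIdeal w.asIdeal).symm
  have hwmem : w.asIdeal ∈ v.asIdeal.primesOver (𝓞 E) := ⟨w.isPrime, ⟨hwv.symm⟩⟩
  have hfin : (v.asIdeal.primesOver (𝓞 E)).Finite := Set.finite_of_ncard_ne_zero fun h0 => by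
    rw [h0, zero_mul] at hfund; omega
  by_cases hτw : τ • w.asIdeal = w.asIdeal
  · right
    have hone : v.asIdeal.primesOver (𝓞 E) = {w.asIdeal} := by
      refine Set.eq_singleton_iff_unique_mem.mpr ⟨hwmem, fun P ⟨hP, hPv⟩ => ?_⟩
      obtain ⟨σ, hσ⟩ := Algebra.IsInvariant.exists_smul_of_under_eq (𝓞 F) (𝓞 E) (E ≃ₐ[F] E)
        w.asIdeal P (hwv.trans hPv.over)
      have hall : σ = 1 ∨ σ = τ := by
        by_contra h
        rw [not_or] at h
        have h3 := Finset.card_le_univ ({1, σ, τ} : Finset (E ≃ₐ[F] E))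
        rw [Finset.card_insert_of_notMem (by simp [Ne.symm h.1, Ne.symm hτ]),
          Finset.card_pair h.2, ← Nat.card_eq_fintype_card, hcard] at h3
        omega
      rcases hall with rfl | rfl
      · rw [hσ, one_smul]
      · rw [hσ, hτw]
    rw [hone, Set.ncard_singleton, one_mul] at hfund
    refine ⟨hτw, by rw [hnorm, hfund], ?_⟩
    -- the Frobenius element moves `√d`
    obtain ⟨τQ, hτQ⟩ : ∃ τQ : M ≃ₐ[F] M, IsArithFrobAt (𝓞 F) τQ Q := by
      haveI : Finite (𝓞 M ⧸ Q) := Ideal.finiteQuotientOfFreeOfNeBot Q hQ0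
      exact IsArithFrobAt.exists_of_isInvariant (R := 𝓞 F) (G := M ≃ₐ[F] M) Q
    obtain ⟨σ, hσ⟩ := AlgEquiv.restrictNormalHom_surjective (F := F) (K₁ := M) Fb τQ
    obtain ⟨Fr, hq, hKlt⟩ := exists_frobPlace_at W₀ hℓ.ne_zero hΔ hℓv
      (IntermediateField.subset_adjoin F _) hQ hQv hτQ hσ
    haveI := Fr.charP
    haveI : Fact Fr.l.Prime := ⟨Fr.prime⟩
    haveI := residueField_isAlgClosed Fr.A
    haveI := redCurve_isElliptic Fr.int Fr.good
    obtain ⟨hW, htr⟩ := exists_trQ_eq_frobTrace W₀ Fr hq hKlt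
    rcases (sq_eq_sq_iff_eq_or_eq_neg).mp (show σ sb ^ 2 = sb ^ 2 by
      rw [← map_pow, hs, map_intCast]) with hfix | hneg
    · exfalso
      have hfixE : ∀ z ∈ E, σ z = z := fun z hz => by
        rw [hE] at hz
        induction hz using IntermediateField.adjoin_induction with
        | mem u hu => rw [Set.mem_singleton_iff.mp hu, hfix]
        | algebraMap u => exact σ.commutes u
        | add u v _ _ hu hv => rw [map_add, hu, hv]
        | inv u _ hu => rw [map_inv₀, hu]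
        | mul u v _ _ hu hv => rw [map_mul, hu, hv]
      have hle := absNorm_le_of_forall_pow hq1 w fun z => by
        rw [show w.asIdeal = Q.under (𝓞 E) from hQw.over, Ideal.mem_comap, map_sub, map_pow]
        have h := neg_mem (hτQ (algebraMap (𝓞 E) (𝓞 M) z))
        rw [hQv, show Nat.card (𝓞 F ⧸ v.asIdeal) = q from (Ideal.absNorm_apply _).symm, neg_sub]
          at h
        have hfixz : (MulSemiringAction.toAlgHom (𝓞 F) (𝓞 M) τQ) (algebraMap (𝓞 E) (𝓞 M) z) =
            algebraMap (𝓞 E) (𝓞 M) z := RingOfIntegers.coe_injective (Subtype.ext (by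
          show ((τQ ((algebraMap (𝓞 E) (𝓞 M) z : 𝓞 M) : M) : M) : Fb) = _
          rw [← hσ, AlgEquiv.restrictNormalHom_apply]
          exact hfixE _ ((z : E)).2))
        rw [hfixz] at h
        exact h
      rw [hnorm, hfund] at hle
      nlinarith
    · have hdvd := dvd_trace_of_semilinear W₀ θ g hℓ (by omega) (hsemi σ hneg) hg hθθ hind hgen
        (a := frobTrace W₀ v) (q := (q : ℤ)) fun P hP => by
          have h := quadratic_trQ (W) Fr hW P hP
          rwa [htr, show ((Fr.l : ℤ) ^ Fr.n) = (q : ℤ) by exact_mod_cast hq] at h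
      by_contra h0
      have := Nat.le_of_dvd (Int.natAbs_pos.mpr h0) (Int.natCast_dvd.mp hdvd)
      omega
  · left
    refine ⟨hτw, ?_⟩
    have htwo : 1 < (v.asIdeal.primesOver (𝓞 E)).ncard := by
      refine (Set.one_lt_ncard hfin).mpr ⟨w.asIdeal, hwmem, τ • w.asIdeal,
        ⟨inferInstance, ⟨?_⟩⟩, Ne.symm hτw⟩
      rw [← hwv, Ideal.under_smul]
    have hf : w.asIdeal.inertiaDeg (𝓞 F) = 1 := by
      have hle := Nat.le_of_dvd (by omega) (Dvd.intro _ hfund)
      have hnc : (v.asIdeal.primesOver (𝓞 E)).ncard = 2 := by omega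
      rw [hnc] at hfund
      omega
    rw [hnorm, hf, pow_one]

end FA.DeuringCM

end
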