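import Fermat.Agent.DeuringCM.Reduction

/-!
# Strong multiplicity one for the curves with complex multiplication

For two curves with the same field of multiplication inside the ground field `f · conj g` is a
character of weight two. Unless it is the norm its normalised values have mean zero, so agreement of
the traces, which makes it equal to the norm, has upper density at most `1 / 2`.
-/

set_option autoImplicit false
set_option linter.style.haveILetI false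
set_option linter.unusedSectionVars false

noncomputable section

open WeierstrassCurve NumberField IsDedekindDomain Filter Topology
open FA.TraceNF (frobTrace)
open FA.AlgHecke (IsAlgChar IsPure IsNormPower typeVal)
open FA.Hecke (HasMean wSum hasMean_congr hasMean_one IsRayElt)
open scoped WeierstrassCurve.Affine Pointwise Classical Real ComplexConjugate

namespace FA.DeuringCM

section Characters

variable {F : Type} [Field F] [NumberField F] {𝔣 𝔤 : Ideal (𝓞 F)} {n n' : (F →+* ℂ) → ℤ}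
  {f g : Ideal (𝓞 F) →* ℂ}

theorem isAlgChar_conj (hf : IsAlgChar 𝔣 n f) :
    IsAlgChar 𝔣 (fun σ => n (ComplexEmbedding.conjugate σ))
      ((starRingEnd ℂ).toMonoidHom.comp f) := by
  refine ⟨hf.ne_bot, fun I hI => ?_, fun x hx => ?_⟩
  · show conj (f I) ≠ 0 ↔ _
    rw [map_ne_zero_iff _ (starRingEnd ℂ).injective]
    exact hf.ne_zero_iff I hI
  · show conj (f (Ideal.span {x})) = _
    rw [hf.ray x hx, typeVal, typeVal, map_prod]
    refine Fintype.prod_equiv (Function.Involutive.toPerm (ComplexEmbedding.conjugate (K := F))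
      fun σ => star_star σ) _ _ fun σ => ?_
    rw [Function.Involutive.coe_toPerm, show ComplexEmbedding.conjugate
      (ComplexEmbedding.conjugate σ) = σ from star_star σ, map_zpow₀,
      ComplexEmbedding.conjugate_coe_eq]

theorem isAlgChar_mul (hf : IsAlgChar 𝔣 n f) (hg : IsAlgChar 𝔤 n' g) :
    IsAlgChar (𝔣 * 𝔤) (fun σ => n σ + n' σ) (f * g) := by
  refine ⟨mul_ne_zero hf.ne_bot hg.ne_bot, fun I hI => ?_, fun x hx => ?_⟩
  · rw [MonoidHom.mul_apply, mul_ne_zero_iff, hf.ne_zero_iff I hI, hg.ne_zero_iff I hI,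
      sup_comm I (𝔣 * 𝔤), sup_comm I 𝔣, sup_comm I 𝔤]
    exact FA.Hecke.mul_sup_eq_top.symm
  · rw [MonoidHom.mul_apply, hf.ray x ⟨hx.1, Ideal.mul_le_left hx.2.1, hx.2.2⟩,
      hg.ray x ⟨hx.1, Ideal.mul_le_right hx.2.1, hx.2.2⟩, typeVal, typeVal, typeVal,
      ← Finset.prod_mul_distrib]
    exact Finset.prod_congr rfl fun σ _ => (zpow_add₀
      ((map_ne_zero_iff _ σ.injective).mpr (RingOfIntegers.coe_ne_zero_iff.mpr hx.1)) _ _).symm

end Characters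

section Density

variable {K : Type*} [Field K] [NumberField K]

/-- The upper mean of `b` is at most `m`. -/
def UpperMeanLE (b : HeightOneSpectrum (𝓞 K) → ℝ) (m : ℝ) : Prop :=
  ∀ c > m, ∀ᶠ x : ℝ in atTop, Real.log x / x * wSum b x < c

/-- Domination at almost all primes of degree one. -/
theorem upperMeanLE_of_le {b g : HeightOneSpectrum (𝓞 K) → ℝ}
    {S : Set (HeightOneSpectrum (𝓞 K))} (hS : S.Finite) (hb : ∀ v, b v ≤ 1)
    (hg : ∀ v, 0 ≤ g v) (hle : ∀ v ∉ S, (Ideal.absNorm v.asIdeal).Prime → b v ≤ g v) {m : ℝ}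
    (hm : HasMean g m) : UpperMeanLE b m := by
  intro c hc
  set g' : HeightOneSpectrum (𝓞 K) → ℝ :=
    fun v => if b v ≤ g v then g v else g v + (b v - g v)
  have hg' : HasMean g' m := hasMean_congr S hS (B := 1) (fun v => by
    simp only [g']
    split_ifs with h
    · simp
    · rw [add_sub_cancel_left, Real.norm_of_nonneg (by linarith)]
      linarith [hb v, hg v]) (fun v hv hp => if_pos (hle v hv hp)) hm
  filter_upwards [hg'.eventually (eventually_lt_nhds hc), eventually_ge_atTop 1] with x hx hx1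
  refine lt_of_le_of_lt (mul_le_mul_of_nonneg_left (Finset.sum_le_sum fun v _ => ?_)
    (div_nonneg (Real.log_nonneg hx1) (by linarith))) hx
  simp only [g']
  split_ifs with h
  · exact h
  · linarith

theorem not_frequently_count {P : HeightOneSpectrum (𝓞 K) → Prop} {m c : ℝ} (hc : m < c)
    (h : UpperMeanLE (fun v => if P v then (1 : ℝ) else 0) m) :
    ¬ ∃ᶠ n : ℕ in atTop, c ≤ Real.log n / n * (Nat.card {v : HeightOneSpectrum (𝓞 K) //
      Ideal.absNorm v.asIdeal ≤ n ∧ P v} : ℝ) := by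
  rw [not_frequently]
  filter_upwards [(h c hc).natCast_atTop] with n hn
  rw [wSum, Nat.floor_natCast, Finset.sum_boole] at hn
  intro hle
  rw [show Nat.card {v : HeightOneSpectrum (𝓞 K) // Ideal.absNorm v.asIdeal ≤ n ∧ P v} =
      ((FA.Hecke.primesLE K n).filter P).card from
    Nat.subtype_card _ (fun v => by simp [FA.Hecke.mem_primesLE])] at hle
  exact absurd hn (not_lt.mpr hle)

end Density

variable {F : Type} [Field F] [NumberField F]

/-- The trace is at almost every prime of degree one `0` or prime to the residue characteristic. -/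
theorem exists_ordinary_all (W₀ : WeierstrassCurve (𝓞 F))
    [(W₀.map (algebraMap (𝓞 F) F)).IsElliptic] (ψ : F →+* ℂ) {d : ℤ} (hd : Squarefree d)
    (hd0 : d < 0)
    (hcm : ∃ L : PeriodPair, L.g₂ = ψ (W₀.map (algebraMap (𝓞 F) F)).c₄ / 12 ∧
      L.g₃ = ψ (W₀.map (algebraMap (𝓞 F) F)).c₆ / 216 ∧
      ∃ ω : ℂ, (∀ m : ℤ, ω ≠ m) ∧ (∀ l ∈ L.lattice, ω * l ∈ L.lattice) ∧
        ∃ x y : ℚ, (ω - (x : ℂ)) ^ 2 = (d : ℂ) * (y : ℂ) ^ 2) :
    ∃ S : Set (HeightOneSpectrum (𝓞 F)), S.Finite ∧ ∀ v ∉ S, W₀.Δ ∉ v.asIdeal ∧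
      ((Ideal.absNorm v.asIdeal).Prime → frobTrace W₀ v ≠ 0 →
        ¬ (Ideal.absNorm v.asIdeal : ℤ) ∣ frobTrace W₀ v) := by
  by_cases h : ∃ s : F, s ^ 2 = (d : F)
  · obtain ⟨s, hs⟩ := h
    obtain ⟨S, hS, hord⟩ := exists_ordinary W₀ ψ hd hd0 hs hcm
    exact ⟨S, hS, fun v hv => ⟨(hord v hv).1, fun hq _ => (hord v hv).2 hq⟩⟩
  obtain ⟨E, instE, τ, s, ψ', 𝔣, f, hdeg, hgal, hτ, hs, hψ, -, -, -, -, hv⟩ :=
    exists_descended_char W₀ ψ hd hd0 h hcm
  obtain ⟨hell, hcm₁⟩ := hcm_map W₀ hψ hcm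
  haveI := hell
  obtain ⟨S, hS, hord⟩ := exists_ordinary (W₀.map (algebraMap (𝓞 F) (𝓞 E))) ψ' hd hd0 hs hcm₁
  refine ⟨(fun w : HeightOneSpectrum (𝓞 E) => w.under (𝓞 F)) '' S, hS.image _, fun v hvS => ?_⟩
  obtain ⟨u, hu, -⟩ := fibre_cases hdeg hτ v
  have huS : u ∉ S := fun h' => hvS ⟨u, h', HeightOneSpectrum.ext hu⟩
  have hΔ : W₀.Δ ∉ v.asIdeal := fun hmem => (hord u huS).1 (by
    rw [map_Δ]
    rw [← hu, Ideal.mem_comap] at hmem
    exact hmem)
  refine ⟨hΔ, fun hq ha => ?_⟩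
  rcases (hv v hΔ u hu).2 with ⟨-, hN, -⟩ | ⟨-, -, ha', -⟩
  · have h' := (hord u huS).2 (hN ▸ hq)
    rwa [frobTrace_of_absNorm_eq W₀ hu hN, hN] at h'
  · exact absurd ha' ha

theorem eq_of_mul_sq {d d' b b' : ℤ} (hd : Squarefree d) (hd' : Squarefree d') (hd0 : d < 0)
    (hb : b ≠ 0) (h : d * b ^ 2 = d' * b' ^ 2) : d = d' := by
  have hb' : b' ≠ 0 := fun e => by
    rw [e, zero_pow two_ne_zero, mul_zero] at h
    exact mul_ne_zero hd0.ne (pow_ne_zero 2 hb) h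
  obtain ⟨g, B, B', hg, hcop, rfl, rfl⟩ := Int.exists_gcd_one' (m := b) (n := b')
    (Int.gcd_pos_of_ne_zero_left _ hb)
  have h' : d * B ^ 2 = d' * B' ^ 2 :=
    mul_right_cancel₀ (pow_ne_zero 2 (Int.natCast_ne_zero.mpr hg.ne')) (by
      linear_combination h)
  have hc : IsCoprime (B ^ 2) (B' ^ 2) := (Int.isCoprime_iff_gcd_eq_one.mpr hcop).pow
  have h1 : B ^ 2 ∣ d' := hc.dvd_of_dvd_mul_right ⟨d, by rw [← h']; ring⟩
  have h2 : B' ^ 2 ∣ d := hc.symm.dvd_of_dvd_mul_right ⟨d', by rw [h']; ring⟩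
  have e1 := Int.isUnit_sq (hd' B ((sq B) ▸ h1))
  have e2 := Int.isUnit_sq (hd B' ((sq B') ▸ h2))
  rwa [e1, e2, mul_one, mul_one] at h'

variable (W₀ W₀' : WeierstrassCurve (𝓞 F)) [(W₀.map (algebraMap (𝓞 F) F)).IsElliptic]
  [(W₀'.map (algebraMap (𝓞 F) F)).IsElliptic]

local notation "W" => W₀.map (algebraMap (𝓞 F) F)
local notation "W'" => W₀'.map (algebraMap (𝓞 F) F)

/-- **Curves with different fields share nonzero traces at finitely many primes of degree one.** -/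
theorem finite_common_trace (ψ ψ₂ : F →+* ℂ) {d d' : ℤ} (hd : Squarefree d) (hd0 : d < 0)
    (hd' : Squarefree d') (hd0' : d' < 0)
    (hcm : ∃ L : PeriodPair, L.g₂ = ψ (W).c₄ / 12 ∧ L.g₃ = ψ (W).c₆ / 216 ∧
      ∃ ω : ℂ, (∀ m : ℤ, ω ≠ m) ∧ (∀ l ∈ L.lattice, ω * l ∈ L.lattice) ∧
        ∃ x y : ℚ, (ω - (x : ℂ)) ^ 2 = (d : ℂ) * (y : ℂ) ^ 2)
    (hcm' : ∃ L : PeriodPair, L.g₂ = ψ₂ (W').c₄ / 12 ∧ L.g₃ = ψ₂ (W').c₆ / 216 ∧
      ∃ ω : ℂ, (∀ m : ℤ, ω ≠ m) ∧ (∀ l ∈ L.lattice, ω * l ∈ L.lattice) ∧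
        ∃ x y : ℚ, (ω - (x : ℂ)) ^ 2 = (d' : ℂ) * (y : ℂ) ^ 2)
    (hne : d ≠ d') :
    {v : HeightOneSpectrum (𝓞 F) | (Ideal.absNorm v.asIdeal).Prime ∧
      frobTrace W₀ v = frobTrace W₀' v ∧ frobTrace W₀ v ≠ 0}.Finite := by
  obtain ⟨S, hS, hord⟩ := exists_ordinary_all W₀ ψ hd hd0 hcm
  obtain ⟨S', hS', hord'⟩ := exists_ordinary_all W₀' ψ₂ hd' hd0' hcm'
  refine (hS.union hS').subset fun v ⟨hq, heq, ha⟩ => ?_
  by_contra hv
  simp only [Set.mem_union, not_or] at hv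
  set q := Ideal.absNorm v.asIdeal with hqdef
  have hqv : (q : 𝓞 F) ∈ v.asIdeal := Ideal.absNorm_mem _
  obtain ⟨b, hb⟩ := (ordinary_iff W₀ ψ hd hd0 hcm (hord v hv.1).1 hq hqv).2
    ((hord v hv.1).2 hq ha)
  obtain ⟨b', hb'⟩ := (ordinary_iff W₀' ψ₂ hd' hd0' hcm' (hord' v hv.2).1 hq hqv).2
    ((hord' v hv.2).2 hq (heq ▸ ha))
  have hb0 : b ≠ 0 := fun e => by
    rw [e, zero_pow two_ne_zero, mul_zero, sub_eq_zero] at hb
    exact (hord v hv.1).2 hq ha ((Nat.prime_iff_prime_int.mp hq).dvd_of_dvd_pow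
      ⟨4, by rw [hb]; ring⟩)
  rw [← heq, hb] at hb'
  exact hne (eq_of_mul_sq hd hd' hd0 hb0 hb')

/-- **One field of multiplication inside `F`**: equal traces everywhere, or on a set of upper
density at most `1 / 2`. -/
theorem equal_or_half (ψ ψ₂ : F →+* ℂ) {d : ℤ} (hd : Squarefree d) (hd0 : d < 0) {s : F}
    (hs : s ^ 2 = (d : F))
    (hcm : ∃ L : PeriodPair, L.g₂ = ψ (W).c₄ / 12 ∧ L.g₃ = ψ (W).c₆ / 216 ∧
      ∃ ω : ℂ, (∀ m : ℤ, ω ≠ m) ∧ (∀ l ∈ L.lattice, ω * l ∈ L.lattice) ∧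
        ∃ x y : ℚ, (ω - (x : ℂ)) ^ 2 = (d : ℂ) * (y : ℂ) ^ 2)
    (hcm' : ∃ L : PeriodPair, L.g₂ = ψ₂ (W').c₄ / 12 ∧ L.g₃ = ψ₂ (W').c₆ / 216 ∧
      ∃ ω : ℂ, (∀ m : ℤ, ω ≠ m) ∧ (∀ l ∈ L.lattice, ω * l ∈ L.lattice) ∧
        ∃ x y : ℚ, (ω - (x : ℂ)) ^ 2 = (d : ℂ) * (y : ℂ) ^ 2) :
    (∀ v : HeightOneSpectrum (𝓞 F), W₀.Δ ∉ v.asIdeal → W₀'.Δ ∉ v.asIdeal →
      frobTrace W₀ v = frobTrace W₀' v) ∨
    UpperMeanLE (fun v => if frobTrace W₀ v = frobTrace W₀' v then (1 : ℝ) else 0) (1 / 2) := by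
  obtain ⟨𝔣, f, hf, -, -, hv⟩ := exists_hecke_char W₀ ψ hd hd0 hs hcm
  obtain ⟨𝔤, g₀, hg₀, -, -, hv'⟩ := exists_hecke_char W₀' ψ₂ hd hd0 hs hcm'
  -- the character of the second curve with the type of the first
  obtain ⟨g, hg, hgv⟩ : ∃ g : Ideal (𝓞 F) →* ℂ,
      IsAlgChar 𝔤 (fun σ => if σ s = ψ s then 1 else 0) g ∧
      ∀ v : HeightOneSpectrum (𝓞 F), W₀'.Δ ∉ v.asIdeal → v.asIdeal ⊔ 𝔤 = ⊤ ∧
        g v.asIdeal + conj (g v.asIdeal) = frobTrace W₀' v ∧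
        g v.asIdeal * conj (g v.asIdeal) = (Ideal.absNorm v.asIdeal : ℂ) := by
    have hsq : ψ₂ s ^ 2 = ψ s ^ 2 := by rw [← map_pow, ← map_pow, hs, map_intCast, map_intCast]
    rcases sq_eq_sq_iff_eq_or_eq_neg.mp hsq with e | e
    · exact ⟨g₀, by simpa only [e] using hg₀, hv'⟩
    · refine ⟨(starRingEnd ℂ).toMonoidHom.comp g₀, ?_, fun v hΔ => ?_⟩
      · convert isAlgChar_conj hg₀ using 1
        funext σ
        simp only [ComplexEmbedding.conjugate_coe_eq, (apply_sqrt hd0 hs σ).1, e, neg_inj]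
      · obtain ⟨h0, h1, h2⟩ := hv' v hΔ
        refine ⟨h0, ?_, ?_⟩
        · show conj _ + conj (conj _) = _
          rw [Complex.conj_conj, add_comm, h1]
        · show conj _ * conj (conj _) = _
          rw [Complex.conj_conj, mul_comm, h2]
  set χ := f * (starRingEnd ℂ).toMonoidHom.comp g with hχdef
  have hχ := isAlgChar_mul hf (isAlgChar_conj hg)
  have hw : IsPure (fun σ : F →+* ℂ => (if σ s = ψ s then (1 : ℤ) else 0) +
      if ComplexEmbedding.conjugate σ s = ψ s then 1 else 0) 2 := fun σ => by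
    simp only []
    rw [sum_type_eq_one hd0 hs ψ σ, sum_type_eq_one hd0 hs ψ (ComplexEmbedding.conjugate σ)]
    rfl
  have hval : ∀ v : HeightOneSpectrum (𝓞 F),
      χ v.asIdeal = f v.asIdeal * conj (g v.asIdeal) := fun v => rfl
  by_cases hnp : IsNormPower χ
  · refine Or.inl fun v hΔ hΔ' => ?_
    obtain ⟨a, ha⟩ := hnp
    obtain ⟨hvf, h1, h2⟩ := hv v hΔ
    obtain ⟨hvg, h3, h4⟩ := hgv v hΔ'
    set q := Ideal.absNorm v.asIdeal
    have hq : 1 < q := FA.Ext.two_le_absNorm v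
    have hne0 : f v.asIdeal * conj (g v.asIdeal) ≠ 0 := mul_ne_zero
      ((hf.ne_zero_iff _ v.ne_bot).mpr hvf)
      ((map_ne_zero_iff _ (starRingEnd ℂ).injective).mpr ((hg.ne_zero_iff _ v.ne_bot).mpr hvg))
    have hχv := ha v.asIdeal v.ne_bot (by rw [hval]; exact hne0)
    rw [hval] at hχv
    have hmul : (q : ℂ) ^ (a + a) = (q : ℂ) ^ (2 : ℤ) := by
      have hc := congrArg conj hχv
      rw [map_mul, map_zpow₀, Complex.conj_natCast, Complex.conj_conj] at hc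
      rw [zpow_add₀ (Nat.cast_ne_zero.mpr (by omega)), zpow_two]
      linear_combination -(conj (f v.asIdeal) * g v.asIdeal) * hχv - ((q : ℂ) ^ a) * hc +
        (g v.asIdeal * conj (g v.asIdeal)) * h2 + (q : ℂ) * h4
    have ha1 : a = 1 := by
      have h1' : ((q : ℕ) : ℝ) ^ (a + a) = ((q : ℕ) : ℝ) ^ (2 : ℤ) := by
        apply Complex.ofReal_injective
        push_cast
        exact hmul
      have := (zpow_right_injective₀ (by exact_mod_cast (by omega : 0 < q))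
        (by exact_mod_cast (by omega : q ≠ 1))) h1'
      omega
    rw [ha1, zpow_one] at hχv
    have hfg : f v.asIdeal = g v.asIdeal :=
      mul_left_cancel₀ (show (q : ℂ) ≠ 0 from Nat.cast_ne_zero.mpr (by omega))
        (by linear_combination g v.asIdeal * hχv - f v.asIdeal * h4)
    rw [hfg] at h1
    exact_mod_cast h1.symm.trans h3
  refine Or.inr ?_
  set z : HeightOneSpectrum (𝓞 F) → ℂ := fun v =>
    χ v.asIdeal * ((Ideal.absNorm v.asIdeal : ℕ) : ℂ) ^ (-(((2 : ℤ) : ℂ) / 2))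
  have hz0 : HasMean z 0 := hχ.hasMean_zero hw hnp
  have hle : ∀ v, |(z v).re| ≤ 1 := fun v =>
    (Complex.abs_re_le_norm _).trans ((hχ.torus hw).norm_le v.ne_bot)
  have hmean : HasMean (fun v => 1 / 2 + (1 / 2) * (z v).re) (1 / 2 : ℝ) := by
    have h1 := (hasMean_one F).map ((1 / 2 : ℝ) • ContinuousLinearMap.id ℝ ℝ)
    have h2 := hz0.map ((1 / 2 : ℝ) • Complex.reCLM)
    have h3 := h1.add h2
    simp only [FunLike.coe_smul, Pi.smul_apply, ContinuousLinearMap.coe_id', id_eq, smul_eq_mul,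
      Complex.reCLM_apply, Complex.zero_re, mul_zero, add_zero, mul_one] at h3
    exact h3
  obtain ⟨S, hS, hord⟩ := exists_ordinary W₀ ψ hd hd0 hs hcm
  obtain ⟨S', hS', hord'⟩ := exists_ordinary W₀' ψ₂ hd hd0 hs hcm'
  refine upperMeanLE_of_le (hS.union hS') (fun v => by split_ifs <;> norm_num)
    (fun v => by linarith [(abs_le.mp (hle v)).1]) (fun v hvS hq => ?_) hmean
  simp only [Set.mem_union, not_or] at hvS
  split_ifs with heq
  swap
  · linarith [(abs_le.mp (hle v)).1]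
  obtain ⟨hvf, h1, h2⟩ := hv v (hord v hvS.1).1
  obtain ⟨hvg, h3, h4⟩ := hgv v (hord' v hvS.2).1
  rw [← heq] at h3
  have hfg : f v.asIdeal = g v.asIdeal := by
    have h : (g v.asIdeal - f v.asIdeal) * (g v.asIdeal - conj (f v.asIdeal)) = 0 := by
      linear_combination g v.asIdeal * (h3.trans h1.symm) + h2 - h4
    rcases mul_eq_zero.mp h with e | e
    · exact (sub_eq_zero.mp e).symm
    · obtain ⟨k, hk, hpow⟩ := exists_pow_eq hf hg
      exact absurd (dvd_of_pow_eq hq hk h1 h2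
        (by rw [← sub_eq_zero.mp e]; exact (hpow v hvf hvg).symm)) ((hord v hvS.1).2 hq)
  have hz1 : z v = 1 := by
    show χ v.asIdeal * _ = 1
    rw [hval, ← hfg, h2, show -(((2 : ℤ) : ℂ) / 2) = -1 by norm_num, Complex.cpow_neg_one,
      mul_inv_cancel₀ (Nat.cast_ne_zero.mpr hq.ne_zero)]
  rw [hz1, Complex.one_re]
  norm_num

/-- **Strong multiplicity one.** -/
theorem equal_or_threeQuarters (ψ ψ₂ : F →+* ℂ) {d d' : ℤ} (hd : Squarefree d) (hd0 : d < 0)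
    (hd' : Squarefree d') (hd0' : d' < 0)
    (hcm : ∃ L : PeriodPair, L.g₂ = ψ (W).c₄ / 12 ∧ L.g₃ = ψ (W).c₆ / 216 ∧
      ∃ ω : ℂ, (∀ m : ℤ, ω ≠ m) ∧ (∀ l ∈ L.lattice, ω * l ∈ L.lattice) ∧
        ∃ x y : ℚ, (ω - (x : ℂ)) ^ 2 = (d : ℂ) * (y : ℂ) ^ 2)
    (hcm' : ∃ L : PeriodPair, L.g₂ = ψ₂ (W').c₄ / 12 ∧ L.g₃ = ψ₂ (W').c₆ / 216 ∧
      ∃ ω : ℂ, (∀ m : ℤ, ω ≠ m) ∧ (∀ l ∈ L.lattice, ω * l ∈ L.lattice) ∧
        ∃ x y : ℚ, (ω - (x : ℂ)) ^ 2 = (d' : ℂ) * (y : ℂ) ^ 2) :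
    (d = d' ∧ ∀ v : HeightOneSpectrum (𝓞 F), W₀.Δ ∉ v.asIdeal → W₀'.Δ ∉ v.asIdeal →
      frobTrace W₀ v = frobTrace W₀' v) ∨
    UpperMeanLE (fun v => if frobTrace W₀ v = frobTrace W₀' v then (1 : ℝ) else 0) (3 / 4) := by
  have mono : ∀ {b : HeightOneSpectrum (𝓞 F) → ℝ} {m : ℝ}, m ≤ 3 / 4 → UpperMeanLE b m →
      UpperMeanLE b (3 / 4) := fun hm h c hc => h c (lt_of_le_of_lt hm hc)
  rcases eq_or_ne d d' with rfl | hne
  swap
  · -- different fields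
    refine Or.inr ?_
    have hS := finite_common_trace W₀ W₀' ψ ψ₂ hd hd0 hd' hd0' hcm hcm' hne
    obtain ⟨m, hm, hmean⟩ : ∃ m : ℝ, m ≤ 3 / 4 ∧
        HasMean (fun v => if frobTrace W₀ v = 0 then (1 : ℝ) else 0) m := by
      by_cases h : ∃ s : F, s ^ 2 = (d : F)
      · obtain ⟨s, hs⟩ := h
        exact ⟨0, by norm_num, by convert (hasMean_satoTate W₀ ψ hd hd0 hs hcm).2⟩
      · exact ⟨1 / 2, by norm_num, by convert (hasMean_satoTate_descended W₀ ψ hd hd0 h hcm).2⟩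
    refine mono hm (upperMeanLE_of_le hS (fun v => by split_ifs <;> norm_num)
      (fun v => by split_ifs <;> norm_num) (fun v hv hq => ?_) hmean)
    simp only [Set.mem_ofPred_eq, not_and, not_not] at hv
    by_cases heq : frobTrace W₀ v = frobTrace W₀' v
    · rw [if_pos heq, if_pos (hv hq heq)]
    · rw [if_neg heq]; split_ifs <;> norm_num
  by_cases h : ∃ s : F, s ^ 2 = (d : F)
  · obtain ⟨s, hs⟩ := h
    exact (equal_or_half W₀ W₀' ψ ψ₂ hd hd0 hs hcm hcm').imp (fun h => ⟨rfl, h⟩)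
      (mono (by norm_num))
  obtain ⟨E, instE, τ, s, ψ', 𝔣, f, hdeg, hgal, hτ, hs, hψ, -, -, -, -, hv⟩ :=
    exists_descended_char W₀ ψ hd hd0 h hcm
  obtain ⟨ψ₂', hψ₂⟩ : ∃ ψ₂' : E →+* ℂ, ψ₂'.comp (algebraMap F E) = ψ₂ := by
    letI := ψ₂.toAlgebra
    let e : E →ₐ[F] ℂ := IsAlgClosed.lift
    exact ⟨e.toRingHom, RingHom.ext fun z => e.commutes z⟩
  obtain ⟨hell, hcm₁⟩ := hcm_map W₀ hψ hcm
  obtain ⟨hell', hcm₁'⟩ := hcm_map W₀' hψ₂ hcm'
  haveI := hell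
  haveI := hell'
  rcases equal_or_half (W₀.map (algebraMap (𝓞 F) (𝓞 E))) (W₀'.map (algebraMap (𝓞 F) (𝓞 E)))
    ψ' ψ₂' hd hd0 hs hcm₁ hcm₁' with hall | hhalf
  · refine Or.inl ⟨rfl, fun v hΔ hΔ' => ?_⟩
    obtain ⟨u, hu, -⟩ := fibre_cases hdeg hτ v
    have hgood : ∀ U : WeierstrassCurve (𝓞 F), U.Δ ∉ v.asIdeal →
        (U.map (algebraMap (𝓞 F) (𝓞 E))).Δ ∉ u.asIdeal := fun U hU hmem => hU (by
      rw [← hu, Ideal.mem_comap]
      rwa [map_Δ] at hmem)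
    have hu' := hall u (hgood W₀ hΔ) (hgood W₀' hΔ')
    rcases (hv v hΔ u hu).2 with ⟨-, hN, -⟩ | ⟨-, hN, ha, -⟩
    · rwa [frobTrace_of_absNorm_eq W₀ hu hN, frobTrace_of_absNorm_eq W₀' hu hN] at hu'
    · rw [frobTrace_of_absNorm_sq W₀ hΔ hu hN, frobTrace_of_absNorm_sq W₀' hΔ' hu hN, ha] at hu'
      rw [ha]
      exact ((pow_eq_zero_iff two_ne_zero).mp (by linarith)).symm
  refine Or.inr fun c hc => ?_
  -- the places split in `E`
  obtain ⟨P, hPiff⟩ : ∃ P : HeightOneSpectrum (𝓞 F) → Prop, ∀ v, P v ↔ (W₀.Δ ∉ v.asIdeal ∧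
      ∃ w : HeightOneSpectrum (𝓞 E), w.under (𝓞 F) = v ∧ τ • w.asIdeal ≠ w.asIdeal) :=
    ⟨_, fun _ => Iff.rfl⟩
  have hP : ∀ v, P v → ∃ w : HeightOneSpectrum (𝓞 E), conjPlace τ w ≠ w ∧
      Ideal.absNorm w.asIdeal = Ideal.absNorm v.asIdeal ∧
      (∀ w', w' ∈ ({w, conjPlace τ w} : Finset _) ↔ w'.under (𝓞 F) = v) := fun v hPv => by
    obtain ⟨-, w, hw, hmove⟩ := (hPiff v).mp hPv
    obtain ⟨u, hu, ⟨hfix, -, hmem⟩ | ⟨hm, hN, hmem⟩⟩ := fibre_cases hdeg hτ v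
    · refine absurd ?_ hmove
      rw [Finset.mem_singleton.mp ((hmem w).mpr hw)]
      exact hfix
    · exact ⟨u, fun h => hm (congrArg HeightOneSpectrum.asIdeal h), hN, hmem⟩
  obtain ⟨SE, hSE, hord⟩ := exists_ordinary (W₀.map (algebraMap (𝓞 F) (𝓞 E))) ψ' hd hd0 hs hcm₁
  have hdegone : ∀ w : HeightOneSpectrum (𝓞 E), w ∉ SE → (Ideal.absNorm w.asIdeal).Prime →
      P (w.under (𝓞 F)) := fun w hw hq => by
    have hΔ : W₀.Δ ∉ (w.under (𝓞 F)).asIdeal := fun hmem => (hord w hw).1 (by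
      rw [map_Δ]
      exact hmem)
    refine (hPiff _).mpr ⟨hΔ, w, rfl, ?_⟩
    rcases (hv _ hΔ w rfl).2 with ⟨hmove, -⟩ | ⟨-, hN, -, -⟩
    · exact hmove
    · rw [hN] at hq
      exact absurd hq (Nat.Prime.not_prime_pow le_rfl)
  have hhalfP : HasMean (fun v => if P v then (1 : ℝ) else 0) (1 / 2) := by
    refine hasMean_of_split τ hP (fun _ => (1 : ℝ)) (hasMean_congr SE hSE (B := 1) (fun w => ?_)
      (fun w hw hq => ?_) (hasMean_one E))
    · split_ifs <;> simp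
    · rw [if_pos (hdegone w hw hq)]
  have hother := (hasMean_one F).sub hhalfP
  filter_upwards [hhalf (1 / 2 + (c - 3 / 4)) (by linarith),
    hother.eventually (eventually_lt_nhds (show (1 : ℝ) - 1 / 2 < 1 / 2 + (c - 3 / 4) / 4 by
      linarith)), eventually_ge_atTop 1] with x hx hx' hx1
  have hl : 0 ≤ Real.log x / x := div_nonneg (Real.log_nonneg hx1) (by linarith)
  rw [smul_eq_mul] at hx'
  have hsum : wSum (fun v => if frobTrace W₀ v = frobTrace W₀' v then (1 : ℝ) else 0) x ≤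
      wSum (fun w : HeightOneSpectrum (𝓞 E) =>
        if frobTrace (W₀.map (algebraMap (𝓞 F) (𝓞 E))) w =
          frobTrace (W₀'.map (algebraMap (𝓞 F) (𝓞 E))) w then (1 : ℝ) else 0) x / 2 +
      wSum (fun v => (1 : ℝ) - if P v then (1 : ℝ) else 0) x := by
    refine le_trans ?_ (add_le_add (le_trans (le_of_eq (wSum_split τ hP
      (fun v => if frobTrace W₀ v = frobTrace W₀' v then (1 : ℝ) else 0) x).symm) ?_) le_rfl)
    · rw [wSum, wSum, wSum, ← Finset.sum_add_distrib]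
      refine Finset.sum_le_sum fun v _ => ?_
      split_ifs <;> norm_num
    · refine div_le_div_of_nonneg_right (Finset.sum_le_sum fun w _ => ?_) two_pos.le
      by_cases hw : P (w.under (𝓞 F))
      swap
      · rw [if_neg hw]; split_ifs <;> norm_num
      rw [if_pos hw]
      have hN : Ideal.absNorm w.asIdeal = Ideal.absNorm (w.under (𝓞 F)).asIdeal := by
        obtain ⟨u, -, hu, hmem⟩ := hP _ hw
        rcases Finset.mem_insert.mp ((hmem w).mpr rfl) with e | e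
        · rw [← e] at hu; exact hu
        · rw [Finset.mem_singleton.mp e, conjPlace_asIdeal, absNorm_smul, hu,
            Finset.mem_singleton.mp e]
      rw [frobTrace_of_absNorm_eq W₀ (v := w.under (𝓞 F)) rfl hN,
        frobTrace_of_absNorm_eq W₀' (v := w.under (𝓞 F)) rfl hN]
  have := mul_le_mul_of_nonneg_left hsum hl
  linarith

end FA.DeuringCM

end
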