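import Fermat.Agent.DeuringCM.SatoTate
import Fermat.Agent.DeuringCM.Multiplicity
import Fermat.Agent.BiluTorus.Torus

/-!
# The joint law of two curves with different fields of multiplication

If the squarefree `d ≠ d'` are the two discriminants, a product of powers of values with
`(π - conj π) ^ 2 = d b ^ 2` and `(π' - conj π') ^ 2 = d' b' ^ 2` is a power of `q` only trivially,
so the pair of angles is equidistributed on the torus.
-/

set_option autoImplicit false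
set_option linter.style.haveILetI false
set_option linter.unusedSectionVars false

noncomputable section

open NumberField IsDedekindDomain MeasureTheory Filter Topology
open FA.AlgHecke (IsAlgChar IsPure IsNormPower)
open FA.Hecke (HasMean hasMean_congr hasMean_one)
open FA.PrimeEquidist
open scoped Classical Real ComplexConjugate

namespace FA.DeuringCM

theorem exists_pow_sub {α : ℂ} {a : ℤ} {q : ℕ} (h1 : α + conj α = a) (h2 : α * conj α = (q : ℂ))
    (j : ℕ) : ∃ u : ℤ, α ^ j - conj α ^ j = u * (α - conj α) := by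
  suffices ∀ j : ℕ, (∃ u : ℤ, α ^ j - conj α ^ j = u * (α - conj α)) ∧
      ∃ u : ℤ, α ^ (j + 1) - conj α ^ (j + 1) = u * (α - conj α) from (this j).1
  intro j
  induction j with
  | zero => exact ⟨⟨0, by simp⟩, ⟨1, by simp⟩⟩
  | succ j ih =>
    obtain ⟨⟨u, hu⟩, ⟨w, hw⟩⟩ := ih
    refine ⟨⟨w, hw⟩, ⟨a * w - q * u, ?_⟩⟩
    push_cast
    rw [← h1, ← h2]
    linear_combination (α + conj α) * hw - α * conj α * hu

/-- **Values in different quadratic fields.** -/
theorem not_pow_mul_eq {d d' : ℤ} (hd : Squarefree d) (hd0 : d < 0) (hd' : Squarefree d')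
    (hne : d ≠ d') {q : ℕ} (hq : q.Prime) {α β : ℂ} {a a' b b' : ℤ} (h1 : α + conj α = a)
    (h2 : α * conj α = (q : ℂ)) (h3 : β + conj β = a') (h4 : β * conj β = (q : ℂ))
    (hb : a ^ 2 - 4 * (q : ℤ) = d * b ^ 2) (hb' : a' ^ 2 - 4 * (q : ℤ) = d' * b' ^ 2)
    (hqa : ¬ (q : ℤ) ∣ a) {j : ℕ} (hj : 0 < j) (k : ℕ) (e : ℤ) :
    α ^ j * β ^ k ≠ (q : ℂ) ^ e := by
  intro h
  obtain ⟨u, hu⟩ := exists_pow_sub h1 h2 j
  obtain ⟨u', hu'⟩ := exists_pow_sub h3 h4 k
  have hsq : (α - conj α) ^ 2 = (d : ℂ) * (b : ℂ) ^ 2 := by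
    have hc : ((a ^ 2 - 4 * (q : ℤ) : ℤ) : ℂ) = ((d * b ^ 2 : ℤ) : ℂ) := by rw [hb]
    push_cast at hc
    rw [← hc, ← h1, ← h2]; ring
  have hsq' : (β - conj β) ^ 2 = (d' : ℂ) * (b' : ℂ) ^ 2 := by
    have hc : ((a' ^ 2 - 4 * (q : ℤ) : ℤ) : ℂ) = ((d' * b' ^ 2 : ℤ) : ℂ) := by rw [hb']
    push_cast at hc
    rw [← hc, ← h3, ← h4]; ring
  have h' := congrArg conj h
  rw [map_mul, map_pow, map_pow, map_zpow₀, Complex.conj_natCast] at h'
  have e1 : α ^ j * (q : ℂ) ^ k = (q : ℂ) ^ e * conj β ^ k := by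
    conv_lhs => rw [← h4]
    rw [mul_pow, ← mul_assoc, h]
  have e2 : conj α ^ j * (q : ℂ) ^ k = (q : ℂ) ^ e * β ^ k := by
    conv_lhs => rw [← h4, mul_comm β]
    rw [mul_pow, ← mul_assoc, h']
  have hne0 : α ^ j - conj α ^ j ≠ 0 := fun h0 =>
    hqa (dvd_of_pow_eq hq hj h1 h2 (sub_eq_zero.mp h0).symm)
  have hu0 : u ≠ 0 := fun h0 => hne0 (by rw [hu, h0, Int.cast_zero, zero_mul])
  have hb0 : b ≠ 0 := fun h0 => hne0 (by
    have : α - conj α = 0 := by
      rw [h0, Int.cast_zero, zero_pow two_ne_zero, mul_zero] at hsq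
      exact (pow_eq_zero_iff two_ne_zero).mp hsq
    rw [hu, this, mul_zero])
  have key : ((d : ℚ) * ((u : ℚ) * b * (q : ℚ) ^ k) ^ 2 : ℚ) =
      (d' : ℚ) * ((u' : ℚ) * b' * (q : ℚ) ^ e) ^ 2 := by
    apply Rat.cast_injective (α := ℂ)
    push_cast
    have e3 : (u : ℂ) * (α - conj α) * (q : ℂ) ^ k =
        -((q : ℂ) ^ e * ((u' : ℂ) * (β - conj β))) := by
      rw [← hu, ← hu', sub_mul, e1, e2]; ring
    linear_combination (congrArg (fun x => x ^ 2) e3) - ((u : ℂ) * (q : ℂ) ^ k) ^ 2 * hsq +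
      ((u' : ℂ) * (q : ℂ) ^ e) ^ 2 * hsq'
  set A : ℚ := (u : ℚ) * b * (q : ℚ) ^ k
  set B : ℚ := (u' : ℚ) * b' * (q : ℚ) ^ e
  have hA : A ≠ 0 := mul_ne_zero (mul_ne_zero (Int.cast_ne_zero.mpr hu0)
    (Int.cast_ne_zero.mpr hb0)) (pow_ne_zero _ (Nat.cast_ne_zero.mpr hq.ne_zero))
  refine hne (eq_of_mul_sq hd hd' hd0 (b := ((B / A).den : ℤ)) (b' := (B / A).num)
    (Int.natCast_ne_zero.mpr (B / A).den_nz) ?_)
  have h5 : (d : ℚ) = d' * (B / A) ^ 2 := by
    rw [div_pow, mul_div_assoc', ← key, mul_div_cancel_right₀ _ (pow_ne_zero 2 hA)]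
  rw [← Rat.num_div_den (B / A), div_pow, mul_div_assoc',
    eq_div_iff (pow_ne_zero 2 (Nat.cast_ne_zero.mpr (B / A).den_nz))] at h5
  exact_mod_cast h5

variable {F : Type} [Field F] [NumberField F]

/-- The character data at almost all primes. -/
structure QuadValues (f : Ideal (𝓞 F) →* ℂ) (d : ℤ) (a : HeightOneSpectrum (𝓞 F) → ℤ)
    (S : Set (HeightOneSpectrum (𝓞 F))) : Prop where
  trace : ∀ v ∉ S, f v.asIdeal + conj (f v.asIdeal) = a v
  norm : ∀ v ∉ S, f v.asIdeal * conj (f v.asIdeal) = (Ideal.absNorm v.asIdeal : ℂ)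
  disc : ∀ v ∉ S, ∃ b : ℤ, a v ^ 2 - 4 * (Ideal.absNorm v.asIdeal : ℤ) = d * b ^ 2
  ordinary : ∀ v ∉ S, (Ideal.absNorm v.asIdeal).Prime →
    ¬ (Ideal.absNorm v.asIdeal : ℤ) ∣ a v

theorem QuadValues.conj' {f : Ideal (𝓞 F) →* ℂ} {d : ℤ} {a : HeightOneSpectrum (𝓞 F) → ℤ}
    {S : Set (HeightOneSpectrum (𝓞 F))} (h : QuadValues f d a S) :
    QuadValues ((starRingEnd ℂ).toMonoidHom.comp f) d a S :=
  ⟨fun v hv => by
      show conj _ + conj (conj _) = _
      rw [Complex.conj_conj, add_comm, h.trace v hv],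
    fun v hv => by
      show conj _ * conj (conj _) = _
      rw [Complex.conj_conj, mul_comm, h.norm v hv], h.disc, h.ordinary⟩

/-- The normalised value. -/
def unitVal (f : Ideal (𝓞 F) →* ℂ) (v : HeightOneSpectrum (𝓞 F)) : ℂ :=
  f v.asIdeal * ((Ideal.absNorm v.asIdeal : ℕ) : ℂ) ^ (-(((1 : ℤ) : ℂ) / 2))

/-- **Monomials in the two values have mean zero.** -/
theorem hasMean_monomial_zero {d d' : ℤ} (hd : Squarefree d) (hd0 : d < 0) (hd' : Squarefree d')
    (hne : d ≠ d') {𝔣 𝔤 : Ideal (𝓞 F)} {n n' : (F →+* ℂ) → ℤ} {f g : Ideal (𝓞 F) →* ℂ}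
    (hf : IsAlgChar 𝔣 n f) (hw : IsPure n 1) (hg : IsAlgChar 𝔤 n' g) (hw' : IsPure n' 1)
    {a a' : HeightOneSpectrum (𝓞 F) → ℤ} {S : Set (HeightOneSpectrum (𝓞 F))} (hS : S.Finite)
    (hfv : QuadValues f d a S) (hgv : QuadValues g d' a' S) {j k : ℕ} (hjk : j ≠ 0 ∨ k ≠ 0) :
    HasMean (fun v => unitVal f v ^ j * unitVal g v ^ k) 0 := by
  have single : ∀ {𝔥 : Ideal (𝓞 F)} {m : (F →+* ℂ) → ℤ} {φ : Ideal (𝓞 F) →* ℂ} {e : ℤ}
      {c : HeightOneSpectrum (𝓞 F) → ℤ}, IsAlgChar 𝔥 m φ → IsPure m 1 → QuadValues φ e c S →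
      ∀ i : ℕ, i ≠ 0 → HasMean (fun v => unitVal φ v ^ i) 0 := fun {_} {_} {_} {_} {c} hφ hm hv i hi => by
    convert (hφ.powComp hi).hasMean_zero (FA.AlgHecke.isPure_mul hm i)
      (not_normPower_pow hφ hS (a := c) (fun v hvS hq =>
        ⟨hv.ordinary v hvS hq, hv.trace v hvS, hv.norm v hvS⟩) hi) using 2 with v
    rw [FA.AlgHecke.powComp_apply, unitVal, mul_pow, ← Complex.cpow_nat_mul]
    congr 2
    push_cast
    ring
  rcases Nat.eq_zero_or_pos j with rfl | hj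
  · simpa using single hg hw' hgv k (hjk.resolve_left (not_not.mpr rfl))
  rcases Nat.eq_zero_or_pos k with rfl | hk
  · simpa using single hf hw hfv j hj.ne'
  have hχ := isAlgChar_mul (hf.powComp hj.ne') (hg.powComp hk.ne')
  have hwχ : IsPure (fun σ => (j : ℤ) * n σ + (k : ℤ) * n' σ) ((j : ℤ) + k) := fun σ => by
    have h1 := hw σ; have h2 := hw' σ
    simp only at h1 h2 ⊢
    linear_combination (j : ℤ) * h1 + (k : ℤ) * h2
  convert hχ.hasMean_zero hwχ ?_ using 2 with v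
  · rw [MonoidHom.mul_apply, FA.AlgHecke.powComp_apply, FA.AlgHecke.powComp_apply, unitVal,
      unitVal, mul_pow, mul_pow, ← Complex.cpow_nat_mul, ← Complex.cpow_nat_mul, mul_mul_mul_comm,
      ← Complex.cpow_add _ _ (Nat.cast_ne_zero.mpr
        fun h0 => v.ne_bot (Ideal.absNorm_eq_zero_iff.mp h0))]
    congr 2
    push_cast
    ring
  rintro ⟨e, he⟩
  obtain ⟨v, hv, hvS, hq, -⟩ := exists_degree_one_class hχ.ne_bot 1 hS
  obtain ⟨b, hb⟩ := hfv.disc v hvS
  obtain ⟨b', hb'⟩ := hgv.disc v hvS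
  exact not_pow_mul_eq hd hd0 hd' hne hq (hfv.trace v hvS) (hfv.norm v hvS) (hgv.trace v hvS)
    (hgv.norm v hvS) hb hb' (hfv.ordinary v hvS hq) hj k e
    (he v.asIdeal v.ne_bot ((hχ.ne_zero_iff _ v.ne_bot).mpr hv))

/-- The pair of angles. -/
def anglePair (f g : Ideal (𝓞 F) →* ℂ) (v : HeightOneSpectrum (𝓞 F)) : UnitAddTorus (Fin 2) :=
  ![circlePoint (unitVal f v), circlePoint (unitVal g v)]

/-- **The pair is equidistributed on the torus.** -/
theorem equidistributed_pair {d d' : ℤ} (hd : Squarefree d) (hd0 : d < 0) (hd' : Squarefree d')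
    (hne : d ≠ d') {𝔣 𝔤 : Ideal (𝓞 F)} {n n' : (F →+* ℂ) → ℤ} {f g : Ideal (𝓞 F) →* ℂ}
    (hf : IsAlgChar 𝔣 n f) (hw : IsPure n 1) (hg : IsAlgChar 𝔤 n' g) (hw' : IsPure n' 1)
    {a a' : HeightOneSpectrum (𝓞 F) → ℤ} {S : Set (HeightOneSpectrum (𝓞 F))} (hS : S.Finite)
    (hfv : QuadValues f d a S) (hgv : QuadValues g d' a' S) :
    Equidistributed (volume : Measure (UnitAddTorus (Fin 2))) (anglePair f g) := by
  have := FA.BiluTorus.isProbability_torus (ι := Fin 2)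
  refine equidistributed_of_dense (S := Set.range (UnitAddTorus.mFourier (d := Fin 2)))
    ((Submodule.dense_iff_topologicalClosure_eq_top).2 UnitAddTorus.span_mFourier_closure_eq_top) ?_
  rintro _ ⟨e, rfl⟩
  rw [FA.BiluTorus.integral_mFourier]
  split_ifs with he
  · subst he
    simpa [UnitAddTorus.mFourier_zero] using (hasMean_one F).map Complex.ofRealCLM
  obtain ⟨f', 𝔣', n₁, hf', hw₁, hfv', hfeq⟩ : ∃ (f' : Ideal (𝓞 F) →* ℂ) (𝔣' : Ideal (𝓞 F))
      (n₁ : (F →+* ℂ) → ℤ), IsAlgChar 𝔣' n₁ f' ∧ IsPure n₁ 1 ∧ QuadValues f' d a S ∧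
      ∀ v, ‖unitVal f v‖ = 1 → unitVal f v ^ e 0 = unitVal f' v ^ (e 0).natAbs := by
    rcases (e 0).natAbs_eq with h | h
    · exact ⟨f, _, _, hf, hw, hfv, fun v _ => by rw [← zpow_natCast, ← h]⟩
    · refine ⟨_, _, _, isAlgChar_conj hf, fun σ => ?_, hfv.conj', fun v hv => ?_⟩
      · exact (hw (ComplexEmbedding.conjugate σ))
      · rw [h, Int.natAbs_neg, Int.natAbs_natCast, zpow_neg, zpow_natCast, ← inv_pow, Complex.inv_eq_conj hv, unitVal, map_mul,
          natCast_cpow_neg_half, Complex.conj_ofReal, ← natCast_cpow_neg_half]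
        rfl
  obtain ⟨g', 𝔤', n₂, hg', hw₂, hgv', hgeq⟩ : ∃ (g' : Ideal (𝓞 F) →* ℂ) (𝔤' : Ideal (𝓞 F))
      (n₂ : (F →+* ℂ) → ℤ), IsAlgChar 𝔤' n₂ g' ∧ IsPure n₂ 1 ∧ QuadValues g' d' a' S ∧
      ∀ v, ‖unitVal g v‖ = 1 → unitVal g v ^ e 1 = unitVal g' v ^ (e 1).natAbs := by
    rcases (e 1).natAbs_eq with h | h
    · exact ⟨g, _, _, hg, hw', hgv, fun v _ => by rw [← zpow_natCast, ← h]⟩
    · refine ⟨_, _, _, isAlgChar_conj hg, fun σ => ?_, hgv.conj', fun v hv => ?_⟩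
      · exact (hw' (ComplexEmbedding.conjugate σ))
      · rw [h, Int.natAbs_neg, Int.natAbs_natCast, zpow_neg, zpow_natCast, ← inv_pow, Complex.inv_eq_conj hv, unitVal, map_mul,
          natCast_cpow_neg_half, Complex.conj_ofReal, ← natCast_cpow_neg_half]
        rfl
  have hm := hasMean_monomial_zero hd hd0 hd' hne hf' hw₁ hg' hw₂ hS hfv' hgv'
    (j := (e 0).natAbs) (k := (e 1).natAbs) (by
      by_contra h
      simp only [not_or, not_not, Int.natAbs_eq_zero] at h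
      exact he (funext fun i => by fin_cases i <;> simp [h.1, h.2]))
  refine hasMean_congr _ ((FA.AlgHecke.finite_primes_dividing hf.ne_bot).union
    (FA.AlgHecke.finite_primes_dividing hg.ne_bot)) (B := 2) (fun v => ?_) (fun v hv _ => ?_) hm
  · refine (norm_sub_le _ _).trans ?_
    have h1 : ‖UnitAddTorus.mFourier e (anglePair f g v)‖ ≤ 1 :=
      (ContinuousMap.norm_coe_le_norm _ _).trans UnitAddTorus.mFourier_norm.le
    have h2 : ‖unitVal f' v‖ ≤ 1 := (hf'.torus hw₁).norm_le v.ne_bot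
    have h3 : ‖unitVal g' v‖ ≤ 1 := (hg'.torus hw₂).norm_le v.ne_bot
    rw [norm_mul, norm_pow, norm_pow]
    linarith [mul_le_one₀ (pow_le_one₀ (norm_nonneg _) h2 (n := (e 0).natAbs))
      (pow_nonneg (norm_nonneg _) _) (pow_le_one₀ (norm_nonneg _) h3 (n := (e 1).natAbs))]
  · simp only [Set.mem_union, Set.mem_ofPred_eq, not_or, not_not] at hv
    have h1 : ‖unitVal f v‖ = 1 := hf.norm_unit hw hv.1
    have h2 : ‖unitVal g v‖ = 1 := hg.norm_unit hw' hv.2
    show ∏ i, fourier (e i) (anglePair f g v i) = _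
    rw [Fin.prod_univ_two, anglePair, Matrix.cons_val_zero, Matrix.cons_val_one,
      Matrix.cons_val_fin_one, fourier_circlePoint h1, fourier_circlePoint h2, hfeq v h1, hgeq v h2]

/-- **The joint law of the real parts.** -/
theorem hasMean_re_le_pair {d d' : ℤ} (hd : Squarefree d) (hd0 : d < 0) (hd' : Squarefree d')
    (hne : d ≠ d') {𝔣 𝔤 : Ideal (𝓞 F)} {n n' : (F →+* ℂ) → ℤ} {f g : Ideal (𝓞 F) →* ℂ}
    (hf : IsAlgChar 𝔣 n f) (hw : IsPure n 1) (hg : IsAlgChar 𝔤 n' g) (hw' : IsPure n' 1)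
    {a a' : HeightOneSpectrum (𝓞 F) → ℤ} {S : Set (HeightOneSpectrum (𝓞 F))} (hS : S.Finite)
    (hfv : QuadValues f d a S) (hgv : QuadValues g d' a' S) {t t' : ℝ} (ht : -1 ≤ t) (ht₁ : t ≤ 1)
    (ht' : -1 ≤ t') (ht₁' : t' ≤ 1) :
    HasMean (fun v => if (a v : ℝ) ≤ 2 * t * Real.sqrt (Ideal.absNorm v.asIdeal) ∧
        (a' v : ℝ) ≤ 2 * t' * Real.sqrt (Ideal.absNorm v.asIdeal) then (1 : ℝ) else 0)
      ((1 - Real.arccos t / π) * (1 - Real.arccos t' / π)) := by
  have := FA.BiluTorus.isProbability_torus (ι := Fin 2)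
  set r : Fin 2 → ℝ := ![1 / 2 - Real.arccos t / (2 * π), 1 / 2 - Real.arccos t' / (2 * π)]
  have hπ := Real.pi_pos
  have hr : ∀ i, 0 ≤ r i ∧ 2 * r i ≤ 1 := fun i => by
    have h1 := Real.arccos_le_pi
    have h2 := Real.arccos_nonneg
    fin_cases i <;> simp [r] <;> constructor <;>
      first
        | (rw [div_le_iff₀ (by positivity)]; nlinarith [h1 t, h1 t'])
        | (nlinarith [div_nonneg (h2 t) (show 0 ≤ 2 * π by positivity),
            div_nonneg (h2 t') (show 0 ≤ 2 * π by positivity)])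
  set B : Set (UnitAddTorus (Fin 2)) :=
    Set.univ.pi fun i => Metric.closedBall (((1 / 2 : ℝ)) : AddCircle (1 : ℝ)) (r i)
  have hvol : ∀ i, (volume : Measure (AddCircle (1 : ℝ))).real
      (Metric.closedBall (((1 / 2 : ℝ)) : AddCircle (1 : ℝ)) (r i)) = 2 * r i := fun i => by
    rw [measureReal_def, AddCircle.volume_closedBall,
      ENNReal.toReal_ofReal (le_min one_pos.le (by linarith [(hr i).1])), min_eq_right (hr i).2]
  have hm : (volume : Measure (UnitAddTorus (Fin 2))).real B =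
      (1 - Real.arccos t / π) * (1 - Real.arccos t' / π) := by
    rw [measureReal_def, volume_pi_pi, ENNReal.toReal_prod, Fin.prod_univ_two, ← measureReal_def,
      ← measureReal_def, hvol, hvol]
    simp only [r, Matrix.cons_val_zero, Matrix.cons_val_one, Matrix.cons_val_fin_one]
    field_simp
  have hnull : (volume : Measure (UnitAddTorus (Fin 2))) (frontier B) = 0 := by
    set U : Set (UnitAddTorus (Fin 2)) :=
      Set.univ.pi fun i => Metric.ball (((1 / 2 : ℝ)) : AddCircle (1 : ℝ)) (r i)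
    have hUo : IsOpen U := isOpen_set_pi Set.finite_univ fun i _ => Metric.isOpen_ball
    have hUB : U ⊆ B := Set.pi_mono fun i _ => Metric.ball_subset_closedBall
    have heq : (volume : Measure (UnitAddTorus (Fin 2))) U = volume B := by
      rw [volume_pi_pi, volume_pi_pi]
      exact Finset.prod_congr rfl fun i _ =>
        (measure_congr AddCircle.closedBall_ae_eq_ball).symm
    refine measure_mono_null (t := B \ U) (fun x hx => ⟨?_, fun hx' => hx.2
      (interior_maximal hUB hUo hx')⟩) ?_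
    · exact (isClosed_set_pi fun i _ => Metric.isClosed_closedBall).frontier_subset hx
    · rw [measure_sdiff hUB hUo.measurableSet.nullMeasurableSet (measure_ne_top _ _), heq,
        tsub_self]
  rw [← hm]
  refine hasMean_congr _ ((hS.union (FA.AlgHecke.finite_primes_dividing hf.ne_bot)).union
    (FA.AlgHecke.finite_primes_dividing hg.ne_bot)) (B := 1) (fun v => ?_) (fun v hv _ => ?_)
    ((equidistributed_pair hd hd0 hd' hne hf hw hg hw' hS hfv hgv).hasMean_mem hnull)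
  · unfold Set.indicator; split_ifs <;> simp
  · simp only [Set.mem_union, Set.mem_ofPred_eq, not_or, not_not] at hv
    have key : ∀ {φ : Ideal (𝓞 F) →* ℂ} {c : ℤ} {u : ℝ}, ‖unitVal φ v‖ = 1 →
        φ v.asIdeal + conj (φ v.asIdeal) = c → -1 ≤ u → u ≤ 1 →
        (circlePoint (unitVal φ v) ∈ Metric.closedBall (((1 / 2 : ℝ)) : AddCircle (1 : ℝ))
          (1 / 2 - Real.arccos u / (2 * π)) ↔
          (c : ℝ) ≤ 2 * u * Real.sqrt (Ideal.absNorm v.asIdeal)) := fun {φ} {c} {u} h1 h2 hu hu' => by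
      rw [← re_normalised_le_iff (Nat.pos_of_ne_zero fun h0 =>
        v.ne_bot (Ideal.absNorm_eq_zero_iff.mp h0)) h2 u]
      rw [show φ v.asIdeal * _ = unitVal φ v from rfl, re_le_iff_mem_arc h1 hu hu',
        ← circlePoint_mem_arc h1]
      ring_nf
    have k1 := key (hf.norm_unit hw hv.1.2) (hfv.trace v hv.1.1) ht ht₁
    have k2 := key (hg.norm_unit hw' hv.2) (hgv.trace v hv.1.1) ht' ht₁'
    simp only [Set.indicator, B, Set.mem_pi, Set.mem_univ, true_implies, Fin.forall_fin_two,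
      anglePair, r, Matrix.cons_val_zero, Matrix.cons_val_one, Matrix.cons_val_fin_one, k1, k2]

end FA.DeuringCM

end
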