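import Fermat.Agent.DeuringCM.SymPair
import Fermat.Agent.DeuringCM.DescentLSeries

/-!
# The characters `f ^ a conj f ^ b` over the quadratic extension

If `f (τ w) = conj (f w)`, the primitive character of `f ^ a conj f ^ b` keeps this symmetry at every
place, so its completed L-series is real and its functional equation has a sign.
-/

set_option autoImplicit false
set_option linter.style.haveILetI false
set_option linter.unusedSectionVars false

noncomputable section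

open NumberField NumberField.InfinitePlace IsDedekindDomain Filter Topology
open FA.AlgHecke (IsAlgChar IsPure IsNormPower typeVal typeVal_ne_zero)
open FA.Hecke (IsRayElt rayClass rayClass_eq_iff)
open FA.Ext (primeIdeal)
open scoped Pointwise nonZeroDivisors Classical ComplexConjugate

namespace FA.DeuringCM

variable {E : Type} [Field E] [NumberField E]

/-- **The conjugate of a character of symmetric type by an automorphism.** -/
theorem exists_conj_char_of {K₀ : Type} [Field K₀] [Algebra K₀ E] (τ : E ≃ₐ[K₀] E)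
    {n : (E →+* ℂ) → ℤ}
    (hn : ∀ σ : E →+* ℂ, n (ComplexEmbedding.conjugate (σ.comp (τ : E →+* E))) = n σ)
    {𝔣 : Ideal (𝓞 E)} {f : Ideal (𝓞 E) →* ℂ} (hf : IsAlgChar 𝔣 n f) :
    ∃ (𝔣' : Ideal (𝓞 E)) (g : Ideal (𝓞 E) →* ℂ), IsAlgChar 𝔣' n g ∧
      (∀ I : Ideal (𝓞 E), (τ • I) ⊔ 𝔣 = ⊤ → I ⊔ 𝔣' = ⊤) ∧
      ∀ I : Ideal (𝓞 E), g I = conj (f (τ • I)) := by
  set t : 𝓞 E →+* 𝓞 E := MulSemiringAction.toRingHom (E ≃ₐ[K₀] E) (𝓞 E) τ
  have hsmul : ∀ I : Ideal (𝓞 E), τ • I = I.map t := fun _ => rfl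
  let g : Ideal (𝓞 E) →* ℂ :=
    { toFun := fun I => conj (f (τ • I))
      map_one' := by rw [Ideal.one_eq_top, hsmul, Ideal.map_top, ← Ideal.one_eq_top, map_one, map_one]
      map_mul' := fun I J => by rw [hsmul, Ideal.map_mul, map_mul, map_mul, ← hsmul, ← hsmul] }
  have hsup : ∀ I : Ideal (𝓞 E), (τ • I) ⊔ 𝔣 = ⊤ ↔ I ⊔ τ⁻¹ • 𝔣 = ⊤ := fun I => by
    have e : τ • (I ⊔ τ⁻¹ • 𝔣) = (τ • I) ⊔ 𝔣 := by
      rw [hsmul, Ideal.map_sup, ← hsmul, ← hsmul, smul_inv_smul]
    constructor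
    · intro h
      rw [← inv_smul_smul τ (I ⊔ τ⁻¹ • 𝔣), e, h]
      exact Ideal.map_top _
    · intro h
      rw [← e, h, hsmul, Ideal.map_top]
  refine ⟨τ⁻¹ • 𝔣, g, ⟨?_, fun I hI => ?_, fun x hx => ?_⟩, fun I h => (hsup I).mp h,
    fun I => rfl⟩
  · intro h
    have := congrArg (fun J : Ideal (𝓞 E) => τ • J) h
    simp only [smul_inv_smul] at this
    exact hf.ne_bot (this.trans (by rw [hsmul, Ideal.map_bot]))
  · show conj (f (τ • I)) ≠ 0 ↔ _
    have hI' : τ • I ≠ ⊥ := fun h => hI (by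
      have := congrArg (fun J : Ideal (𝓞 E) => τ⁻¹ • J) h
      simp only [inv_smul_smul] at this
      exact this.trans Ideal.map_bot)
    rw [map_ne_zero_iff _ (starRingEnd ℂ).injective, hf.ne_zero_iff _ hI', hsup]
  · have htx : IsRayElt 𝔣 (τ • x) := by
      refine ⟨fun h => hx.1 (by simpa using congrArg (τ⁻¹ • ·) h), ?_, fun φ => ?_⟩
      · have h := Ideal.smul_mem_pointwise_smul τ (x - 1) (τ⁻¹ • 𝔣) hx.2.1
        rwa [smul_inv_smul, smul_sub, smul_one] at h
      · exact hx.2.2 (φ.comp (τ : E →+* E))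
    show conj (f (τ • Ideal.span {x})) = _
    rw [show τ • Ideal.span {x} = Ideal.span {τ • x} by
        rw [hsmul, Ideal.map_span, Set.image_singleton]; rfl,
      hf.ray _ htx, typeVal, typeVal, map_prod]
    refine Fintype.prod_equiv (Equiv.mk (fun σ => ComplexEmbedding.conjugate (σ.comp (τ : E →+* E)))
      (fun σ => (ComplexEmbedding.conjugate σ).comp ((τ.symm : E ≃ₐ[K₀] E) : E →+* E))
      (fun σ => RingHom.ext fun z => by simp)
      (fun σ => RingHom.ext fun z => by simp)) _ _ fun σ => ?_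
    simp only [Equiv.coe_fn_mk]
    rw [hn σ, map_zpow₀]
    rfl

variable {F : Type} [Field F] [NumberField F] [Algebra F E] [IsGalois F E]

/-- **A symmetric character and its completed L-series.** -/
theorem exists_symmChar {d : ℤ} (hd0 : d < 0) {s : E} (hs : s ^ 2 = (d : E)) (ψ : E →+* ℂ)
    (hdeg : Module.finrank F E = 2) (τ : E ≃ₐ[F] E) (hτs : τ s = -s)
    {𝔣 : Ideal (𝓞 E)} {f : Ideal (𝓞 E) →* ℂ}
    (hf : IsAlgChar 𝔣 (fun σ => if σ s = ψ s then 1 else 0) f)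
    (hsymm : ∀ w : HeightOneSpectrum (𝓞 E), f (τ • w.asIdeal) = conj (f w.asIdeal)) {a b : ℕ}
    (hab : b < a) (hne : ¬ IsNormPower (mixed f a b)) :
    ∃ (A : ℕ) (g : HeightOneSpectrum (𝓞 E) → ℂ) (ε : ℂ) (Λ : ℂ → ℂ), 0 < A ∧
      A ∣ (discr E).natAbs * Ideal.absNorm 𝔣 ∧
      (∀ w : HeightOneSpectrum (𝓞 E), w.asIdeal ⊔ 𝔣 = ⊤ →
        g w = f w.asIdeal ^ a * conj (f w.asIdeal) ^ b) ∧
      (∀ w : HeightOneSpectrum (𝓞 E),
        g w = 0 ∨ ‖g w‖ = Real.sqrt (Ideal.absNorm w.asIdeal) ^ (a + b)) ∧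
      (∀ w : HeightOneSpectrum (𝓞 E), g (conjPlace τ w) = conj (g w)) ∧
      (ε = 1 ∨ ε = -1) ∧ Differentiable ℂ Λ ∧
      (∀ z, Λ (((a + b : ℕ) : ℂ) + 1 - z) = ε * Λ z) ∧
      (∀ z : ℂ, 1 + ((a + b : ℕ) : ℝ) / 2 < z.re → ∃ L : ℂ,
        HasProd (fun w : HeightOneSpectrum (𝓞 E) =>
          (1 - g w * ((Ideal.absNorm w.asIdeal : ℕ) : ℂ) ^ (-z))⁻¹) L ∧
        Λ z = (A : ℂ) ^ (z / 2) *
          Complex.Gammaℂ (z - (b : ℂ)) ^ Module.finrank ℚ F * L) ∧
      ∀ z : ℂ, 1 + ((a + b : ℕ) : ℝ) / 2 ≤ z.re → Λ z ≠ 0 := by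
  have hχ := isAlgChar_mixed hf (show a ≠ 0 by omega) b
  obtain ⟨w, 𝔣', g, e, C, Λ, hw, hdvd, hg, hag, hmin, -, hC, hΛ, hL, hfe⟩ :=
    FA.AlgHeckeFE.exists_functional_equation hχ hne
  obtain rfl : w = ((a + b : ℕ) : ℤ) := by
    obtain ⟨σ⟩ : Nonempty (E →+* ℂ) := inferInstance
    refine (hw σ).symm.trans ?_
    have h := sum_type_eq_one hd0 hs ψ σ
    simp only [show ComplexEmbedding.conjugate (ComplexEmbedding.conjugate σ) = σ from star_star σ]
    push_cast
    linear_combination ((a : ℤ) + b) * h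
  have hn : ∀ σ : E →+* ℂ, (fun σ : E →+* ℂ => (a : ℤ) * (if σ s = ψ s then 1 else 0) +
      (b : ℤ) * (if ComplexEmbedding.conjugate σ s = ψ s then 1 else 0))
        (ComplexEmbedding.conjugate (σ.comp (τ : E →+* E))) =
      (a : ℤ) * (if σ s = ψ s then 1 else 0) +
        (b : ℤ) * (if ComplexEmbedding.conjugate σ s = ψ s then 1 else 0) := fun σ => by
    have h1 : σ ((τ : E →+* E) s) = -σ s := by
      rw [show ((τ : E →+* E) s) = τ s from rfl, hτs, map_neg]
    simp only [show ∀ φ : E →+* ℂ, ComplexEmbedding.conjugate (ComplexEmbedding.conjugate φ) = φ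
      from star_star, ComplexEmbedding.conjugate_coe_eq, RingHom.comp_apply, h1, map_neg,
      (apply_sqrt hd0 hs σ).1, neg_neg]
  obtain ⟨𝔣₂, g₂, hg₂, hcop, hg₂I⟩ := exists_conj_char_of τ hn hg
  have hmix : ∀ u : HeightOneSpectrum (𝓞 E), u.asIdeal ⊔ 𝔣 = ⊤ →
      g u.asIdeal = f u.asIdeal ^ a * conj (f u.asIdeal) ^ b := fun u hu =>
    hag _ u.ne_bot ((hχ.ne_zero_iff _ u.ne_bot).mpr hu)
  have hfin : {u : HeightOneSpectrum (𝓞 E) | g₂ u.asIdeal ≠ g u.asIdeal}.Finite := by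
    refine ((FA.AlgHecke.finite_primes_dividing hf.ne_bot).union
      ((FA.AlgHecke.finite_primes_dividing hf.ne_bot).image (conjPlace τ))).subset fun u hu => ?_
    by_contra h
    simp only [Set.mem_union, Set.mem_image, Set.mem_ofPred_eq, not_or, not_not, not_exists,
      not_and] at h
    have hu' : (conjPlace τ u).asIdeal ⊔ 𝔣 = ⊤ := by
      by_contra h'
      exact h.2 _ h' (HeightOneSpectrum.ext (smul_smul_self hdeg τ u.asIdeal))
    refine hu ?_
    rw [hg₂I, ← conjPlace_asIdeal, hmix _ hu', hmix _ h.1, conjPlace_asIdeal, hsymm, map_mul,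
      map_pow, map_pow, Complex.conj_conj]
  have hdvd₂ : 𝔣' ∣ 𝔣₂ := hmin 𝔣₂ g₂ hg₂ hfin
  have hstable : ∀ u : HeightOneSpectrum (𝓞 E), (τ • u.asIdeal) ⊔ 𝔣' = ⊤ → u.asIdeal ⊔ 𝔣' = ⊤ :=
    fun u h => coprime_mono (Ideal.le_of_dvd hdvd₂) (hcop _ h)
  have hgsymm : ∀ u : HeightOneSpectrum (𝓞 E),
      g (τ • u.asIdeal) = conj (g u.asIdeal) := fun u => by
    by_cases h : (τ • u.asIdeal) ⊔ 𝔣' = ⊤
    · rw [← eq_of_agree hg₂ hg hfin (hcop _ h) (hstable u h), hg₂I, Complex.conj_conj]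
    · have h1 : g (τ • u.asIdeal) = 0 :=
        not_not.mp fun e => h ((hg.ne_zero_iff _ (conjPlace τ u).ne_bot).mp e)
      have h2 : g u.asIdeal = 0 := not_not.mp fun e => h (hstable (conjPlace τ u) (by
        rw [conjPlace_asIdeal, smul_smul_self hdeg]
        exact (hg.ne_zero_iff _ u.ne_bot).mp e))
      rw [h1, h2, map_zero]
  haveI : IsEmpty {v : InfinitePlace E // IsReal v} :=
    ⟨fun v => (not_isReal_iff_isComplex.mpr (totallyComplex_of_sqrt hd0 hs v.1)) v.2⟩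
  have hcard : Fintype.card {v : InfinitePlace E // IsComplex v} = Module.finrank ℚ F := by
    have h := card_add_two_mul_card_eq_rank E
    rw [NumberField.InfinitePlace.nrRealPlaces, NumberField.InfinitePlace.nrComplexPlaces,
      Fintype.card_eq_zero (α := {v : InfinitePlace E // IsReal v}), zero_add,
      ← Module.finrank_mul_finrank ℚ F E, hdeg, mul_comm] at h
    exact Nat.eq_of_mul_eq_mul_right two_pos h
  have hgamma : ∀ z, FA.AlgHeckeFE.gammaFactor (fun σ : E →+* ℂ =>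
      (a : ℤ) * (if σ s = ψ s then 1 else 0) +
        (b : ℤ) * (if ComplexEmbedding.conjugate σ s = ψ s then 1 else 0)) e ((a + b : ℕ) : ℤ) z =
      Complex.Gammaℂ (z - (b : ℂ)) ^ Module.finrank ℚ F := fun z => by
    rw [FA.AlgHeckeFE.gammaFactor, Fintype.prod_empty, one_mul, ← hcard,
      ← Finset.card_univ, ← Finset.prod_const]
    refine Finset.prod_congr rfl fun v _ => ?_
    have h := sum_type_eq_one hd0 hs ψ v.1.embedding
    simp only [show ComplexEmbedding.conjugate (ComplexEmbedding.conjugate v.1.embedding) =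
      v.1.embedding from star_star _]
    have hmin : min ((a : ℤ) * (if v.1.embedding s = ψ s then 1 else 0) +
          (b : ℤ) * (if ComplexEmbedding.conjugate v.1.embedding s = ψ s then 1 else 0))
        ((a : ℤ) * (if ComplexEmbedding.conjugate v.1.embedding s = ψ s then 1 else 0) +
          (b : ℤ) * (if v.1.embedding s = ψ s then 1 else 0)) = (b : ℤ) := by
      split_ifs at h ⊢ <;> omega
    rw [hmin, Int.cast_natCast]
  set A : ℕ := (discr E).natAbs * Ideal.absNorm 𝔣' with hA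
  have hA0 : 0 < A := Nat.mul_pos (Int.natAbs_pos.mpr (discr_ne_zero E))
    (Nat.pos_of_ne_zero fun h0 => hg.ne_bot (Ideal.absNorm_eq_zero_iff.mp h0))
  have hAR : |((discr E : ℤ) : ℝ)| * ((Ideal.absNorm 𝔣' : ℕ) : ℝ) = (A : ℝ) := by
    rw [hA, Nat.cast_mul, Nat.cast_natAbs, Int.cast_abs]
  have hne' : ¬ IsNormPower g := fun ⟨k, hk⟩ => hne ⟨k, fun I hI h0 => by
    rw [← hag I hI h0]
    exact hk I hI (by rw [hag I hI h0]; exact h0)⟩
  obtain ⟨G, hG, hG', hG0⟩ := hg.exists_entire hw hne'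
  -- no zeros
  have h0 : ∀ y : ℂ, 1 + ((a + b : ℕ) : ℝ) / 2 ≤ y.re → Λ y ≠ 0 := fun y hy => by
    have hb2 : (b : ℝ) < 1 + ((a + b : ℕ) : ℝ) / 2 := by
      have : (b : ℝ) < (a : ℝ) := by exact_mod_cast hab
      push_cast; linarith
    have hyb : 0 < (y - (b : ℂ)).re := by rw [Complex.sub_re, Complex.natCast_re]; linarith
    have hN' : (A : ℂ) ≠ 0 := Nat.cast_ne_zero.mpr hA0.ne'
    set T : ℂ → ℂ := fun u => (A : ℂ) ^ (u / 2) *
      Complex.Gammaℂ (u - (b : ℂ)) ^ Module.finrank ℚ F * G u with hT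
    have hcont : ContinuousAt T y :=
      (((differentiable_id.div_const (2 : ℂ)).const_cpow (Or.inl hN')).continuous.continuousAt.mul
        (((continuousAt_Gammaℂ' hyb).comp (f := fun u : ℂ => u - (b : ℂ))
          (continuous_sub_right (b : ℂ)).continuousAt).pow _)).mul hG.continuous.continuousAt
    rw [eq_of_halfPlane hy hΛ.continuous.continuousAt hcont fun u hu => by
      have hu' : 1 + (((a + b : ℕ) : ℤ) : ℝ) / 2 < u.re := by push_cast; push_cast at hu; linarith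
      obtain ⟨L, hs', e'⟩ := hL u hu'
      rw [e', hgamma, hAR, Complex.ofReal_natCast, hT, hs'.unique (hG' u hu')]]
    exact mul_ne_zero (mul_ne_zero (Complex.cpow_ne_zero_iff.mpr (Or.inl hN'))
      (pow_ne_zero _ (Gammaℂ_ne_zero' hyb))) (hG0 y (by push_cast; push_cast at hy; linarith))
  set W : ℂ := ((a + b : ℕ) : ℂ) + 1 with hW
  -- the series is real
  have hreal : ∀ z : ℂ, conj (Λ (conj z)) = Λ z := by
    have hd' : Differentiable ℂ fun z => conj (Λ (conj z)) := fun z => by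
      have h1 := (hΛ (conj z)).conj_conj
      rwa [Complex.conj_conj] at h1
    refine congrFun ((Complex.analyticOnNhd_univ_iff_differentiable.mpr hd').eq_of_eventuallyEq
      (Complex.analyticOnNhd_univ_iff_differentiable.mpr hΛ) (z₀ := W + 1) ?_)
    filter_upwards [(isOpen_lt continuous_const Complex.continuous_re).mem_nhds
      (show (1 + (((a + b : ℕ) : ℤ) : ℝ) / 2) < (W + 1).re by
        simp only [W, Complex.add_re, Complex.natCast_re, Complex.one_re]
        have : (0 : ℝ) ≤ ((a + b : ℕ) : ℝ) := Nat.cast_nonneg _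
        push_cast; push_cast at this; linarith)] with z hz
    have hz2 : 1 + (((a + b : ℕ) : ℤ) : ℝ) / 2 < (conj z).re := by rwa [Complex.conj_re]
    obtain ⟨L₁, hs₁, e₁⟩ := hL z hz
    obtain ⟨L₂, hs₂, e₂⟩ := hL (conj z) hz2
    obtain ⟨L₁', hs₁', hp₁, -⟩ := FA.AlgHeckeFE.hasProd_algChar hg hw hz
    obtain ⟨L₂', hs₂', hp₂, -⟩ := FA.AlgHeckeFE.hasProd_algChar hg hw hz2
    obtain rfl := hs₁'.unique hs₁
    obtain rfl := hs₂'.unique hs₂
    let p : HeightOneSpectrum (𝓞 E) ≃ HeightOneSpectrum (𝓞 E) :=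
      Function.Involutive.toPerm (conjPlace τ) fun u =>
        HeightOneSpectrum.ext (smul_smul_self hdeg τ u.asIdeal)
    have hp : HasProd (fun u : HeightOneSpectrum (𝓞 E) =>
        (1 - g u.asIdeal * ((Ideal.absNorm u.asIdeal : ℕ) : ℂ) ^ (-z))⁻¹) (conj L₂') := by
      refine (p.hasProd_iff.mpr (hp₂.map (starRingEnd ℂ) Complex.continuous_conj)).congr_fun
        fun u => ?_
      show _ = conj ((1 - g (τ • u.asIdeal) *
        ((Ideal.absNorm (τ • u.asIdeal) : ℕ) : ℂ) ^ (-conj z))⁻¹)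
      rw [map_inv₀, map_sub, map_one, map_mul, FA.AlgHeckeFE.conj_natCast_cpow, map_neg,
        Complex.conj_conj, absNorm_smul, hgsymm, Complex.conj_conj]
    rw [hp₁.unique hp] at e₁
    show conj (Λ (conj z)) = Λ z
    rw [e₁, e₂, hAR, hgamma, hgamma, map_mul, map_mul, map_pow, Complex.ofReal_natCast,
      FA.AlgHeckeFE.conj_natCast_cpow, FA.AlgHeckeFE.conj_Gammaℂ, map_sub, Complex.conj_conj,
      Complex.conj_natCast, map_div₀, Complex.conj_conj, map_ofNat]
  have hfe' : ∀ z : ℂ, Λ z = C * Λ (W - z) := fun z => by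
    rw [hfe z, ← hreal (W - z)]
    congr 2
    simp only [W, map_sub, map_add, map_one, Complex.conj_natCast, Int.cast_natCast]
    ring
  have hC2 : C = 1 ∨ C = -1 := by
    have h2 := hfe' (W - (W + 1))
    rw [sub_sub_cancel] at h2
    have h3 : (C ^ 2 - 1) * Λ (W + 1) = 0 := by
      linear_combination -(hfe' (W + 1)) - C * h2
    refine sq_eq_one_iff.mp (sub_eq_zero.mp ((mul_eq_zero.mp h3).resolve_right (h0 _ ?_)))
    simp only [W, Complex.add_re, Complex.natCast_re, Complex.one_re]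
    have : (0 : ℝ) ≤ ((a + b : ℕ) : ℝ) := Nat.cast_nonneg _
    linarith
  refine ⟨A, fun u => g u.asIdeal, C, Λ, hA0,
    mul_dvd_mul_left _ (Ideal.absNorm_dvd_absNorm_of_le (Ideal.dvd_iff_le.mp hdvd)), hmix,
    fun u => ?_, fun u => hgsymm u, hC2, hΛ, fun z => ?_, fun z hz => ?_, h0⟩
  · show g u.asIdeal = 0 ∨ ‖g u.asIdeal‖ = _
    refine (em (g u.asIdeal = 0)).imp id fun hgv => ?_
    have h := hg.norm_unit hw ((hg.ne_zero_iff _ u.ne_bot).mp hgv)
    set q := Ideal.absNorm u.asIdeal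
    have hq : (0 : ℝ) < (q : ℝ) :=
      Nat.cast_pos.mpr (Nat.pos_of_ne_zero fun h' => u.ne_bot (Ideal.absNorm_eq_zero_iff.mp h'))
    rw [norm_mul, Complex.norm_natCast_cpow_of_pos (by exact_mod_cast hq)] at h
    have hre : (-((((a + b : ℕ) : ℤ) : ℂ) / 2)).re = -(((a + b : ℕ) : ℝ) / 2) := by simp
    rw [hre, Real.rpow_neg hq.le, mul_inv_eq_one₀ (Real.rpow_pos_of_pos hq _).ne'] at h
    rw [h, Real.sqrt_eq_rpow, ← Real.rpow_natCast, ← Real.rpow_mul hq.le]
    congr 1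
    ring
  · have h4 := hfe' (W - z)
    rwa [sub_sub_cancel] at h4
  · have hz1 : 1 + (((a + b : ℕ) : ℤ) : ℝ) / 2 < z.re := by push_cast; push_cast at hz; linarith
    obtain ⟨L₁, hs₁, e₁⟩ := hL z hz1
    obtain ⟨L₁', hs₁', hp₁, -⟩ := FA.AlgHeckeFE.hasProd_algChar hg hw hz1
    obtain rfl := hs₁'.unique hs₁
    exact ⟨L₁', hp₁, by rw [e₁, hAR, hgamma, Complex.ofReal_natCast]⟩

end FA.DeuringCM

end
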