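import Fermat.Agent.Root.SummaryHeckeLSeries

/-!
# Primes of degree one in the ray classes

Every narrow ray class contains infinitely many primes of prime norm; homomorphisms agreeing with
one of two others outside a subgroup whose quotient is not of order two agree with one of them.
-/

set_option autoImplicit false
set_option linter.style.haveILetI false
set_option linter.unusedSectionVars false

noncomputable section

open NumberField IsDedekindDomain Filter Topology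
open FA.Hecke (coprimeIdeals IsRayElt RayClassGroup rayClass rayClass_eq_iff rayClass_surjective
  finite_rayClassGroup rayInd hasMean_rayInd HasMean wSum hasMean_congr)
open FA.Ext (primeIdeal)
open scoped nonZeroDivisors Classical

namespace FA.DeuringCM

variable {F : Type*} [Field F] [NumberField F] {𝔪 : Ideal (𝓞 F)}

/-- **Primes of degree one in every class.** -/
theorem infinite_degree_one_class (h𝔪 : 𝔪 ≠ ⊥) (γ : RayClassGroup 𝔪) :
    {v : HeightOneSpectrum (𝓞 F) | (Ideal.absNorm v.asIdeal).Prime ∧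
      ∃ hv : v.asIdeal ⊔ 𝔪 = ⊤, rayClass h𝔪 ⟨primeIdeal v, hv⟩ = γ}.Infinite := by
  intro hfin
  have := finite_rayClassGroup h𝔪
  have h0 : HasMean (rayInd h𝔪 γ) (0 : ℝ) := by
    refine hasMean_congr _ hfin (B := 1) (fun v => ?_) (fun v hv hp => ?_)
      (b := fun _ => (0 : ℝ)) (by simp [HasMean, wSum])
    · rw [sub_zero, rayInd]
      split_ifs <;> simp
    · rw [rayInd, if_neg]
      exact fun h => hv ⟨hp, h⟩
  exact inv_ne_zero (Nat.cast_ne_zero.mpr (Nat.card_pos (α := RayClassGroup 𝔪)).ne')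
    (tendsto_nhds_unique (hasMean_rayInd h𝔪 γ) h0)

/-- A prime of degree one in a class, avoiding a finite set. -/
theorem exists_degree_one_class (h𝔪 : 𝔪 ≠ ⊥) (γ : RayClassGroup 𝔪)
    {S : Set (HeightOneSpectrum (𝓞 F))} (hS : S.Finite) :
    ∃ (v : HeightOneSpectrum (𝓞 F)) (hv : v.asIdeal ⊔ 𝔪 = ⊤), v ∉ S ∧
      (Ideal.absNorm v.asIdeal).Prime ∧ rayClass h𝔪 ⟨primeIdeal v, hv⟩ = γ := by
  obtain ⟨v, ⟨hp, hv, hγ⟩, hvS⟩ := ((infinite_degree_one_class h𝔪 γ).sdiff hS).nonempty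
  exact ⟨v, hv, hvS, hp, hγ⟩

/-- The ideals prime to a multiple are prime to the ideal. -/
theorem coprime_mono {𝔫 : Ideal (𝓞 F)} (h : 𝔫 ≤ 𝔪) {I : Ideal (𝓞 F)} (hI : I ⊔ 𝔫 = ⊤) :
    I ⊔ 𝔪 = ⊤ :=
  top_le_iff.mp (hI ▸ sup_le_sup_left h I)

/-- A map of the ideals constant on the classes, on the classes. -/
theorem exists_lift {M : Type*} [MulOneClass M] (h𝔪 : 𝔪 ≠ ⊥) (φ : coprimeIdeals 𝔪 →* M)
    (hφ : ∀ I J, rayClass h𝔪 I = rayClass h𝔪 J → φ I = φ J) :
    ∃ f : RayClassGroup 𝔪 →* M, ∀ I, f (rayClass h𝔪 I) = φ I := by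
  choose J hJ using rayClass_surjective h𝔪
  refine ⟨⟨⟨fun γ => φ (J γ), ?_⟩, fun γ δ => ?_⟩, fun I => hφ _ _ (hJ _)⟩
  · exact (hφ _ 1 (by rw [hJ, map_one])).trans φ.map_one
  · exact (hφ _ (J γ * J δ) (by rw [hJ, map_mul, hJ, hJ])).trans (map_mul _ _ _)

/-- The projection of the ray classes. -/
theorem exists_proj {𝔫 : Ideal (𝓞 F)} (h𝔫 : 𝔫 ≠ ⊥) (h𝔪 : 𝔪 ≠ ⊥) (h : 𝔫 ≤ 𝔪) :
    ∃ p : RayClassGroup 𝔫 →* RayClassGroup 𝔪, ∀ I : coprimeIdeals 𝔫,
      p (rayClass h𝔫 I) = rayClass h𝔪 ⟨I.1, coprime_mono h I.2⟩ := by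
  let φ : coprimeIdeals 𝔫 →* RayClassGroup 𝔪 :=
    (rayClass h𝔪).comp
      { toFun := fun I => ⟨I.1, coprime_mono h I.2⟩
        map_one' := rfl
        map_mul' := fun _ _ => rfl }
  refine exists_lift h𝔫 φ fun I J hIJ => ?_
  obtain ⟨x, y, hx, hy, e⟩ := (rayClass_eq_iff h𝔫).mp hIJ
  exact (rayClass_eq_iff h𝔪).mpr
    ⟨x, y, ⟨hx.1, h hx.2.1, hx.2.2⟩, ⟨hy.1, h hy.2.1, hy.2.2⟩, e⟩

/-- Two subgroups covering a group. -/
theorem forall_mem_or {G : Type*} [Group G] {A B : Subgroup G} (h : ∀ x, x ∈ A ∨ x ∈ B) :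
    (∀ x, x ∈ A) ∨ ∀ x, x ∈ B := by
  by_contra hcon
  push Not at hcon
  obtain ⟨⟨x, hx⟩, y, hy⟩ := hcon
  rcases h (x * y) with h1 | h1
  · exact hx ((A.mul_mem_cancel_right ((h y).resolve_right hy)).mp h1)
  · exact hy ((B.mul_mem_cancel_left ((h x).resolve_left hx)).mp h1)

/-- **Homomorphisms agreeing pointwise with one of two others.** -/
theorem eq_or_eq_of_forall {G M : Type*} [Group G] [CommGroup M] {f g h : G →* M}
    (hf : ∀ x, f x = g x ∨ f x = h x) : f = g ∨ f = h :=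
  (forall_mem_or (A := f.eqLocus g) (B := f.eqLocus h) hf).imp (fun e => MonoidHom.ext e)
    fun e => MonoidHom.ext e

/-- **Agreeing outside a subgroup with quotient not of order two.** -/
theorem eq_or_eq_of_cover {G M : Type*} [Group G] [CommGroup M] {f g h : G →* M} {C : Subgroup G}
    {y : G} (hy : y ∉ C) (hy2 : y * y ∉ C) (hf : ∀ x, x ∉ C → f x = g x ∨ f x = h x) :
    f = g ∨ f = h := by
  refine eq_or_eq_of_forall fun x => ?_
  by_contra hx
  have hxC : x ∈ C := by_contra fun hc => hx (hf x hc)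
  rw [not_or] at hx
  have h1 : x * y ∉ C := fun hc => hy ((C.mul_mem_cancel_left hxC).mp hc)
  have h2 : x * (y * y) ∉ C := fun hc => hy2 ((C.mul_mem_cancel_left hxC).mp hc)
  have key : ∀ g h : G →* M, f x ≠ g x → f x ≠ h x →
      (∀ x, x ∉ C → f x = g x ∨ f x = h x) → f y ≠ g y := by
    intro g h hxg hxh hf e
    have e2 : f (y * y) = g (y * y) := by rw [map_mul, map_mul, e]
    have h1' : f (x * y) = h (x * y) := (hf _ h1).resolve_left fun h' => by
      rw [map_mul, map_mul, e] at h'; exact hxg (mul_right_cancel h')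
    have h2' : f (x * (y * y)) = h (x * (y * y)) := (hf _ h2).resolve_left fun h' => by
      rw [map_mul, map_mul g, e2] at h'; exact hxg (mul_right_cancel h')
    have h3 : f y = h y := by
      rw [← mul_assoc, map_mul, map_mul h, h1'] at h2'
      exact mul_left_cancel h2'
    rw [map_mul, map_mul, h3] at h1'
    exact hxh (mul_right_cancel h1')
  rcases hf y hy with e | e
  · exact key g h hx.1 hx.2 hf e
  · exact key h g hx.2 hx.1 (fun z hz => (hf z hz).symm) e

end FA.DeuringCM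

end
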