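import Fermat.Agent.DeuringCM.SatoTate

/-!
# Deuring's reduction theorem over number fields

A good place over `p` has `p ∤ a_v` exactly when `d` is a nonzero square in `ℚ_p`. If it is one, the
prime `P` of `ℚ(√d)` under the place differs from its conjugate, and `p ∣ a_v` would put a power of
`P`, which is up to a principal ideal the square of the value of the character, into both.
-/

set_option autoImplicit false
set_option linter.style.haveILetI false
set_option linter.unusedSectionVars false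

noncomputable section

open WeierstrassCurve NumberField IsDedekindDomain
open FA.TraceNF (frobTrace)
open FA.AlgHecke (IsAlgChar typeVal)
open FA.Hecke (IsRayElt RayClassGroup rayClass rayClass_eq_iff finite_rayClassGroup)
open FA.Ext (primeIdeal)
open scoped WeierstrassCurve.Affine nonZeroDivisors Pointwise Classical ComplexConjugate

namespace FA.DeuringCM

/-- **The prime `p` splits in `ℚ(√d)`**, that is `d` is a nonzero square in `ℚ_p`. -/
def SplitsAt (p : ℕ) (d : ℤ) : Prop :=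
  (p = 2 ∧ d % 8 = 1) ∨ (p ≠ 2 ∧ ¬ (p : ℤ) ∣ d ∧ IsSquare (d : ZMod p))

/-- The norm equation at an ordinary place makes `d` a square. -/
theorem splitsAt_of_equation {p : ℕ} (hp : p.Prime) {a b d : ℤ} {q : ℕ} (hpq : p ∣ q)
    (h : a ^ 2 - 4 * (q : ℤ) = d * b ^ 2) (ha : ¬ (p : ℤ) ∣ a) : SplitsAt p d := by
  obtain ⟨q', rfl⟩ := hpq
  rcases eq_or_ne p 2 with rfl | hp2
  · refine Or.inl ⟨rfl, ?_⟩
    have hmod := congrArg (· % 8) h
    push_cast at hmod
    have ha' : a % 2 = 1 := by omega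
    have hsq : ∀ x : ℤ, x % 2 = 1 → x ^ 2 % 8 = 1 := fun x hx => by
      obtain ⟨m, rfl⟩ : ∃ m, x = 2 * m + 1 := ⟨x / 2, by omega⟩
      obtain ⟨c, hc⟩ : (2 : ℤ) ∣ m * (m + 1) := (Int.even_mul_succ_self m).two_dvd
      have : (2 * m + 1) ^ 2 = 8 * c + 1 := by linear_combination 4 * hc
      omega
    have hb : b % 2 = 1 := by
      by_contra hb
      obtain ⟨m, rfl⟩ : ∃ m, b = 2 * m := ⟨b / 2, by omega⟩
      rw [show d * (2 * m) ^ 2 = 4 * (d * m ^ 2) by ring] at hmod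
      have := hsq a ha'
      omega
    rw [Int.mul_emod, hsq b hb, mul_one, Int.emod_emod, Int.sub_emod, hsq a ha',
      show (4 : ℤ) * (2 * (q' : ℤ)) % 8 = 0 by omega] at hmod
    omega
  · refine Or.inr ⟨hp2, fun hd => ha ?_, ?_⟩
    · refine (Nat.prime_iff_prime_int.mp hp).dvd_of_dvd_pow (n := 2) ?_
      rw [show a ^ 2 = d * b ^ 2 + (p : ℤ) * (4 * (q' : ℤ)) by push_cast at h; linarith]
      exact dvd_add (hd.mul_right _) (dvd_mul_right _ _)
    · haveI : Fact p.Prime := ⟨hp⟩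
      have hz : (a : ZMod p) ^ 2 = (d : ZMod p) * (b : ZMod p) ^ 2 := by
        have := congrArg (Int.cast (R := ZMod p)) h
        push_cast at this
        simpa using this
      have ha0 : (a : ZMod p) ≠ 0 := fun e => ha ((ZMod.intCast_zmod_eq_zero_iff_dvd a p).mp e)
      have hb0 : (b : ZMod p) ≠ 0 := fun e => by
        rw [e, zero_pow two_ne_zero, mul_zero] at hz
        exact ha0 (pow_eq_zero_iff two_ne_zero |>.mp hz)
      exact ⟨(a : ZMod p) / b, by field_simp; linear_combination -hz⟩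

/-- A prime over a split `p` differs from its conjugate. -/
theorem IQF.exists_not_conj_mem {K : Type*} [Field K] [NumberField K] (Q : IQF K) {p : ℕ}
    (hp : p.Prime) (hsplit : SplitsAt p Q.d) {P : Ideal (𝓞 K)} (hP : P.IsPrime)
    (hpP : (p : 𝓞 K) ∈ P) : ∃ u ∈ P, Q.conj u ∉ P := by
  rcases hsplit with ⟨rfl, hd8⟩ | ⟨hp2, hpd, r, hr⟩
  · obtain ⟨π, htr, hn, -⟩ := Q.exists_trace_norm (a := 1) (b := 1) (q := ((1 - Q.d) / 4).toNat)
      (by
        have := Q.hd0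
        rw [Int.toNat_of_nonneg (by omega)]
        omega)
    have hmem : π * Q.conj π ∈ P := by
      rw [hn]
      obtain ⟨c, hc⟩ : 2 ∣ ((1 - Q.d) / 4).toNat := by omega
      rw [hc, Nat.cast_mul]
      exact Ideal.mul_mem_right _ _ hpP
    have hone : ∀ u, u ∈ P → Q.conj u ∈ P → u + Q.conj u ≠ 1 := fun u h1 h2 e =>
      hP.ne_top ((Ideal.eq_top_iff_one _).mpr (e ▸ add_mem h1 h2))
    rw [IQF.tr, Int.cast_one] at htr
    rcases hP.mem_or_mem hmem with h | h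
    · exact ⟨π, h, fun h' => hone π h h' htr⟩
    · exact ⟨Q.conj π, h, fun h' => hone (Q.conj π) h h' (by rw [Q.conj_conj, add_comm, htr])⟩
  · obtain ⟨c, hc⟩ : ∃ c : ℤ, (c : ZMod p) = r := ZMod.intCast_surjective r
    have hdvd : (p : ℤ) ∣ Q.d - c ^ 2 := by
      rw [← ZMod.intCast_zmod_eq_zero_iff_dvd]
      push_cast
      rw [hc, hr, sq, sub_self]
    have hS : IsIntegral ℤ Q.s := by
      refine IsIntegral.of_pow two_pos ?_
      rw [Q.hs]
      exact isIntegral_algebraMap (R := ℤ) (x := Q.d)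
    set S : 𝓞 K := ⟨Q.s, hS⟩
    have hconj : Q.conj S = -S := by
      refine RingOfIntegers.coe_injective (mul_left_cancel₀ (two_ne_zero (α := K)) ?_)
      rw [Q.coe_conj_s (x := S) (A := 0) (B := 2) (by
        show 2 * Q.s = _
        push_cast; ring)]
      push_cast
      show _ = 2 * -Q.s
      ring
    have hmem : (S - (c : 𝓞 K)) * (S + (c : 𝓞 K)) ∈ P := by
      obtain ⟨m, hm⟩ := hdvd
      rw [show (S - (c : 𝓞 K)) * (S + (c : 𝓞 K)) = (p : 𝓞 K) * (m : 𝓞 K) by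
        have hS2 : S * S = (Q.d : 𝓞 K) := RingOfIntegers.coe_injective (by
          rw [map_mul, map_intCast, ← sq]
          exact Q.hs)
        have := congrArg (Int.cast (R := 𝓞 K)) hm
        push_cast at this
        linear_combination hS2 + this]
      exact Ideal.mul_mem_right _ _ hpP
    have hnot : ∀ m : ℤ, ¬ (p : ℤ) ∣ m → (m : 𝓞 K) ∉ P := fun m hm hmP => by
      obtain ⟨x, y, hxy⟩ := (Int.isCoprime_iff_gcd_eq_one.mpr
        (hp.coprime_iff_not_dvd.mpr fun h => hm (Int.natCast_dvd.mpr h)).symm :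
          IsCoprime m (p : ℤ))
      refine hP.ne_top ((Ideal.eq_top_iff_one _).mpr ?_)
      rw [show (1 : 𝓞 K) = (x : 𝓞 K) * (m : 𝓞 K) + (y : 𝓞 K) * (p : 𝓞 K) by
        exact_mod_cast congrArg (Int.cast : ℤ → 𝓞 K) hxy.symm]
      exact add_mem (Ideal.mul_mem_left _ _ hmP) (Ideal.mul_mem_left _ _ hpP)
    have h2c : ¬ (p : ℤ) ∣ 2 * c := fun h => by
      rcases (Nat.prime_iff_prime_int.mp hp).dvd_or_dvd h with h | h
      · exact hp2 ((Nat.prime_dvd_prime_iff_eq hp Nat.prime_two).mp (by exact_mod_cast h))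
      · refine hpd ?_
        have := dvd_add hdvd (h.trans (dvd_pow_self c two_ne_zero))
        rwa [sub_add_cancel] at this
    have hone : ∀ u, u ∈ P → Q.conj u ∈ P → u + Q.conj u = ((-(2 * c) : ℤ) : 𝓞 K) ∨
        u + Q.conj u = ((2 * c : ℤ) : 𝓞 K) → False := fun u h1 h2 e => by
      rcases e with e | e
      · exact hnot _ (by rwa [dvd_neg]) (e ▸ add_mem h1 h2)
      · exact hnot _ h2c (e ▸ add_mem h1 h2)
    rcases hP.mem_or_mem hmem with h | h
    · exact ⟨_, h, fun h' => hone _ h h' (Or.inl (by rw [map_sub, hconj, map_intCast]; push_cast; ring))⟩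
    · exact ⟨_, h, fun h' => hone _ h h' (Or.inr (by rw [map_add, hconj, map_intCast]; push_cast; ring))⟩

variable {F : Type} [Field F] [NumberField F]

/-- **At a split prime the reduction is ordinary.** -/
theorem not_dvd_trace_of_split {K : Type*} [Field K] [NumberField K] (Q : IQF K) [Algebra K F]
    (ψ₀ : K →+* ℂ) {𝔣 : Ideal (𝓞 F)} {f : Ideal (𝓞 F) →* ℂ}
    (hf : IsAlgChar 𝔣 (nType ψ₀) f) {v : HeightOneSpectrum (𝓞 F)} (hv : v.asIdeal ⊔ 𝔣 = ⊤)
    {a : ℤ} {q : ℕ} (h1 : f v.asIdeal + conj (f v.asIdeal) = a)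
    (h2 : f v.asIdeal * conj (f v.asIdeal) = (q : ℂ)) {p : ℕ} (hp : p.Prime) (hpq : p ∣ q)
    (hpv : (p : 𝓞 F) ∈ v.asIdeal) (hsplit : SplitsAt p Q.d) : ¬ (p : ℤ) ∣ a := by
  rintro ⟨a', rfl⟩
  obtain ⟨q', rfl⟩ := hpq
  set π := f v.asIdeal with hπdef
  have hint : IsIntegral ℤ π := by
    refine ⟨Polynomial.X ^ 2 + Polynomial.C (-((p : ℤ) * a')) * Polynomial.X +
      Polynomial.C ((p * q' : ℕ) : ℤ), by monicity!, ?_⟩
    rw [← Polynomial.aeval_def]
    simp only [map_add, map_mul, map_pow, Polynomial.aeval_X, eq_intCast, map_intCast, map_neg,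
      map_natCast]
    push_cast at h1 h2 ⊢
    linear_combination (-h2) + π * h1
  set β : ℂ := (a' : ℂ) * π - (q' : ℂ) with hβdef
  have hβ : IsIntegral ℤ β :=
    ((isIntegral_algebraMap (R := ℤ) (x := a')).mul hint).sub
      (by simpa using isIntegral_algebraMap (R := ℤ) (A := ℂ) (x := (q' : ℤ)))
  have hsq : π ^ 2 = (p : ℂ) * β := by
    push_cast at h1 h2
    rw [hβdef]
    linear_combination π * h1 - h2
  -- a power of the place is principal in the rays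
  haveI := finite_rayClassGroup hf.ne_bot
  set h := Nat.card (RayClassGroup 𝔣) with hhdef
  have hh : rayClass hf.ne_bot (⟨primeIdeal v, hv⟩ ^ h) = rayClass hf.ne_bot 1 := by
    rw [map_pow, pow_card_eq_one', map_one]
  obtain ⟨x, y, hx, hy, e⟩ := (rayClass_eq_iff hf.ne_bot).mp hh
  simp only [SubmonoidClass.coe_pow, OneMemClass.coe_one, mul_one] at e
  change Ideal.span {x} * v.asIdeal ^ h = Ideal.span {y} at e
  have e1 := congrArg f e
  rw [map_mul, map_pow, hf.ray x hx, hf.ray y hy, typeVal_nType, typeVal_nType, ← hπdef] at e1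
  have e2 := congrArg (Ideal.relNorm (𝓞 K)) e
  rw [map_mul, map_pow, relNorm_span, relNorm_span] at e2
  set A := nm K x with hAdef
  set B := nm K y with hBdef
  have hA0 : A ≠ 0 := nm_ne_zero hx.1
  -- the integer `B² / (A² p ^ h)`
  set r : K := (B : K) ^ 2 / ((A : K) ^ 2 * (p : K) ^ h) with hrdef
  have hA0' : (A : K) ≠ 0 := RingOfIntegers.coe_ne_zero_iff.mpr hA0
  have hp0 : (p : K) ≠ 0 := Nat.cast_ne_zero.mpr hp.ne_zero
  have hr : ψ₀ r = β ^ h := by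
    have hpC : (p : ℂ) ≠ 0 := Nat.cast_ne_zero.mpr hp.ne_zero
    rw [hrdef, map_div₀, map_mul, map_pow, map_pow, map_pow, map_natCast, ← e1, mul_pow, ← pow_mul,
      mul_comm h 2, pow_mul, hsq, mul_pow, ← mul_assoc, mul_div_cancel_left₀]
    exact mul_ne_zero (pow_ne_zero 2 ((map_ne_zero_iff _ ψ₀.injective).mpr hA0')) (pow_ne_zero h hpC)
  have hrint : IsIntegral ℤ r := by
    letI := ψ₀.toAlgebra
    refine (isIntegral_algebraMap_iff (B := ℂ) (algebraMap K ℂ).injective).mp ?_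
    show IsIntegral ℤ (ψ₀ r)
    rw [hr]
    exact hβ.pow h
  obtain ⟨R, hR⟩ : ∃ R : 𝓞 K, (R : K) = r := ⟨⟨r, hrint⟩, rfl⟩
  have hBR : B ^ 2 = A ^ 2 * (p : 𝓞 K) ^ h * R := RingOfIntegers.coe_injective (by
    push_cast
    refine Eq.trans ?_ (congrArg ((A : K) ^ 2 * (p : K) ^ h * ·) hR.symm)
    rw [hrdef]
    field_simp)
  -- the prime under the place
  set P := v.asIdeal.under (𝓞 K) with hPdef
  haveI := v.isMaximal
  haveI : P.IsMaximal := Ideal.IsMaximal.under (𝓞 K) v.asIdeal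
  haveI : v.asIdeal.LiesOver P := ⟨rfl⟩
  have hrel : Ideal.relNorm (𝓞 K) v.asIdeal = P ^ v.asIdeal.inertiaDeg (𝓞 K) :=
    Ideal.relNorm_eq_pow_of_isMaximal v.asIdeal P
  have hpP : (p : 𝓞 K) ∈ P := by
    rw [hPdef, Ideal.mem_comap, map_natCast]
    exact hpv
  obtain ⟨u, huP, huP'⟩ := Q.exists_not_conj_mem hp hsplit (inferInstance : P.IsPrime) hpP
  set P' : Ideal (𝓞 K) := P.comap (Q.conj : 𝓞 K →+* 𝓞 K) with hP'def
  haveI : P'.IsPrime := Ideal.IsPrime.comap _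
  have hpP' : Ideal.span {(p : 𝓞 K) ^ h} ≤ P' := by
    rw [Ideal.span_singleton_le_iff_mem]
    refine Ideal.pow_mem_of_mem _ ?_ h Nat.card_pos
    rw [hP'def, Ideal.mem_comap, map_natCast]
    exact hpP
  have hle : (P ^ v.asIdeal.inertiaDeg (𝓞 K)) ^ (h * 2) ≤ P' := by
    have e3 := congrArg (· ^ 2) e2
    simp only [mul_pow, Ideal.span_singleton_pow, hBR, ← pow_mul,
      ← Ideal.span_singleton_mul_span_singleton, hrel, mul_assoc] at e3
    rw [← pow_mul] 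
    refine le_trans (le_of_eq (mul_left_cancel₀ ?_ e3)) (Ideal.mul_le_left.trans hpP')
    rw [Ne, Ideal.zero_eq_bot, Ideal.span_singleton_eq_bot]
    exact pow_ne_zero 2 hA0
  have := (Ideal.IsPrime.le_of_pow_le (Ideal.IsPrime.le_of_pow_le hle)) huP
  exact huP' this

variable (W₀ : WeierstrassCurve (𝓞 F)) [(W₀.map (algebraMap (𝓞 F) F)).IsElliptic]

local notation "W" => W₀.map (algebraMap (𝓞 F) F)

theorem dvd_absNorm_of_mem {v : HeightOneSpectrum (𝓞 F)} {p : ℕ} (hp : p.Prime)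
    (hpv : (p : 𝓞 F) ∈ v.asIdeal) : p ∣ Ideal.absNorm v.asIdeal := by
  by_contra h
  obtain ⟨x, y, hxy⟩ := ((hp.coprime_iff_not_dvd).mpr h).cast (R := ℤ)
  refine v.isPrime.ne_top ((Ideal.eq_top_iff_one _).mpr ?_)
  rw [show (1 : 𝓞 F) = (x : 𝓞 F) * (p : 𝓞 F) +
      (y : 𝓞 F) * ((Ideal.absNorm v.asIdeal : ℕ) : 𝓞 F) by
    exact_mod_cast congrArg (Int.cast : ℤ → 𝓞 F) hxy.symm]
  exact add_mem (Ideal.mul_mem_left _ _ hpv) (Ideal.mul_mem_left _ _ (Ideal.absNorm_mem _))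

/-- **Deuring's criterion with `√d` in the field.** -/
theorem ordinary_iff_of_sqrt (ψ : F →+* ℂ) {d : ℤ} (hd : Squarefree d) (hd0 : d < 0) {s : F}
    (hs : s ^ 2 = (d : F))
    (hcm : ∃ L : PeriodPair, L.g₂ = ψ (W).c₄ / 12 ∧ L.g₃ = ψ (W).c₆ / 216 ∧
      ∃ ω : ℂ, (∀ m : ℤ, ω ≠ m) ∧ (∀ l ∈ L.lattice, ω * l ∈ L.lattice) ∧
        ∃ x y : ℚ, (ω - (x : ℂ)) ^ 2 = (d : ℂ) * (y : ℂ) ^ 2)
    {v : HeightOneSpectrum (𝓞 F)} (hΔ : W₀.Δ ∉ v.asIdeal) {p : ℕ} (hp : p.Prime)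
    (hpv : (p : 𝓞 F) ∈ v.asIdeal) : ¬ (p : ℤ) ∣ frobTrace W₀ v ↔ SplitsAt p d := by
  constructor
  · intro ha
    obtain ⟨b, hb⟩ := FA.JugendtraumField.frobTrace_normEquation W₀ ψ hd hcm hs hΔ
    exact splitsAt_of_equation hp (dvd_absNorm_of_mem hp hpv) hb ha
  intro hsplit
  let K := IntermediateField.adjoin ℚ ({s} : Set F)
  haveI : NumberField K := { }
  have hsK : s ∈ K := IntermediateField.mem_adjoin_simple_self ℚ s
  have hint : IsIntegral ℚ s := Algebra.IsIntegral.isIntegral s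
  have hK : Module.finrank ℚ K = 2 := by
    rw [IntermediateField.adjoin.finrank hint]
    refine le_antisymm ?_ ((minpoly.two_le_natDegree_iff hint).mpr fun ⟨r, hr⟩ => ?_)
    · have hdvd : minpoly ℚ s ∣ Polynomial.X ^ 2 - Polynomial.C (d : ℚ) :=
        minpoly.dvd ℚ s (by simp [hs])
      exact (Polynomial.natDegree_le_of_dvd hdvd
        (Polynomial.X_pow_sub_C_ne_zero two_pos _)).trans_eq (Polynomial.natDegree_X_pow_sub_C)
    · have h2 : r ^ 2 = (d : ℚ) := (algebraMap ℚ F).injective (by rw [map_pow, hr, hs, map_intCast])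
      have : (d : ℚ) < 0 := by exact_mod_cast hd0
      nlinarith [sq_nonneg r]
  let Q : IQF K := ⟨d, ⟨s, hsK⟩, hd, hd0, Subtype.ext (by simpa using hs), hK⟩
  obtain ⟨𝔣, f, hf, -, -, hv⟩ := exists_hecke_char W₀ ψ hd hd0 hs hcm
  obtain ⟨hvf, h1, h2⟩ := hv v hΔ
  refine not_dvd_trace_of_split Q (ψ.comp (algebraMap K F)) ?_ hvf h1 h2 hp
    (dvd_absNorm_of_mem hp hpv) hpv hsplit
  suffices hn : (fun σ : F →+* ℂ => if σ s = ψ s then (1 : ℤ) else 0) =
      nType (ψ.comp (algebraMap K F)) by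
    rwa [← hn]
  funext σ
  rw [nType]
  refine if_congr ⟨fun h => RingHom.ext fun k => ?_, fun h => RingHom.congr_fun h ⟨s, hsK⟩⟩ rfl rfl
  obtain ⟨k, hk⟩ := k
  show σ k = ψ k
  induction hk using IntermediateField.adjoin_induction with
  | mem u hu => rw [Set.mem_singleton_iff.mp hu, h]
  | algebraMap u => simp
  | add u v _ _ hu hv => rw [map_add, map_add, hu, hv]
  | inv u _ hu => rw [map_inv₀, map_inv₀, hu]
  | mul u v _ _ hu hv => rw [map_mul, map_mul, hu, hv]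

/-- **Deuring's criterion over every field**, with the norm equation at the ordinary places. -/
theorem ordinary_iff (ψ : F →+* ℂ) {d : ℤ} (hd : Squarefree d) (hd0 : d < 0)
    (hcm : ∃ L : PeriodPair, L.g₂ = ψ (W).c₄ / 12 ∧ L.g₃ = ψ (W).c₆ / 216 ∧
      ∃ ω : ℂ, (∀ m : ℤ, ω ≠ m) ∧ (∀ l ∈ L.lattice, ω * l ∈ L.lattice) ∧
        ∃ x y : ℚ, (ω - (x : ℂ)) ^ 2 = (d : ℂ) * (y : ℂ) ^ 2)
    {v : HeightOneSpectrum (𝓞 F)} (hΔ : W₀.Δ ∉ v.asIdeal) {p : ℕ} (hp : p.Prime)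
    (hpv : (p : 𝓞 F) ∈ v.asIdeal) :
    (¬ (p : ℤ) ∣ frobTrace W₀ v ↔ SplitsAt p d) ∧
    (¬ (p : ℤ) ∣ frobTrace W₀ v →
      ∃ b : ℤ, frobTrace W₀ v ^ 2 - 4 * (Ideal.absNorm v.asIdeal : ℤ) = d * b ^ 2) := by
  by_cases h : ∃ s : F, s ^ 2 = (d : F)
  · obtain ⟨s, hs⟩ := h
    exact ⟨ordinary_iff_of_sqrt W₀ ψ hd hd0 hs hcm hΔ hp hpv,
      fun _ => FA.JugendtraumField.frobTrace_normEquation W₀ ψ hd hcm hs hΔ⟩
  obtain ⟨E, instE, τ, s, ψ', 𝔣, f, hdeg, hgal, hτ, hs, hψ, -, -, -, -, hv⟩ :=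
    exists_descended_char W₀ ψ hd hd0 h hcm
  obtain ⟨hell, hcm₁⟩ := hcm_map W₀ hψ hcm
  haveI := hell
  obtain ⟨w, hwv, -⟩ := fibre_cases hdeg hτ v
  have hΔ₁ : (W₀.map (algebraMap (𝓞 F) (𝓞 E))).Δ ∉ w.asIdeal := fun hmem => hΔ (by
    rw [← hwv, Ideal.mem_comap]
    rwa [map_Δ] at hmem)
  have hpw : (p : 𝓞 E) ∈ w.asIdeal := by
    have : (p : 𝓞 F) ∈ w.asIdeal.under (𝓞 F) := by rw [hwv]; exact hpv
    rwa [Ideal.mem_comap, map_natCast] at this
  have hE := ordinary_iff_of_sqrt (W₀.map (algebraMap (𝓞 F) (𝓞 E))) ψ' hd hd0 hs hcm₁ hΔ₁ hp hpw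
  rcases (hv v hΔ w hwv).2 with ⟨-, hN, -⟩ | ⟨-, hN, ha, -⟩
  · rw [frobTrace_of_absNorm_eq W₀ hwv hN] at hE
    refine ⟨hE, fun _ => ?_⟩
    have hb := FA.JugendtraumField.frobTrace_normEquation (W₀.map (algebraMap (𝓞 F) (𝓞 E))) ψ' hd
      hcm₁ hs hΔ₁
    rwa [frobTrace_of_absNorm_eq W₀ hwv hN, hN] at hb
  · refine ⟨iff_of_false (fun h' => h' (by rw [ha]; exact dvd_zero _)) fun hs' => ?_,
      fun h' => absurd (by rw [ha]; exact dvd_zero _) h'⟩
    refine hE.mpr hs' ?_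
    rw [frobTrace_of_absNorm_sq W₀ hΔ hwv hN, ha]
    refine dvd_sub (dvd_pow (dvd_zero _) two_ne_zero) (dvd_mul_of_dvd_right ?_ 2)
    exact Int.natCast_dvd_natCast.mpr (dvd_absNorm_of_mem hp hpv)

end FA.DeuringCM

end
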