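import Fermat.Agent.DeuringCM.SymZeta
import Fermat.Agent.DeuringCM.SatoTate

/-!
# The characters `f ^ a conj f ^ b`

For `b < a` such a character is no power of the norm, so with its conjugate it gives an entire
function with `P (a + b + 1 - z) = P z`.
-/

set_option autoImplicit false
set_option linter.style.haveILetI false
set_option linter.unusedSectionVars false

noncomputable section

open NumberField NumberField.InfinitePlace IsDedekindDomain Filter Topology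
open FA.AlgHecke (IsAlgChar IsPure IsNormPower typeVal)
open scoped nonZeroDivisors Classical ComplexConjugate

namespace FA.DeuringCM

variable {F : Type} [Field F] [NumberField F]

/-- The character `f ^ a conj f ^ b`. -/
def mixed (f : Ideal (𝓞 F) →* ℂ) (a b : ℕ) : Ideal (𝓞 F) →* ℂ where
  toFun I := f I ^ a * conj (f I) ^ b
  map_one' := by rw [map_one, map_one, one_pow, one_pow, one_mul]
  map_mul' I J := by rw [map_mul, map_mul, mul_pow, mul_pow]; ring

theorem isAlgChar_mixed {𝔣 : Ideal (𝓞 F)} {n : (F →+* ℂ) → ℤ} {f : Ideal (𝓞 F) →* ℂ}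
    (hf : IsAlgChar 𝔣 n f) {a : ℕ} (ha : a ≠ 0) (b : ℕ) :
    IsAlgChar 𝔣 (fun σ => (a : ℤ) * n σ + (b : ℤ) * n (ComplexEmbedding.conjugate σ))
      (mixed f a b) := by
  refine ⟨hf.ne_bot, fun I hI => ?_, fun x hx => ?_⟩
  · show f I ^ a * conj (f I) ^ b ≠ 0 ↔ _
    refine ⟨fun h => (hf.ne_zero_iff I hI).mp fun h0 => h ?_, fun h => ?_⟩
    · rw [h0, zero_pow ha, zero_mul]
    · have h0 := (hf.ne_zero_iff I hI).mpr h
      exact mul_ne_zero (pow_ne_zero a h0)
        (pow_ne_zero b ((map_ne_zero_iff _ (starRingEnd ℂ).injective).mpr h0))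
  · show f _ ^ a * conj (f _) ^ b = _
    have hne : ∀ σ : F →+* ℂ, σ (x : F) ≠ 0 := fun σ =>
      (map_ne_zero_iff _ σ.injective).mpr (RingOfIntegers.coe_ne_zero_iff.mpr hx.1)
    have e1 : conj (typeVal n (x : F)) =
        ∏ σ : F →+* ℂ, σ (x : F) ^ n (ComplexEmbedding.conjugate σ) := by
      rw [typeVal, map_prod]
      refine Fintype.prod_equiv (Function.Involutive.toPerm (ComplexEmbedding.conjugate (K := F))
        fun σ => star_star σ) _ _ fun σ => ?_
      rw [Function.Involutive.coe_toPerm, show ComplexEmbedding.conjugate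
        (ComplexEmbedding.conjugate σ) = σ from star_star σ, map_zpow₀,
        ComplexEmbedding.conjugate_coe_eq]
    rw [hf.ray x hx, e1, typeVal, typeVal, ← Finset.prod_pow, ← Finset.prod_pow,
      ← Finset.prod_mul_distrib]
    refine Finset.prod_congr rfl fun σ _ => ?_
    rw [← zpow_natCast, ← zpow_mul, ← zpow_natCast, ← zpow_mul, ← zpow_add₀ (hne σ)]
    ring_nf

/-- **For `b < a` it is no power of the norm.** -/
theorem not_normPower_mixed {𝔣 : Ideal (𝓞 F)} {n : (F →+* ℂ) → ℤ} {f : Ideal (𝓞 F) →* ℂ}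
    (hf : IsAlgChar 𝔣 n f) {t : HeightOneSpectrum (𝓞 F) → ℤ} {S : Set (HeightOneSpectrum (𝓞 F))}
    (hS : S.Finite)
    (hord : ∀ v ∉ S, (Ideal.absNorm v.asIdeal).Prime →
      ¬ (Ideal.absNorm v.asIdeal : ℤ) ∣ t v ∧ f v.asIdeal + conj (f v.asIdeal) = t v ∧
      f v.asIdeal * conj (f v.asIdeal) = (Ideal.absNorm v.asIdeal : ℂ)) {a b : ℕ} (hab : b < a) :
    ¬ IsNormPower (mixed f a b) := by
  rintro ⟨e, he⟩
  obtain ⟨v, hv, hvS, hq, -⟩ := exists_degree_one_class hf.ne_bot 1 hS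
  obtain ⟨hqa, h1, h2⟩ := hord v hvS hq
  set π := f v.asIdeal
  have hπ : π ≠ 0 := (hf.ne_zero_iff _ v.ne_bot).mpr hv
  have h := he v.asIdeal v.ne_bot (mul_ne_zero (pow_ne_zero a hπ)
    (pow_ne_zero b ((map_ne_zero_iff _ (starRingEnd ℂ).injective).mpr hπ)))
  change π ^ a * conj π ^ b = _ at h
  obtain ⟨k, rfl⟩ : ∃ k, a = b + k := ⟨a - b, by omega⟩
  refine hqa (dvd_of_pow_eq hq (show 0 < k by omega) h1 h2 ?_)
  rw [pow_add, mul_comm (π ^ b), mul_assoc, ← mul_pow, h2] at h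
  have hqb : ((Ideal.absNorm v.asIdeal : ℕ) : ℂ) ^ b ≠ 0 :=
    pow_ne_zero b (Nat.cast_ne_zero.mpr hq.ne_zero)
  have h' := congrArg conj h
  rw [map_mul, map_pow, map_pow, map_zpow₀, Complex.conj_natCast, ← h] at h'
  exact mul_right_cancel₀ hqb h'

/-- **A character with its conjugate.** -/
theorem exists_symPair {d : ℤ} (hd0 : d < 0) {s : F} (hs : s ^ 2 = (d : F)) (ψ : F →+* ℂ)
    {𝔣 : Ideal (𝓞 F)} {f : Ideal (𝓞 F) →* ℂ}
    (hf : IsAlgChar 𝔣 (fun σ => if σ s = ψ s then 1 else 0) f) {a b : ℕ} (hab : b < a)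
    (hne : ¬ IsNormPower (mixed f a b)) :
    ∃ (A : ℕ) (c : HeightOneSpectrum (𝓞 F) → ℂ) (P : ℂ → ℂ), 0 < A ∧
      A ∣ ((discr F).natAbs * Ideal.absNorm 𝔣) ^ 2 ∧
      (∀ v : HeightOneSpectrum (𝓞 F), v.asIdeal ⊔ 𝔣 = ⊤ →
        c v = f v.asIdeal ^ a * conj (f v.asIdeal) ^ b) ∧
      (∀ v : HeightOneSpectrum (𝓞 F),
        c v = 0 ∨ ‖c v‖ = Real.sqrt (Ideal.absNorm v.asIdeal) ^ (a + b)) ∧
      Differentiable ℂ P ∧ (∀ z, P (((a + b : ℕ) : ℂ) + 1 - z) = P z) ∧
      (∀ z : ℂ, 1 + ((a + b : ℕ) : ℝ) / 2 < z.re → ∃ L : ℂ,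
        HasProd (fun v : HeightOneSpectrum (𝓞 F) =>
          (1 - c v * ((Ideal.absNorm v.asIdeal : ℕ) : ℂ) ^ (-z))⁻¹ *
            (1 - conj (c v) * ((Ideal.absNorm v.asIdeal : ℕ) : ℂ) ^ (-z))⁻¹) L ∧
        P z = (A : ℂ) ^ (z / 2) *
          Complex.Gammaℂ (z - (b : ℂ)) ^ (2 * nrComplexPlaces F) * L) ∧
      ∀ z : ℂ, 1 + ((a + b : ℕ) : ℝ) / 2 ≤ z.re → P z ≠ 0 := by
  have hχ := isAlgChar_mixed hf (show a ≠ 0 by omega) b
  obtain ⟨w, 𝔣', g, e, C, Λ, hw, hdvd, hg, hag, -, -, hC, hΛ, hL, hfe⟩ :=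
    FA.AlgHeckeFE.exists_functional_equation hχ hne
  obtain rfl : w = ((a + b : ℕ) : ℤ) := by
    obtain ⟨σ⟩ : Nonempty (F →+* ℂ) := inferInstance
    refine (hw σ).symm.trans ?_
    have h := sum_type_eq_one hd0 hs ψ σ
    simp only [show ComplexEmbedding.conjugate (ComplexEmbedding.conjugate σ) = σ from star_star σ]
    push_cast
    linear_combination ((a : ℤ) + b) * h
  haveI : IsEmpty {v : InfinitePlace F // IsReal v} :=
    ⟨fun v => (not_isReal_iff_isComplex.mpr (totallyComplex_of_sqrt hd0 hs v.1)) v.2⟩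
  have hgamma : ∀ z, FA.AlgHeckeFE.gammaFactor (fun σ : F →+* ℂ =>
      (a : ℤ) * (if σ s = ψ s then 1 else 0) +
        (b : ℤ) * (if ComplexEmbedding.conjugate σ s = ψ s then 1 else 0)) e ((a + b : ℕ) : ℤ) z =
      Complex.Gammaℂ (z - (b : ℂ)) ^ nrComplexPlaces F := fun z => by
    rw [FA.AlgHeckeFE.gammaFactor, Fintype.prod_empty, one_mul, NumberField.InfinitePlace.nrComplexPlaces,
      ← Finset.card_univ, ← Finset.prod_const]
    refine Finset.prod_congr rfl fun v _ => ?_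
    have h := sum_type_eq_one hd0 hs ψ v.1.embedding
    simp only [show ComplexEmbedding.conjugate (ComplexEmbedding.conjugate v.1.embedding) =
      v.1.embedding from star_star _]
    have hmin : min ((a : ℤ) * (if v.1.embedding s = ψ s then 1 else 0) +
          (b : ℤ) * (if ComplexEmbedding.conjugate v.1.embedding s = ψ s then 1 else 0))
        ((a : ℤ) * (if ComplexEmbedding.conjugate v.1.embedding s = ψ s then 1 else 0) +
          (b : ℤ) * (if v.1.embedding s = ψ s then 1 else 0)) = (b : ℤ) := by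
      split_ifs at h ⊢ <;> omega
    rw [hmin, Int.cast_natCast]
  set N : ℕ := (discr F).natAbs * Ideal.absNorm 𝔣' with hN
  have hN0 : 0 < N := Nat.mul_pos (Int.natAbs_pos.mpr (discr_ne_zero F))
    (Nat.pos_of_ne_zero fun h0 => hg.ne_bot (Ideal.absNorm_eq_zero_iff.mp h0))
  have hNR : |((discr F : ℤ) : ℝ)| * ((Ideal.absNorm 𝔣' : ℕ) : ℝ) = (N : ℝ) := by
    rw [hN, Nat.cast_mul, Nat.cast_natAbs, Int.cast_abs]
  have hne' : ¬ IsNormPower g := fun ⟨k, hk⟩ => hne ⟨k, fun I hI h0 => by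
    rw [← hag I hI h0]
    exact hk I hI (by rw [hag I hI h0]; exact h0)⟩
  obtain ⟨E, hE, hE', hE0⟩ := hg.exists_entire hw hne'
  -- no zeros
  have h0 : ∀ y : ℂ, 1 + ((a + b : ℕ) : ℝ) / 2 ≤ y.re → Λ y ≠ 0 := fun y hy => by
    have hb2 : (b : ℝ) < 1 + ((a + b : ℕ) : ℝ) / 2 := by
      have : (b : ℝ) < (a : ℝ) := by exact_mod_cast hab
      push_cast; linarith
    have hyb : 0 < (y - (b : ℂ)).re := by rw [Complex.sub_re, Complex.natCast_re]; linarith
    have hN' : (N : ℂ) ≠ 0 := Nat.cast_ne_zero.mpr hN0.ne'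
    set T : ℂ → ℂ := fun u => (N : ℂ) ^ (u / 2) *
      Complex.Gammaℂ (u - (b : ℂ)) ^ nrComplexPlaces F * E u with hT
    have hcont : ContinuousAt T y :=
      (((differentiable_id.div_const (2 : ℂ)).const_cpow (Or.inl hN')).continuous.continuousAt.mul
        (((continuousAt_Gammaℂ' hyb).comp (f := fun u : ℂ => u - (b : ℂ))
          (continuous_sub_right (b : ℂ)).continuousAt).pow _)).mul hE.continuous.continuousAt
    rw [eq_of_halfPlane hy hΛ.continuous.continuousAt hcont fun u hu => by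
      have hu' : 1 + (((a + b : ℕ) : ℤ) : ℝ) / 2 < u.re := by push_cast; push_cast at hu; linarith
      obtain ⟨L, hs', e'⟩ := hL u hu'
      rw [e', hgamma, hNR, Complex.ofReal_natCast, hT, hs'.unique (hE' u hu')]]
    exact mul_ne_zero (mul_ne_zero (Complex.cpow_ne_zero_iff.mpr (Or.inl hN'))
      (pow_ne_zero _ (Gammaℂ_ne_zero' hyb))) (hE0 y (by push_cast; push_cast at hy; linarith))
  refine ⟨N ^ 2, fun v => g v.asIdeal, fun z => Λ z * conj (Λ (conj z)), pow_pos hN0 2,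
    pow_dvd_pow_of_dvd (mul_dvd_mul_left _
      (Ideal.absNorm_dvd_absNorm_of_le (Ideal.dvd_iff_le.mp hdvd))) 2, fun v hv => ?_, fun v => ?_, hΛ.mul fun z => ?_, fun z => ?_, fun z hz => ?_, fun z hz => ?_⟩
  · have hv' := (hf.ne_zero_iff _ v.ne_bot).mpr hv
    exact hag _ v.ne_bot (mul_ne_zero (pow_ne_zero a hv')
      (pow_ne_zero b ((map_ne_zero_iff _ (starRingEnd ℂ).injective).mpr hv')))
  · show g v.asIdeal = 0 ∨ ‖g v.asIdeal‖ = _
    refine (em (g v.asIdeal = 0)).imp id fun hgv => ?_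
    have h := hg.norm_unit hw ((hg.ne_zero_iff _ v.ne_bot).mp hgv)
    set q := Ideal.absNorm v.asIdeal
    have hq : (0 : ℝ) < (q : ℝ) :=
      Nat.cast_pos.mpr (Nat.pos_of_ne_zero fun h' => v.ne_bot (Ideal.absNorm_eq_zero_iff.mp h'))
    rw [norm_mul, Complex.norm_natCast_cpow_of_pos (by exact_mod_cast hq)] at h
    have hre : (-((((a + b : ℕ) : ℤ) : ℂ) / 2)).re = -(((a + b : ℕ) : ℝ) / 2) := by simp
    rw [hre, Real.rpow_neg hq.le, mul_inv_eq_one₀ (Real.rpow_pos_of_pos hq _).ne'] at h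
    rw [h, Real.sqrt_eq_rpow, ← Real.rpow_natCast, ← Real.rpow_mul hq.le]
    congr 1
    ring
  · have h1 := (hΛ (conj z)).conj_conj
    rwa [Complex.conj_conj] at h1
  · set W := ((a + b : ℕ) : ℂ) + 1
    have h1 := hfe (W - z)
    have h2 := hfe z
    have hC' : C * conj C = 1 := by
      rw [Complex.mul_conj, Complex.normSq_eq_norm_sq, hC]; simp
    have e1 : (1 : ℂ) + ((((a + b : ℕ) : ℤ)) : ℂ) - conj (W - z) = conj z := by
      simp only [W, map_sub, map_add, map_one, Complex.conj_natCast, Int.cast_natCast]; ring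
    have e2 : (1 : ℂ) + ((((a + b : ℕ) : ℤ)) : ℂ) - conj z = conj (W - z) := by
      simp only [W, map_sub, map_add, map_one, Complex.conj_natCast, Int.cast_natCast]; ring
    rw [e1] at h1
    rw [e2] at h2
    have h3 : conj (Λ (conj (W - z))) = conj C * Λ z := by
      rw [h2, ← mul_assoc, mul_comm (conj C), hC', one_mul]
    show Λ (W - z) * conj (Λ (conj (W - z))) = Λ z * conj (Λ (conj z))
    rw [h1, h3]
    linear_combination (Λ z * conj (Λ (conj z))) * hC'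
  · have hz1 : 1 + (((a + b : ℕ) : ℤ) : ℝ) / 2 < z.re := by push_cast; push_cast at hz; linarith
    have hz2 : 1 + (((a + b : ℕ) : ℤ) : ℝ) / 2 < (conj z).re := by rwa [Complex.conj_re]
    obtain ⟨L₁, hs₁, e₁⟩ := hL z hz1
    obtain ⟨L₂, hs₂, e₂⟩ := hL (conj z) hz2
    obtain ⟨L₁', hs₁', hp₁, -⟩ := FA.AlgHeckeFE.hasProd_algChar hg hw hz1
    obtain ⟨L₂', hs₂', hp₂, -⟩ := FA.AlgHeckeFE.hasProd_algChar hg hw hz2
    obtain rfl := hs₁'.unique hs₁
    obtain rfl := hs₂'.unique hs₂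
    refine ⟨L₁' * conj L₂', ?_, ?_⟩
    · refine (hp₁.mul (hp₂.map (starRingEnd ℂ) Complex.continuous_conj)).congr_fun fun v => ?_
      rw [Function.comp_apply, map_inv₀, map_sub, map_one, map_mul,
        FA.AlgHeckeFE.conj_natCast_cpow, map_neg, Complex.conj_conj]
    · show Λ z * conj (Λ (conj z)) = _
      rw [e₁, e₂, hNR, hgamma, hgamma, map_mul, map_mul, map_pow, Complex.ofReal_natCast,
        FA.AlgHeckeFE.conj_natCast_cpow, FA.AlgHeckeFE.conj_Gammaℂ, map_sub, Complex.conj_conj,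
        Complex.conj_natCast, map_div₀, Complex.conj_conj, map_ofNat, Nat.cast_pow,
        ← Complex.natCast_cpow_natCast_mul, mul_comm 2 (nrComplexPlaces F), pow_mul]
      rw [show ((2 : ℕ) : ℂ) * (z / 2) = z / 2 + z / 2 by push_cast; ring,
        Complex.cpow_add _ _ (Nat.cast_ne_zero.mpr hN0.ne')]
      ring
  · exact mul_ne_zero (h0 z hz) ((map_ne_zero_iff _ (starRingEnd ℂ).injective).mpr
      (h0 _ (by rwa [Complex.conj_re])))

end FA.DeuringCM

end
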