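import Fermat.Agent.DeuringCM.SymPair

/-!
# Symmetric powers of the curves with complex multiplication

The L-series of the `n`-th symmetric power is the product of those of the characters
`f ^ (n - i) conj f ^ i`, which go together in pairs, and for even `n` the zeta function at
`z - n / 2`.
-/

set_option autoImplicit false
set_option linter.style.haveILetI false
set_option linter.unusedSectionVars false

noncomputable section

open WeierstrassCurve NumberField NumberField.InfinitePlace IsDedekindDomain Filter Topology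
open FA.TraceNF (frobTrace)
open FA.AlgHecke (IsAlgChar IsNormPower)
open scoped WeierstrassCurve.Affine Classical ComplexConjugate

namespace FA.DeuringCM

theorem prod_range_pairs {M : Type*} [CommMonoid M] (g : ℕ → M) (n : ℕ) :
    ∏ i ∈ Finset.range (n + 1), g i = (∏ i ∈ Finset.range ((n + 1) / 2), g i * g (n - i)) *
      if Even n then g (n / 2) else 1 := by
  rw [Finset.prod_mul_distrib]
  rcases Nat.even_or_odd' n with ⟨m, rfl | rfl⟩
  · rw [if_pos (even_two_mul m), show (2 * m + 1) / 2 = m by omega, show 2 * m / 2 = m by omega,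
      show 2 * m + 1 = m + (m + 1) by omega, Finset.prod_range_add, Finset.prod_range_succ' _ m,
      ← Finset.prod_range_reflect (fun i => g (m + (i + 1))) m, add_zero, ← mul_assoc]
    refine congrArg (· * _) (congrArg _ (Finset.prod_congr rfl fun i hi => ?_))
    rw [Finset.mem_range] at hi
    congr 1
    omega
  · rw [if_neg (Nat.not_even_two_mul_add_one m), mul_one, show (2 * m + 1 + 1) / 2 = m + 1 by omega,
      show 2 * m + 1 + 1 = (m + 1) + (m + 1) by omega, Finset.prod_range_add,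
      ← Finset.prod_range_reflect (fun i => g (m + 1 + i)) (m + 1)]
    refine congrArg _ (Finset.prod_congr rfl fun i hi => ?_)
    rw [Finset.mem_range] at hi
    congr 1
    omega

variable {F : Type} [Field F] [NumberField F] (W₀ : WeierstrassCurve (𝓞 F))
  [(W₀.map (algebraMap (𝓞 F) F)).IsElliptic]

local notation "W" => W₀.map (algebraMap (𝓞 F) F)

/-- **The L-series of the symmetric powers.** -/
theorem exists_symPower (ψ : F →+* ℂ) {d : ℤ} (hd : Squarefree d) (hd0 : d < 0) {s : F}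
    (hs : s ^ 2 = (d : F))
    (hcm : ∃ L : PeriodPair, L.g₂ = ψ (W).c₄ / 12 ∧ L.g₃ = ψ (W).c₆ / 216 ∧
      ∃ ω : ℂ, (∀ m : ℤ, ω ≠ m) ∧ (∀ l ∈ L.lattice, ω * l ∈ L.lattice) ∧
        ∃ x y : ℚ, (ω - (x : ℂ)) ^ 2 = (d : ℂ) * (y : ℂ) ^ 2) (n : ℕ) :
    ∃ (M : ℕ) (c : HeightOneSpectrum (𝓞 F) → ℕ → ℂ) (H : ℂ → ℂ), 0 < M ∧
      (∀ v : HeightOneSpectrum (𝓞 F), W₀.Δ ∉ v.asIdeal → ∃ π : ℂ,
        π + conj π = frobTrace W₀ v ∧ π * conj π = (Ideal.absNorm v.asIdeal : ℂ) ∧
        ∀ i ≤ n, c v i = π ^ (n - i) * conj π ^ i) ∧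
      (∀ v : HeightOneSpectrum (𝓞 F), ∀ i ≤ n,
        (c v i = 0 ∨ ‖c v i‖ = Real.sqrt (Ideal.absNorm v.asIdeal) ^ n) ∧
        c v (n - i) = conj (c v i)) ∧
      (∀ p : ℕ, p.Prime → p ∣ M → (p : ℤ) ∣ discr F ∨
        ∃ v : HeightOneSpectrum (𝓞 F), W₀.Δ ∈ v.asIdeal ∧ (p : 𝓞 F) ∈ v.asIdeal) ∧
      Differentiable ℂ H ∧ (∀ z, H ((n : ℂ) + 1 - z) = H z) ∧
      (∀ z : ℂ, 1 + (n : ℝ) / 2 < z.re → ∃ L : ℂ,
        HasProd (fun v : HeightOneSpectrum (𝓞 F) => ∏ i ∈ Finset.range (n + 1),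
          (1 - c v i * ((Ideal.absNorm v.asIdeal : ℕ) : ℂ) ^ (-z))⁻¹) L ∧
        H z = (if Even n then (z - (n : ℂ) / 2) * (z - (n : ℂ) / 2 - 1) else 1) *
          (M : ℂ) ^ (z / 2) *
          (∏ i ∈ Finset.range (n + 1), Complex.Gammaℂ (z - ((min i (n - i) : ℕ) : ℂ))) ^
            nrComplexPlaces F * L) ∧
      ∀ z : ℂ, 1 + (n : ℝ) / 2 ≤ z.re → H z ≠ 0 := by
  obtain ⟨𝔣, f, hf, -, -, hv⟩ := exists_hecke_char W₀ ψ hd hd0 hs hcm
  obtain ⟨S, hS, hord⟩ := exists_ordinary W₀ ψ hd hd0 hs hcm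
  have hsupp : ∀ p : ℕ, p.Prime → p ∣ (discr F).natAbs * Ideal.absNorm 𝔣 → (p : ℤ) ∣ discr F ∨
      ∃ v : HeightOneSpectrum (𝓞 F), W₀.Δ ∈ v.asIdeal ∧ (p : 𝓞 F) ∈ v.asIdeal := fun p hp h => by
    rcases hp.dvd_mul.mp h with h | h
    · exact Or.inl (Int.natCast_dvd.mpr h)
    obtain ⟨P, hP, hPZ, hPdvd⟩ := Ideal.exists_isMaximal_dvd_of_dvd_absNorm' hp 𝔣 h
    have hP0 : P ≠ ⊥ := fun h0 => hf.ne_bot (zero_dvd_iff.mp
      (by rwa [h0, ← Ideal.zero_eq_bot] at hPdvd))
    refine Or.inr ⟨⟨P, hP.isPrime, hP0⟩, by_contra fun hΔ => hP.ne_top ?_, ?_⟩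
    · have h1 := (hv ⟨P, hP.isPrime, hP0⟩ hΔ).1
      rwa [sup_eq_left.mpr (Ideal.dvd_iff_le.mp hPdvd)] at h1
    · have h1 : (p : ℤ) ∈ P.under ℤ := hPZ ▸ Ideal.mem_span_singleton_self _
      simpa using h1
  set h := (n + 1) / 2 with hh
  have key : ∀ i : ℕ, ∃ (A : ℕ) (c : HeightOneSpectrum (𝓞 F) → ℂ) (P : ℂ → ℂ), i < h → 0 < A ∧
      A ∣ ((discr F).natAbs * Ideal.absNorm 𝔣) ^ 2 ∧
      (∀ v : HeightOneSpectrum (𝓞 F), v.asIdeal ⊔ 𝔣 = ⊤ →
        c v = f v.asIdeal ^ (n - i) * conj (f v.asIdeal) ^ i) ∧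
      (∀ v : HeightOneSpectrum (𝓞 F),
        c v = 0 ∨ ‖c v‖ = Real.sqrt (Ideal.absNorm v.asIdeal) ^ n) ∧
      Differentiable ℂ P ∧ (∀ z, P ((n : ℂ) + 1 - z) = P z) ∧
      (∀ z : ℂ, 1 + (n : ℝ) / 2 < z.re → ∃ L : ℂ,
        HasProd (fun v : HeightOneSpectrum (𝓞 F) =>
          (1 - c v * ((Ideal.absNorm v.asIdeal : ℕ) : ℂ) ^ (-z))⁻¹ *
            (1 - conj (c v) * ((Ideal.absNorm v.asIdeal : ℕ) : ℂ) ^ (-z))⁻¹) L ∧
        P z = (A : ℂ) ^ (z / 2) *
          Complex.Gammaℂ (z - (i : ℂ)) ^ (2 * nrComplexPlaces F) * L) ∧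
      ∀ z : ℂ, 1 + (n : ℝ) / 2 ≤ z.re → P z ≠ 0 := fun i => by
    by_cases hi : i < h
    swap
    · exact ⟨0, fun _ => 0, fun _ => 0, fun h' => absurd h' hi⟩
    have hab : i < n - i := by omega
    have hne := not_normPower_mixed hf hS (t := frobTrace W₀) (fun v hv' hq =>
      ⟨(hord v hv').2 hq, (hv v (hord v hv').1).2⟩) hab
    obtain ⟨A, c, P, h1, h1', h2, h3, h4, h5, h6, h7⟩ := exists_symPair hd0 hs ψ hf hab hne
    have e : n - i + i = n := by omega
    rw [e] at h3 h5 h6 h7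
    exact ⟨A, c, P, fun _ => ⟨h1, h1', h2, h3, h4, h5, h6, h7⟩⟩
  choose A C P hkey using key
  obtain ⟨H₀, hH₀, hFE₀, hL₀, hne₀⟩ := exists_zetaEntire F
    ⟨totallyComplex_of_sqrt hd0 hs⟩
  set D : ℕ := (discr F).natAbs with hD
  have hD0 : (D : ℂ) ≠ 0 := Nat.cast_ne_zero.mpr (Int.natAbs_ne_zero.mpr (discr_ne_zero F))
  set c : HeightOneSpectrum (𝓞 F) → ℕ → ℂ := fun v i =>
    if 2 * i < n then C i v else if 2 * i = n then ((Ideal.absNorm v.asIdeal : ℕ) : ℂ) ^ (n / 2)
    else conj (C (n - i) v) with hc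
  set H : ℂ → ℂ := fun z => (∏ i ∈ Finset.range h, P i z) *
    if Even n then (D : ℂ) ^ (((n / 2 : ℕ) : ℂ) / 2) * H₀ (z - ((n / 2 : ℕ) : ℂ)) else 1 with hH
  set M : ℕ := (∏ i ∈ Finset.range h, A i) * if Even n then D else 1 with hM
  have hlo : ∀ {i}, i ∈ Finset.range h → i < h := fun hi => Finset.mem_range.mp hi
  refine ⟨M, c, H, ?_, fun v hΔ => ?_, fun v i hi => ?_, fun p hp hpM => ?_, ?_, fun z => ?_, fun z hz => ?_,
    fun z hz => ?_⟩
  · refine Nat.mul_pos (Finset.prod_pos fun i hi => (hkey i (hlo hi)).1) ?_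
    split_ifs
    · exact Int.natAbs_pos.mpr (discr_ne_zero F)
    · exact one_pos
  · obtain ⟨hvf, h1, h2⟩ := hv v hΔ
    refine ⟨f v.asIdeal, h1, h2, fun i hi => ?_⟩
    simp only [hc]
    split_ifs with hlt heq
    · exact (hkey i (by omega)).2.2.1 v hvf
    · rw [← h2, mul_pow]
      congr 2 <;> omega
    · rw [(hkey (n - i) (by omega)).2.2.1 v hvf, map_mul, map_pow, map_pow, Complex.conj_conj,
        mul_comm, show n - (n - i) = i by omega]
  · refine ⟨?_, ?_⟩
    · simp only [hc]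
      split_ifs with hlt heq
      · exact (hkey i (by omega)).2.2.2.1 v
      · refine Or.inr ?_
        rw [norm_pow, Complex.norm_natCast, ← heq, show 2 * i / 2 = i by omega, pow_mul,
          Real.sq_sqrt (Nat.cast_nonneg _)]
      · refine ((hkey (n - i) (by omega)).2.2.2.1 v).imp (fun h => ?_) fun h => ?_
        · rw [h, map_zero]
        · rw [Complex.norm_conj, h]
    · simp only [hc]
      rcases lt_trichotomy (2 * i) n with hlt | heq | hgt
      · rw [if_neg (by omega), if_neg (by omega), if_pos hlt, show n - (n - i) = i by omega]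
      · rw [if_neg (by omega), if_pos (by omega), if_neg (by omega), if_pos heq, map_pow,
          Complex.conj_natCast]
      · rw [if_pos (by omega), if_neg (by omega), if_neg (by omega), Complex.conj_conj]
  · refine hsupp p hp ?_
    rcases hp.dvd_mul.mp hpM with h | h
    · obtain ⟨i, hi, h⟩ := (Nat.prime_iff.mp hp).exists_mem_finset_dvd h
      exact hp.dvd_of_dvd_pow (h.trans (hkey i (hlo hi)).2.1)
    · split_ifs at h
      · exact dvd_mul_of_dvd_left h _
      · exact absurd h hp.not_dvd_one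
  · refine (Differentiable.fun_finsetProd fun i hi => (hkey i (hlo hi)).2.2.2.2.1).mul ?_
    split_ifs
    · exact (hH₀.comp (differentiable_id.sub_const _)).const_mul _
    · exact differentiable_const _
  · simp only [hH]
    rw [Finset.prod_congr rfl fun i hi => (hkey i (hlo hi)).2.2.2.2.2.1 z]
    refine congrArg _ ?_
    split_ifs with he
    · rw [← hFE₀ (z - ((n / 2 : ℕ) : ℂ))]
      congr 2
      obtain ⟨m, rfl⟩ := he
      simp only [show (m + m) / 2 = m by omega]
      push_cast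
      ring
    · rfl
  · have hpair : ∀ i ∈ Finset.range h, ∃ L : ℂ, HasProd (fun v : HeightOneSpectrum (𝓞 F) =>
        (1 - c v i * ((Ideal.absNorm v.asIdeal : ℕ) : ℂ) ^ (-z))⁻¹ *
          (1 - c v (n - i) * ((Ideal.absNorm v.asIdeal : ℕ) : ℂ) ^ (-z))⁻¹) L ∧
        P i z = (A i : ℂ) ^ (z / 2) *
          Complex.Gammaℂ (z - (i : ℂ)) ^ (2 * nrComplexPlaces F) * L := fun i hi => by
      have hi' : i < h := hlo hi
      obtain ⟨L, hp, e⟩ := (hkey i hi').2.2.2.2.2.2.1 z hz
      refine ⟨L, hp.congr_fun fun v => ?_, e⟩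
      simp only [hc]
      rw [if_pos (by omega : 2 * i < n), if_neg (by omega), if_neg (by omega),
        show n - (n - i) = i by omega]
    choose! L hLp hLe using hpair
    have hmid : ∃ L' : ℂ, HasProd (fun v : HeightOneSpectrum (𝓞 F) => if Even n then
        (1 - c v (n / 2) * ((Ideal.absNorm v.asIdeal : ℕ) : ℂ) ^ (-z))⁻¹ else 1) L' ∧
        (if Even n then (D : ℂ) ^ (((n / 2 : ℕ) : ℂ) / 2) * H₀ (z - ((n / 2 : ℕ) : ℂ)) else 1) =
          (if Even n then (z - (n : ℂ) / 2) * (z - (n : ℂ) / 2 - 1) * (D : ℂ) ^ (z / 2) *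
            Complex.Gammaℂ (z - (n : ℂ) / 2) ^ nrComplexPlaces F else 1) * L' := by
      by_cases he : Even n
      swap
      · simp only [if_neg he]
        exact ⟨1, hasProd_one, by rw [mul_one]⟩
      simp only [if_pos he]
      obtain ⟨m, rfl⟩ := he
      rw [show (m + m) / 2 = m by omega] at *
      have hre : 1 < (z - (m : ℂ)).re := by
        rw [Complex.sub_re, Complex.natCast_re]; push_cast at hz; linarith
      obtain ⟨L', hp', e'⟩ := hL₀ _ hre
      have hm : (((m + m : ℕ) : ℕ) : ℂ) / 2 = (m : ℂ) := by push_cast; ring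
      refine ⟨L', hp'.congr_fun fun v => ?_, ?_⟩
      · simp only [hc]
        rw [if_neg (by omega), if_pos (by omega),
          ← Complex.cpow_natCast, ← Complex.cpow_add _ _ (Nat.cast_ne_zero.mpr
            fun h0 => v.ne_bot (Ideal.absNorm_eq_zero_iff.mp h0))]
        congr 3
        ring
      · rw [e', hm, show z / 2 = (m : ℂ) / 2 + (z - (m : ℂ)) / 2 by ring,
          Complex.cpow_add _ _ hD0]
        ring
    obtain ⟨L', hp', e'⟩ := hmid
    refine ⟨(∏ i ∈ Finset.range h, L i) * L', ((hasProd_prod hLp).mul hp').congr_fun fun v => ?_, ?_⟩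
    · rw [prod_range_pairs (fun i => (1 - c v i * ((Ideal.absNorm v.asIdeal : ℕ) : ℂ) ^ (-z))⁻¹) n]
    · simp only [hH]
      rw [e', Finset.prod_congr rfl hLe, prod_range_pairs
        (fun i => Complex.Gammaℂ (z - ((min i (n - i) : ℕ) : ℂ))) n, Finset.prod_mul_distrib,
        Finset.prod_mul_distrib, Complex.cpow_def, hM]
      rw [show ∏ i ∈ Finset.range h, Complex.Gammaℂ (z - (i : ℂ)) ^ (2 * nrComplexPlaces F) =
        (∏ i ∈ Finset.range ((n + 1) / 2), Complex.Gammaℂ (z - ((min i (n - i) : ℕ) : ℂ)) *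
          Complex.Gammaℂ (z - ((min (n - i) (n - (n - i)) : ℕ) : ℂ))) ^ nrComplexPlaces F by
        rw [← Finset.prod_pow]
        refine Finset.prod_congr rfl fun i hi => ?_
        have := hlo hi
        rw [show min i (n - i) = i by omega, show min (n - i) (n - (n - i)) = i by omega, ← sq,
          ← pow_mul]]
      have hA : ((∏ i ∈ Finset.range h, A i : ℕ) : ℂ) ^ (z / 2) =
          ∏ i ∈ Finset.range h, (A i : ℂ) ^ (z / 2) := by
        induction Finset.range h using Finset.induction_on with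
        | empty => simp
        | insert i s hi ih =>
          rw [Finset.prod_insert hi, Finset.prod_insert hi, Nat.cast_mul,
            Complex.natCast_mul_natCast_cpow, ih]
      rw [← Complex.cpow_def, Nat.cast_mul, Complex.natCast_mul_natCast_cpow, hA]
      by_cases he : Even n
      · simp only [if_pos he]
        obtain ⟨m, rfl⟩ := he
        rw [show (m + m) / 2 = m by omega, show min m (m + m - m) = m by omega,
          show (((m + m : ℕ) : ℕ) : ℂ) / 2 = (m : ℂ) by push_cast; ring, mul_pow]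
        ring
      · simp only [if_neg he, Nat.cast_one, Complex.one_cpow]
        ring
  · refine mul_ne_zero (Finset.prod_ne_zero_iff.mpr fun i hi => (hkey i (hlo hi)).2.2.2.2.2.2.2 z hz) ?_
    split_ifs with he
    · refine mul_ne_zero (Complex.cpow_ne_zero_iff.mpr (Or.inl hD0)) (hne₀ _ ?_)
      obtain ⟨m, rfl⟩ := he
      rw [show (m + m) / 2 = m by omega, Complex.sub_re, Complex.natCast_re]
      push_cast at hz
      linarith
    · exact one_ne_zero

end FA.DeuringCM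

end
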