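import Fermat.Agent.DeuringCM.SymZeta
import Fermat.Agent.ArtinFE.Gamma

/-!
# The completed zeta function without its poles, for every field

`s (s - 1) ξ (s)` is entire, invariant under `s ↦ 1 - s` and has no zero with `1 ≤ re s`, whatever
the real places.
-/

set_option autoImplicit false
set_option linter.style.haveILetI false

noncomputable section

open NumberField NumberField.InfinitePlace IsDedekindDomain Filter Topology
open FA.Hecke (heckeL heckeL_one IsRayChar IsNontrivial exists_heckeG)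
open scoped Classical

namespace FA.DeuringCM

/-- **`s (s - 1) ξ (s)` with real places allowed.** -/
theorem exists_zetaEntire_any (K : Type) [Field K] [NumberField K] :
    ∃ H : ℂ → ℂ, Differentiable ℂ H ∧ (∀ s, H (1 - s) = H s) ∧
      (∀ s : ℂ, 1 < s.re → ∃ L : ℂ,
        HasProd (fun v : HeightOneSpectrum (𝓞 K) =>
          (1 - ((Ideal.absNorm v.asIdeal : ℕ) : ℂ) ^ (-s))⁻¹) L ∧
        H s = s * (s - 1) * (((discr K).natAbs : ℕ) : ℂ) ^ (s / 2) *
          (Complex.Gammaℝ s ^ nrRealPlaces K * Complex.Gammaℂ s ^ nrComplexPlaces K) * L) ∧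
      ∀ s : ℂ, 1 ≤ s.re → H s ≠ 0 := by
  set H : ℂ → ℂ := fun s => s * (s - 1) * FA.HeckeFE.zetaXi K s + FA.HeckeFE.polarConst K
  have hH : Differentiable ℂ H :=
    ((differentiable_id.mul (differentiable_id.sub_const 1)).mul
      (FA.HeckeFE.differentiable_zetaXi (K := K))).add_const _
  have hd0 : (((discr K).natAbs : ℕ) : ℂ) ≠ 0 :=
    Nat.cast_ne_zero.mpr (Int.natAbs_ne_zero.mpr (discr_ne_zero K))
  have hhalf : ∀ s : ℂ, 1 < s.re → H s = s * (s - 1) * (((discr K).natAbs : ℕ) : ℂ) ^ (s / 2) *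
      (Complex.Gammaℝ s ^ nrRealPlaces K * Complex.Gammaℂ s ^ nrComplexPlaces K) *
        heckeL (1 : Ideal (𝓞 K) →* ℂ) s := fun s hs => by
    have h0 : s ≠ 0 := fun e => by rw [e, Complex.zero_re] at hs; linarith
    have h1 : s - 1 ≠ 0 := fun e => by
      rw [sub_eq_zero.mp e, Complex.one_re] at hs; linarith
    have e : FA.HeckeFE.zetaXi K s =
        FA.HeckeFE.gamFac (K := K) s * dedekindZeta K s + FA.HeckeFE.polarConst K / (s * (1 - s)) := by
      rw [FA.HeckeFE.zetaXi_half hs, sub_add_cancel]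
    show s * (s - 1) * FA.HeckeFE.zetaXi K s + FA.HeckeFE.polarConst K = _
    have hq : s * (s - 1) * (FA.HeckeFE.polarConst K / (s * (1 - s))) =
        -FA.HeckeFE.polarConst K := by
      rw [show s * (1 - s) = -(s * (s - 1)) by ring, div_neg, mul_neg,
        mul_div_cancel₀ _ (mul_ne_zero h0 h1)]
    rw [e, mul_add, hq, neg_add_cancel_right, FA.HeckeFE.gamFac, heckeL_one hs]
    ring
  have hone : IsRayChar (⊤ : Ideal (𝓞 K)) (1 : Ideal (𝓞 K) →* ℂ) := IsRayChar.one
  have ht : ¬IsNontrivial (1 : Ideal (𝓞 K) →* ℂ) := fun ⟨_, _, _, h1⟩ => h1 rfl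
  refine ⟨H, hH, fun s => ?_, fun s hs => ?_, fun s hs => ?_⟩
  · show (1 - s) * (1 - s - 1) * FA.HeckeFE.zetaXi K (1 - s) + _ = _
    rw [FA.HeckeFE.zetaXi_one_sub]
    show _ = s * (s - 1) * _ + _
    ring
  · have hu : FA.HeckeTorus.Unimod (1 : Ideal (𝓞 K) →* ℂ) :=
      ⟨fun I _ => by simp, fun v => Or.inr (by simp)⟩
    refine ⟨_, ?_, hhalf s hs⟩
    simpa using (FA.AlgHeckeFE.hasProd_unimod hu hs).1
  · obtain ⟨G, hG, -, hG'⟩ := exists_heckeG hone
    set T : ℂ → ℂ := fun y => y * (((discr K).natAbs : ℕ) : ℂ) ^ (y / 2) *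
      (Complex.Gammaℝ y ^ nrRealPlaces K * Complex.Gammaℂ y ^ nrComplexPlaces K) * G y with hT
    have hs0 : 0 < s.re := by linarith
    have hne : Complex.Gammaℝ s ≠ 0 := (FA.ArtinFE.gamma_ne_zero hs0).1
    have hcont : ContinuousAt T s :=
      ((continuousAt_id.mul
        ((differentiable_id.div_const (2 : ℂ)).const_cpow (Or.inl hd0)).continuous.continuousAt).mul
        (((FA.ArtinFE.analyticAt_Gammaℝ hne).continuousAt.pow _).mul
          ((continuousAt_Gammaℂ' hs0).pow _))).mul hG.continuous.continuousAt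
    rw [eq_of_halfPlane hs hH.continuous.continuousAt hcont fun y hy => by
      rw [hhalf y hy, hT]
      show _ = y * _ * _ * G y
      rw [← hG' y hy]
      ring]
    refine mul_ne_zero (mul_ne_zero (mul_ne_zero ?_ (Complex.cpow_ne_zero_iff.mpr (Or.inl hd0)))
      (mul_ne_zero (pow_ne_zero _ hne) (pow_ne_zero _ (Gammaℂ_ne_zero' hs0))))
      (hone.heckeG_ne_zero ht hG hG' hs)
    exact fun e => by rw [e, Complex.zero_re] at hs0; exact lt_irrefl _ hs0

end FA.DeuringCM

end
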