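import Fermat.Agent.DeuringCM.MixedDescent
import Fermat.Agent.DeuringCM.QuadChar
import Fermat.Agent.DeuringCM.ZetaAny
import Fermat.Agent.DeuringCM.SymPower

/-!
# Symmetric powers of the curves without the field of multiplication

The L-series of the `n`-th symmetric power is the product of the series over `E = F (√d)` of the
characters `f ^ (n - i) conj f ^ i`, `2 i < n`, and for even `n = 2 m` of the zeta function of `F` or
of the series of the character of `E`, as `m` is even or odd, at `z - m`.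
-/

set_option autoImplicit false
set_option linter.style.haveILetI false
set_option linter.unusedSectionVars false

noncomputable section

open WeierstrassCurve NumberField NumberField.InfinitePlace IsDedekindDomain Filter Topology
open FA.TraceNF (frobTrace)
open FA.AlgHecke (IsAlgChar IsNormPower)
open scoped WeierstrassCurve.Affine Pointwise Classical ComplexConjugate

namespace FA.DeuringCM

theorem prod_alternating (Y : ℂ) (n : ℕ) :
    ∏ i ∈ Finset.range (n + 1), (1 - (-1) ^ i * Y)⁻¹ =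
      ((1 - Y ^ 2)⁻¹) ^ ((n + 1) / 2) * if Even n then (1 - Y)⁻¹ else 1 := by
  induction n using Nat.twoStepInduction with
  | zero => simp
  | one =>
    rw [Finset.prod_range_succ, Finset.prod_range_one, if_neg (by decide), mul_one,
      show (1 + 1) / 2 = 1 from rfl, pow_one, pow_zero, pow_one, one_mul, ← mul_inv]
    congr 1
    ring
  | more n ih _ =>
    rw [Finset.prod_range_succ, Finset.prod_range_succ, ih,
      show (n + 2 + 1) / 2 = (n + 1) / 2 + 1 by omega, pow_succ ((1 - Y ^ 2)⁻¹),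
      if_congr (show (Even (n + 2) ↔ Even n) by simp [Nat.even_add]) rfl rfl,
      pow_succ (-1 : ℂ) (n + 1)]
    have h : (1 - (-1 : ℂ) ^ (n + 1) * Y)⁻¹ * (1 - (-1 : ℂ) ^ (n + 1) * (-1) * Y)⁻¹ =
        (1 - Y ^ 2)⁻¹ := by
      rw [← mul_inv]
      congr 1
      have h2 : ((-1 : ℂ) ^ (n + 1)) * (-1) ^ (n + 1) = 1 := by
        rw [← pow_add, Even.neg_one_pow ⟨n + 1, rfl⟩]
      linear_combination (-(Y ^ 2)) * h2
    rw [mul_assoc, h]
    ring

theorem eq_sqrt_pow_of_sq {r : ℝ} {q n : ℕ} (hr : 0 ≤ r)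
    (h : r ^ 2 = Real.sqrt ((q ^ 2 : ℕ) : ℝ) ^ n) : r = Real.sqrt q ^ n := by
  refine (pow_left_inj₀ hr (pow_nonneg (Real.sqrt_nonneg _) _) two_ne_zero).mp ?_
  rw [h, ← pow_mul, mul_comm n 2, pow_mul, Real.sq_sqrt (Nat.cast_nonneg _), Nat.cast_pow,
    Real.sqrt_sq (Nat.cast_nonneg _)]

section Middle

variable {F : Type} [Field F] [NumberField F] {E : Type} [Field E] [NumberField E] [Algebra F E]
  [IsGalois F E]

/-- **The middle factor.** -/
theorem exists_middle (hdeg : Module.finrank F E = 2) {τ : E ≃ₐ[F] E} (hτ : τ ≠ 1)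
    (hE : IsTotallyComplex E) (m : ℕ) :
    ∃ (A : ℕ) (χ : HeightOneSpectrum (𝓞 F) → ℂ) (ε : ℂ) (H : ℂ → ℂ), 0 < A ∧
      (∀ p : ℕ, p.Prime → p ∣ A → (p : ℤ) ∣ discr F ∨
        ∃ v : HeightOneSpectrum (𝓞 F), ¬ SplitOrInert τ v ∧ (p : 𝓞 F) ∈ v.asIdeal) ∧
      (∀ v, χ v = 0 ∨ ‖χ v‖ = 1) ∧
      (∀ v, SplitOrInert τ v → ∀ u : HeightOneSpectrum (𝓞 E),
        u.asIdeal.under (𝓞 F) = v.asIdeal →
          χ v = if τ • u.asIdeal ≠ u.asIdeal then 1 else (-1) ^ m) ∧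
      (ε = 1 ∨ ε = -1) ∧ Differentiable ℂ H ∧ (∀ s, H (1 - s) = ε * H s) ∧
      (∀ s : ℂ, 1 < s.re → ∃ L : ℂ,
        HasProd (fun v : HeightOneSpectrum (𝓞 F) =>
          (1 - χ v * ((Ideal.absNorm v.asIdeal : ℕ) : ℂ) ^ (-s))⁻¹) L ∧
        H s = (if Even m then s * (s - 1) else 1) * (A : ℂ) ^ (s / 2) *
          (Complex.Gammaℝ (s + ((m % 2 : ℕ) : ℂ)) ^ nrRealPlaces F *
            Complex.Gammaℂ s ^ nrComplexPlaces F) * L) ∧
      ∀ s : ℂ, 1 ≤ s.re → H s ≠ 0 := by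
  rcases Nat.even_or_odd m with he | ho
  · obtain ⟨H, hH, hFE, hL, h0⟩ := exists_zetaEntire_any F
    refine ⟨(discr F).natAbs, fun _ => 1, 1, H, Int.natAbs_pos.mpr (discr_ne_zero F),
      fun p _ h => Or.inl (Int.natCast_dvd.mpr h), fun v => Or.inr (by simp),
      fun v _ u _ => by rw [he.neg_one_pow, ite_self], Or.inl rfl, hH,
      fun s => by rw [hFE, one_mul], fun s hs => ?_, h0⟩
    obtain ⟨L, hp, e⟩ := hL s hs
    refine ⟨L, by simpa using hp, ?_⟩
    rw [e, if_pos he, Nat.even_iff.mp he, Nat.cast_zero, add_zero]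
  · obtain ⟨A, χ, ε, Λ, h1, h2, h3, h4, h5, h6, h7, h8, h9⟩ := exists_etaEntire hdeg hτ hE
    refine ⟨A, χ, ε, Λ, h1, h2, h3, fun v hv u hu => by rw [ho.neg_one_pow]; exact h4 v hv u hu,
      h5, h6, h7, fun s hs => ?_, h9⟩
    obtain ⟨L, hp, e⟩ := h8 s hs
    refine ⟨L, hp, ?_⟩
    rw [e, if_neg (Nat.not_even_iff_odd.mpr ho), Nat.odd_iff.mp ho, Nat.cast_one, one_mul]

end Middle

variable {F : Type} [Field F] [NumberField F] (W₀ : WeierstrassCurve (𝓞 F))
  [(W₀.map (algebraMap (𝓞 F) F)).IsElliptic]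

local notation "W" => W₀.map (algebraMap (𝓞 F) F)

/-- **The L-series of the symmetric powers without `√d` in the field.** -/
theorem exists_symPower_descended (ψ : F →+* ℂ) {d : ℤ} (hd : Squarefree d) (hd0 : d < 0)
    (hnot : ¬ ∃ s : F, s ^ 2 = (d : F))
    (hcm : ∃ L : PeriodPair, L.g₂ = ψ (W).c₄ / 12 ∧ L.g₃ = ψ (W).c₆ / 216 ∧
      ∃ ω : ℂ, (∀ m : ℤ, ω ≠ m) ∧ (∀ l ∈ L.lattice, ω * l ∈ L.lattice) ∧
        ∃ x y : ℚ, (ω - (x : ℂ)) ^ 2 = (d : ℂ) * (y : ℂ) ^ 2) (n : ℕ) :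
    ∃ (M : ℕ) (ε : ℂ) (c : HeightOneSpectrum (𝓞 F) → ℕ → ℂ) (H : ℂ → ℂ), 0 < M ∧
      (ε = 1 ∨ ε = -1) ∧
      (∀ v : HeightOneSpectrum (𝓞 F), W₀.Δ ∉ v.asIdeal → ∃ p : ℂ,
        p + conj p = frobTrace W₀ v ∧ p * conj p = (Ideal.absNorm v.asIdeal : ℂ) ∧
        ∀ i ≤ n, c v i = p ^ (n - i) * conj p ^ i) ∧
      (∀ v : HeightOneSpectrum (𝓞 F), ∀ i ≤ n,
        c v i = 0 ∨ ‖c v i‖ = Real.sqrt (Ideal.absNorm v.asIdeal) ^ n) ∧
      (∀ p : ℕ, p.Prime → p ∣ M → (p : ℤ) ∣ discr F ∨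
        ∃ v : HeightOneSpectrum (𝓞 F), W₀.Δ ∈ v.asIdeal ∧ (p : 𝓞 F) ∈ v.asIdeal) ∧
      Differentiable ℂ H ∧ (∀ z, H ((n : ℂ) + 1 - z) = ε * H z) ∧
      (∀ z : ℂ, 1 + (n : ℝ) / 2 < z.re → ∃ L : ℂ,
        HasProd (fun v : HeightOneSpectrum (𝓞 F) => ∏ i ∈ Finset.range (n + 1),
          (1 - c v i * ((Ideal.absNorm v.asIdeal : ℕ) : ℂ) ^ (-z))⁻¹) L ∧
        H z = (if 4 ∣ n then (z - (n : ℂ) / 2) * (z - (n : ℂ) / 2 - 1) else 1) *
          (M : ℂ) ^ (z / 2) *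
          (∏ i ∈ Finset.range ((n + 1) / 2), Complex.Gammaℂ (z - (i : ℂ))) ^ Module.finrank ℚ F *
          (if Even n then
            Complex.Gammaℝ (z - (n : ℂ) / 2 + ((n / 2 % 2 : ℕ) : ℂ)) ^ nrRealPlaces F *
              Complex.Gammaℂ (z - (n : ℂ) / 2) ^ nrComplexPlaces F else 1) * L) ∧
      ∀ z : ℂ, 1 + (n : ℝ) / 2 ≤ z.re → H z ≠ 0 := by
  obtain ⟨E, instE, τ, s, ψ', 𝔣, f, hdeg, hgal, hτ, hs, hψ, hf, -, -, hsymm, hv⟩ :=
    exists_descended_char W₀ ψ hd hd0 hnot hcm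
  have hτs : τ s = -s := by
    rcases sq_eq_sq_iff_eq_or_eq_neg.mp (show τ s ^ 2 = s ^ 2 by
      rw [← map_pow, hs, map_intCast]) with h | h
    · obtain ⟨r, hr⟩ := (IsGalois.mem_range_algebraMap_iff_fixed (F := F) (x := s)).mpr fun σ => by
        rcases eq_one_or_eq hdeg hτ σ with rfl | rfl
        · rfl
        · exact h
      exact absurd ⟨r, (algebraMap F E).injective (by rw [map_pow, hr, hs, map_intCast])⟩ hnot
    · exact h
  have hgood : ∀ v : HeightOneSpectrum (𝓞 F), W₀.Δ ∉ v.asIdeal → SplitOrInert τ v :=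
    fun v hΔ u hu => by
      rcases (hv v hΔ u hu).2 with ⟨h1, h2, -⟩ | ⟨h1, h2, -⟩
      · exact Or.inl ⟨h1, h2⟩
      · exact Or.inr ⟨h1, h2⟩
  set W₁ := W₀.map (algebraMap (𝓞 F) (𝓞 E)) with hW₁
  obtain ⟨hell, hcm₁⟩ := hcm_map W₀ hψ hcm
  haveI := hell
  obtain ⟨S, hS, hord⟩ := exists_ordinary W₁ ψ' hd hd0 hs hcm₁
  have hval : ∀ w : HeightOneSpectrum (𝓞 E), w ∉ S →
      f w.asIdeal + conj (f w.asIdeal) = frobTrace W₁ w ∧
      f w.asIdeal * conj (f w.asIdeal) = (Ideal.absNorm w.asIdeal : ℂ) := fun w hw => by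
    have hΔ : W₀.Δ ∉ (w.under (𝓞 F)).asIdeal := fun h => (hord w hw).1 (by
      rw [hW₁, map_Δ]; exact h)
    rcases (hv _ hΔ w rfl).2 with ⟨-, hN, h1, h2⟩ | ⟨-, hN, ha, hval⟩
    · rw [frobTrace_of_absNorm_eq W₀ (v := w.under (𝓞 F)) rfl hN, h1, h2, hN]
      exact ⟨rfl, rfl⟩
    · rw [frobTrace_of_absNorm_sq W₀ (v := w.under (𝓞 F)) hΔ rfl hN, ha, hval, hN]
      push_cast
      constructor <;> simp <;> ring
  have hE : IsTotallyComplex E := ⟨totallyComplex_of_sqrt hd0 hs⟩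
  set h := (n + 1) / 2 with hh
  have key : ∀ i : ℕ, ∃ (A : ℕ) (g : HeightOneSpectrum (𝓞 E) → ℂ) (ε : ℂ) (Λ : ℂ → ℂ), i < h →
      0 < A ∧ A ∣ (discr E).natAbs * Ideal.absNorm 𝔣 ∧
      (∀ w : HeightOneSpectrum (𝓞 E), w.asIdeal ⊔ 𝔣 = ⊤ →
        g w = f w.asIdeal ^ (n - i) * conj (f w.asIdeal) ^ i) ∧
      (∀ w : HeightOneSpectrum (𝓞 E),
        g w = 0 ∨ ‖g w‖ = Real.sqrt (Ideal.absNorm w.asIdeal) ^ n) ∧
      (∀ w : HeightOneSpectrum (𝓞 E), g (conjPlace τ w) = conj (g w)) ∧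
      (ε = 1 ∨ ε = -1) ∧ Differentiable ℂ Λ ∧ (∀ z, Λ ((n : ℂ) + 1 - z) = ε * Λ z) ∧
      (∀ z : ℂ, 1 + (n : ℝ) / 2 < z.re → ∃ L : ℂ,
        HasProd (fun w : HeightOneSpectrum (𝓞 E) =>
          (1 - g w * ((Ideal.absNorm w.asIdeal : ℕ) : ℂ) ^ (-z))⁻¹) L ∧
        Λ z = (A : ℂ) ^ (z / 2) * Complex.Gammaℂ (z - (i : ℂ)) ^ Module.finrank ℚ F * L) ∧
      ∀ z : ℂ, 1 + (n : ℝ) / 2 ≤ z.re → Λ z ≠ 0 := fun i => by
    by_cases hi : i < h
    swap
    · exact ⟨0, fun _ => 0, 0, fun _ => 0, fun h' => absurd h' hi⟩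
    have hab : i < n - i := by omega
    have hne := not_normPower_mixed hf hS (t := frobTrace W₁) (fun w hw hq =>
      ⟨(hord w hw).2 hq, hval w hw⟩) hab
    obtain ⟨A, g, ε, Λ, h1, h2, h3, h4, h5, h6, h7, h8, h9, h10⟩ :=
      exists_symmChar hd0 hs ψ' hdeg τ hτs hf hsymm hab hne
    have e : n - i + i = n := by omega
    rw [e] at h4 h8 h9 h10
    exact ⟨A, g, ε, Λ, fun _ => ⟨h1, h2, h3, h4, h5, h6, h7, h8, h9, h10⟩⟩
  choose A G e Λ hkey using key
  obtain ⟨Am, χ, εm, Hm, hAm, hsuppm, hχn, hχv, hεm, hHm, hFEm, hLm, hnem⟩ :=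
    exists_middle hdeg hτ hE (n / 2)
  have hlo : ∀ {i}, i ∈ Finset.range h → i < h := fun hi => Finset.mem_range.mp hi
  -- the Euler factors
  have hlocal : ∀ v : HeightOneSpectrum (𝓞 F),
      ∃ (t : Finset (HeightOneSpectrum (𝓞 E))) (c : ℕ → ℂ),
      (∀ u, u ∈ t ↔ u.under (𝓞 F) = v) ∧
      (W₀.Δ ∉ v.asIdeal → ∃ p : ℂ, p + conj p = frobTrace W₀ v ∧
        p * conj p = (Ideal.absNorm v.asIdeal : ℂ) ∧ ∀ i ≤ n, c i = p ^ (n - i) * conj p ^ i) ∧
      (∀ i ≤ n, c i = 0 ∨ ‖c i‖ = Real.sqrt (Ideal.absNorm v.asIdeal) ^ n) ∧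
      ∀ z : ℂ, (∏ i ∈ Finset.range h, ∏ u ∈ t,
          (1 - G i u * ((Ideal.absNorm u.asIdeal : ℕ) : ℂ) ^ (-z))⁻¹) *
        (if Even n then (1 - χ v * ((Ideal.absNorm v.asIdeal : ℕ) : ℂ) ^ (n / 2) *
          ((Ideal.absNorm v.asIdeal : ℕ) : ℂ) ^ (-z))⁻¹ else 1) =
        ∏ i ∈ Finset.range (n + 1),
          (1 - c i * ((Ideal.absNorm v.asIdeal : ℕ) : ℂ) ^ (-z))⁻¹ := fun v => by
    obtain ⟨u, hu, hcase⟩ := fibre_cases hdeg hτ v
    set q := Ideal.absNorm v.asIdeal with hq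
    -- any pairs of values with the factors of the fibre give the coefficients
    have mk : ∀ (t : Finset (HeightOneSpectrum (𝓞 E))) (a b : ℕ → ℂ),
        (∀ i < h, a i = 0 ∨ ‖a i‖ = Real.sqrt q ^ n) →
        (∀ i < h, b i = 0 ∨ ‖b i‖ = Real.sqrt q ^ n) →
        (∀ i < h, ∀ z : ℂ, ∏ w ∈ t, (1 - G i w * ((Ideal.absNorm w.asIdeal : ℕ) : ℂ) ^ (-z))⁻¹ =
          (1 - a i * (q : ℂ) ^ (-z))⁻¹ * (1 - b i * (q : ℂ) ^ (-z))⁻¹) →
        ∃ c : ℕ → ℂ, (∀ i, c i = if 2 * i < n then a i else if 2 * i = n then χ v * (q : ℂ) ^ (n / 2)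
            else b (n - i)) ∧
          (∀ i ≤ n, c i = 0 ∨ ‖c i‖ = Real.sqrt q ^ n) ∧
          ∀ z : ℂ, (∏ i ∈ Finset.range h, ∏ w ∈ t,
              (1 - G i w * ((Ideal.absNorm w.asIdeal : ℕ) : ℂ) ^ (-z))⁻¹) *
            (if Even n then (1 - χ v * (q : ℂ) ^ (n / 2) * (q : ℂ) ^ (-z))⁻¹ else 1) =
            ∏ i ∈ Finset.range (n + 1), (1 - c i * (q : ℂ) ^ (-z))⁻¹ := fun t a b ha hb hab => by
      refine ⟨_, fun i => rfl, fun i hi => ?_, fun z => ?_⟩
      · split_ifs with h1 h2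
        · exact ha i (by omega)
        · refine (hχn v).imp (fun h0 => by rw [h0, zero_mul]) fun h0 => ?_
          rw [norm_mul, h0, one_mul, norm_pow, Complex.norm_natCast, ← h2,
            show 2 * i / 2 = i by omega, pow_mul, Real.sq_sqrt (Nat.cast_nonneg _)]
        · exact hb (n - i) (by omega)
      · rw [prod_range_pairs, ← hh]
        congr 1
        · refine Finset.prod_congr rfl fun i hi => ?_
          have := hlo hi
          rw [hab i this z, if_pos (by omega : 2 * i < n), if_neg (by omega), if_neg (by omega),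
            show n - (n - i) = i by omega]
        · split_ifs with he h1 h2
          · exact absurd he (by rintro ⟨m, hm⟩; omega)
          · rfl
          · exact absurd he (by rintro ⟨m, hm⟩; omega)
          · rfl
    rcases hcase with ⟨hfix, hN, hmem⟩ | ⟨hmove, hN, hmem⟩
    swap
    · -- two places
      have hne : u ≠ conjPlace τ u := fun h => hmove (congrArg HeightOneSpectrum.asIdeal h).symm
      obtain ⟨c, hc, hcn, hcz⟩ := mk {u, conjPlace τ u} (fun i => G i u) (fun i => conj (G i u))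
        (fun i hi => hN ▸ (hkey i hi).2.2.2.1 u)
        (fun i hi => by
          refine ((hkey i hi).2.2.2.1 u).imp (fun h0 => by rw [h0, map_zero]) fun h0 => ?_
          rw [Complex.norm_conj, h0, hN])
        (fun i hi z => by
          rw [Finset.prod_pair hne, (hkey i hi).2.2.2.2.1 u, conjPlace_asIdeal, absNorm_smul, hN])
      refine ⟨_, c, hmem, fun hΔ => ?_, hcn, hcz⟩
      obtain ⟨huf, ⟨-, -, h1, h2⟩ | ⟨h', -⟩⟩ := hv v hΔ u hu
      swap
      · exact absurd h' hmove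
      refine ⟨f u.asIdeal, h1, h2, fun i hi => ?_⟩
      rw [hc]
      split_ifs with hlt heq
      · exact (hkey i (by omega)).2.2.1 u huf
      · rw [hχv v (hgood v hΔ) u hu, if_pos hmove, one_mul, ← h2, mul_pow]
        congr 2 <;> omega
      · rw [(hkey (n - i) (by omega)).2.2.1 u huf, map_mul, map_pow, map_pow, Complex.conj_conj,
          mul_comm, show n - (n - i) = i by omega]
    by_cases hΔ : W₀.Δ ∈ v.asIdeal
    · rcases hN with hN | hN
      · obtain ⟨c, hc, hcn, hcz⟩ := mk {u} (fun i => G i u) (fun _ => 0)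
          (fun i hi => hN ▸ (hkey i hi).2.2.2.1 u) (fun i hi => Or.inl rfl)
          (fun i hi z => by rw [Finset.prod_singleton, hN, zero_mul, sub_zero, inv_one, mul_one])
        exact ⟨_, c, hmem, fun h' => absurd hΔ h', hcn, hcz⟩
      · choose y hy using fun i => IsAlgClosed.exists_pow_nat_eq (G i u) two_pos
        have hyn : ∀ i < h, y i = 0 ∨ ‖y i‖ = Real.sqrt q ^ n := fun i hi => by
          refine ((hkey i hi).2.2.2.1 u).imp (fun h0 => ?_) fun h0 => ?_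
          · exact (pow_eq_zero_iff two_ne_zero).mp ((hy i).trans h0)
          · refine eq_sqrt_pow_of_sq (norm_nonneg _) ?_
            rw [← norm_pow, hy, h0, hN]
        obtain ⟨c, hc, hcn, hcz⟩ := mk {u} y (fun i => -y i) hyn
          (fun i hi => (hyn i hi).imp (fun h0 => by rw [h0, neg_zero]) fun h0 => by rw [norm_neg, h0])
          (fun i hi z => by
            rw [Finset.prod_singleton, hN, natCast_sq_cpow, ← mul_inv, ← hy i]
            congr 1
            ring)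
        exact ⟨_, c, hmem, fun h' => absurd hΔ h', hcn, hcz⟩
    -- an inert place of good reduction
    obtain ⟨huf, ⟨h', -⟩ | ⟨-, hN2, ha, hfu⟩⟩ := hv v hΔ u hu
    · exact absurd hfix h'
    obtain ⟨p, hp⟩ : ∃ p : ℂ, p = Complex.I * (Real.sqrt q : ℂ) := ⟨_, rfl⟩
    have hcp : conj p = -p := by rw [hp, map_mul, Complex.conj_I, Complex.conj_ofReal, neg_mul]
    have hp2 : p * p = -(q : ℂ) := by
      rw [hp, mul_mul_mul_comm, Complex.I_mul_I, ← Complex.ofReal_mul,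
        Real.mul_self_sqrt (Nat.cast_nonneg _), Complex.ofReal_natCast, neg_one_mul]
    refine ⟨{u}, fun i => p ^ (n - i) * conj p ^ i, hmem, fun _ =>
      ⟨p, by rw [hcp, ha]; simp, by rw [hcp, mul_neg, hp2, neg_neg], fun i _ => rfl⟩,
      fun i hi => Or.inr ?_, fun z => ?_⟩
    · rw [norm_mul, norm_pow, norm_pow, Complex.norm_conj, hp, norm_mul, Complex.norm_I, one_mul,
        Complex.norm_real, Real.norm_of_nonneg (Real.sqrt_nonneg _), ← pow_add,
        Nat.sub_add_cancel hi]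
    · set T := (q : ℂ) ^ (-z) with hT
      have hc : ∀ i ∈ Finset.range (n + 1),
          (1 - p ^ (n - i) * conj p ^ i * T)⁻¹ = (1 - (-1) ^ i * (p ^ n * T))⁻¹ := fun i hi => by
        have hi' : i ≤ n := Nat.lt_succ_iff.mp (Finset.mem_range.mp hi)
        rw [hcp, neg_pow p i]
        conv_rhs => rw [← Nat.sub_add_cancel hi', pow_add]
        congr 2
        ring
      rw [Finset.prod_congr rfl hc, prod_alternating, ← hh]
      congr 1
      · rw [Finset.prod_congr rfl (g := fun _ => (1 - (p ^ n * T) ^ 2)⁻¹) fun i hi => ?_,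
          Finset.prod_const, Finset.card_range]
        rw [Finset.prod_singleton, hN2, natCast_sq_cpow, ← hT, (hkey i (hlo hi)).2.2.1 u huf, hfu,
          map_neg, Complex.conj_natCast, ← pow_add, Nat.sub_add_cancel (by have := hlo hi; omega),
          mul_pow, ← hp2, ← pow_mul, mul_comm n 2, pow_mul, sq p]
      · by_cases he : Even n
        swap
        · rw [if_neg he, if_neg he]
        rw [if_pos he, if_pos he, hχv v (hgood v hΔ) u hu, if_neg (not_not.mpr hfix), ← neg_pow,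
          ← hp2, ← sq, ← pow_mul, Nat.mul_div_cancel' (even_iff_two_dvd.mp he)]
  choose t c hmem hcgood hcnorm hczed using hlocal
  set M : ℕ := (∏ i ∈ Finset.range h, A i) * if Even n then Am else 1 with hM
  set ε : ℂ := (∏ i ∈ Finset.range h, e i) * if Even n then εm else 1 with hε
  set H : ℂ → ℂ := fun z => (∏ i ∈ Finset.range h, Λ i z) *
    if Even n then (Am : ℂ) ^ (((n / 2 : ℕ) : ℂ) / 2) * Hm (z - ((n / 2 : ℕ) : ℂ)) else 1 with hH
  have hAm0 : (Am : ℂ) ≠ 0 := Nat.cast_ne_zero.mpr hAm.ne'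
  refine ⟨M, ε, c, H, ?_, ?_, hcgood, hcnorm, fun p hp hpM => ?_, ?_, fun z => ?_, fun z hz => ?_,
    fun z hz => ?_⟩
  · refine Nat.mul_pos (Finset.prod_pos fun i hi => (hkey i (hlo hi)).1) ?_
    split_ifs
    · exact hAm
    · exact one_pos
  · have hsq : ε ^ 2 = 1 := by
      rw [hε, mul_pow, ← Finset.prod_pow, Finset.prod_eq_one fun i hi =>
        sq_eq_one_iff.mpr (hkey i (hlo hi)).2.2.2.2.2.1, one_mul]
      split_ifs
      · exact sq_eq_one_iff.mpr hεm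
      · exact one_pow 2
    exact sq_eq_one_iff.mp hsq
  · have hbad : (∃ v : HeightOneSpectrum (𝓞 F), ¬ SplitOrInert τ v ∧ (p : 𝓞 F) ∈ v.asIdeal) →
        ∃ v : HeightOneSpectrum (𝓞 F), W₀.Δ ∈ v.asIdeal ∧ (p : 𝓞 F) ∈ v.asIdeal :=
      fun ⟨v, h1, h2⟩ => ⟨v, not_not.mp fun h' => h1 (hgood v h'), h2⟩
    rcases hp.dvd_mul.mp hpM with h' | h'
    · obtain ⟨i, hi, h'⟩ := (Nat.prime_iff.mp hp).exists_mem_finset_dvd h'
      rcases hp.dvd_mul.mp (h'.trans (hkey i (hlo hi)).2.1) with h1 | h1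
      · exact (prime_dvd_discr hdeg hτ hp (Int.natCast_dvd.mpr h1)).imp id hbad
      obtain ⟨P, hP, hPZ, hPdvd⟩ := Ideal.exists_isMaximal_dvd_of_dvd_absNorm' hp 𝔣 h1
      have hP0 : P ≠ ⊥ := fun h0 => hf.ne_bot (zero_dvd_iff.mp
        (by rwa [h0, ← Ideal.zero_eq_bot] at hPdvd))
      set u : HeightOneSpectrum (𝓞 E) := ⟨P, hP.isPrime, hP0⟩
      refine Or.inr ⟨u.under (𝓞 F), not_not.mp fun hΔ => hP.ne_top ?_, ?_⟩
      · have h2 := (hv _ hΔ u rfl).1
        rwa [sup_eq_left.mpr (Ideal.dvd_iff_le.mp hPdvd)] at h2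
      · have h1 : (p : ℤ) ∈ P.under ℤ := hPZ ▸ Ideal.mem_span_singleton_self _
        show algebraMap (𝓞 F) (𝓞 E) (p : 𝓞 F) ∈ P
        rw [map_natCast]
        simpa using h1
    · split_ifs at h'
      · exact (hsuppm p hp h').imp id hbad
      · exact absurd h' hp.not_dvd_one
  · refine (Differentiable.fun_finsetProd fun i hi => (hkey i (hlo hi)).2.2.2.2.2.2.1).mul ?_
    split_ifs
    · exact (hHm.comp (differentiable_id.sub_const _)).const_mul _
    · exact differentiable_const _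
  · simp only [hH, hε]
    rw [Finset.prod_congr rfl fun i hi => (hkey i (hlo hi)).2.2.2.2.2.2.2.1 z,
      Finset.prod_mul_distrib]
    split_ifs with he
    · rw [show (n : ℂ) + 1 - z - ((n / 2 : ℕ) : ℂ) = 1 - (z - ((n / 2 : ℕ) : ℂ)) by
        obtain ⟨m, rfl⟩ := he
        rw [show (m + m) / 2 = m by omega]
        push_cast
        ring, hFEm]
      ring
    · ring
  · have hpair : ∀ i ∈ Finset.range h, ∃ L : ℂ, HasProd (fun v : HeightOneSpectrum (𝓞 F) =>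
        ∏ u ∈ t v, (1 - G i u * ((Ideal.absNorm u.asIdeal : ℕ) : ℂ) ^ (-z))⁻¹) L ∧
        Λ i z = (A i : ℂ) ^ (z / 2) *
          Complex.Gammaℂ (z - (i : ℂ)) ^ Module.finrank ℚ F * L := fun i hi => by
      obtain ⟨L, hp, e'⟩ := (hkey i (hlo hi)).2.2.2.2.2.2.2.2.1 z hz
      exact ⟨L, hasProd_fibres hp fun v => ⟨t v, hmem v, rfl⟩, e'⟩
    choose! L hLp hLe using hpair
    have hmid : ∃ L' : ℂ, HasProd (fun v : HeightOneSpectrum (𝓞 F) => if Even n then
        (1 - χ v * ((Ideal.absNorm v.asIdeal : ℕ) : ℂ) ^ (n / 2) *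
          ((Ideal.absNorm v.asIdeal : ℕ) : ℂ) ^ (-z))⁻¹ else 1) L' ∧
        (if Even n then (Am : ℂ) ^ (((n / 2 : ℕ) : ℂ) / 2) * Hm (z - ((n / 2 : ℕ) : ℂ)) else 1) =
          (if 4 ∣ n then (z - (n : ℂ) / 2) * (z - (n : ℂ) / 2 - 1) else 1) *
            (if Even n then (Am : ℂ) ^ (z / 2) *
              (Complex.Gammaℝ (z - (n : ℂ) / 2 + ((n / 2 % 2 : ℕ) : ℂ)) ^ nrRealPlaces F *
                Complex.Gammaℂ (z - (n : ℂ) / 2) ^ nrComplexPlaces F) else 1) * L' := by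
      by_cases he : Even n
      swap
      · simp only [if_neg he, if_neg (show ¬ 4 ∣ n from fun h' => he
          (even_iff_two_dvd.mpr ((show 2 ∣ 4 by norm_num).trans h')))]
        exact ⟨1, hasProd_one, by ring⟩
      simp only [if_pos he]
      obtain ⟨m, rfl⟩ := he
      rw [show (m + m) / 2 = m by omega] at *
      have hre : 1 < (z - (m : ℂ)).re := by
        rw [Complex.sub_re, Complex.natCast_re]; push_cast at hz; linarith
      obtain ⟨L', hp', e'⟩ := hLm _ hre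
      have hm : (((m + m : ℕ) : ℕ) : ℂ) / 2 = (m : ℂ) := by push_cast; ring
      refine ⟨L', hp'.congr_fun fun v => ?_, ?_⟩
      · rw [mul_assoc, ← Complex.cpow_natCast, ← Complex.cpow_add _ _ (Nat.cast_ne_zero.mpr
            fun h0 => v.ne_bot (Ideal.absNorm_eq_zero_iff.mp h0))]
        congr 4
        ring
      · rw [e', hm, show z / 2 = (m : ℂ) / 2 + (z - (m : ℂ)) / 2 by ring,
          Complex.cpow_add _ _ hAm0,
          if_congr (show Even m ↔ 4 ∣ m + m from ⟨fun ⟨k, hk⟩ => ⟨k, by omega⟩,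
            fun ⟨k, hk⟩ => ⟨k, by omega⟩⟩) rfl rfl]
        ring
    obtain ⟨L', hp', e'⟩ := hmid
    refine ⟨(∏ i ∈ Finset.range h, L i) * L',
      ((hasProd_prod hLp).mul hp').congr_fun fun v => (hczed v z).symm, ?_⟩
    simp only [hH]
    rw [e', Finset.prod_congr rfl hLe, Finset.prod_mul_distrib, Finset.prod_mul_distrib,
      Finset.prod_pow, hM]
    have hA : ((∏ i ∈ Finset.range h, A i : ℕ) : ℂ) ^ (z / 2) =
        ∏ i ∈ Finset.range h, (A i : ℂ) ^ (z / 2) := by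
      induction Finset.range h using Finset.induction_on with
      | empty => simp
      | insert i s hi ih =>
        rw [Finset.prod_insert hi, Finset.prod_insert hi, Nat.cast_mul,
          Complex.natCast_mul_natCast_cpow, ih]
    rw [Nat.cast_mul, Complex.natCast_mul_natCast_cpow, hA]
    by_cases he : Even n
    · simp only [if_pos he]
      ring
    · simp only [if_neg he, Nat.cast_one, Complex.one_cpow]
      ring
  · refine mul_ne_zero (Finset.prod_ne_zero_iff.mpr fun i hi =>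
      (hkey i (hlo hi)).2.2.2.2.2.2.2.2.2 z hz) ?_
    split_ifs with he
    · refine mul_ne_zero (Complex.cpow_ne_zero_iff.mpr (Or.inl hAm0)) (hnem _ ?_)
      obtain ⟨m, rfl⟩ := he
      rw [show (m + m) / 2 = m by omega, Complex.sub_re, Complex.natCast_re]
      push_cast at hz
      linarith
    · exact one_ne_zero

end FA.DeuringCM

end
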